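import Fermat.Agent.MLT.RepWorld
import Fermat.Agent.MLT.AvoidSetup
import Fermat.Agent.MLT.CondPrimes
import Fermat.Agent.LL.LevelInput

/-!
Area MLT, parcel TOWERS: what one depth supplies.

`chainLevel N0 Wq j`: the level `N0` with the first `j` places added. `LevelSupply`: auxiliary primes
avoiding a given finite set, the system of the curve in the common modulus `M = N ∏ Q` with
`N = chainLevel k * e`, the datum of every level of the chain and of `N`, their representations and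
the bounds of their ranks.
-/

set_option autoImplicit false
set_option linter.style.haveILetI false
set_option linter.unusedSectionVars false

noncomputable section

open IsLocalRing Matrix Polynomial FLTAgent.LL FLTAgent.PT FLTAgent.PT.TW

namespace FLTAgent.MLT

/-- the level with the first `j` places added -/
def chainLevel (N0 : ℕ) {k : ℕ} (Wq : Fin k → Nat.Primes) (j : ℕ) : ℕ :=
  N0 * ∏ i ∈ Finset.univ.filter (fun i : Fin k => (i : ℕ) < j), (Wq i : ℕ)

theorem chainLevel_zero (N0 : ℕ) {k : ℕ} (Wq : Fin k → Nat.Primes) : chainLevel N0 Wq 0 = N0 := by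
  simp [chainLevel]

theorem chainLevel_last (N0 : ℕ) {k : ℕ} (Wq : Fin k → Nat.Primes) :
    chainLevel N0 Wq k = N0 * ∏ i, (Wq i : ℕ) := by
  rw [chainLevel, Finset.filter_true_of_mem fun i _ => i.2]

theorem chainLevel_succ (N0 : ℕ) {k : ℕ} (Wq : Fin k → Nat.Primes) (i : Fin k) :
    chainLevel N0 Wq (i + 1) = chainLevel N0 Wq i * (Wq i : ℕ) := by
  have e : Finset.univ.filter (fun a : Fin k => (a : ℕ) < i + 1) =
      insert i (Finset.univ.filter fun a : Fin k => (a : ℕ) < i) := by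
    ext a
    simp only [Finset.mem_filter, Finset.mem_univ, true_and, Finset.mem_insert]
    rw [Fin.ext_iff]
    omega
  rw [chainLevel, chainLevel, e, Finset.prod_insert (by simp)]
  ring

theorem chainLevel_succ_div (N0 : ℕ) {k : ℕ} (Wq : Fin k → Nat.Primes) (i : Fin k) :
    chainLevel N0 Wq (i + 1) / (Wq i : ℕ) = chainLevel N0 Wq i := by
  rw [chainLevel_succ, Nat.mul_div_cancel _ (Wq i).2.pos]

theorem chainLevel_dvd (N0 : ℕ) {k : ℕ} (Wq : Fin k → Nat.Primes) (j : ℕ) :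
    chainLevel N0 Wq j ∣ chainLevel N0 Wq k := by
  rw [chainLevel_last]
  exact mul_dvd_mul_left _ (Finset.prod_dvd_prod_of_subset _ _ _ (Finset.subset_univ _))

variable (W : WeierstrassCurve ℤ) (p : ℕ) [Fact p.Prime] {O : Type} [CommRing O] [IsDomain O]
  [IsDiscreteValuationRing O] [IsAdicComplete (maximalIdeal O) O] [Finite (ResidueField O)]
  [CharZero O] [Algebra (ZMod p) (ResidueField O)] (ρbar : ResidualGaloisRep (ResidueField O))
  (r : GQ →* GL (Fin 2) (ResidueField O)) {k : ℕ} (Wq : Fin k → Nat.Primes) (N0 e : ℕ)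
  (avoid : Finset ℕ)

/-- what one depth supplies -/
structure LevelSupply (s bound n : ℕ) : Type 1 where
  Q : Fin s → Nat.Primes
  Q_inj : Function.Injective Q
  Q_avoid : ∀ i, (Q i : ℕ) ∉ avoid
  Q_bad : ∀ i, W.IsGoodPrimeFor (Q i) ∧ (Q i : ℕ) ≠ p
  Q_min : ∀ i, (Q i : ℕ) ∉ insert p (sMin W p)
  Q_place : ∀ i j, Wq j ≠ Q i
  Q_dvd : ∀ i, p ^ (n + 1) ∣ (Q i : ℕ) - 1
  Q_split : ∀ i, ∀ P : ValuationSubring (AlgebraicClosure ℚ), P.LiesOverPrime (Q i : ℕ) → ∀ φ : GQ,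
    P.IsFrobeniusAt φ (Q i : ℕ) → ∃ α β : ResidueField O, α ≠ β ∧
      LinearMap.charpoly (ρbar.ρ φ) = (X - C α) * (X - C β)
  Q_trace : ∀ i, ∀ P : ValuationSubring (AlgebraicClosure ℚ), P.LiesOverPrime (Q i : ℕ) →
    ∀ φ : GQ, P.IsFrobeniusAt φ (Q i : ℕ) →
      (r φ : Matrix (Fin 2) (Fin 2) (ResidueField O)).trace ^ 2 ≠ 4
  Q_bound : ∀ (Lp : Submodule (ZMod p) (lH1 (ExtCitation.pPrime p) (ad0 p r))) (a t : ℕ),
    Module.finrank (ZMod p) Lp ≤ Module.finrank (ZMod p) (lH0 (ExtCitation.pPrime p) (ad0 p r)) +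
        a * Module.finrank (ZMod p) (ResidueField O) →
      s + a = t + 1 → CondBound p r (insert p (sMin W p)) Wq Q Lp t
  M : ℕ
  [neZero : NeZero M]
  M_eq : M = chainLevel N0 Wq k * e * ∏ i, (Q i : ℕ)
  sq : Squarefree M
  prime_dvd : ∀ l : ℕ, l.Prime → l ∣ M → (¬ W.IsGoodPrimeFor l ∨ l = p) ∨ ∃ i, (Q i : ℕ) = l
  l0 : ℕ
  prime_l0 : l0.Prime
  l0_one : (l0 : ZMod M) = 1
  l0_good : W.IsGoodPrimeFor l0 ∧ l0 ≠ p
  elliptic : (LL.sysOf (A := O) W p l0 prime_l0 l0_one).Elliptic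
  S : Finset ℕ
  pS : p ∈ S
  MS : ∀ q : ℕ, q.Prime → q ∣ M → q ∈ S
  S_iff : ∀ l : ℕ, l.Prime →
    (l ∉ S ↔ ¬ l ∣ M ∧ l ∉ (LL.sysOf (A := O) W p l0 prime_l0 l0_one).bad)
  l0_S : l0 ∉ S
  frobS : ∀ l : ℕ, l.Prime → l ∉ S → ∀ P : ValuationSubring (AlgebraicClosure ℚ),
    P.LiesOverPrime l → ∀ σ : GQ, P.IsFrobeniusAt σ l →
      (r σ : Matrix (Fin 2) (Fin 2) (ResidueField O)).trace =
          residue O ((LL.sysOf (A := O) W p l0 prime_l0 l0_one).eig l) ∧
        (r σ : Matrix (Fin 2) (Fin 2) (ResidueField O)).det = (l : ResidueField O)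
  base : TWData M p s
  base_N0 : base.N0 = chainLevel N0 Wq k * e
  base_Q : base.Q = fun i => (Q i : ℕ)
  base_H : ∀ i, ∃ a c, (Q i : ℕ) - 1 = p ^ a * c ∧ ¬ p ∣ c ∧ n < a ∧ (base.H i).index = p ^ a
  dvd_chain : ∀ j : Fin (k + 1), chainLevel N0 Wq j ∣ base.N0
  rep : ∀ j, Nonempty (WorldRep (base.withN0 _ (dvd_chain j))
    (LL.sysOf (A := O) W p l0 prime_l0 l0_one) S r)
  rep_base : Nonempty (WorldRep base (LL.sysOf (A := O) W p l0 prime_l0 l0_one) S r)
  rank : ∀ j, 0 < (base.withN0 _ (dvd_chain j)).rkY (LL.sysOf (A := O) W p l0 prime_l0 l0_one) ∧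
    (base.withN0 _ (dvd_chain j)).rkY (LL.sysOf (A := O) W p l0 prime_l0 l0_one) ≤ bound
  rank_base : 0 < base.rkY (LL.sysOf (A := O) W p l0 prime_l0 l0_one) ∧
    base.rkY (LL.sysOf (A := O) W p l0 prime_l0 l0_one) ≤ bound

attribute [instance] LevelSupply.neZero

variable {W p ρbar r Wq N0 e avoid} {s bound n : ℕ}

theorem mem_primeFactors_of_bad (hΔ : W.Δ ≠ 0) {l : ℕ} (hl : l.Prime) :
    ¬ W.IsGoodPrimeFor l ↔ l ∈ W.Δ.natAbs.primeFactors := by
  rw [Nat.mem_primeFactors]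
  simp only [WeierstrassCurve.IsGoodPrimeFor, not_not, Int.natCast_dvd, hl, true_and,
    Int.natAbs_ne_zero.2 hΔ, ne_eq, not_false_eq_true, and_true]

/-- the system of the curve -/
abbrev LevelSupply.sys (P : LevelSupply W p ρbar r Wq N0 e avoid s bound n) : Sys P.M O :=
  LL.sysOf (A := O) W p P.l0 P.prime_l0 P.l0_one

/-- the datum of a level of the chain -/
abbrev LevelSupply.level (P : LevelSupply W p ρbar r Wq N0 e avoid s bound n) (j : Fin (k + 1)) :
    TWData P.M p s :=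
  P.base.withN0 _ (P.dvd_chain j)

/-- a modular level carries something -/
theorem finrank_E_pos_of_modular (hp : p.Prime) (hpO : (p : O) ∈ maximalIdeal O) {M l0 : ℕ}
    [NeZero M] (hl0 : l0.Prime) (hM : (l0 : ZMod M) = 1) (hl0g : W.IsGoodPrimeFor l0)
    (hl0p : l0 ≠ p) (hl0t : ¬ (p : ℤ) ∣ W.apOfModel l0 - ((l0 : ℤ) + 1)) {N : ℕ} [NeZero N]
    (hN : N ∣ M) (hmod : W.IsResiduallyModularOfLevel p N) :
    0 < Module.finrank O ((LL.sysOf (A := O) W p l0 hl0 hM).E (funRep O (P1 M N) (M := M))) := by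
  obtain ⟨g, 𝔪, hg, h𝔪, hp𝔪, hc⟩ := hmod
  obtain ⟨x, hx, hx0⟩ := exists_E_ne_zero_of_form (A := O) hp hpO hN
    (LL.sysOf (A := O) W p l0 hl0 hM) W.apOfModel hg h𝔪 hp𝔪
    (fun l hl hlM hb => by
      have hgood : W.IsGoodPrimeFor l ∧ l ≠ p := by
        rcases hb with rfl | hb
        · exact ⟨hl0g, hl0p⟩
        · simpa [LL.sysOf, not_or] using hb
      exact hc l hl hgood.1 (fun h => hlM (h.trans hN)) hgood.2)
    hl0t (fun l _ _ _ => by simp [LL.sysOf])
  obtain ⟨hfree, hfin⟩ := E_funRep_free (A := O) (M := M) (X := P1 M N)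
    (LL.sysOf (A := O) W p l0 hl0 hM)
  haveI := hfree
  haveI := hfin
  exact Module.finrank_pos_iff_exists_ne_zero.mpr
    ⟨⟨x, hx⟩, fun h => hx0 (congrArg Subtype.val h)⟩

/-- every depth is supplied -/
theorem exists_levelSupply (avoid : Finset ℕ) (hΔ : W.Δ ≠ 0) (hss : W.IsSemistableModel) (hp35 : p = 3 ∨ p = 5)
    (hirr : W.ModRepIsIrreducible p) (hpO : (p : O) ∈ maximalIdeal O)
    (hres : SemiResidual W p ρbar r) (hWinj : Function.Injective Wq)
    (hWmin : ∀ i, (Wq i : ℕ) ∉ insert p (sMin W p))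
    (hsq : Squarefree (chainLevel N0 Wq k * e))
    (hprimes : ∀ l : ℕ, l.Prime → l ∣ chainLevel N0 Wq k * e → ¬ W.IsGoodPrimeFor l ∨ l = p)
    (hmod : W.IsResiduallyModularOfLevel p N0) :
    ∃ s : ℕ, 0 < s ∧ ∃ bound : ℕ, ∀ n,
      Nonempty (LevelSupply W p ρbar r Wq N0 e avoid s bound n) := by
  classical
  have hp : p.Prime := Fact.out
  have hp2 : p ≠ 2 := by rcases hp35 with rfl | rfl <;> norm_num
  haveI := hres.setting.charP
  set N := chainLevel N0 Wq k * e with hNdef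
  have hN0 : N ≠ 0 := hsq.ne_zero
  haveI : NeZero N := ⟨hN0⟩
  set lev : Fin (k + 1) → ℕ := fun j => chainLevel N0 Wq j with hlev
  have hlevN : ∀ j, lev j ∣ N := fun j => (chainLevel_dvd N0 Wq j).trans (dvd_mul_right _ _)
  have hlevne : ∀ j, NeZero (lev j) := fun j =>
    ⟨fun h => hN0 (Nat.eq_zero_of_zero_dvd (h ▸ hlevN j))⟩
  haveI : NeZero N0 := ⟨fun h => (hlevne 0).out (by simp [hlev, chainLevel, h])⟩
  set S0 : Finset ℕ :=
    insert p (sMin W p) ∪ W.Δ.natAbs.primeFactors ∪ N.primeFactors ∪ avoid ∪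
      Finset.univ.image fun i => (Wq i : ℕ) with hS0
  obtain ⟨s, hs, hTW⟩ := exists_condPrimes (W := Wq) (Smin := insert p (sMin W p)) hres.setting S0
    (Finset.mem_insert_self _ _) (fun x hx => by simp only [hS0, Finset.mem_union]; tauto)
    hres.ramified_iff hWinj (fun i => by simp [hS0]) hWmin
  refine ⟨s, hs, 2 ^ s * (Module.finrank ℤ (JTors.Lam N) +
    ∑ j, Module.finrank ℤ (JTors.Lam (lev j))), fun n => ?_⟩
  obtain ⟨Q, hQinj, hQ, hQspl, hQB⟩ := hTW n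
  have hbadΔ : ∀ l : ℕ, l.Prime → (¬ W.IsGoodPrimeFor l ↔ l ∈ W.Δ.natAbs.primeFactors) :=
    fun l hl => mem_primeFactors_of_bad hΔ hl
  have hQgood : ∀ i, W.IsGoodPrimeFor (Q i) := fun i => by
    by_contra h
    exact (hQ i).1 (by simp [hS0, (hbadΔ _ (Q i).2).1 h])
  have hQp : ∀ i, (Q i : ℕ) ≠ p := fun i h => (hQ i).1 (by simp [hS0, h])
  have hQ1 : ∀ i, ((Q i : ℕ) : ZMod p) = 1 := fun i => by
    rw [← Nat.cast_one, ZMod.natCast_eq_natCast_iff]
    exact ((Nat.modEq_iff_dvd' (Q i).2.one_lt.le).2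
      ((dvd_pow_self p n.succ_ne_zero).trans (hQ i).2)).symm
  have hQN : ∀ i, ¬ (Q i : ℕ) ∣ N := fun i hd => (hQ i).1 (by
    simp [hS0, Nat.mem_primeFactors, (Q i).2, hd, hN0])
  have hQd : ∀ i, ∀ P : ValuationSubring (AlgebraicClosure ℚ), P.LiesOverPrime (Q i : ℕ) →
      ∀ σ : GQ, P.IsFrobeniusAt σ (Q i : ℕ) →
        (r σ : Matrix (Fin 2) (Fin 2) (ResidueField O)).trace ^ 2 ≠ 4 := by
    intro i P hP σ hσ h4
    obtain ⟨a, b, hab, hc⟩ := hQspl i P hP σ hσ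
    obtain ⟨bb, hbb⟩ := hres.setting.rep
    rw [← LinearMap.charpoly_toMatrix _ bb, hbb σ] at hc
    obtain ⟨h1, h2⟩ := TW.split_of_charpoly hc
    obtain ⟨-, hd⟩ := hres.frob _ (Q i).2 (hQgood i) (hQp i) P hP σ hσ
    have h1' : ((Q i : ℕ) : ResidueField O) = 1 := by
      rw [← map_natCast (algebraMap (ZMod p) (ResidueField O)), hQ1, map_one]
    refine hab (sub_eq_zero.1 ((pow_eq_zero_iff two_ne_zero).1 (?_ : (a - b) ^ 2 = 0)))
    rw [← h1] at h4
    linear_combination h4 - 4 * h2 - 4 * hd - 4 * h1'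
  set R : ℕ := ∏ i, (Q i : ℕ) with hR
  set M : ℕ := N * R with hM
  haveI : NeZero R := ⟨Finset.prod_ne_zero_iff.2 fun i _ => (Q i).2.ne_zero⟩
  haveI : NeZero M := ⟨mul_ne_zero hN0 (NeZero.ne R)⟩
  have hsqM : Squarefree M := by
    refine Nat.squarefree_mul_iff.2 ⟨?_, hsq, ?_⟩
    · exact Nat.Coprime.prod_right fun i _ => ((Q i).2.coprime_iff_not_dvd.2 (hQN i)).symm
    · exact Finset.squarefree_prod_of_pairwise_isCoprime
        (fun i _ j _ hij => Nat.coprime_iff_isRelPrime.1 ((Nat.coprime_primes (Q i).2 (Q j).2).2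
          fun h => hij (hQinj (Subtype.ext h)))) (fun i _ => (Q i).2.squarefree)
  have hprimeM : ∀ l : ℕ, l.Prime → l ∣ M →
      (¬ W.IsGoodPrimeFor l ∨ l = p) ∨ ∃ i, (Q i : ℕ) = l := fun l hl hd => by
    rcases hl.dvd_mul.1 hd with h | h
    · exact Or.inl (hprimes l hl h)
    · obtain ⟨i, -, hi⟩ := hl.prime.exists_mem_finset_dvd h
      exact Or.inr ⟨i, ((Nat.prime_dvd_prime_iff_eq hl (Q i).2).1 hi).symm⟩
  obtain ⟨l0, hl0, hl0F, hl0M, hl0g, hl0p, hl0t⟩ := hres.exists_l0 hΔ M.primeFactors M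
  set sys := LL.sysOf (A := O) W p l0 hl0 hl0M with hsys
  have h6 : sys.Elliptic := elliptic_sysOf hΔ hss hp35 hirr hpO hl0 hl0M
  set S : Finset ℕ := M.primeFactors ∪ W.Δ.natAbs.primeFactors ∪ {p} with hS
  have hSiff : ∀ l : ℕ, l.Prime → (l ∉ S ↔ ¬ l ∣ M ∧ l ∉ sys.bad) := by
    intro l hl
    have : l ∈ sys.bad ↔ ¬ W.IsGoodPrimeFor l ∨ l = p := Iff.rfl
    rw [this, hbadΔ l hl]
    simp [hS, Nat.mem_primeFactors, hl, NeZero.ne M]
    tauto
  have hpS : p ∈ S := by simp [hS]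
  have hMS : ∀ l : ℕ, l.Prime → l ∣ M → l ∈ S := fun l hl hd => by
    simp [hS, Nat.mem_primeFactors, hl, hd, NeZero.ne M]
  have hl0S : sys.l0 ∉ S := (hSiff l0 hl0).2
    ⟨fun hd => hl0F (Nat.mem_primeFactors.2 ⟨hl0, hd, NeZero.ne M⟩),
      fun h => h.elim (fun h => h hl0g) hl0p⟩
  have hfrobS : ∀ l : ℕ, l.Prime → l ∉ S → ∀ P : ValuationSubring (AlgebraicClosure ℚ),
      P.LiesOverPrime l → ∀ σ : GQ, P.IsFrobeniusAt σ l →
        (r σ : Matrix (Fin 2) (Fin 2) (ResidueField O)).trace = residue O (sys.eig l) ∧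
        (r σ : Matrix (Fin 2) (Fin 2) (ResidueField O)).det = (l : ResidueField O) := by
    intro l hl hlS P hP σ hσ
    obtain ⟨-, hb⟩ := (hSiff l hl).1 hlS
    have hg : W.IsGoodPrimeFor l := by
      by_contra h
      exact hb (Or.inl h)
    obtain ⟨h1, h2⟩ := hres.frob l hl hg (fun h => hb (Or.inr h)) P hP σ hσ
    exact ⟨h1.trans (map_intCast (residue O) _).symm, h2⟩
  obtain ⟨F₀, hF₀, hr⟩ := hres.setting.level
  have hlev' : Deform.FinLevel fun σ => (r σ : Matrix (Fin 2) (Fin 2) (ResidueField O)) :=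
    ⟨F₀, hF₀, fun σ hσ => congrArg Units.val (hr σ fun x => hσ x x.2)⟩
  obtain ⟨σ₀, α, β, hαβ, hσ₀⟩ := hres.exists_split
  choose av cv hqv hcv hav using fun i => exists_exponent hp (Q i).2 (hQ i).2
  choose H hH using fun i => CharTW.exists_index (Q i).2 (d := p ^ av i) ⟨cv i, hqv i⟩
  obtain ⟨D, hDN, hDQ, hDH⟩ : ∃ D : TWData M p s, D.N0 = N ∧ D.Q = (fun i => (Q i : ℕ)) ∧
      ∀ i, (D.H i).index = p ^ av i :=
    ⟨{ N0 := N
       dvd0 := dvd_mul_right _ _
       Q := fun i => (Q i : ℕ)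
       prime := fun i => (Q i).2
       inj := Subtype.val_injective.comp hQinj
       dvd := fun i => (Finset.dvd_prod_of_mem (fun i => (Q i : ℕ)) (Finset.mem_univ i)).trans
         (dvd_mul_left _ _)
       ndvd := hQN
       H := H
       prime_p := hp
       p_ne_two := hp2
       index := fun i => ⟨av i, hH i⟩ }, rfl, rfl, hH⟩
  have hrk : ∀ (N' : ℕ) (h : N' ∣ D.N0), (D.withN0 N' h).rkY sys =
      Module.finrank O (sys.E (funRep O (P1 M (N' * R)) (M := M))) := by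
    intro N' h
    rw [TWData.rkY, TWData.finrank_E_Y]
    have e1 : (D.withN0 N' h).N0 * (D.withN0 N' h).R = N' * R := by
      show N' * ∏ i, D.Q i = _
      rw [hDQ]
    rw [e1]
  have hbound : ∀ (N' : ℕ) [NeZero N'], N' ∣ N →
      Module.finrank O (sys.E (funRep O (P1 M (N' * R)) (M := M))) ≤
        2 ^ s * Module.finrank ℤ (JTors.Lam N') := fun N' _ h =>
    (finrank_E_chain' sys S hpO hp h6 hsqM hpS hMS hSiff hl0S r hlev' hfrobS σ₀ hαβ hσ₀
      (fun v hv => hres.no_line hv) (fun i => (Q i : ℕ)) (fun i => (Q i).2) hQ1 hQd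
      (mul_dvd_mul_right h R)).trans
      (Nat.mul_le_mul_left _ (finrank_E_le_lam' sys h6 (h.trans (dvd_mul_right N R))))
  have hbase : Module.finrank O (sys.E (funRep O (P1 M (N0 * R)) (M := M))) > 0 :=
    finrank_E_pos_of_dvd' sys (dvd_mul_right N0 R)
      (finrank_E_pos_of_modular hp hpO hl0 hl0M hl0g hl0p hl0t
        (((dvd_mul_right N0 _).trans (hlevN 0)).trans (dvd_mul_right N R)) hmod)
  have hpos : ∀ N' : ℕ, N0 ∣ N' →
      0 < Module.finrank O (sys.E (funRep O (P1 M (N' * R)) (M := M))) := fun N' h =>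
    finrank_E_pos_of_dvd' sys (mul_dvd_mul_right h R) hbase
  have hdvd : ∀ j : Fin (k + 1), lev j ∣ D.N0 := fun j => (hlevN j).trans (dvd_of_eq hDN.symm)
  have hrankj : ∀ j, 0 < (D.withN0 _ (hdvd j)).rkY sys ∧ (D.withN0 _ (hdvd j)).rkY sys ≤
      2 ^ s * (Module.finrank ℤ (JTors.Lam N) +
        ∑ j, Module.finrank ℤ (JTors.Lam (lev j))) := fun j => by
    haveI := hlevne j
    rw [hrk]
    refine ⟨hpos _ (dvd_mul_right _ _), (hbound _ (hlevN j)).trans (Nat.mul_le_mul_left _ ?_)⟩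
    exact le_add_left (Finset.single_le_sum
      (f := fun j => Module.finrank ℤ (JTors.Lam (lev j)))
      (fun _ _ => Nat.zero_le _) (Finset.mem_univ j))
  have hrankB : 0 < D.rkY sys ∧ D.rkY sys ≤
      2 ^ s * (Module.finrank ℤ (JTors.Lam N) +
        ∑ j, Module.finrank ℤ (JTors.Lam (lev j))) := by
    have h := hrk D.N0 dvd_rfl
    change D.rkY sys = _ at h
    rw [h, hDN]
    exact ⟨hpos _ (((dvd_mul_right N0 _).trans (hlevN 0))),
      (hbound _ dvd_rfl).trans (Nat.mul_le_mul_left _ (Nat.le_add_right _ _))⟩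
  have hmk : ∀ D' : TWData M p s, D'.Q = D.Q → 0 < D'.rkY sys →
      Nonempty (WorldRep D' sys S r) := fun D' hQ' h =>
    exists_worldRep D' sys S hpO h6 hsqM (fun i => by rw [hQ', hDQ]; exact hQp i) hpS hMS hSiff hl0S
      r hlev' hfrobS σ₀ hαβ hσ₀ (fun v hv => hres.no_line hv)
      (D'.Mod_ne_bot_of_rkY sys h6 hpO h)
  refine ⟨{
    Q := Q
    Q_inj := hQinj
    Q_avoid := fun i h => (hQ i).1 (by simp [hS0, h])
    Q_bad := fun i => ⟨hQgood i, hQp i⟩
    Q_min := fun i h => (hQ i).1 (by simp only [hS0, Finset.mem_union]; tauto)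
    Q_place := fun i j h => (hQ i).1 (by simp [hS0, ← h])
    Q_dvd := fun i => (hQ i).2
    Q_split := hQspl
    Q_trace := hQd
    Q_bound := hQB
    M := M
    M_eq := rfl
    sq := hsqM
    prime_dvd := hprimeM
    l0 := l0
    prime_l0 := hl0
    l0_one := hl0M
    l0_good := ⟨hl0g, hl0p⟩
    elliptic := h6
    S := S
    pS := hpS
    MS := hMS
    S_iff := hSiff
    l0_S := hl0S
    frobS := hfrobS
    base := D
    base_N0 := hDN
    base_Q := hDQ
    base_H := fun i => ⟨av i, cv i, hqv i, hcv i, hav i, hDH i⟩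
    dvd_chain := hdvd
    rep := fun j => hmk _ rfl (hrankj j).1
    rep_base := hmk D rfl hrankB.1
    rank := hrankj
    rank_base := hrankB }⟩

end FLTAgent.MLT

end
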