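import Fermat.Agent.MLT.DegenTq
import Fermat.Agent.MLT.PointAPLat
import Fermat.Agent.LL.TWTwist
import Fermat.Agent.LL.Residue
import Fermat.Agent.S58.Bound

/-!
Area MLT, parcel LEVELMK: `T_q² - (1 + q)²` is injective on the level without `q`, and for `q = p`
with a strictly ordinary residual representation it is topologically nilpotent there.
-/

set_option autoImplicit false
set_option linter.style.haveILetI false
set_option linter.unusedSectionVars false
set_option maxHeartbeats 2000000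

noncomputable section

open scoped TensorProduct MatrixGroups Matrix
open IsLocalRing CongruenceSubgroup FLTAgent.LL

namespace FLTAgent.MLT

open FLTAgent.Attach (GalQ pairOp)
open FLTAgent.Deform (Mt RepMat)

section Bound

variable {N : ℕ} [NeZero N]

/-- `(q + 1)²` is not an eigenvalue of `T_q²` on weight two cusp forms -/
theorem eq_zero_of_heckeT_sq {q : ℕ} (hq : q.Prime) (hqN : ¬ q ∣ N) {v : CuspForm (Gamma0 N) 2}
    (h : CuspForm.heckeTLin 2 hq hqN (CuspForm.heckeTLin 2 hq hqN v) =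
      (((q : ℂ) + 1) * ((q : ℂ) + 1)) • v) : v = 0 := by
  set T := CuspForm.heckeTLin 2 hq hqN with hT
  set c : ℂ := (q : ℂ) + 1
  have hu : T (T v + c • v) = c • (T v + c • v) := by
    rw [_root_.map_add, _root_.map_smul, h, smul_add, smul_smul, add_comm]
  have h0 : T v + c • v = 0 := S58.eq_zero_of_heckeT_eq hq hqN hu
  by_contra hv
  have hn : T v = (-c) • v := by rw [neg_smul]; exact eq_neg_of_add_eq_zero_left h0
  have h1 := S58.eigenvalue_norm_lt hq hqN hv hn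
  rw [norm_neg, show c = ((q + 1 : ℕ) : ℂ) by simp [c], Complex.norm_natCast] at h1
  push_cast at h1
  exact lt_irrefl _ h1

/-- on the lattice -/
theorem lattice_sq_injective (LD : JTors.LatticeData N) {q : ℕ} (hq : q.Prime) (hqN : ¬ q ∣ N) :
    Function.Injective ((LD.T ⟨q, hq⟩ * LD.T ⟨q, hq⟩ -
      (((q + 1) * (q + 1) : ℕ) : ℤ) • (1 : Module.End ℤ (JTors.Lam N)))) := by
  classical
  haveI := JTors.lam_free (N := N)
  haveI := JTors.lam_finite (N := N)
  rw [injective_iff_map_eq_zero]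
  intro x hx
  rw [LinearMap.sub_apply, LinearMap.smul_apply, Module.End.one_apply, Module.End.mul_apply,
    sub_eq_zero] at hx
  set z := LD.periods ((1 : ℂ) ⊗ₜ[ℤ] x) with hz
  have hP : pairOp N ⟨q, hq⟩ (pairOp N ⟨q, hq⟩ z) = (((q : ℂ) + 1) * ((q : ℂ) + 1)) • z := by
    refine ((congrArg _ (LD.periods_T ⟨q, hq⟩ _).symm).trans (LD.periods_T ⟨q, hq⟩ _).symm).trans ?_
    rw [LinearMap.baseChange_tmul, LinearMap.baseChange_tmul, hx, TensorProduct.tmul_smul,
      ← Int.cast_smul_eq_zsmul ℂ, _root_.map_smul]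
    congr 1
    push_cast
    ring
  have hop : ∀ u : CuspForm (Gamma0 N) 2, (CuspForm.heckeFormsGen N 2 ⟨q, hq⟩).1 u =
      CuspForm.heckeTLin 2 hq hqN u := fun u => by
    rw [CuspForm.heckeFormsGen_of_not_dvd (ℓ := ⟨q, hq⟩) hqN]
    simp [CuspForm.heckeAlgebra.coe_T]
  have hz0 : z = 0 := by
    have h1 := congrArg Prod.fst hP
    have h2 := congrArg Prod.snd hP
    simp only [pairOp, LinearMap.prodMap_apply, hop, Prod.smul_fst, Prod.smul_snd] at h1 h2
    exact Prod.ext (eq_zero_of_heckeT_sq hq hqN h1) (eq_zero_of_heckeT_sq hq hqN h2)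
  have h1 : (1 : ℂ) ⊗ₜ[ℤ] x = 0 := LD.periods.injective (by rw [← hz, hz0, _root_.map_zero])
  let b := Module.Free.chooseBasis ℤ (JTors.Lam N)
  refine b.repr.injective (Finsupp.ext fun i => ?_)
  have h2 := congrArg (fun t => (b.baseChange ℂ).repr t i) h1
  simpa [Module.Basis.baseChange_repr_tmul] using h2

/-- with coefficients -/
theorem lamT_sq_injective {A : Type} [CommRing A] [IsDomain A] [CharZero A]
    (LD : JTors.LatticeData N) {q : ℕ} (hq : q.Prime) (hqN : ¬ q ∣ N) (z : A ⊗[ℤ] JTors.Lam N)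
    (hz : (LD.T ⟨q, hq⟩).baseChange A ((LD.T ⟨q, hq⟩).baseChange A z) = ((1 + (q : A)) ^ 2) • z) :
    z = 0 := by
  haveI : Module.IsTorsionFree ℤ A := Module.IsTorsionFree.of_smul_eq_zero fun n a h => by
    rw [zsmul_eq_mul, mul_eq_zero] at h
    exact h.imp_left (fun h => Int.cast_eq_zero.mp h)
  set f := LD.T ⟨q, hq⟩ * LD.T ⟨q, hq⟩ -
    (((q + 1) * (q + 1) : ℕ) : ℤ) • (1 : Module.End ℤ (JTors.Lam N))
  have e : ∀ y, f.lTensor A y =
      (LD.T ⟨q, hq⟩).baseChange A ((LD.T ⟨q, hq⟩).baseChange A y) - ((1 + (q : A)) ^ 2) • y := by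
    intro y
    induction y using TensorProduct.induction_on with
    | zero => simp
    | tmul a v =>
      rw [LinearMap.lTensor_tmul, LinearMap.baseChange_tmul, LinearMap.baseChange_tmul,
        LinearMap.sub_apply, LinearMap.smul_apply, Module.End.one_apply, Module.End.mul_apply,
        TensorProduct.tmul_sub, TensorProduct.tmul_smul, ← Int.cast_smul_eq_zsmul A]
      congr 2
      push_cast
      ring
    | add y y' hy hy' => rw [_root_.map_add, hy, hy', _root_.map_add, _root_.map_add, smul_add]; abel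
  refine Module.Flat.lTensor_preserves_injective_linearMap f (lattice_sq_injective LD hq hqN) ?_
  rw [e, hz, sub_self, _root_.map_zero]

end Bound

/-- strict ordinarity depends on the traces only, for matrices spanning everything -/
theorem strictMat_of_trace_eq {k : Type} [Field k] {p : ℕ} (R₁ R₂ : GalQ →* Mt k)
    (h1 : Submodule.span k (Set.range R₁) = ⊤) (h2 : Submodule.span k (Set.range R₂) = ⊤)
    (htr : ∀ σ, (R₁ σ).trace = (R₂ σ).trace) (hs : PT.TW.StrictMat p fun σ => R₁ σ) :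
    PT.TW.StrictMat p fun σ => R₂ σ := by
  obtain ⟨P, Q, hQP, hPQ, hc⟩ := LL.exists_conj_of_trace_eq R₁ R₂ h1 h2 htr
  refine ⟨hs.1, fun V hV => ?_⟩
  obtain ⟨U, U', hU'U, hUU', hD, hI, hx⟩ := hs.2 V hV
  have e : ∀ σ, (U' * P) * R₂ σ * (Q * U) = U' * R₁ σ * U := fun σ => by
    rw [hc]
    simp only [Matrix.mul_assoc]
  refine ⟨Q * U, U' * P, ?_, ?_, fun σ hσ => by rw [e]; exact hD σ hσ,
    fun σ hσ => by rw [e]; exact hI σ hσ, fun σ hσ n a ha => by rw [e]; exact hx σ hσ n a ha⟩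
  · rw [Matrix.mul_assoc, ← Matrix.mul_assoc P, hPQ, Matrix.one_mul, hU'U]
  · rw [Matrix.mul_assoc, ← Matrix.mul_assoc U, hUU', Matrix.one_mul, hQP]

section Level

variable {A : Type} [CommRing A] [IsDomain A] [IsDiscreteValuationRing A]
  [IsAdicComplete (maximalIdeal A) A] [Finite (ResidueField A)] [CharZero A]
  {M p r : ℕ} [NeZero M]

/-- the quartic of `T q` is injective -/
theorem tqQuart_injective {D : TWData M p r} {q : ℕ} [NeZero q] (O : OldPrime D q) (s : Sys M A)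
    (h2 : IsUnit (2 : A)) : Function.Injective (O.tqQuart s) := by
  obtain ⟨L, hL⟩ : ∃ L, L = D.N0 * D.R ^ 2 := ⟨_, rfl⟩
  haveI : NeZero L := ⟨hL ▸ mul_ne_zero D.N0_ne_zero (pow_ne_zero 2 D.R_ne_zero)⟩
  haveI : NeZero (L / q) := ⟨fun h => NeZero.ne L (by rw [O.level_eq_mul hL, h, zero_mul])⟩
  obtain ⟨LD⟩ := JTors.exists_latticeData (L / q)
  rw [injective_iff_map_eq_zero]
  intro x hx
  refine (D.lower q O.dvd).twistTwo_ext s h2 (O.lower_level hL) fun d => ?_
  rw [_root_.map_zero]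
  refine lamT_sq_injective LD O.prime (O.not_dvd_div hL) _ ?_
  rw [← O.twistTwo_tqOp s hL h2 LD, ← O.twistTwo_tqOp s hL h2 LD, ← _root_.map_smul]
  refine congrArg _ ?_
  rw [← sub_eq_zero, ← O.tqQuart_apply s]
  exact hx

/-- `T_p² - (1 + p)²` with coefficients -/
def latQuart {L : ℕ} [NeZero L] (LD : JTors.LatticeData L) (hp : p.Prime) :
    Module.End A (A ⊗[ℤ] JTors.Lam L) :=
  (LD.T ⟨p, hp⟩).baseChange A * (LD.T ⟨p, hp⟩).baseChange A - ((1 + (p : A)) ^ 2) • 1

theorem coe_lamT_quart_pow {L : ℕ} [NeZero L] (LD : JTors.LatticeData L) (hp : p.Prime)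
    (s : Sys M A) (k : ℕ) (z : lamPart LD s) :
    (((lamT LD s ⟨p, hp⟩ * lamT LD s ⟨p, hp⟩ -
      ((1 + p : ℕ) : A) ^ 2 • (1 : Module.End A (lamPart LD s))) ^ k) z :
        A ⊗[ℤ] JTors.Lam L) = (latQuart LD hp ^ k) z.1 := by
  induction k with
  | zero => rfl
  | succ k ih =>
    rw [pow_succ' _ k, pow_succ' _ k, Module.End.mul_apply, Module.End.mul_apply, ← ih]
    show _ = (LD.T ⟨p, hp⟩).baseChange A ((LD.T ⟨p, hp⟩).baseChange A _) - ((1 + (p : A)) ^ 2) • _
    rw [← Nat.cast_one (R := A), ← Nat.cast_add]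
    rfl

/-- the datum of the lattice gives a nilpotent power -/
theorem exists_pow_of_datum (hp : p.Prime) (hp2 : p ≠ 2) (hpA : (p : A) ∈ maximalIdeal A)
    {L : ℕ} [NeZero L] (hpL : ¬ p ∣ L) (LD : JTors.LatticeData L) (s : Sys M A) (S : Finset ℕ)
    (hNS : ∀ q : ℕ, q.Prime → q ∣ L → q ∈ S) (rres : GalQ →* GL (Fin 2) (ResidueField A))
    (R₁ : GalQ →* Mt (ResidueField A))
    (hspan : Submodule.span (ResidueField A) (Set.range R₁) = ⊤)
    (htr₁ : ∀ σ, (R₁ σ).trace = (rres σ : Matrix (Fin 2) (Fin 2) (ResidueField A)).trace)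
    (hstr : PT.TW.StrictMat p fun σ => R₁ σ)
    {T : Type} [CommRing T] [IsLocalRing T] [IsNoetherianRing T]
    [IsAdicComplete (maximalIdeal T) T] [Algebra A T] [IsLocalHom (algebraMap A T)]
    [Module.Finite A T] [Module.Free A T] {θ : CuspForm.heckeAlgebra L 2 (↑S : Set ℕ) →+* ResidueField A}
    (H : CuspForm.HeckeGaloisRepDatum L (↑S : Set ℕ) A θ T)
    (tT : ∀ ℓ : Nat.Primes, (ℓ : ℕ) ∉ S → T)
    (hπ : ∀ (l : ℕ) (hl : l.Prime) (hlN : ¬ l ∣ L) (hlS : l ∉ S),
      H.π (CuspForm.heckeAlgebra.T hl hlN hlS) = tT ⟨l, hl⟩ hlS)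
    (b : Module.Basis (Fin 2) T H.ρ.V)
    (Θ : Matrix (Fin 2) (Fin 2) T →ₐ[A] Module.End A (lamPart LD s))
    (hΘgal : ∀ (σ : GalQ) (x : lamPart LD s),
      ((Θ (LinearMap.toMatrix b b (H.ρ.ρ σ)) x : lamPart LD s) : A ⊗[ℤ] JTors.Lam L) =
        galLam LD hp hpA σ x.1)
    (hdet : ∀ σ : GalQ, LinearMap.det (H.ρ.ρ σ) = algebraMap A T (Attach.cycR hp hpA σ))
    (hrt : ∀ σ : GalQ, residue T (LinearMap.trace T H.ρ.V (H.ρ.ρ σ)) =
      ResidueField.map (algebraMap A T)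
        (rres σ : Matrix (Fin 2) (Fin 2) (ResidueField A)).trace)
    (hgenX : ∀ {X : Set T}, (∀ ℓ hℓ, tT ℓ hℓ ∈ X) → Algebra.adjoin A X = ⊤) :
    ∃ n : ℕ, ∀ y : lamPart LD s,
      (((lamT LD s ⟨p, hp⟩ * lamT LD s ⟨p, hp⟩ -
          ((1 + p : ℕ) : A) ^ 2 • (1 : Module.End A (lamPart LD s))) ^ n) y :
        A ⊗[ℤ] JTors.Lam L) ∈ maximalIdeal A • (⊤ : Submodule A (A ⊗[ℤ] JTors.Lam L)) := by
  have hrep : RepMat H.ρ.ρ fun σ => LinearMap.toMatrix b b (H.ρ.ρ σ) := ⟨b, fun _ => rfl⟩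
  have hgen : Algebra.adjoin A (Set.range fun σ : GalQ =>
      (LinearMap.toMatrix b b (H.ρ.ρ σ)).trace) = ⊤ := by
    refine hgenX fun ℓ hℓ => ?_
    obtain ⟨P, τ, hP, hτ⟩ := Alg.exists_place_frobenius ℓ ℓ.2
    have hlL : ¬ (ℓ : ℕ) ∣ L := fun h => hℓ (hNS ℓ ℓ.2 h)
    have h1 := H.charpoly_frob ℓ ℓ.2 hlL (by exact_mod_cast hℓ) P hP τ hτ
    rw [hπ ℓ ℓ.2 hlL hℓ] at h1
    exact ⟨τ, trace_of_charpoly ((LinearMap.charpoly_toMatrix (H.ρ.ρ τ) b).trans h1)⟩
  have hR := Deform.repMat_residual hrep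
  let f : ResidueField A →+* ResidueField T := ResidueField.map (algebraMap A T)
  have hf : Function.Surjective f := fun y => by
    obtain ⟨a, rfl⟩ := H.residue_surjective y
    exact ⟨residue A a, ResidueField.map_residue _ a⟩
  let R₁' : GalQ →* Mt (ResidueField T) :=
    { toFun := fun σ => (R₁ σ).map f
      map_one' := by rw [_root_.map_one R₁, Matrix.map_one _ (_root_.map_zero f) (_root_.map_one f)]
      map_mul' := fun σ τ => by rw [_root_.map_mul R₁, Matrix.map_mul] }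
  let R₂ : GalQ →* Mt (ResidueField T) :=
    { toFun := fun σ => (LinearMap.toMatrix b b (H.ρ.ρ σ)).map (residue T)
      map_one' := hR.map_one
      map_mul' := hR.map_mul }
  have hspan' : Submodule.span (ResidueField T) (Set.range R₁') = ⊤ := by
    refine eq_top_iff.2 fun X _ => ?_
    choose X' hX' using fun a c => hf (X a c)
    have hX : Matrix.of X' ∈ Submodule.span (ResidueField A) (Set.range R₁) := by
      rw [hspan]; trivial
    rw [show X = (Matrix.of X').map f from Matrix.ext fun a c => (hX' a c).symm]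
    generalize Matrix.of X' = Y at hX
    induction hX using Submodule.span_induction with
    | mem y hy =>
      obtain ⟨σ, rfl⟩ := hy
      exact Submodule.subset_span ⟨σ, rfl⟩
    | zero => rw [Matrix.map_zero _ (_root_.map_zero f)]; exact zero_mem _
    | add y z _ _ hy hz => rw [Matrix.map_add _ (_root_.map_add f)]; exact add_mem hy hz
    | smul a y _ hy =>
      have : (a • y).map f = f a • y.map f := by ext i j; simp
      rw [this]
      exact Submodule.smul_mem _ _ hy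
  have hs' : PT.TW.StrictMat p fun σ => R₂ σ := by
    haveI : IsLocalHom f := inferInstance
    refine strictMat_of_trace_eq R₁' R₂ hspan'
      (Deform.span_range_eq_top H.ρ.residual H.residual_absIrr hR) (fun σ => ?_)
      (PT.TW.StrictMat.map f hstr)
    show ((R₁ σ).map f).trace = ((LinearMap.toMatrix b b (H.ρ.ρ σ)).map (residue T)).trace
    rw [← AddMonoidHom.map_trace f, ← AddMonoidHom.map_trace (residue T), htr₁,
      ← LinearMap.trace_eq_matrix_trace T b, hrt]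
  exact exists_pow_hecke_sq_sub_mem hp hp2 hpA hpL LD s H.ρ b H.residual_absIrr
    hdet hgen Θ hΘgal hs'

/-- some power maps the part of the lattice into multiples of the uniformiser -/
theorem exists_pow_latQuart_mem (hp : p.Prime) (hp2 : p ≠ 2) (hpA : (p : A) ∈ maximalIdeal A)
    {L : ℕ} [NeZero L] (hpL : ¬ p ∣ L) (LD : JTors.LatticeData L) (s : Sys M A)
    (S : Finset ℕ) (hpS : p ∈ S) (hNS : ∀ q : ℕ, q.Prime → q ∣ L → q ∈ S)
    (hS : ∀ l : ℕ, l.Prime → (l ∉ S ↔ ¬ l ∣ M ∧ l ∉ s.bad)) (hl0 : s.l0 ∉ S)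
    (rres : GalQ →* GL (Fin 2) (ResidueField A))
    (hlev : Deform.FinLevel fun σ => (rres σ : Matrix (Fin 2) (Fin 2) (ResidueField A)))
    (hfrob : ∀ l : ℕ, l.Prime → l ∉ S → ∀ P : ValuationSubring (AlgebraicClosure ℚ),
      P.LiesOverPrime l → ∀ σ : GalQ, P.IsFrobeniusAt σ l →
        (rres σ : Matrix (Fin 2) (Fin 2) (ResidueField A)).trace = residue A (s.eig l) ∧
        (rres σ : Matrix (Fin 2) (Fin 2) (ResidueField A)).det = (l : ResidueField A))
    (σ₀ : GalQ) {α β : ResidueField A} (hαβ : α ≠ β)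
    (hσ₀ : (rres σ₀ : Matrix (Fin 2) (Fin 2) (ResidueField A)).charpoly =
      (Polynomial.X - Polynomial.C α) * (Polynomial.X - Polynomial.C β))
    (hirr : ∀ v : Fin 2 → ResidueField A, v ≠ 0 → ∃ σ, ∀ a : ResidueField A,
      (rres σ : Matrix (Fin 2) (Fin 2) (ResidueField A)).mulVec v ≠ a • v)
    (R₁ : GalQ →* Mt (ResidueField A))
    (hspan : Submodule.span (ResidueField A) (Set.range R₁) = ⊤)
    (htr₁ : ∀ σ, (R₁ σ).trace = (rres σ : Matrix (Fin 2) (Fin 2) (ResidueField A)).trace)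
    (hstr : PT.TW.StrictMat p fun σ => R₁ σ) :
    ∃ n : ℕ, ∀ y ∈ lamPart LD s,
      (latQuart LD hp ^ n) y ∈ maximalIdeal A • (⊤ : Submodule A (A ⊗[ℤ] JTors.Lam L)) := by
  by_cases hbot : lamPart LD s = ⊥
  · exact ⟨0, fun y hy => by
      rw [hbot, Submodule.mem_bot] at hy
      simp [hy]⟩
  obtain ⟨iL, iN, iC, iH, iF, iFr, θ, -, H, hπ, b, Θ, hΘinj, hΘt, hΘgal, hdet, hrt⟩ :=
    exists_lamDatum hp hpA LD s S hpS hNS hS hl0 hbot rres hlev hfrob σ₀ hαβ hσ₀ hirr
  obtain ⟨n, hn⟩ := exists_pow_of_datum hp hp2 hpA hpL LD s S hNS rres R₁ hspan htr₁ hstr H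
    (lamTT LD s S) hπ b Θ hΘgal hdet hrt (fun h => adjoin_lamHecke_eq_top LD s h)
  exact ⟨n, fun y hy => (coe_lamT_quart_pow LD hp s n ⟨y, hy⟩) ▸ hn ⟨y, hy⟩⟩

theorem smul_eq_zero_lam {L : ℕ} [NeZero L] {a : A} (ha : a ≠ 0) (y : A ⊗[ℤ] JTors.Lam L)
    (h : a • y = 0) : y = 0 := lamCast_injective (by
  rw [_root_.map_zero]
  refine AddMonoidHom.ext fun γ => ?_
  have := DFunLike.congr_fun (congrArg (lamCast A L) h) γ
  rw [_root_.map_smul, _root_.map_zero, AddMonoidHom.smul_apply, smul_eq_mul,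
    AddMonoidHom.zero_apply, mul_eq_zero] at this
  exact this.resolve_left ha)

/-- the part of the lattice is saturated -/
theorem mem_lamPart_of_smul {L : ℕ} [NeZero L] (LD : JTors.LatticeData L) (s : Sys M A) {ϖ : A}
    (hϖ : Irreducible ϖ) (y : A ⊗[ℤ] JTors.Lam L) (hy : ϖ • y ∈ lamPart LD s) :
    y ∈ lamPart LD s := by
  haveI := JTors.lam_finite (N := L)
  have hϖm : maximalIdeal A = Ideal.span {ϖ} := hϖ.maximalIdeal_eq
  rw [lamPart, Submodule.mem_inf] at hy ⊢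
  refine ⟨?_, ?_⟩
  · set u := (LD.T ⟨s.l0, s.prime_l0⟩).baseChange A -
      ((1 + s.l0 : ℕ) : A) • (1 : Module.End A (A ⊗[ℤ] JTors.Lam L)) with hu
    have hc := isCompl_unitPart_nilPart u
    obtain ⟨a, ha, c, hc', rfl⟩ := Submodule.mem_sup.mp (hc.sup_eq_top ▸ Submodule.mem_top (x := y))
    have h1 : ϖ • c ∈ unitPart u := by
      have := sub_mem hy.1 ((unitPart u).smul_mem ϖ ha)
      rwa [smul_add, add_sub_cancel_left] at this
    rw [smul_eq_zero_lam hϖ.ne_zero c (Submodule.disjoint_def.mp hc.disjoint _ h1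
      ((nilPart _ u).smul_mem ϖ hc')), add_zero]
    exact ha
  · simp only [Submodule.mem_iInf] at hy ⊢
    intro l hl hlM hlb n
    obtain ⟨k, hk⟩ := hy.2 l hl hlM hlb (n + 1)
    refine ⟨k, ?_⟩
    rw [_root_.map_smul, hϖm, Ideal.span_singleton_pow, Submodule.ideal_span_singleton_smul] at hk
    obtain ⟨z, -, hz⟩ := (Submodule.mem_smul_pointwise_iff_exists _ _ _).mp hk
    rw [hϖm, Ideal.span_singleton_pow, Submodule.ideal_span_singleton_smul]
    rw [pow_succ', ← smul_smul] at hz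
    refine (Submodule.mem_smul_pointwise_iff_exists _ _ _).mpr
      ⟨z, Submodule.mem_top, sub_eq_zero.mp (smul_eq_zero_lam hϖ.ne_zero _ ?_)⟩
    rw [smul_sub]
    exact sub_eq_zero.mpr hz

/-- powers go down -/
theorem exists_pow_latQuart_eq {L : ℕ} [NeZero L] (LD : JTors.LatticeData L) (hp : p.Prime)
    (s : Sys M A) {ϖ : A} (hϖ : Irreducible ϖ) {n : ℕ}
    (hn : ∀ y ∈ lamPart LD s,
      (latQuart LD hp ^ n) y ∈ maximalIdeal A • (⊤ : Submodule A (A ⊗[ℤ] JTors.Lam L))) :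
    ∀ y ∈ lamPart LD s, ∀ m : ℕ,
      ∃ y' ∈ lamPart LD s, (latQuart LD hp ^ (n * m)) y = ϖ ^ m • y' := by
  have hϖm : maximalIdeal A = Ideal.span {ϖ} := hϖ.maximalIdeal_eq
  intro y hy m
  induction m with
  | zero => exact ⟨y, hy, by simp⟩
  | succ m ih =>
    obtain ⟨y', hy', e⟩ := ih
    have hQy : (latQuart LD hp ^ n) y' ∈ lamPart LD s := by
      refine commute_mem_lamPart LD s (fun ℓ => ?_) hy'
      exact (((lamOp_comm LD A ⟨p, hp⟩ ℓ).mul_left (lamOp_comm LD A ⟨p, hp⟩ ℓ)).sub_left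
        ((Commute.one_left _).smul_left _)).pow_left n
    have hm := hn y' hy'
    rw [hϖm, Submodule.ideal_span_singleton_smul] at hm
    obtain ⟨y'', -, hy''⟩ := (Submodule.mem_smul_pointwise_iff_exists _ _ _).mp hm
    refine ⟨y'', mem_lamPart_of_smul LD s hϖ y'' (hy''.symm ▸ hQy), ?_⟩
    rw [Nat.mul_succ, add_comm, pow_add, Module.End.mul_apply, e, _root_.map_smul, ← hy'',
      smul_smul, ← pow_succ]


/-- where the residual representation is strictly ordinary a power of the quartic of `T p` is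
divisible by the uniformiser -/
theorem exists_pow_tqQuart_small {D : TWData M p r} [NeZero p] (O : OldPrime D p) (s : Sys M A)
    (S : Finset ℕ) (hpA : (p : A) ∈ maximalIdeal A) (h6 : s.Elliptic)
    (hpS : p ∈ S) (hMS : ∀ q : ℕ, q.Prime → q ∣ M → q ∈ S)
    (hS : ∀ l : ℕ, l.Prime → (l ∉ S ↔ ¬ l ∣ M ∧ l ∉ s.bad)) (hl0 : s.l0 ∉ S)
    (rres : GalQ →* GL (Fin 2) (ResidueField A))
    (hlev : Deform.FinLevel fun σ => (rres σ : Matrix (Fin 2) (Fin 2) (ResidueField A)))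
    (hfrob : ∀ l : ℕ, l.Prime → l ∉ S → ∀ P : ValuationSubring (AlgebraicClosure ℚ),
      P.LiesOverPrime l → ∀ σ : GalQ, P.IsFrobeniusAt σ l →
        (rres σ : Matrix (Fin 2) (Fin 2) (ResidueField A)).trace = residue A (s.eig l) ∧
        (rres σ : Matrix (Fin 2) (Fin 2) (ResidueField A)).det = (l : ResidueField A))
    (σ₀ : GalQ) {α β : ResidueField A} (hαβ : α ≠ β)
    (hσ₀ : (rres σ₀ : Matrix (Fin 2) (Fin 2) (ResidueField A)).charpoly =
      (Polynomial.X - Polynomial.C α) * (Polynomial.X - Polynomial.C β))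
    (hirr : ∀ v : Fin 2 → ResidueField A, v ≠ 0 → ∃ σ, ∀ a : ResidueField A,
      (rres σ : Matrix (Fin 2) (Fin 2) (ResidueField A)).mulVec v ≠ a • v)
    (R₁ : GalQ →* Mt (ResidueField A))
    (hspan : Submodule.span (ResidueField A) (Set.range R₁) = ⊤)
    (htr₁ : ∀ σ, (R₁ σ).trace = (rres σ : Matrix (Fin 2) (Fin 2) (ResidueField A)).trace)
    (hstr : PT.TW.StrictMat p fun σ => R₁ σ) :
    ∃ k : ℕ, ∀ x, (O.tqQuart s ^ k) x ∈
      maximalIdeal A • (⊤ : Submodule A ((D.lower p O.dvd).Mod s)) := by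
  classical
  obtain ⟨L₀, hL₀⟩ : ∃ L, L = D.N0 * D.R ^ 2 := ⟨_, rfl⟩
  haveI : NeZero L₀ := ⟨hL₀ ▸ mul_ne_zero D.N0_ne_zero (pow_ne_zero 2 D.R_ne_zero)⟩
  haveI : NeZero (L₀ / p) := ⟨fun h => NeZero.ne L₀ (by rw [O.level_eq_mul hL₀, h, zero_mul])⟩
  set L := L₀ / p with hLdef
  set D' := D.lower p O.dvd with hD'
  have hL : L = D'.N0 * D'.R ^ 2 := O.lower_level hL₀
  have hp : p.Prime := O.prime
  have hpL : ¬ p ∣ L := O.not_dvd_div hL₀
  have hNS : ∀ q : ℕ, q.Prime → q ∣ L → q ∈ S := fun q hq h => by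
    rw [hL] at h
    refine hMS q hq ?_
    rcases hq.dvd_mul.mp h with h | h
    · exact h.trans D'.dvd0
    · obtain ⟨i, -, hi⟩ := (Prime.dvd_finsetProd_iff hq.prime _).mp (hq.dvd_of_dvd_pow h)
      rw [(Nat.prime_dvd_prime_iff_eq hq (D'.prime i)).mp hi]
      exact D'.dvd i
  obtain ⟨LD⟩ := JTors.exists_latticeData L
  haveI : ∀ i, Fact (D'.Q i).Prime := fun i => ⟨D'.prime i⟩
  haveI : Module.Finite A (D'.Mod s) := s.E_finite
  haveI := JTors.lam_finite (N := L)
  have htw : ∀ d, D'.twist s h6 hL d = D'.twistTwo s h6.1 hL d := fun d =>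
    LinearMap.ext fun x => lamCast_injective (by rw [D'.lamCast_twist, D'.lamCast_twistTwo])
  let Φ : D'.Mod s →ₗ[A] (D'.Del → A ⊗[ℤ] JTors.Lam L) := LinearMap.pi fun d => D'.twist s h6 hL d
  have hΦi : Function.Injective Φ := by
    rw [injective_iff_map_eq_zero]
    exact fun x hx => D'.twist_injective s h6 hL x fun d => congrFun hx d
  have hΦQ : ∀ (k : ℕ) x d, D'.twist s h6 hL d ((O.tqQuart s ^ k) x) =
      (latQuart LD hp ^ k) (D'.twist s h6 hL d x) := by
    intro k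
    induction k with
    | zero => intro x d; rfl
    | succ k ih =>
      intro x d
      rw [pow_succ', pow_succ', Module.End.mul_apply, Module.End.mul_apply, ← ih]
      rw [htw, O.tqQuart_apply, _root_.map_sub, _root_.map_smul, O.twistTwo_tqOp s hL₀ h6.1 LD,
        O.twistTwo_tqOp s hL₀ h6.1 LD]
      rfl
  obtain ⟨n, hn⟩ := exists_pow_latQuart_mem hp D'.p_ne_two hpA hpL LD s S hpS hNS hS hl0 rres hlev
    hfrob σ₀ hαβ hσ₀ hirr R₁ hspan htr₁ hstr
  obtain ⟨ϖ, hϖ⟩ := IsDiscreteValuationRing.exists_irreducible A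
  have hϖm : maximalIdeal A = Ideal.span {ϖ} := hϖ.maximalIdeal_eq
  have hstab := exists_pow_latQuart_eq LD hp s hϖ hn
  -- Artin-Rees
  haveI : Module.Finite A (D'.Del → A ⊗[ℤ] JTors.Lam L) := Module.Finite.pi
  obtain ⟨c, hc⟩ := Ideal.exists_pow_inf_eq_pow_smul (maximalIdeal A) (LinearMap.range Φ)
  refine ⟨n * (c + 1), fun x => ?_⟩
  set x' := (O.tqQuart s ^ (n * (c + 1))) x with hx'
  have hmem : Φ x' ∈ (maximalIdeal A ^ (c + 1)) •
      (⊤ : Submodule A (D'.Del → A ⊗[ℤ] JTors.Lam L)) ⊓ LinearMap.range Φ := by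
    refine ⟨?_, LinearMap.mem_range_self Φ x'⟩
    choose y hy e using fun d => hstab _ (D'.twist_mem_lamPart s hpA h6 hL LD d x) (c + 1)
    have h1 : Φ x' = ϖ ^ (c + 1) • y := funext fun d => (hΦQ _ x d).trans (e d)
    rw [h1]
    have hw : ϖ ^ (c + 1) ∈ maximalIdeal A ^ (c + 1) := by
      rw [hϖm, Ideal.span_singleton_pow]
      exact Ideal.mem_span_singleton_self _
    exact Submodule.smul_mem_smul hw Submodule.mem_top
  rw [hc (c + 1) (Nat.le_succ c), Nat.add_sub_cancel_left, pow_one] at hmem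
  have h2 : maximalIdeal A • ((maximalIdeal A ^ c) • ⊤ ⊓ LinearMap.range Φ) ≤
      Submodule.map Φ (maximalIdeal A • (⊤ : Submodule A (D'.Mod s))) := by
    rw [Submodule.map_smul'', Submodule.map_top]
    exact Submodule.smul_mono le_rfl inf_le_right
  obtain ⟨x'', hx'', e⟩ := h2 hmem
  rwa [← hΦi e]

end Level

end FLTAgent.MLT

end
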