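import Fermat.Agent.MLT.Mk.Core

/-!
Area MLT, parcel TOWERS (très ramifié): a level carrying nothing without `p` is strictly ordinary on
what acts, and so is what acts on a chain of such levels and at the curve.
-/

set_option autoImplicit false
set_option linter.style.haveILetI false
set_option linter.unusedSectionVars false

noncomputable section

open IsLocalRing Matrix FLTAgent.LL FLTAgent.PT FLTAgent.PT.TW

namespace FLTAgent.MLT

variable {W : WeierstrassCurve ℤ} {p : ℕ} [Fact p.Prime] {O : Type} [CommRing O] [IsDomain O]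
  [IsDiscreteValuationRing O] [IsAdicComplete (maximalIdeal O) O] [Finite (ResidueField O)]
  [CharZero O] [Algebra (ZMod p) (ResidueField O)] {ρbar : ResidualGaloisRep (ResidueField O)}
  {r : GQ →* GL (Fin 2) (ResidueField O)} {Smin : Finset ℕ} {k : ℕ} {Wq : Fin k → Nat.Primes}
  {frob tame : Fin k → GQ} {w : Fin k → O} {s n : ℕ} {d : Fin (k + 1) → ℕ} {M : ℕ} [NeZero M]
  {C : PatchCore p ρbar r Smin Wq frob tame w s d n} {D : TWData M p s} {sys : Sys M O}
  {S : Finset ℕ} {dX : ℕ} {X : DiaMod (O := O) C.f dX} (K : CoreLink C D sys S X)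

/-- residually every member agrees with the curve -/
theorem CoreLink.residue_π (x : C.D.R) :
    residue K.L.T (K.π x) = residue K.L.T (algebraMap O K.L.T (C.pt x)) := by
  haveI : IsLocalHom (K.π : C.D.R →+* K.L.T) := IsLocalHom.of_surjective _ K.surj
  have hpts : Function.Surjective C.pt := fun a => ⟨algebraMap O C.D.R a, C.pt.commutes a⟩
  haveI : IsLocalHom (C.pt : C.D.R →+* O) := IsLocalHom.of_surjective _ hpts
  obtain ⟨a, ha⟩ := C.D.residue_surjective (residue C.D.R x)
  have hm : x - algebraMap O C.D.R a ∈ maximalIdeal C.D.R := by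
    rw [← residue_eq_zero_iff, map_sub, sub_eq_zero]
    exact ha.symm
  have h1 : residue K.L.T (K.π x) = residue K.L.T (algebraMap O K.L.T a) := by
    rw [← sub_eq_zero, ← map_sub, residue_eq_zero_iff, ← K.π.commutes a, ← map_sub K.π]
    exact map_nonunit (K.π : C.D.R →+* K.L.T) _ hm
  have h2 : C.pt x - a ∈ maximalIdeal O := by
    have := map_nonunit (C.pt : C.D.R →+* O) _ hm
    rwa [RingHom.coe_coe, map_sub, AlgHom.commutes] at this
  rw [h1, ← sub_eq_zero, ← map_sub, ← map_sub, residue_eq_zero_iff]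
  refine map_nonunit (algebraMap O K.L.T) _ ?_
  rw [← neg_sub]
  exact neg_mem h2

/-- residually ordinary, as the curve is -/
theorem CoreLink.residual_ordinary
    (hpt : StrictMat p fun σ => (C.cd.R₀ σ).map C.pt.toRingHom) :
    (GaloisRepAdic.ofResidualGaloisRep K.L.ρ.residual).IsOrdinaryAt p := by
  haveI : IsLocalHom ((residue K.L.T).comp (algebraMap O K.L.T)) := RingHom.isLocalHom_comp _ _
  have hs := StrictMat.map ((residue K.L.T).comp (algebraMap O K.L.T)) hpt
  refine (isStrictOrdinaryAt_of_strictMat (R := fun σ => ((C.cd.R₀ σ).map K.π).map (residue K.L.T))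
    (Deform.repMat_residual K.rep) ?_).isOrdinaryAt
  convert hs using 2 with σ
  ext a b
  exact K.residue_π _

/-- strictly ordinary on what acts, when the level without `p` carries nothing -/
theorem CoreLink.strictMat_acts [NeZero p]
    (hpt : StrictMat p fun σ => (C.cd.R₀ σ).map C.pt.toRingHom) (O' : OldPrime D p)
    (hbot : (D.lower p O'.dvd).Mod sys = ⊥)
    [IsLocalRing (K.L.T ⧸ RingHom.ker K.L.φ)] :
    StrictMat p fun σ => (C.cd.R₀ σ).map
      ((Ideal.Quotient.mk (RingHom.ker K.L.φ)).comp K.π.toRingHom) := by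
  haveI : IsLocalHom (Ideal.Quotient.mk (RingHom.ker K.L.φ)) :=
    IsLocalHom.of_surjective _ Ideal.Quotient.mk_surjective
  have h0 : ∀ y : (D.lower p O'.dvd).Mod sys, y = 0 := fun y =>
    Subtype.ext ((Submodule.mem_bot O).mp (hbot ▸ y.2 : y.1 ∈ (⊥ : Submodule O _)))
  have hs := K.L.strict O' (K.residual_ordinary hpt) (Ideal.Quotient.mk (RingHom.ker K.L.φ))
    fun t ht => Ideal.Quotient.eq_zero_iff_mem.mpr
      (RingHom.mem_ker.mpr (LinearMap.ext fun x => ht x (h0 _) (h0 _)))
  have h2 := strictMat_congr K.L.rep K.rep (Ideal.Quotient.mk (RingHom.ker K.L.φ)) hs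
  convert h2 using 2 with σ
  rw [Matrix.map_map]
  rfl

omit [CharZero O] in
/-- conditions at `p` given member by member on what acts on the chain and at the curve -/
theorem atP_strict_effIdeal
    (hfam : ∀ {κ : Type} (B : κ → Type) [∀ j, CommRing (B j)] [∀ j, IsLocalRing (B j)]
      [∀ j, IsNoetherianRing (B j)] (g : ∀ j, C.D.R →+* B j),
      (∀ j, StrictMat p fun σ => (C.cd.R₀ σ).map (g j)) → ∀ I : Ideal C.D.R,
        (∀ t, (∀ j, g j t = 0) → t ∈ I) →
          C.AtP I (fun _ _ _ ρ' => ρ'.IsStrictOrdinaryAt p))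
    (hpt : StrictMat p fun σ => (C.cd.R₀ σ).map C.pt.toRingHom)
    (hlev : ∀ j, ∃ (B : Type) (_ : CommRing B) (_ : IsLocalRing B) (_ : IsNoetherianRing B)
      (g : C.D.R →+* B), (StrictMat p fun σ => (C.cd.R₀ σ).map g) ∧
        ∀ t, g t = 0 → (C.lev j).act t = 0) :
    C.AtP C.effIdeal (fun _ _ _ ρ' => ρ'.IsStrictOrdinaryAt p) := by
  choose B hB1 hB2 hB3 g hg hker using hlev
  let B' : Option (Fin (k + 1)) → Type
    | none => O
    | some j => B j
  letI i1 : ∀ o, CommRing (B' o)
    | none => ‹CommRing O›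
    | some j => hB1 j
  haveI : ∀ o, IsLocalRing (B' o)
    | none => (inferInstance : IsLocalRing O)
    | some j => hB2 j
  haveI : ∀ o, IsNoetherianRing (B' o)
    | none => (inferInstance : IsNoetherianRing O)
    | some j => hB3 j
  let g' : ∀ o, C.D.R →+* B' o
    | none => C.pt.toRingHom
    | some j => g j
  refine hfam B' g' (fun o => ?_) C.effIdeal fun t ht => ?_
  · cases o with
    | none => exact hpt
    | some j => exact hg j
  · exact Submodule.mem_inf.2 ⟨(Submodule.mem_iInf _).2 fun j =>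
      RingHom.mem_ker.2 (hker j t (ht (some j))), RingHom.mem_ker.2 (ht none)⟩

end FLTAgent.MLT

end
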