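import Fermat.Agent.MLT.Mk.CoreLevels
import Fermat.Agent.MLT.Mk.TresStrict

/-!
Area MLT, parcel LEVELMK (Core): the step at `p` from the top of the chain to the level `base`, and
strictness on what both pushes kill.
-/

set_option autoImplicit false
set_option linter.style.haveILetI false
set_option linter.unusedSectionVars false
set_option maxHeartbeats 1000000

noncomputable section

open IsLocalRing FLTAgent.LL

namespace FLTAgent.MLT

open FLTAgent.Attach (GalQ)

section Pair

variable {A : Type} [CommRing A] [IsDomain A] [IsDiscreteValuationRing A]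
  [IsAdicComplete (maximalIdeal A) A] [Finite (ResidueField A)] [CharZero A]
  {M p r : ℕ} [NeZero M] {s : Sys M A} {R : Type} [CommRing R] [Algebra A R]
  {Δ : Type} [CommGroup Δ] [Fintype Δ] {f : Δ →* R} {S : Finset ℕ}
  {rres : GalQ →* GL (Fin 2) (ResidueField A)}

/-- the pair of degeneracy maps at `q` for the quartic of `T q` -/
theorem exists_degP {D : TWData M p r} {q : ℕ} [NeZero q] (Old : OldPrime D q) {D' : TWData M p r}
    (hD' : D.lower q Old.dvd = D') (L : WorldRep D s S rres) (L' : WorldRep D' s S rres)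
    (π : R →ₐ[A] L.T) (π' : R →ₐ[A] L'.T) (tr : GalQ → R)
    (htr : ∀ σ, π (tr σ) = (L.R₀ σ).trace) (htr' : ∀ σ, π' (tr σ) = (L'.R₀ σ).trace)
    (hgen : Algebra.adjoin A (Set.range tr) = ⊤) (h6 : s.Elliptic) (hI : s.IharaAt q)
    (hpA : (p : A) ∈ maximalIdeal A) (hinj : Function.Injective (Old.tqQuart s))
    (hnil : ∃ N : ℕ, ∀ x, (Old.tqQuart s ^ N) x ∈ LinearMap.ker ((D.lower q Old.dvd).toY s) ⊔
      maximalIdeal A • (⊤ : Submodule A ((D.lower q Old.dvd).Mod s)))
    {dX dY : ℕ} (X : DiaMod (O := A) f dX) (Y : DiaMod (O := A) f dY)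
    (eX : X.V ≃ₗ[A] D'.Mod s) (eY : Y.V ≃ₗ[A] D.Mod s)
    (hX : ∀ t x, eX (X.act t x) = L'.φ (π' t) (eX x))
    (hY : ∀ t y, eY (Y.act t y) = L.φ (π t) (eY y))
    (haX : ∀ x, x ∈ X.augPart ↔ D'.toY s (eX x) = 0)
    (haY : ∀ y, y ∈ Y.augPart ↔ D.toY s (eY y) = 0) :
    ∃ hOp : Module.End A X.V, (∀ t, Commute hOp (X.act t)) ∧ Function.Injective hOp ∧
      (∃ N : ℕ, ∀ x, (hOp ^ N) x ∈ X.small) ∧
      ∃ G : DiaDegen X Y hOp (-(1 + (q : A))), ∀ y, G.push y = 0 → Old.oldPush s (eY y) = 0 := by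
  subst hD'
  have htq : ∀ t x, Old.tqOp s (L'.φ (π' t) x) = L'.φ (π' t) (Old.tqOp s x) :=
    L'.intertwine_of_tOp L' π' π' tr htr' htr' hgen _ fun l hl hlM x => Old.tqOp_tOp s hl hlM x
  have hqu : ∀ t x, Old.tqQuart s (L'.φ (π' t) x) = L'.φ (π' t) (Old.tqQuart s x) := fun t x => by
    show Old.tqOp s (Old.tqOp s (L'.φ (π' t) x)) - ((1 + (q : A)) ^ 2) • L'.φ (π' t) x =
      L'.φ (π' t) (Old.tqOp s (Old.tqOp s x) - ((1 + (q : A)) ^ 2) • x)
    rw [htq, htq, _root_.map_sub, _root_.map_smul]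
  let hOp : Module.End A X.V := eX.symm.toLinearMap ∘ₗ Old.tqQuart s ∘ₗ eX.toLinearMap
  have hh : ∀ x, eX (hOp x) = Old.tqQuart s (eX x) := fun x => eX.apply_symm_apply _
  have hpow : ∀ (N : ℕ) x, eX ((hOp ^ N) x) = (Old.tqQuart s ^ N) (eX x) := by
    intro N
    induction N with
    | zero => intro x; rfl
    | succ N ih => intro x; rw [pow_succ', pow_succ', Module.End.mul_apply, Module.End.mul_apply,
        hh, ih]
  obtain ⟨N, hN⟩ := hnil
  refine ⟨hOp, fun t => LinearMap.ext fun x => eX.injective ?_, fun x y h => eX.injective (hinj ?_),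
    ⟨N, fun x => (mem_small_link X eX haX _).2 (by rw [hpow]; exact hN _)⟩, ?_⟩
  · rw [Module.End.mul_apply, Module.End.mul_apply, hh, hX, hX, hh, hqu]
  · rw [← hh, ← hh, h]
  · exact exists_diaDegen Old L L' π π' tr htr htr' hgen h6.1 X Y eX eY hX hY
      (Old.oldPush_surjective s h6 hI hpA)
      (fun z hz => by
        rw [mem_small_link Y eY haY, eY.apply_symm_apply] at hz
        rw [mem_small_link X eX haX, mem_small_link X eX haX, eX.apply_symm_apply,
          eX.apply_symm_apply]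
        exact Old.oldPull_small s h6 hI z hz)
      hOp hh

end Pair

section Strict

open FLTAgent.PT FLTAgent.PT.TW

variable {W : WeierstrassCurve ℤ} {p : ℕ} [Fact p.Prime] {O : Type} [CommRing O] [IsDomain O]
  [IsDiscreteValuationRing O] [IsAdicComplete (maximalIdeal O) O] [Finite (ResidueField O)]
  [CharZero O] [Algebra (ZMod p) (ResidueField O)] {ρbar : ResidualGaloisRep (ResidueField O)}
  {r : GQ →* GL (Fin 2) (ResidueField O)} {Smin : Finset ℕ} {k : ℕ} {Wq : Fin k → Nat.Primes}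
  {frob tame : Fin k → GQ} {w : Fin k → O} {s n : ℕ} {d : Fin (k + 1) → ℕ} {M : ℕ} [NeZero M]
  {C : PatchCore p ρbar r Smin Wq frob tame w s d n} {D : TWData M p s} {sys : Sys M O}
  {S : Finset ℕ} {dY : ℕ} {Y : DiaMod (O := O) C.f dY}

/-- strictly ordinary on what both pushes kill and at the curve -/
theorem atP_strict_push [NeZero p]
    (hfam : ∀ {κ : Type} (B : κ → Type) [∀ j, CommRing (B j)] [∀ j, IsLocalRing (B j)]
      [∀ j, IsNoetherianRing (B j)] (g : ∀ j, C.D.R →+* B j),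
      (∀ j, StrictMat p fun σ => (C.cd.R₀ σ).map (g j)) → ∀ I : Ideal C.D.R,
        (∀ t, (∀ j, g j t = 0) → t ∈ I) →
          C.AtP I (fun _ _ _ ρ' => ρ'.IsStrictOrdinaryAt p))
    (K : CoreLink C D sys S Y) (hpt : StrictMat p fun σ => (C.cd.R₀ σ).map C.pt.toRingHom)
    (Old : OldPrime D p) {V : Type} [AddCommGroup V] [Module O V] (push : Y.V →ₗ[O] V)
    (hpush : ∀ y, push y = 0 → Old.oldPush sys (K.e y) = 0) (I : Ideal C.D.R)
    (hI : ∀ t, (∀ y, push y = 0 → Y.act t y = 0) → C.pt t = 0 → t ∈ I) :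
    C.AtP I (fun _ _ _ ρ' => ρ'.IsStrictOrdinaryAt p) := by
  let J : Ideal K.L.T :=
    { carrier := {t | ∀ y, push y = 0 → K.L.φ t (K.e y) = 0}
      add_mem' := fun {a b} ha hb y hy => by
        rw [_root_.map_add, LinearMap.add_apply, ha y hy, hb y hy, add_zero]
      zero_mem' := fun y _ => by rw [_root_.map_zero, LinearMap.zero_apply]
      smul_mem' := fun c t ht y hy => by
        rw [smul_eq_mul, _root_.map_mul, Module.End.mul_apply, ht y hy, _root_.map_zero] }
  have hker : ∀ t, K.π t ∈ J → ∀ y, push y = 0 → Y.act t y = 0 := fun t ht y hy =>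
    K.e.injective (by rw [K.act, ht y hy, _root_.map_zero])
  by_cases htop : J = ⊤
  · exact hfam (fun _ : Unit => O) (fun _ => C.pt.toRingHom) (fun _ => hpt) I fun t ht =>
      hI t (hker t (htop ▸ Submodule.mem_top)) (ht ())
  haveI : Nontrivial (K.L.T ⧸ J) := Ideal.Quotient.nontrivial_iff.2 htop
  haveI : IsLocalRing (K.L.T ⧸ J) :=
    IsLocalRing.of_surjective' (Ideal.Quotient.mk _) Ideal.Quotient.mk_surjective
  haveI : IsLocalHom (Ideal.Quotient.mk J) := IsLocalHom.of_surjective _ Ideal.Quotient.mk_surjective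
  have hs := K.L.strict Old (K.residual_ordinary hpt) (Ideal.Quotient.mk J) fun t ht =>
    Ideal.Quotient.eq_zero_iff_mem.2 fun y hy =>
      ht _ (congrArg Prod.fst (hpush y hy)) (congrArg Prod.snd (hpush y hy))
  have h2 : StrictMat p fun σ =>
      (C.cd.R₀ σ).map ((Ideal.Quotient.mk J).comp K.π.toRingHom) := by
    have e := strictMat_congr K.L.rep K.rep (Ideal.Quotient.mk J) hs
    convert e using 2 with σ
    rw [Matrix.map_map]
    rfl
  let B : Option Unit → Type
    | none => O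
    | some _ => K.L.T ⧸ J
  letI i1 : ∀ o, CommRing (B o)
    | none => inferInstanceAs (CommRing O)
    | some _ => inferInstanceAs (CommRing (K.L.T ⧸ J))
  haveI : ∀ o, IsLocalRing (B o)
    | none => inferInstanceAs (IsLocalRing O)
    | some _ => inferInstanceAs (IsLocalRing (K.L.T ⧸ J))
  haveI : ∀ o, IsNoetherianRing (B o)
    | none => inferInstanceAs (IsNoetherianRing O)
    | some _ => inferInstanceAs (IsNoetherianRing (K.L.T ⧸ J))
  let g : ∀ o, C.D.R →+* B o
    | none => C.pt.toRingHom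
    | some _ => (Ideal.Quotient.mk J).comp K.π.toRingHom
  refine hfam B g (fun o => ?_) I fun t ht =>
    hI t (hker t (Ideal.Quotient.eq_zero_iff_mem.1 (ht (some ())))) (ht none)
  rcases o with _ | _
  · exact hpt
  · exact h2

end Strict

end FLTAgent.MLT

end
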