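import Fermat.Agent.MLT.Mk.TresAbsent
import Fermat.Agent.MLT.Mk.TresStrict

/-!
Area MLT, parcel TOWERS (très ramifié): one strict condition at `p` on what acts at every depth.
-/

set_option autoImplicit false
set_option linter.style.haveILetI false
set_option linter.unusedSectionVars false

noncomputable section

open IsLocalRing Matrix FLTAgent.LL FLTAgent.PT FLTAgent.PT.TW

namespace FLTAgent.MLT

/-- très ramifié: what acts on the chain and at the curve is strictly ordinary -/
theorem exists_tres_atP {W : WeierstrassCurve ℤ} (hΔ : W.Δ ≠ 0) (hW : W.IsSemistableModel) {p : ℕ}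
    [Fact p.Prime] (hp35 : p = 3 ∨ p = 5) (hirr : W.ModRepIsIrreducible p) (ht : Tres W p) {k : ℕ}
    (Wq : Fin k → Nat.Primes) (hsq : Squarefree (chainLevel (minLevel W p) Wq k)) :
    ∃ F : Finset ℕ, ∀ {O : Type} [CommRing O] [IsDomain O] [IsDiscreteValuationRing O]
      [IsAdicComplete (maximalIdeal O) O] [Finite (ResidueField O)] [CharZero O]
      [Algebra (ZMod p) (ResidueField O)] {ρbar : ResidualGaloisRep (ResidueField O)}
      {r : GQ →* GL (Fin 2) (ResidueField O)}, SemiResidual W p ρbar r →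
      (p : O) ∈ maximalIdeal O → ∀ {e : ℕ} {avoid : Finset ℕ}, F ⊆ avoid →
      ∀ {s bound n : ℕ} (P : LevelSupply W p ρbar r Wq (minLevel W p) e avoid s bound n)
        (pt : CorePoint W p r), pt.ρ.IsStrictOrdinaryAt p →
        ∀ {frob tame : Fin k → GQ} {w : Fin k → O} (C : CoreSupply P pt frob tame w),
          C.core.AtP C.core.effIdeal (fun _ _ _ ρ' => ρ'.IsStrictOrdinaryAt p) := by
  obtain ⟨F, hF⟩ := exists_tresAvoid hΔ hW hp35 hirr ht Wq hsq
  refine ⟨F, fun {O} _ _ _ _ _ _ _ {ρbar r} hres hpO {e avoid} hav {s bound n} P pt hpts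
    {frob tame w} C => ?_⟩
  haveI : NeZero p := ⟨(Fact.out : p.Prime).ne_zero⟩
  have hpt : StrictMat p fun σ => (C.core.cd.R₀ σ).map C.core.pt.toRingHom :=
    strictMat_of_isStrictOrdinaryAt C.pt_rep hpts
  refine atP_strict_effIdeal (fun B _ _ _ g hg I hI => C.strict_family B g hg I hI) hpt fun j => ?_
  set K := C.link j
  obtain ⟨O', hbot⟩ := hF hres hpO hav P j
  have hne : RingHom.ker K.L.φ ≠ ⊤ := by
    rw [Ne, Ideal.eq_top_iff_one, RingHom.mem_ker, map_one]
    intro h1
    exact (P.level j).Mod_ne_bot_of_rkY P.sys P.elliptic hpO (P.rank j).1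
      ((Submodule.eq_bot_iff _).2 fun x hx =>
        congrArg Subtype.val (LinearMap.congr_fun h1 ⟨x, hx⟩))
  haveI : Nontrivial (K.L.T ⧸ RingHom.ker K.L.φ) := Ideal.Quotient.nontrivial_iff.2 hne
  haveI : IsLocalRing (K.L.T ⧸ RingHom.ker K.L.φ) :=
    IsLocalRing.of_surjective' (Ideal.Quotient.mk _) Ideal.Quotient.mk_surjective
  refine ⟨K.L.T ⧸ RingHom.ker K.L.φ, inferInstance, inferInstance, inferInstance, _,
    K.strictMat_acts hpt O' hbot, fun t ht0 => LinearMap.ext fun x => K.e.injective ?_⟩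
  have h0 : K.L.φ (K.π t) = 0 := RingHom.mem_ker.1 (Ideal.Quotient.eq_zero_iff_mem.1 ht0)
  rw [K.act, h0, LinearMap.zero_apply, LinearMap.zero_apply, map_zero]

end FLTAgent.MLT

end
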