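import Fermat.Agent.MLT.Mk.BridgeAux
import Fermat.Agent.LL.CharTW

/-!
Area MLT, parcel LEVELMK: a level of the step at `p` from the data of one choice of auxiliary primes.

The flat algebra acts on the chain, the strict one on the kernel of the pushes to the level at `p` and
at the curve; both are quotients of one framed algebra, which also acts on that level. Modulo what is
divisible by `push ∘ pull` the flat algebra is strict too, whence the distinguished coordinate.
-/

set_option autoImplicit false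
set_option linter.style.haveILetI false
set_option linter.unusedSectionVars false

noncomputable section

open IsLocalRing Matrix FLTAgent.LL FLTAgent.PT FLTAgent.PT.TW
open scoped IsMulCommutative

namespace FLTAgent.MLT

variable {p : ℕ} [Fact p.Prime] {O : Type} [CommRing O] [IsDomain O] [IsDiscreteValuationRing O]
  [IsAdicComplete (maximalIdeal O) O] [Finite (ResidueField O)]
  [Algebra (ZMod p) (ResidueField O)] {ρbar : ResidualGaloisRep (ResidueField O)}
  {r : GQ →* GL (Fin 2) (ResidueField O)} {Smin : Finset ℕ} {k : ℕ} {W : Fin k → Nat.Primes}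
  {frob tame : Fin k → GQ} {w : Fin k → O}

set_option maxHeartbeats 4000000 in
/-- a level of the step at `p` -/
theorem bridgeLevel_of_patchBridge (h : Setting p ρbar r) (hpSmin : p ∈ Smin)
    (hmin : ∀ q : ℕ, q.Prime → q ≠ p → (q ∈ Smin ↔ ¬ ρbar.IsUnramifiedAt q))
    (hWmin : ∀ i, (W i : ℕ) ∉ Smin) (hpl : CondPlaces p r W frob tame) {F : Fin k → FPlace O}
    {U : Fin k → Matrix (Fin 2) (Fin 2) O} (hF : IsFraming r W frob w F U)
    {s : ℕ} (hs : 0 < s) {d : Fin (k + 1) → ℕ} (hd : ∀ j, 0 < d j) {dY : ℕ} {v : O} {n : ℕ}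
    (P : PatchBridge p ρbar r Smin W frob tame w s d dY v n) :
    ∃ dS ≤ dY, ∃ t0 : Fin (s + (k - 1)),
      Nonempty (BridgeLevel F (s + (k - 1)) d dY dS t0 (-(1 + (p : O))) v n) := by
  classical
  set g := s + (k - 1) with hg
  obtain ⟨C, Y, hOp, hOpa, hOpi, hOps, degP, hflat, hstr, κ, hκ, hκY⟩ := P
  haveI := C.hausdorff
  -- a unit entry of the first frame
  obtain ⟨e0, he0⟩ : ∃ e : Fin 2 × Fin 2, ∀ i : Fin k, (i : ℕ) = 0 → IsUnit (U i e.1 e.2) := by
    by_cases hk : 0 < k
    · by_contra hc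
      push Not at hc
      refine hF.unit ⟨0, hk⟩ ?_
      have h0 : (U ⟨0, hk⟩).map (residue O) = 0 := by
        ext a b
        obtain ⟨i, hi, hu⟩ := hc (a, b)
        obtain rfl : i = ⟨0, hk⟩ := Fin.ext hi
        exact (residue_eq_zero_iff _).2 ((mem_maximalIdeal _).2 hu)
      rw [h0, det_zero]
    · exact ⟨(0, 0), fun i => absurd i.pos hk⟩
  have hcard : Fintype.card (FrVar k e0 ⊕ Fin s) = 3 * k + g := by
    rw [Fintype.card_sum, card_frVar, Fintype.card_fin]
    omega
  let sl : FrVar k e0 ⊕ Fin s ≃ Fin (3 * k + g) := Fintype.equivFinOfCardEq hcard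
  -- the parameter ring
  obtain ⟨hfin, hloc, hR⟩ := wring_facts O (3 * k + g) n
  haveI := hfin
  haveI := hloc
  obtain ⟨hres, hmax⟩ := hR
  let Xb : Fin (3 * k + g) → WRing O k g n := fun i => Ideal.Quotient.mk _ (MvPowerSeries.X i)
  have hXn : ∀ i, Xb i ^ (n + 1) = 0 := fun i => by
    rw [← map_pow, Ideal.Quotient.eq_zero_iff_mem]
    exact Ideal.pow_mem_pow (LL.X_mem_maximalIdeal i) _
  have hXm : ∀ i, Xb i ∈ maximalIdeal (WRing O k g n) := fun i =>
    (maximalIdeal.isMaximal _).isPrime.mem_of_pow_mem (n + 1) (hXn i ▸ zero_mem _)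
  have hpO : (p : O) ∈ maximalIdeal O := by
    haveI := h.charP
    rw [← residue_eq_zero_iff, map_natCast]
    exact CharP.cast_eq_zero _ p
  obtain ⟨χ, hχ⟩ := C.lift (WRing O k g n) (fun i => 1 + Xb (sl (Sum.inr i)))
    fun i => CharTW.one_add_pow_eq_one O hpO (Nat.le_succ n) _
  have hχI : ∀ J : Ideal (WRing O k g n), (∀ i, Xb i ∈ J) → ∀ u, χ u - 1 ∈ J := by
    intro J hJ u
    have hu : u ∈ Subgroup.closure (Set.range C.gens) := by rw [C.closure]; trivial
    induction hu using Subgroup.closure_induction with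
    | mem x hx =>
      obtain ⟨i, rfl⟩ := hx
      rw [hχ, add_sub_cancel_left]
      exact hJ _
    | one => rw [map_one, sub_self]; exact zero_mem J
    | mul x y _ _ hx hy =>
      rw [map_mul, show χ x * χ y - 1 = χ x * (χ y - 1) + (χ x - 1) by ring]
      exact add_mem (Ideal.mul_mem_left _ _ hy) hx
    | inv x _ hx =>
      have e1 : χ x⁻¹ * χ x = 1 := by rw [← map_mul, inv_mul_cancel, map_one]
      rw [show χ x⁻¹ - 1 = -(χ x⁻¹ * (χ x - 1)) by rw [mul_sub, e1, mul_one, neg_sub]]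
      exact neg_mem (Ideal.mul_mem_left _ _ hx)
  have hχm := hχI _ hXm
  -- the degeneracy pairs
  let qr : Fin k → C.D.R := fun i =>
    (C.cd.R₀ (frob i)).trace ^ 2 - (1 + ((W i : ℕ) : C.D.R)) ^ 2
  choose Gc hGP hGQ hGA _hGpull _hGpush hGnew using fun i : Fin k =>
    (C.deg i).exists_degen χ hres hχm (H := (C.lev i.castSucc).mat χ (qr i))
      (fun x => (C.lev i.castSucc).pr_act χ (qr i) x)
  let Xl := C.lev (Fin.last k)
  obtain ⟨H, hH, hHc, -⟩ := Xl.exists_mat_end χ hOp hOpa
  obtain ⟨G, hP, hQ, hA, hpull, hpush, hnew⟩ := degP.exists_degen χ hres hχm hH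
  have hHd := Xl.mat_pow_mem χ hres hχm hH hOps
  obtain ⟨dS, hdS, incl, proj, hpi, hip, hQi⟩ := G.exists_ker
  let MY : C.D.R →ₐ[O] Matrix (Fin dY) (Fin dY) (WRing O k g n) := Y.mat χ
  have hQM : ∀ t, G.push * (MY t * incl) = 0 := fun t => by
    rw [← Matrix.mul_assoc, ← hQ, Matrix.mul_assoc, hQi, Matrix.mul_zero]
  obtain ⟨MS, hMS, hMS'⟩ := exists_restrict_hom MY hpi fun t => by
    rw [hip, Matrix.sub_mul, Matrix.one_mul, Matrix.mul_assoc G.sect, hQM, Matrix.mul_zero, sub_zero]
  -- the ambient algebra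
  let On := O ⧸ maximalIdeal O ^ (n + 1)
  haveI : Finite On := by
    haveI : Finite (O ⧸ maximalIdeal O) := inferInstanceAs (Finite (ResidueField O))
    exact Ideal.finite_quotient_pow (IsNoetherian.noetherian _) _
  haveI : Nontrivial On := Ideal.Quotient.nontrivial_iff.mpr fun e =>
    (maximalIdeal.isMaximal O).ne_top (top_le_iff.mp (e ▸ Ideal.pow_le_self (Nat.succ_ne_zero n)))
  let ptn : C.D.R →ₐ[O] On := (Ideal.Quotient.mkₐ O _).comp C.pt
  haveI : ∀ e, Finite (Matrix (Fin e) (Fin e) (WRing O k g n)) := fun e => Pi.finite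
  let Af := ∀ j, Matrix (Fin (d j)) (Fin (d j)) (WRing O k g n)
  haveI : Nontrivial Af := ⟨0, 1, fun e => by
    have := congrFun (congrFun (congrFun e 0) ⟨0, hd 0⟩) ⟨0, hd 0⟩
    rw [Pi.zero_apply, Pi.one_apply, Matrix.zero_apply, Matrix.one_apply_eq] at this
    exact zero_ne_one this⟩
  let As := Matrix (Fin dS) (Fin dS) (WRing O k g n) × On
  haveI : Nontrivial As := ⟨(0, 0), (0, 1), fun e => zero_ne_one (congrArg Prod.snd e)⟩
  let AY := Af × (Matrix (Fin dY) (Fin dY) (WRing O k g n) × As)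
  haveI : Nontrivial AY := ⟨(0, 0), (1, 0), fun e => zero_ne_one (congrArg Prod.fst e)⟩
  let Ψf : C.D.R →ₐ[O] Af := AlgHom.pi fun j => (C.lev j).mat χ
  let Ψs : C.D.R →ₐ[O] As := MS.prod ptn
  let ΨY : C.D.R →ₐ[O] AY := Ψf.prod (MY.prod Ψs)
  let zf : FrVar k e0 → Af := fun c j => Matrix.scalar (Fin (d j)) (Xb (sl (Sum.inl c)))
  let zs : FrVar k e0 → As := fun c => (Matrix.scalar (Fin dS) (Xb (sl (Sum.inl c))), 0)
  let zY : FrVar k e0 → AY := fun c =>
    (zf c, (Matrix.scalar (Fin dY) (Xb (sl (Sum.inl c))), zs c))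
  have hscal : ∀ {e : ℕ} (x : WRing O k g n) (M : Matrix (Fin e) (Fin e) (WRing O k g n)),
      Commute (Matrix.scalar (Fin e) x) M := fun x M =>
    Matrix.scalar_commute x (fun _ => Commute.all _ _) M
  have hzcomm : ∀ c (y : AY), Commute (zY c) y := fun c y =>
    Prod.ext (funext fun j => (hscal _ _).eq)
      (Prod.ext (hscal _ _).eq (Prod.ext (hscal _ _).eq
        ((zero_mul y.2.2.2).trans (mul_zero y.2.2.2).symm)))
  obtain ⟨FY⟩ := nonempty_framedAlg hpl hF he0 C.cd ΨY zY (fun c c' => hzcomm c _)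
    (fun c x => hzcomm c _) fun c => ⟨n + 1, by
      refine Prod.ext (funext fun j => ?_) (Prod.ext ?_ (Prod.ext ?_ ?_))
      · show Matrix.scalar (Fin (d j)) _ ^ (n + 1) = 0
        rw [← map_pow, hXn, map_zero]
      · show Matrix.scalar (Fin dY) (Xb (sl (Sum.inl c))) ^ (n + 1) =
          (0 : Matrix (Fin dY) (Fin dY) (WRing O k g n))
        rw [← map_pow, hXn, map_zero]
      · show Matrix.scalar (Fin dS) (Xb (sl (Sum.inl c))) ^ (n + 1) =
          (0 : Matrix (Fin dS) (Fin dS) (WRing O k g n))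
        rw [← map_pow, hXn, map_zero]
      · exact zero_pow (Nat.succ_ne_zero n)⟩
  let toF : AY →ₐ[O] Af := AlgHom.fst O _ _
  let toY : AY →ₐ[O] Matrix (Fin dY) (Fin dY) (WRing O k g n) :=
    (AlgHom.fst O _ _).comp (AlgHom.snd O _ _)
  let toS : AY →ₐ[O] As := (AlgHom.snd O _ _).comp (AlgHom.snd O _ _)
  obtain ⟨Ff, qf, hqf, hqfv, hqfx⟩ := FY.exists_push toF Ψf zf (fun _ => rfl) fun _ => rfl
  obtain ⟨Fs, qs, hqs, hqsv, hqsx⟩ := FY.exists_push toS Ψs zs (fun _ => rfl) fun _ => rfl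
  let ev : ∀ j, Af →ₐ[O] Matrix (Fin (d j)) (Fin (d j)) (WRing O k g n) := fun j =>
    Pi.evalAlgHom O (fun j => Matrix (Fin (d j)) (Fin (d j)) (WRing O k g n)) j
  let πl : ∀ j, Ff.B →ₐ[O] Matrix (Fin (d j)) (Fin (d j)) (WRing O k g n) := fun j =>
    (ev j).comp Ff.val
  let πS : Fs.B →ₐ[O] Matrix (Fin dS) (Fin dS) (WRing O k g n) :=
    (AlgHom.fst O _ _).comp Fs.val
  let ptc : Fs.B →ₐ[O] On := (AlgHom.snd O _ _).comp Fs.val
  have hπlι : ∀ j t, πl j (Ff.ι t) = (C.lev j).mat χ t := fun j t =>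
    congrFun (Ff.val_ι t) j
  have hπSι : ∀ t, πS (Fs.ι t) = MS t := fun t => congrArg Prod.fst (Fs.val_ι t)
  have hptι : ∀ t, ptc (Fs.ι t) = ptn t := fun t => congrArg Prod.snd (Fs.val_ι t)
  -- intertwining
  let dblL := (dblAlg O (WRing O k g n) (d (Fin.last k))).comp ((ev (Fin.last k)).comp toF)
  have hpullY : ∀ y, toY (FY.val y) * G.pull = G.pull * dbl (πl (Fin.last k) (qf y)) := fun y => by
    have := FY.intertwine dblL toY G.pull (fun x => hP x) (fun c => by
      show Matrix.scalar (Fin dY) _ * _ = _ * dbl (Matrix.scalar _ _)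
      rw [dbl_scalar, scalar_mul_eq]) y
    rw [show πl (Fin.last k) (qf y) = toF (FY.val y) (Fin.last k) from congrFun (hqfv y) _]
    exact this
  have hpushY : ∀ y, dbl (πl (Fin.last k) (qf y)) * G.push = G.push * toY (FY.val y) := fun y => by
    have := FY.intertwine toY dblL G.push (fun x => hQ x) (fun c => by
      show dbl (Matrix.scalar _ _) * _ = _ * Matrix.scalar (Fin dY) _
      rw [dbl_scalar, scalar_mul_eq]) y
    rw [show πl (Fin.last k) (qf y) = toF (FY.val y) (Fin.last k) from congrFun (hqfv y) _]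
    exact this
  have hinclY : ∀ y, toY (FY.val y) * incl = incl * πS (qs y) := fun y => by
    have := FY.intertwine ((AlgHom.fst O _ _).comp toS) toY incl (fun x => hMS x)
      (fun c => scalar_mul_eq _ _) y
    rw [show πS (qs y) = (toS (FY.val y)).1 from congrArg Prod.fst (hqsv y)]
    exact this
  have hHcomm : ∀ y, πl (Fin.last k) y * H = H * πl (Fin.last k) y := fun y =>
    Ff.intertwine (ev (Fin.last k)) (ev (Fin.last k)) H (fun x => hHc x)
      (fun c => scalar_mul_eq _ _) y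
  -- the congruence ideal
  let J : Ideal Ff.B :=
    { carrier := {b | ∃ E, dbl (πl (Fin.last k) b) = G.push * G.pull * E}
      add_mem' := by
        rintro a b ⟨E, hE⟩ ⟨E', hE'⟩
        exact ⟨E + E', by rw [← dblAlg_apply (O := O), map_add, map_add, dblAlg_apply,
          dblAlg_apply, hE, hE', Matrix.mul_add]⟩
      zero_mem' := ⟨0, by rw [← dblAlg_apply (O := O), map_zero, map_zero, Matrix.mul_zero]⟩
      smul_mem' := by
        rintro c b ⟨E, hE⟩
        refine ⟨E * dbl (πl (Fin.last k) c), ?_⟩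
        rw [← Matrix.mul_assoc, ← hE, smul_eq_mul, mul_comm c b, ← dblAlg_apply (O := O), map_mul,
          map_mul, dblAlg_apply, dblAlg_apply] }
  have he : IsUnit (algebraMap O (WRing O k g n) (-(1 + (p : O)))) := by
    refine IsUnit.map _ (IsUnit.neg ?_)
    rw [← residue_ne_zero_iff_isUnit, map_add, map_one, (residue_eq_zero_iff _).2 hpO, add_zero]
    exact one_ne_zero
  have hJ : J ≠ ⊤ := fun e => by
    obtain ⟨E, hE⟩ := (Ideal.eq_top_iff_one J).1 e
    refine dbl_ne_push_mul_pull (hd _) G he hA hHd E ?_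
    rw [← hE, ← dblAlg_apply (O := O), map_one, map_one]
  haveI : Nontrivial (Ff.B ⧸ J) := Ideal.Quotient.nontrivial_iff.mpr hJ
  haveI : IsLocalRing (Ff.B ⧸ J) :=
    IsLocalRing.of_surjective' (Ideal.Quotient.mk J) Ideal.Quotient.mk_surjective
  haveI : IsLocalHom (Ideal.Quotient.mk J) :=
    IsLocalHom.of_surjective _ Ideal.Quotient.mk_surjective
  haveI : IsLocalHom (algebraMap O (Ff.B ⧸ J)) :=
    inferInstanceAs (IsLocalHom ((Ideal.Quotient.mk J).comp (algebraMap O Ff.B)))
  haveI : Finite (Ff.B ⧸ J) := Finite.of_surjective _ Ideal.Quotient.mk_surjective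
  let eJ : Ff.B →ₐ[O] Ff.B ⧸ J := Ideal.Quotient.mkₐ O J
  -- conditions at `p`
  have tanF := C.tanAt_flat_of_atP (ι := Ff.ι)
    (I := ⨅ j, RingHom.ker (C.lev j).act) (fun t ht => Ff.val_injective (by
      rw [Ff.val_ι, map_zero]
      funext j
      exact (C.lev j).mat_eq_zero χ (RingHom.mem_ker.mp (Ideal.mem_iInf.mp ht j)))) hflat
  let ι' : C.D.R →ₐ[O] Fs.B × (Ff.B ⧸ J) := Fs.ι.prod (eJ.comp Ff.ι)
  haveI : Nontrivial (Fs.B × (Ff.B ⧸ J)) := ⟨(0, 0), (1, 0), fun e =>
    zero_ne_one (congrArg Prod.fst e)⟩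
  have hstrict := hstr (RingHom.ker ι'.toRingHom) fun t ht hpt => by
    refine RingHom.mem_ker.mpr (Prod.ext ?_ ?_)
    · refine Fs.val_injective ((Fs.val_ι t).trans ((Prod.ext ?_ ?_).trans (map_zero Fs.val).symm))
      · show MS t = 0
        rw [hMS', ← Matrix.mul_one incl, ← hpi, ← Matrix.mul_assoc incl proj, hip,
          ← Matrix.mul_assoc (MY t), hnew t ht, Matrix.zero_mul, Matrix.mul_zero]
      · show ptn t = 0
        exact (congrArg (Ideal.Quotient.mk _) hpt).trans (map_zero _)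
    · refine Ideal.Quotient.eq_zero_iff_mem.mpr ?_
      show ∃ E, dbl (πl (Fin.last k) (Ff.ι t)) = _
      rw [hπlι]
      exact degP.exists_cong χ hres hχm hpO C.card hOpi hOpa G hpull hpush ht
  obtain ⟨Ls, hLs1, hLfs, tanS'⟩ := C.exists_tanAt_strict_of_atP (ι := ι')
    (fun t ht => RingHom.mem_ker.mp ht) h hstrict
  have tanS : TanAt p C.cd Fs.ι Ls := tanS'.comp (AlgHom.fst O Fs.B (Ff.B ⧸ J))
  have tanB : TanAt p C.cd (eJ.comp Ff.ι) Ls := tanS'.comp (AlgHom.snd O Fs.B (Ff.B ⧸ J))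
  -- the series
  obtain ⟨γs, hγs, hγsx⟩ := Fs.exists_series h hpSmin hmin hWmin hpl (C.condLift tanS)
    (C.bound Ls 1 s hLs1 rfl)
  obtain ⟨t0, γf, hγf, hγfx, hkill⟩ := exists_flat_generators_kill (ι := Ff.ι) eJ
    Ideal.Quotient.mk_surjective (fun _ => rfl) h hpSmin hmin hWmin hpl hs
    (C.bound _ 1 s (finrank_flatClasses_le h) rfl)
    (C.bound (Submodule.span (ZMod p) (flatClasses (p := p) r) ⊓ Ls) 0 (s - 1)
      (by rw [zero_mul, add_zero]; exact hLfs) (by omega))
    (C.condLift tanF) ((tanF.comp eJ).inf tanB) Ff.residue_surjective Ff.P Ff.P' Ff.inv Ff.norm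
    Ff.ext_dual Ff.x Ff.x_mem
    (fun i t a b => ⟨frameBase F i t a b, 1, by rw [map_one, one_mul]; exact Ff.coord i t a b⟩)
  choose yf hyf using fun t : Fin g => hqf (γf (MvPowerSeries.X (Sum.inr t)))
  choose ys hys using fun t : Fin g => hqs (γs (MvPowerSeries.X (Sum.inr t)))
  choose sub hsub using fun t : Fin g => hγf (qf (ys t))
  choose subS hsubS using fun t : Fin g => hγs (qs (yf t))
  have hyfm : ∀ t, IsNilpotent (yf t) := fun t => isNilpotent_of_mem_maximalIdeal
    ((mem_maximalIdeal _).2 fun hu => (mem_maximalIdeal _).1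
      (mem_maximalIdeal_of_series hγf (Sum.inr t)) (hyf t ▸ hu.map qf))
  have hysm : ∀ t, IsNilpotent (ys t) := fun t => isNilpotent_of_mem_maximalIdeal
    ((mem_maximalIdeal _).2 fun hu => (mem_maximalIdeal _).1
      (mem_maximalIdeal_of_series hγs (Sum.inr t)) (hys t ▸ hu.map qs))
  let cY : BVar k g → FY.B := Sum.elim FY.x (Sum.elim yf ys)
  have hcY : ∀ a, IsNilpotent (cY a) := by
    rintro (c | t | t)
    exacts [isNilpotent_of_mem_maximalIdeal (FY.x_mem c), hyfm t, hysm t]
  -- the point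
  choose u hu using fun a => Ideal.Quotient.mk_surjective (ptc (γs (MvPowerSeries.X a)))
  have hu' : ∀ f, Ideal.Quotient.mk (maximalIdeal O ^ (n + 1)) (evU n u f) = ptc (γs f) :=
    mk_evU hγs ptc u hu
  have hgenS : ∀ y, MS (C.f (C.gens y) - 1) = Matrix.scalar (Fin dS) (Xb (sl (Sum.inr y))) :=
    fun y => by
    rw [hMS', map_sub, map_one, show MY (C.f (C.gens y)) = Matrix.scalar _ (χ (C.gens y)) from
      Y.mat_f χ _, hχ, map_add, map_one, add_sub_cancel_left, scalar_mul_eq, ← Matrix.mul_assoc,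
      hpi, Matrix.one_mul]
  have hgenF : ∀ j y, (C.lev j).mat χ (C.f (C.gens y) - 1) =
      Matrix.scalar (Fin (d j)) (Xb (sl (Sum.inr y))) := fun j y => by
    rw [map_sub, map_one, (C.lev j).mat_f χ, hχ, map_add, map_one, add_sub_cancel_left]
  refine ⟨dS, hdS, t0, ⟨{
    ψ := fun j => polyHom (πl j) γf
    nilp := fun j a => polyHom_nilp (πl j) hγf a
    gen := ?_
    rel := fun j f hf => by
      rw [evT_eq (πl j) hγf,
        Ff.map_fpRel hγfx C.det hpl hF.q_eq C.tame_trace f hf, map_zero]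
    unr := ?_
    degen := Gc
    pull_comm := ?_
    push_comm := ?_
    adj := ?_
    new := ?_
    ψY := (toY.comp FY.val).comp (MvPolynomial.aeval cY)
    ψS := polyHom πS γs
    nilpY := ?_
    nilpS := fun a => polyHom_nilp πS hγs a
    relS := fun f hf => by
      rw [evT_eq πS hγs, Fs.map_fpRel hγsx C.det hpl hF.q_eq C.tame_trace f hf, map_zero]
    ptS := ?_
    sub := sub
    sub_mem := ?_
    subS := subS
    subS_mem := ?_
    degP := G
    incl := incl
    proj := proj
    proj_incl := hpi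
    incl_proj := hip
    push_incl := hQi
    pullY_place := fun c => ?_
    pullY_flat := fun t => ?_
    pullY_strict := fun t => ?_
    pushY_place := fun c => ?_
    pushY_flat := fun t => ?_
    pushY_strict := fun t => ?_
    inclY_place := fun c => ?_
    inclY_flat := fun t => ?_
    inclY_strict := fun t => ?_
    hM := H
    hM_comm := fun a => ?_
    hM_nilp := fun a b => hmax _ (hHd a b)
    adjP := hA
    cong := ?_ }⟩⟩
  -- generators
  · intro j i
    rcases hi : sl.symm i with c | y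
    · obtain ⟨b, hb⟩ := Ff.exists_val_eq_z c
      obtain ⟨f, hf⟩ := hγf b
      refine ⟨f, ?_⟩
      rw [evT_eq (πl j) hγf, hf]
      show Ff.val b j = _
      rw [hb, show i = sl (Sum.inl c) by rw [← hi, Equiv.apply_symm_apply]]
    · obtain ⟨f, hf⟩ := hγf (Ff.ι (C.f (C.gens y) - 1))
      refine ⟨f, ?_⟩
      rw [evT_eq (πl j) hγf, hf, hπlι, hgenF,
        show i = sl (Sum.inr y) by rw [← hi, Equiv.apply_symm_apply]]
  -- unramified
  · intro j i hji f hf
    rw [evT_eq (πl j) hγf]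
    exact Ff.map_fpUnr hγfx (ev j) i
      (fun a b => (C.lev j).mat_eq_zero χ (C.unr_lev j i hji a b)) f hf
  · intro i f
    rw [polyHom_apply, polyHom_apply]
    exact Ff.intertwine ((dblAlg O _ _).comp (ev i.castSucc)) (ev i.succ) (Gc i).pull
      (fun x => hGP i x) (fun c => by
        show Matrix.scalar _ _ * _ = _ * dbl (Matrix.scalar _ _)
        rw [dbl_scalar, scalar_mul_eq]) _
  · intro i f
    rw [polyHom_apply, polyHom_apply]
    exact Ff.intertwine (ev i.succ) ((dblAlg O _ _).comp (ev i.castSucc)) (Gc i).push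
      (fun x => hGQ i x) (fun c => by
        show dbl (Matrix.scalar _ _) * _ = _ * Matrix.scalar _ _
        rw [dbl_scalar, scalar_mul_eq]) _
  · intro i
    rw [evT_eq (πl i.castSucc) hγf, Ff.map_fpQuart hγfx, hF.q_eq, hπlι]
    exact hGA i
  · intro i
    rw [evT_eq (πl i.succ) hγf, Ff.map_fpQuart hγfx, hF.q_eq, hπlι]
    exact hGnew i (qr i) (C.quartic i)
  · intro a u' v'
    have hm := (mem_redIdeal_iff (O := O) (m := 3 * k + g) (k := n) (toY.comp FY.val).toRingHom).1
      (pow_mem_redIdeal_of_isNilpotent _ (hcY a)) u' v'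
    rw [map_pow] at hm
    rw [AlgHom.comp_apply, MvPolynomial.aeval_X]
    exact Ideal.pow_le_self one_ne_zero hm
  -- the point and the killer
  · refine
      { u := u
        u_mem := fun a => (mem_maximalIdeal _).2 fun hua => ?_
        u_rel := fun f hf => Ideal.Quotient.eq_zero_iff_mem.1 ?_
        u_st := fun i => Ideal.Quotient.eq_zero_iff_mem.1 ?_
        u_gen := fun i => ?_
        killer := ?_ }
    · obtain ⟨j, hj⟩ := (isNilpotent_map_X hγs a).map ptc
      have h1 := (hua.map (Ideal.Quotient.mk (maximalIdeal O ^ (n + 1)))).pow j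
      rw [hu, hj] at h1
      exact not_isUnit_zero h1
    · rw [hu', Fs.map_fpRel hγsx C.det hpl hF.q_eq C.tame_trace f hf, map_zero]
    · rw [hu', Fs.map_fpSt hγsx, hptι]
      show Ideal.Quotient.mk _ (C.pt _) = 0
      rw [map_sub, AlgHom.commutes, Algebra.algebraMap_self, RingHom.id_apply, C.pt_sign, hF.w_eq,
        hF.q_eq, sub_self, map_zero]
    · rcases hi : sl.symm i with c | y
      · obtain ⟨b, hb⟩ := Fs.exists_val_eq_z c
        obtain ⟨f, hf⟩ := hγs b
        refine ⟨f, ?_, Ideal.Quotient.eq_zero_iff_mem.1 ?_⟩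
        · rw [evT_eq πS hγs, hf]
          show (Fs.val b).1 = _
          rw [hb, show i = sl (Sum.inl c) by rw [← hi, Equiv.apply_symm_apply]]
        · rw [hu', hf]
          show (Fs.val b).2 = 0
          rw [hb]
      · obtain ⟨f, hf⟩ := hγs (Fs.ι (C.f (C.gens y) - 1))
        refine ⟨f, ?_, Ideal.Quotient.eq_zero_iff_mem.1 ?_⟩
        · rw [evT_eq πS hγs, hf, hπSι, hgenS,
            show i = sl (Sum.inr y) by rw [← hi, Equiv.apply_symm_apply]]
        · rw [hu', hf, hptι]
          show Ideal.Quotient.mk _ (C.pt _) = 0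
          rw [map_sub, map_one, C.pt_f, sub_self, map_zero]
    · obtain ⟨f, hf⟩ := hγs (Fs.ι κ)
      refine ⟨f, fun a b => ?_, Ideal.Quotient.eq_zero_iff_mem.1 ?_⟩
      · rw [evT_eq πS hγs, hf, hπSι, hMS', Matrix.mul_apply]
        refine Ideal.sum_mem _ fun c _ => Ideal.mul_mem_left _ _ ?_
        rw [Matrix.mul_apply]
        refine Ideal.sum_mem _ fun c' _ => Ideal.mul_mem_right _ _ ?_
        exact Y.mat_mem_of_act_mem_augPart χ _ (hχI _ fun l =>
          Ideal.mem_map_of_mem _ (Ideal.subset_span (Set.mem_range_self l))) hκY _ _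
      · rw [map_sub, hu', hf, hptι]
        show Ideal.Quotient.mk _ (C.pt κ) - _ = 0
        rw [hκ, sub_self]
  · intro t
    refine (mem_maximalIdeal _).2 fun hu1 => ?_
    have h1 := (MvPowerSeries.isUnit_iff_constantCoeff.2 hu1).map γf
    rw [hsub] at h1
    exact ((hysm t).map qf).not_isUnit h1
  · intro t
    refine (mem_maximalIdeal _).2 fun hu1 => ?_
    have h1 := (MvPowerSeries.isUnit_iff_constantCoeff.2 hu1).map γs
    rw [hsubS] at h1
    exact ((hyfm t).map qs).not_isUnit h1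
  · rw [AlgHom.comp_apply, MvPolynomial.aeval_X, polyHom_X, hγfx, ← hqfx]
    exact hpullY _
  · rw [AlgHom.comp_apply, MvPolynomial.aeval_X, polyHom_X, ← hyf]
    exact hpullY _
  · rw [AlgHom.comp_apply, MvPolynomial.aeval_X, evT_eq _ hγf, hsub]
    exact hpullY _
  · rw [AlgHom.comp_apply, MvPolynomial.aeval_X, polyHom_X, hγfx, ← hqfx]
    exact hpushY _
  · rw [AlgHom.comp_apply, MvPolynomial.aeval_X, polyHom_X, ← hyf]
    exact hpushY _
  · rw [AlgHom.comp_apply, MvPolynomial.aeval_X, evT_eq _ hγf, hsub]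
    exact hpushY _
  · rw [AlgHom.comp_apply, MvPolynomial.aeval_X, polyHom_X, hγsx, ← hqsx]
    exact hinclY _
  · rw [AlgHom.comp_apply, MvPolynomial.aeval_X, evT_eq _ hγs, hsubS]
    exact hinclY _
  · rw [AlgHom.comp_apply, MvPolynomial.aeval_X, polyHom_X, ← hys]
    exact hinclY _
  · rw [polyHom_X]
    exact hHcomm _
  · rw [polyHom_X]
    exact Ideal.Quotient.eq_zero_iff_mem.1 hkill

end FLTAgent.MLT

end
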