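import Fermat.Agent.MLT.Mk.Tower
import Fermat.Agent.MLT.Mk.Bridge

/-!
Area MLT, parcel LEVELMK: from data at all depths with bounded ranks to levels of constant ranks.
-/

set_option autoImplicit false
set_option linter.style.haveILetI false
set_option linter.unusedSectionVars false

noncomputable section

open IsLocalRing Matrix FLTAgent.LL FLTAgent.PT FLTAgent.PT.TW

namespace FLTAgent.MLT

/-- one of finitely many kinds occurs arbitrarily far -/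
theorem exists_cofinal {ι : Type*} [Finite ι] {P : ι → ℕ → Prop} (h : ∀ n, ∃ i, P i n) :
    ∃ i, ∀ n, ∃ n', n ≤ n' ∧ P i n' := by
  classical
  haveI := Fintype.ofFinite ι
  by_contra hc
  push Not at hc
  choose N hN using hc
  obtain ⟨i, hi⟩ := h (Finset.univ.sup N)
  exact hN i _ (Finset.le_sup (Finset.mem_univ i)) hi

variable {p : ℕ} [Fact p.Prime] {O : Type} [CommRing O] [IsDomain O] [IsDiscreteValuationRing O]
  [IsAdicComplete (maximalIdeal O) O] [Finite (ResidueField O)]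
  [Algebra (ZMod p) (ResidueField O)] {ρbar : ResidualGaloisRep (ResidueField O)}
  {r : GQ →* GL (Fin 2) (ResidueField O)} {Smin : Finset ℕ} {k : ℕ} {W : Fin k → Nat.Primes}
  {frob tame : Fin k → GQ} {w : Fin k → O}

/-- the levels of a chain -/
theorem exists_levelTowers (h : Setting p ρbar r) (hpSmin : p ∈ Smin)
    (hmin : ∀ q : ℕ, q.Prime → q ≠ p → (q ∈ Smin ↔ ¬ ρbar.IsUnramifiedAt q))
    (hWmin : ∀ i, (W i : ℕ) ∉ Smin) (hpl : CondPlaces p r W frob tame) {F : Fin k → FPlace O}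
    {U : Fin k → Matrix (Fin 2) (Fin 2) O} (hF : IsFraming r W frob w F U) {s bound : ℕ} {v : O}
    (hlev : ∀ n, ∃ d : Fin (k + 1) → ℕ, (∀ j, 0 < d j ∧ d j ≤ bound) ∧
      Nonempty (PatchTower p ρbar r Smin W frob tame w s d v n)) :
    ∃ d : Fin (k + 1) → ℕ, (∀ j, 0 < d j) ∧
      ∀ n, ∃ n', n ≤ n' ∧ Nonempty (LevelTower F (s + (k - 1)) d v n') := by
  obtain ⟨c, hc⟩ := exists_cofinal (ι := Fin (k + 1) → Fin (bound + 1))
    (P := fun c n => (∀ j, 0 < (c j : ℕ)) ∧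
      Nonempty (PatchTower p ρbar r Smin W frob tame w s (fun j => c j) v n)) fun n => by
    obtain ⟨d, hd, hP⟩ := hlev n
    exact ⟨fun j => ⟨d j, Nat.lt_succ_of_le (hd j).2⟩, fun j => (hd j).1, hP⟩
  obtain ⟨-, -, hpos, -⟩ := hc 0
  refine ⟨fun j => c j, hpos, fun n => ?_⟩
  obtain ⟨n', hn, -, ⟨P⟩⟩ := hc n
  exact ⟨n', hn, levelTower_of_patchTower h hpSmin hmin hWmin hpl hF hpos P⟩

/-- the levels of the step at `p` -/
theorem exists_bridgeLevels (h : Setting p ρbar r) (hpSmin : p ∈ Smin)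
    (hmin : ∀ q : ℕ, q.Prime → q ≠ p → (q ∈ Smin ↔ ¬ ρbar.IsUnramifiedAt q))
    (hWmin : ∀ i, (W i : ℕ) ∉ Smin) (hpl : CondPlaces p r W frob tame) {F : Fin k → FPlace O}
    {U : Fin k → Matrix (Fin 2) (Fin 2) O} (hF : IsFraming r W frob w F U) {s bound : ℕ}
    (hs : 0 < s) (hpO : (p : O) ∈ maximalIdeal O) {v : O}
    (hlev : ∀ n, ∃ (d : Fin (k + 1) → ℕ) (dY : ℕ), (∀ j, 0 < d j ∧ d j ≤ bound) ∧ dY ≤ bound ∧
      Nonempty (PatchBridge p ρbar r Smin W frob tame w s d dY v n)) :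
    ∃ (d : Fin (k + 1) → ℕ) (dY dS : ℕ) (t0 : Fin (s + (k - 1))) (e : O),
      (∀ j, 0 < d j) ∧ IsUnit e ∧
        ∀ n, ∃ n', n ≤ n' ∧ Nonempty (BridgeLevel F (s + (k - 1)) d dY dS t0 e v n') := by
  obtain ⟨c, hc⟩ := exists_cofinal
    (ι := (Fin (k + 1) → Fin (bound + 1)) × Fin (bound + 1) × Fin (bound + 1) ×
      Fin (s + (k - 1)))
    (P := fun c n => (∀ j, 0 < (c.1 j : ℕ)) ∧ Nonempty (BridgeLevel F (s + (k - 1)) (fun j => c.1 j)
      c.2.1 c.2.2.1 c.2.2.2 (-(1 + (p : O))) v n)) fun n => by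
    obtain ⟨d, dY, hd, hdY, ⟨P⟩⟩ := hlev n
    obtain ⟨dS, hdS, t0, hL⟩ :=
      bridgeLevel_of_patchBridge h hpSmin hmin hWmin hpl hF hs (fun j => (hd j).1) P
    exact ⟨(fun j => ⟨d j, Nat.lt_succ_of_le (hd j).2⟩, ⟨dY, Nat.lt_succ_of_le hdY⟩,
      ⟨dS, Nat.lt_succ_of_le (hdS.trans hdY)⟩, t0), fun j => (hd j).1, hL⟩
  obtain ⟨-, -, hpos, -⟩ := hc 0
  refine ⟨fun j => c.1 j, c.2.1, c.2.2.1, c.2.2.2, -(1 + (p : O)), hpos, ?_, fun n => ?_⟩
  · refine ((residue_ne_zero_iff_isUnit _).1 ?_).neg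
    rw [map_add, map_one, (residue_eq_zero_iff _).2 hpO, add_zero]
    exact one_ne_zero
  · obtain ⟨n', hn, -, hL⟩ := hc n
    exact ⟨n', hn, hL⟩

end FLTAgent.MLT

end
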