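import Fermat.Agent.MLT.Mk.Defs
import Fermat.Agent.LL.IotaFree

/-!
Area MLT, parcel LEVELMK: matrices of modules and degeneracy pairs at a character of the diamonds.

`R` is a local `O`-algebra with the residue field of `O`, `χ` a character trivial modulo `𝔪`.
-/

set_option autoImplicit false
set_option linter.style.haveILetI false
set_option linter.unusedSectionVars false

noncomputable section

set_option maxHeartbeats 1000000

open IsLocalRing Matrix FLTAgent.LL

namespace FLTAgent.MLT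

variable {O : Type} [CommRing O] [IsLocalRing O] {T : Type} [CommRing T] [Algebra O T] {Δ : Type}
  [CommGroup Δ] [Fintype Δ] {f : Δ →* T} {d dX dY : ℕ}
  {R : Type} [CommRing R] [Algebra O R] (χ : Δ →* R)

theorem DiaMod.commute_act (X : DiaMod (O := O) f d) (t : T) (u : Δ) :
    Commute (((X.act : T →* Module.End O X.V).comp f) u) (X.act t) :=
  (Commute.all (f u) t).map (X.act : T →* Module.End O X.V)

/-- the coefficient algebra in matrices at a character -/
def DiaMod.mat (X : DiaMod (O := O) f d) : T →ₐ[O] Matrix (Fin d) (Fin d) R :=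
  EvalBasis.evalHom X.bij χ X.act X.commute_act

/-- coordinates at a character -/
def DiaMod.pr (X : DiaMod (O := O) f d) : X.V →ₗ[O] (Fin d → R) := EvalBasis.proj X.bij χ

/-- coordinates of two copies -/
def DiaMod.pr2 (X : DiaMod (O := O) f d) (v : Fin 2 → X.V) : Fin 2 × Fin d → R :=
  fun a => X.pr χ (v a.1) a.2

theorem DiaMod.pr_act (X : DiaMod (O := O) f d) (t : T) (x : X.V) :
    X.pr χ (X.act t x) = X.mat χ t *ᵥ X.pr χ x :=
  EvalBasis.proj_apply_of_commute X.bij χ (X.commute_act t) x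

theorem DiaMod.pr_theta (X : DiaMod (O := O) f d) (u : Δ) (x : X.V) :
    X.pr χ (X.act (f u) x) = χ u • X.pr χ x :=
  EvalBasis.proj_theta X.bij χ u x

theorem DiaMod.pr_basis (X : DiaMod (O := O) f d) (j : Fin d) :
    X.pr χ (X.basis j) = Pi.single j 1 := by
  classical
  exact EvalBasis.proj_basis X.bij χ j

theorem DiaMod.mat_apply (X : DiaMod (O := O) f d) (t : T) (i j : Fin d) :
    X.mat χ t i j = X.pr χ (X.act t (X.basis j)) i := rfl

theorem DiaMod.mat_f (X : DiaMod (O := O) f d) (u : Δ) :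
    X.mat χ (f u) = Matrix.scalar (Fin d) (χ u) := by
  ext i j
  rw [X.mat_apply, X.pr_theta, X.pr_basis, Matrix.scalar_apply, Matrix.diagonal_apply,
    Pi.smul_apply, Pi.single_apply, smul_eq_mul]
  split_ifs <;> simp

theorem DiaMod.pr_mem_of_mem_augPart (X : DiaMod (O := O) f d) (J : Ideal R)
    (hJ : ∀ u, χ u - 1 ∈ J) {x : X.V} (hx : x ∈ X.augPart) : ∀ i, X.pr χ x i ∈ J := by
  refine Submodule.iSup_induction _ (motive := fun x => ∀ i, X.pr χ x i ∈ J) hx ?_ ?_ ?_
  · rintro u _ ⟨z, rfl⟩ i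
    rw [LinearMap.sub_apply, Module.End.one_apply, map_sub, X.pr_theta, Pi.sub_apply, Pi.smul_apply,
      smul_eq_mul, show χ u * X.pr χ z i - X.pr χ z i = (χ u - 1) * X.pr χ z i by ring]
    exact Ideal.mul_mem_right _ _ (hJ u)
  · intro i
    rw [map_zero]
    exact zero_mem J
  · intro a b ha hb i
    rw [map_add]
    exact add_mem (ha i) (hb i)

theorem DiaMod.mat_mem_of_act_mem_augPart (X : DiaMod (O := O) f d) (J : Ideal R)
    (hJ : ∀ u, χ u - 1 ∈ J) {t : T} (ht : ∀ x, X.act t x ∈ X.augPart) (i j : Fin d) :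
    X.mat χ t i j ∈ J :=
  X.pr_mem_of_mem_augPart χ J hJ (ht _) i

theorem DiaMod.mat_eq_zero (X : DiaMod (O := O) f d) {t : T} (ht : X.act t = 0) : X.mat χ t = 0 := by
  ext i j
  rw [X.mat_apply, ht, LinearMap.zero_apply, map_zero]
  rfl

/-- coordinates of a vector in the basis -/
theorem DiaMod.sum_coef (X : DiaMod (O := O) f d) (x : X.V) :
    ∑ i, ∑ u, EvalBasis.coef X.bij x i u • X.act (f u) (X.basis i) = x :=
  EvalBasis.combo_coef X.bij x

/-- the matrix of a map commuting with the diamonds -/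
theorem DiaMod.pr_map (X : DiaMod (O := O) f dX) (Y : DiaMod (O := O) f dY) (g : X.V →ₗ[O] Y.V)
    (hg : ∀ u x, g (X.act (f u) x) = Y.act (f u) (g x)) (x : X.V) (i : Fin dY) :
    Y.pr χ (g x) i = ∑ j, Y.pr χ (g (X.basis j)) i * X.pr χ x j := by
  conv_lhs => rw [← X.sum_coef x]
  simp only [map_sum, map_smul, hg, Finset.sum_apply, Pi.smul_apply, DiaMod.pr_theta, smul_eq_mul]
  refine Finset.sum_congr rfl fun j _ => ?_
  rw [show X.pr χ x j = ∑ u, EvalBasis.coef X.bij x j u • χ u from rfl, Finset.mul_sum]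
  refine Finset.sum_congr rfl fun u _ => ?_
  rw [mul_smul_comm, mul_comm]

/-- the matrix of an endomorphism -/
def DiaMod.matE (X : DiaMod (O := O) f d) (g : Module.End O X.V) : Matrix (Fin d) (Fin d) R :=
  EvalBasis.matOf X.bij χ g

theorem DiaMod.pr_matE (X : DiaMod (O := O) f d) {g : Module.End O X.V}
    (hg : ∀ u, Commute (X.act (f u)) g) (x : X.V) :
    X.pr χ (g x) = X.matE χ g *ᵥ X.pr χ x :=
  EvalBasis.proj_apply_of_commute X.bij χ hg x

theorem DiaMod.matE_mul (X : DiaMod (O := O) f d) {g g' : Module.End O X.V}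
    (hg : ∀ u, Commute (X.act (f u)) g) : X.matE χ (g * g') = X.matE χ g * X.matE χ g' := by
  ext i j
  show X.pr χ (g (g' (X.basis j))) i = _
  rw [X.pr_matE χ hg]
  rfl

theorem DiaMod.matE_eq (X : DiaMod (O := O) f d) {g : Module.End O X.V}
    {H : Matrix (Fin d) (Fin d) R} (hH : ∀ x, X.pr χ (g x) = H *ᵥ X.pr χ x) : X.matE χ g = H := by
  ext i j
  show X.pr χ (g (X.basis j)) i = _
  rw [hH, X.pr_basis, Matrix.mulVec_single_one]
  rfl

/-- an endomorphism commuting with the coefficient algebra -/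
theorem DiaMod.exists_mat_end (X : DiaMod (O := O) f d) (h : Module.End O X.V)
    (hh : ∀ t, Commute h (X.act t)) :
    ∃ H : Matrix (Fin d) (Fin d) R, (∀ x, X.pr χ (h x) = H *ᵥ X.pr χ x) ∧
      (∀ t, X.mat χ t * H = H * X.mat χ t) ∧
      ∀ t, h = X.act t → H = X.mat χ t := by
  refine ⟨X.matE χ h, X.pr_matE χ fun u => (hh _).symm, fun t => ?_, fun t e => by rw [e]; rfl⟩
  show X.matE χ (X.act t) * X.matE χ h = X.matE χ h * X.matE χ (X.act t)
  rw [← X.matE_mul χ fun u => X.commute_act t u, ← X.matE_mul χ fun u => (hh _).symm, (hh t).eq]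

variable [IsLocalRing R] (hres : Function.Surjective (residue R ∘ algebraMap O R))
  (hχ : ∀ u, χ u - 1 ∈ maximalIdeal R)

include hres in
theorem algebraMap_mem_maximal_iff (c : O) :
    algebraMap O R c ∈ maximalIdeal R ↔ c ∈ maximalIdeal O := by
  have hle : (maximalIdeal R).comap (algebraMap O R) = maximalIdeal O := by
    haveI : ((maximalIdeal R).comap (algebraMap O R)).IsMaximal := by
      have e : (maximalIdeal R).comap (algebraMap O R) =
          RingHom.ker ((residue R).comp (algebraMap O R)) := by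
        ext x; simp [RingHom.mem_ker, residue_eq_zero_iff]
      rw [e]
      exact RingHom.ker_isMaximal_of_surjective _ hres
    exact IsLocalRing.eq_maximalIdeal inferInstance
  rw [← hle, Ideal.mem_comap]

include hres hχ

theorem DiaMod.small_iff (X : DiaMod (O := O) f d) (x : X.V) :
    x ∈ X.small ↔ ∀ i, X.pr χ x i ∈ maximalIdeal R := by
  constructor
  · intro hx i
    obtain ⟨a, ha, b, hb, rfl⟩ := Submodule.mem_sup.1 hx
    rw [map_add]
    refine add_mem (X.pr_mem_of_mem_augPart χ _ hχ ha i) ?_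
    refine Submodule.smul_induction_on hb (fun c hc y _ => ?_) (fun y z hy hz => ?_)
    · rw [map_smul, Pi.smul_apply, Algebra.smul_def]
      exact Ideal.mul_mem_right _ _ ((algebraMap_mem_maximal_iff hres c).2 hc)
    · rw [map_add]
      exact add_mem hy hz
  · intro hx
    have key : ∀ i, (∑ u, EvalBasis.coef X.bij x i u) ∈ maximalIdeal O := fun i => by
      rw [← algebraMap_mem_maximal_iff hres, map_sum,
        show (∑ u, algebraMap O R (EvalBasis.coef X.bij x i u)) = X.pr χ x i -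
          ∑ u, algebraMap O R (EvalBasis.coef X.bij x i u) * (χ u - 1) by
          rw [show X.pr χ x i = ∑ u, EvalBasis.coef X.bij x i u • χ u from rfl,
            ← Finset.sum_sub_distrib]
          exact Finset.sum_congr rfl fun u _ => by rw [Algebra.smul_def]; ring]
      exact sub_mem (hx i) (Ideal.sum_mem _ fun u _ => Ideal.mul_mem_left _ _ (hχ u))
    rw [← X.sum_coef x]
    refine Submodule.sum_mem _ fun i _ => ?_
    rw [show ∑ u, EvalBasis.coef X.bij x i u • X.act (f u) (X.basis i) =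
        ∑ u, EvalBasis.coef X.bij x i u • (X.act (f u) - 1) (X.basis i) +
          (∑ u, EvalBasis.coef X.bij x i u) • X.basis i by
      simp [LinearMap.sub_apply, smul_sub, Finset.sum_smul]]
    refine add_mem (Submodule.sum_mem _ fun u _ => Submodule.smul_mem _ _ ?_)
      (Submodule.mem_sup_right (Submodule.smul_mem_smul (key i) Submodule.mem_top))
    exact Submodule.mem_sup_left (Submodule.mem_iSup_of_mem u ⟨_, rfl⟩)

/-- nilpotency on coinvariants modulo `ϖ` -/
theorem DiaMod.mat_pow_mem (X : DiaMod (O := O) f d) {h : Module.End O X.V}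
    {H : Matrix (Fin d) (Fin d) R} (hH : ∀ x, X.pr χ (h x) = H *ᵥ X.pr χ x)
    (hsmall : ∃ N : ℕ, ∀ x, (h ^ N) x ∈ X.small) : ∀ i j, (H ^ d) i j ∈ maximalIdeal R := by
  obtain ⟨N, hN⟩ := hsmall
  have hpow : ∀ (e : ℕ) x, X.pr χ ((h ^ e) x) = (H ^ e) *ᵥ X.pr χ x := by
    intro e
    induction e with
    | zero => intro x; simp
    | succ e ih =>
      intro x
      rw [pow_succ, Module.End.mul_apply, ih, hH, Matrix.mulVec_mulVec, ← pow_succ]
  set A := (residue R).mapMatrix H with hA
  have hA0 : A ^ N = 0 := by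
    rw [hA, ← map_pow]
    ext i j
    have := (X.small_iff χ hres hχ _).1 (hN (X.basis j)) i
    rw [hpow, X.pr_basis, Matrix.mulVec_single_one] at this
    exact (residue_eq_zero_iff _).2 this
  have hAd : A ^ d = 0 := by
    have h1 : A.charpoly = Polynomial.X ^ d := by
      have h2 := Matrix.isNilpotent_charpoly_sub_pow_of_isNilpotent (⟨N, hA0⟩ : IsNilpotent A)
      rw [isNilpotent_iff_eq_zero, sub_eq_zero, Fintype.card_fin] at h2
      exact h2
    have h3 := Matrix.aeval_self_charpoly A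
    rwa [h1, map_pow, Polynomial.aeval_X] at h3
  intro i j
  rw [hA, ← map_pow] at hAd
  exact (residue_eq_zero_iff _).1 (congrFun (congrFun hAd i) j)

omit [IsLocalRing R] hres hχ in
theorem DiaMod.pr2_single (X : DiaMod (O := O) f d) (a : Fin 2) (j : Fin d) :
    X.pr2 χ (Pi.single a (X.basis j)) = Pi.single (a, j) 1 := by
  funext ⟨b, i⟩
  show X.pr χ ((Pi.single a (X.basis j) : Fin 2 → X.V) b) i = _
  by_cases hb : b = a
  · subst hb
    rw [Pi.single_eq_same, X.pr_basis]
    simp [Pi.single_apply]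
  · rw [Pi.single_eq_of_ne hb, map_zero, Pi.single_eq_of_ne (by simp [hb])]
    rfl

omit [IsLocalRing R] hres hχ in
theorem DiaDegen.single_act {X : DiaMod (O := O) f dX} (t : T) (a : Fin 2) (x : X.V) :
    twoEnd (X.act t) (Pi.single a x) = Pi.single a (X.act t x) := by
  funext b
  show X.act t ((Pi.single a x : Fin 2 → X.V) b) = _
  by_cases hb : b = a
  · subst hb; simp
  · simp [Pi.single_eq_of_ne hb]

/-- the matrices of a degeneracy pair -/
theorem DiaDegen.exists_degen {X : DiaMod (O := O) f dX} {Y : DiaMod (O := O) f dY}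
    {h : Module.End O X.V} {e : O} (D : DiaDegen X Y h e) {H : Matrix (Fin dX) (Fin dX) R}
    (hH : ∀ x, X.pr χ (h x) = H *ᵥ X.pr χ x) :
    ∃ G : Degen R dX dY,
      (∀ t, Y.mat χ t * G.pull = G.pull * dbl (X.mat χ t)) ∧
      (∀ t, dbl (X.mat χ t) * G.push = G.push * Y.mat χ t) ∧
      G.IsAdj H (algebraMap O R e) ∧
      (∀ v, Y.pr χ (D.pull v) = G.pull *ᵥ X.pr2 χ v) ∧
      (∀ y, X.pr2 χ (D.push y) = G.push *ᵥ Y.pr χ y) ∧
      ∀ t, (∀ y, D.push y = 0 → Y.act t y = 0) →
        Y.mat χ t * (1 - G.sect * G.push) = 0 := by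
  classical
  let P : Matrix (Fin dY) (Fin 2 × Fin dX) R :=
    Matrix.of fun i a => Y.pr χ (D.pull (Pi.single a.1 (X.basis a.2))) i
  let Q : Matrix (Fin 2 × Fin dX) (Fin dY) R :=
    Matrix.of fun a j => X.pr χ (D.push (Y.basis j) a.1) a.2
  let Ad : Matrix (Fin 2 × Fin dX) (Fin 2 × Fin dX) R :=
    Matrix.of fun a b => X.pr χ (D.adj (Pi.single b.1 (X.basis b.2)) a.1) a.2
  choose y hy using fun a : Fin 2 × Fin dX => D.push_surj (Pi.single a.1 (X.basis a.2))
  let S : Matrix (Fin dY) (Fin 2 × Fin dX) R := Matrix.of fun i a => Y.pr χ (y a) i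
  have hPv : ∀ v, Y.pr χ (D.pull v) = P *ᵥ X.pr2 χ v := by
    intro v
    funext i
    conv_lhs => rw [← Finset.univ_sum_single v]
    rw [map_sum, map_sum, Finset.sum_apply, Matrix.mulVec, dotProduct, Fintype.sum_prod_type]
    refine Finset.sum_congr rfl fun a _ => ?_
    exact X.pr_map χ Y (D.pull ∘ₗ LinearMap.single O (fun _ => X.V) a) (fun u x => by
      simp only [LinearMap.comp_apply, LinearMap.coe_single]
      rw [← DiaDegen.single_act, D.pull_act]) (v a) i
  have hQy : ∀ z, X.pr2 χ (D.push z) = Q *ᵥ Y.pr χ z := by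
    intro z
    funext a
    exact Y.pr_map χ X (LinearMap.proj a.1 ∘ₗ D.push) (fun u x => by
      simp only [LinearMap.comp_apply, D.push_act]; rfl) z a.2
  have hAv : ∀ v, X.pr2 χ (D.adj v) = Ad *ᵥ X.pr2 χ v := by
    intro v
    funext a
    show X.pr χ (D.adj v a.1) a.2 = _
    conv_lhs => rw [← Finset.univ_sum_single v]
    rw [map_sum, Finset.sum_apply, map_sum, Finset.sum_apply, Matrix.mulVec, dotProduct,
      Fintype.sum_prod_type]
    refine Finset.sum_congr rfl fun b _ => ?_
    exact X.pr_map χ X (LinearMap.proj a.1 ∘ₗ D.adj ∘ₗ LinearMap.single O (fun _ => X.V) b)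
      (fun u x => by
        simp only [LinearMap.comp_apply, LinearMap.coe_single, LinearMap.proj_apply]
        rw [← DiaDegen.single_act, ← Module.End.mul_apply, (D.adj_act _).eq]
        rfl) (v b) a.2
  have hH2 : ∀ v, X.pr2 χ (twoEnd h v) = dbl H *ᵥ X.pr2 χ v := by
    intro v
    funext a
    show X.pr χ (h (v a.1)) a.2 = _
    rw [hH, Matrix.mulVec, Matrix.mulVec, dotProduct, dotProduct, Fintype.sum_prod_type]
    simp [dbl, kroneckerMap_apply, Matrix.one_apply, DiaMod.pr2]
  have hext : ∀ {n : ℕ} (A B : Matrix (Fin n) (Fin 2 × Fin dX) R),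
      (∀ v, A *ᵥ X.pr2 χ v = B *ᵥ X.pr2 χ v) → A = B := fun A B hAB =>
    Matrix.ext_of_mulVec_single fun a => by rw [← X.pr2_single χ]; exact hAB _
  have hext2 : ∀ (A B : Matrix (Fin 2 × Fin dX) (Fin 2 × Fin dX) R),
      (∀ v, A *ᵥ X.pr2 χ v = B *ᵥ X.pr2 χ v) → A = B := fun A B hAB =>
    Matrix.ext_of_mulVec_single fun a => by rw [← X.pr2_single χ]; exact hAB _
  have hextY : ∀ {ι : Type} (A B : Matrix ι (Fin dY) R),
      (∀ z, A *ᵥ Y.pr χ z = B *ᵥ Y.pr χ z) → A = B := fun A B hAB =>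
    Matrix.ext_of_mulVec_single fun a => by rw [← Y.pr_basis χ]; exact hAB _
  have hPmod : Function.Injective (P.map (residue R)).mulVec := by
    refine (LinearMap.ker_eq_bot (f := Matrix.mulVecLin (P.map (residue R)))).1
      (LinearMap.ker_eq_bot'.2 fun w hw => ?_)
    choose c hc using fun a => hres (w a)
    let v : Fin 2 → X.V := fun a => ∑ j, c (a, j) • X.basis j
    have hv : X.pr2 χ v = fun a => algebraMap O R (c a) := by
      funext ⟨a, i⟩
      simp [v, DiaMod.pr2, map_sum, Finset.sum_apply, X.pr_basis, Pi.single_apply, Algebra.smul_def]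
    have hsm : D.pull v ∈ Y.small := by
      refine (Y.small_iff χ hres hχ _).2 fun i => ?_
      rw [hPv, hv, ← residue_eq_zero_iff, RingHom.map_mulVec,
        show residue R ∘ (fun a => algebraMap O R (c a)) = w from funext hc]
      exact congrFun hw i
    funext a
    have := (X.small_iff χ hres hχ _).1 (D.pull_small v hsm a.1) a.2
    rw [show X.pr χ (v a.1) a.2 = X.pr2 χ v a from rfl, hv] at this
    rw [← hc a]
    exact (residue_eq_zero_iff _).2 this
  obtain ⟨g, hg⟩ := LinearMap.exists_leftInverse_of_injective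
    (Matrix.mulVecLin (P.map (residue R))) (LinearMap.ker_eq_bot.2 hPmod)
  choose L hL using fun a i => residue_surjective (R := R) (LinearMap.toMatrix' g a i)
  have hLP : IsUnit (Matrix.of L * P).det := by
    rw [← residue_ne_zero_iff_isUnit, RingHom.map_det, RingHom.mapMatrix_apply, Matrix.map_mul,
      show (Matrix.of L).map (residue R) = LinearMap.toMatrix' g from
        Matrix.ext fun a i => hL a i,
      show P.map (residue R) = LinearMap.toMatrix' (Matrix.mulVecLin (P.map (residue R))) from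
        (LinearMap.toMatrix'_toLin' _).symm,
      ← LinearMap.toMatrix'_comp, hg, LinearMap.toMatrix'_id, Matrix.det_one]
    exact one_ne_zero
  have hSv : ∀ v, ∃ z, D.push z = v ∧ Y.pr χ z = S *ᵥ X.pr2 χ v := by
    intro v
    refine ⟨∑ a : Fin 2 × Fin dX, ∑ u, EvalBasis.coef X.bij (v a.1) a.2 u • Y.act (f u) (y a),
      ?_, ?_⟩
    · simp only [map_sum, map_smul, D.push_act, hy, DiaDegen.single_act, Fintype.sum_prod_type]
      conv_rhs => rw [← Finset.univ_sum_single v]
      refine Finset.sum_congr rfl fun a _ => ?_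
      conv_rhs => rw [← X.sum_coef (v a)]
      simp only [← LinearMap.coe_single O (fun _ : Fin 2 => X.V) a, map_sum,
        map_smul]
    · funext i
      simp only [map_sum, map_smul, Finset.sum_apply, Pi.smul_apply, DiaMod.pr_theta, smul_eq_mul,
        Matrix.mulVec, dotProduct]
      refine Finset.sum_congr rfl fun a _ => ?_
      show _ = Y.pr χ (y a) i * X.pr χ (v a.1) a.2
      rw [show X.pr χ (v a.1) a.2 = ∑ u, EvalBasis.coef X.bij (v a.1) a.2 u • χ u from rfl,
        Finset.mul_sum]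
      exact Finset.sum_congr rfl fun u _ => by rw [mul_smul_comm, mul_comm]
  have hQS : Q * S = 1 := by
    refine hext2 _ _ fun v => ?_
    obtain ⟨z, hz, hzS⟩ := hSv v
    rw [← Matrix.mulVec_mulVec, ← hzS, ← hQy, hz, Matrix.one_mulVec]
  refine ⟨⟨P, Q, (Matrix.of L * P)⁻¹ * Matrix.of L, S, Ad,
    by rw [Matrix.mul_assoc, Matrix.nonsing_inv_mul _ hLP], hQS⟩, fun t => ?_, fun t => ?_,
    ⟨?_, ?_, ?_⟩, hPv, hQy, fun t ht => ?_⟩
  · refine hext _ _ fun v => ?_
    rw [← Matrix.mulVec_mulVec, ← hPv, ← Y.pr_act, ← D.pull_act, hPv, ← Matrix.mulVec_mulVec]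
    congr 1
    funext a
    show X.pr χ (X.act t (v a.1)) a.2 = _
    rw [X.pr_act, Matrix.mulVec, Matrix.mulVec, dotProduct, dotProduct, Fintype.sum_prod_type]
    simp [dbl, kroneckerMap_apply, Matrix.one_apply, DiaMod.pr2]
  · refine hextY _ _ fun z => ?_
    rw [← Matrix.mulVec_mulVec, ← hQy, ← Matrix.mulVec_mulVec, ← Y.pr_act, ← hQy, D.push_act]
    funext a
    show _ = X.pr χ (X.act t (D.push z a.1)) a.2
    rw [X.pr_act, Matrix.mulVec, Matrix.mulVec, dotProduct, dotProduct, Fintype.sum_prod_type]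
    simp [dbl, kroneckerMap_apply, Matrix.one_apply, DiaMod.pr2]
  · refine hext2 _ _ fun v => ?_
    show (Ad * (Q * P)) *ᵥ _ = _
    rw [← hH2, ← D.adj_mul, hAv, hQy, hPv, Matrix.mulVec_mulVec, Matrix.mulVec_mulVec,
      ← Matrix.mul_assoc]
  · refine hext2 _ _ fun v => ?_
    rw [← hH2, ← D.mul_adj, hQy, hPv, hAv, Matrix.mulVec_mulVec, Matrix.mulVec_mulVec]
  · intro a b
    show X.pr χ (D.adj (Pi.single 0 (X.basis b)) 0) a = _
    rw [D.adj_corner, map_smul, Pi.smul_apply, X.pr_basis, Algebra.smul_def, Pi.single_apply]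
    split_ifs <;> simp
  · refine hextY _ _ fun z => ?_
    obtain ⟨z', hz', hzS⟩ := hSv (D.push z)
    rw [Matrix.zero_mulVec, ← Matrix.mulVec_mulVec, Matrix.sub_mulVec, Matrix.one_mulVec,
      ← Matrix.mulVec_mulVec, ← hQy, ← hzS, ← map_sub, ← Y.pr_act,
      ht (z - z') (by rw [map_sub, hz', sub_self]), map_zero]

omit [IsLocalRing R] hres hχ in
theorem DiaMod.lift_pr (X : DiaMod (O := O) f d) (x : X.V) (i : Fin d) :
    MonoidAlgebra.lift O R Δ χ (X.pr (MonoidAlgebra.of O Δ) x i) = X.pr χ x i := by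
  show MonoidAlgebra.lift O R Δ χ
    (∑ u, EvalBasis.coef X.bij x i u • MonoidAlgebra.of O Δ u) = _
  simp only [map_sum, map_smul, MonoidAlgebra.lift_of]
  rfl

omit [IsLocalRing R] hres hχ in
theorem DiaMod.exists_mul_eq_smul [IsDomain O] (X : DiaMod (O := O) f d) {h : Module.End O X.V}
    (hinj : Function.Injective h) :
    ∃ (c : O) (h' : Module.End O X.V), c ≠ 0 ∧ h * h' = c • 1 ∧
      ∀ g, Commute g h → Commute g h' := by
  classical
  let b : Module.Basis (Fin d × Δ) O X.V := Module.Basis.ofEquivFun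
    ((LinearEquiv.ofBijective _ X.bij).symm.trans (LinearEquiv.curry O O (Fin d) Δ).symm)
  let M := LinearMap.toMatrix b b h
  have hc : M.det ≠ 0 := by
    intro h0
    obtain ⟨v, hv, hMv⟩ := Matrix.exists_mulVec_eq_zero_iff.2 h0
    refine hv ?_
    have h1 : Matrix.toLin b b M (b.equivFun.symm v) = 0 := by
      rw [Matrix.toLin_apply,
        show (b.repr (b.equivFun.symm v) : Fin d × Δ → O) = v from b.equivFun.apply_symm_apply v,
        hMv]
      simp
    rw [Matrix.toLin_toMatrix] at h1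
    exact b.equivFun.symm.map_eq_zero_iff.1 (hinj (h1.trans (map_zero h).symm))
  have hh' : h * Matrix.toLin b b M.adjugate = M.det • 1 := by
    apply (LinearMap.toMatrix b b).injective
    rw [LinearMap.toMatrix_mul, LinearMap.toMatrix_toLin, map_smul, LinearMap.toMatrix_one,
      Matrix.mul_adjugate]
  refine ⟨M.det, _, hc, hh', fun g hg => LinearMap.ext fun x => hinj ?_⟩
  have e1 : ∀ y, h (Matrix.toLin b b M.adjugate y) = M.det • y := fun y =>
    LinearMap.congr_fun hh' y
  have e2 : ∀ y, g (h y) = h (g y) := fun y => LinearMap.congr_fun hg.eq y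
  rw [Module.End.mul_apply, Module.End.mul_apply, e1, ← e2, e1, map_smul]

/-- what kills the kernel of the pushes is divisible by `push ∘ pull` on two copies -/
theorem DiaDegen.exists_cong [IsDomain O] {X : DiaMod (O := O) f dX}
    {Y : DiaMod (O := O) f dY} {h : Module.End O X.V} {e : O} (D : DiaDegen X Y h e)
    {p : ℕ} [Fact p.Prime] (hpO : (p : O) ∈ maximalIdeal O) (hcard : ∃ a, Fintype.card Δ = p ^ a)
    (hinj : Function.Injective h) (hhact : ∀ t, Commute h (X.act t)) (G : Degen R dX dY)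
    (hpull : ∀ v, Y.pr χ (D.pull v) = G.pull *ᵥ X.pr2 χ v)
    (hpush : ∀ y, X.pr2 χ (D.push y) = G.push *ᵥ Y.pr χ y) {t : T}
    (ht : ∀ y, D.push y = 0 → Y.act t y = 0) :
    ∃ E, dbl (X.mat χ t) = G.push * G.pull * E := by
  classical
  let Λ := MonoidAlgebra O Δ
  have haug : ∀ r : Λ, IsUnit r ↔ IsUnit (IotaFree.aug O Δ r) := fun r =>
    ⟨fun hr => hr.map _, IotaFree.isUnit_of_aug hpO hcard⟩
  haveI : IsLocalRing Λ := IsLocalRing.of_isUnit_or_isUnit_one_sub_self fun r => by
    rw [haug, haug (1 - r), map_sub, map_one]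
    exact IsLocalRing.isUnit_or_isUnit_one_sub_self _
  have hmem : ∀ r : Λ, IotaFree.aug O Δ r = 0 → r ∈ maximalIdeal Λ := fun r hr => by
    rw [mem_maximalIdeal, mem_nonunits_iff, haug, hr]
    exact not_isUnit_zero
  have hresΛ : Function.Surjective (residue Λ ∘ algebraMap O Λ) := by
    intro x
    obtain ⟨r, rfl⟩ := residue_surjective x
    refine ⟨IotaFree.aug O Δ r, ?_⟩
    rw [Function.comp_apply, ← sub_eq_zero, ← map_sub, residue_eq_zero_iff]
    exact hmem _ (by rw [map_sub, AlgHom.commutes]; simp)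
  let χ₀ : Δ →* Λ := MonoidAlgebra.of O Δ
  have hχΛ : ∀ u, χ₀ u - 1 ∈ maximalIdeal Λ := fun u =>
    hmem _ (by rw [map_sub, map_one, IotaFree.aug_of, sub_self])
  obtain ⟨H, hH, -, -⟩ := X.exists_mat_end χ₀ h hhact
  obtain ⟨G₀, hG1, hG2, ⟨-, hG3, -⟩, hG4, hG5, hG6⟩ := D.exists_degen χ₀ hresΛ hχΛ hH
  obtain ⟨c, h', hc, hh', hcomm⟩ := X.exists_mul_eq_smul hinj
  have hHH : H * X.matE χ₀ h' = algebraMap O (Matrix (Fin dX) (Fin dX) Λ) c := by
    rw [← X.matE_eq χ₀ hH, ← X.matE_mul χ₀ fun u => (hhact _).symm, hh',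
      ← X.mat χ₀ |>.commutes c]
    show _ = X.matE χ₀ (X.act (algebraMap O T c))
    rw [AlgHom.commutes, Algebra.algebraMap_eq_smul_one]
  have hzero : Y.mat χ₀ t = Y.mat χ₀ t * G₀.sect * G₀.push := by
    rw [← sub_eq_zero, Matrix.mul_assoc, ← hG6 t ht, Matrix.mul_sub, Matrix.mul_one]
  let F := Y.mat χ₀ t * G₀.sect
  have hF : G₀.push * F = dbl (X.mat χ₀ t) := by
    rw [← Matrix.mul_assoc, ← hG2, Matrix.mul_assoc, G₀.push_sect, Matrix.mul_one]
  have hFH : F * dbl H = G₀.pull * (dbl (X.mat χ₀ t) * G₀.adj) := by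
    rw [← hG3, ← Matrix.mul_assoc, ← Matrix.mul_assoc, ← hzero, hG1, Matrix.mul_assoc]
  have hdd : dbl H * dbl (X.matE χ₀ h') = algebraMap O (Matrix _ _ Λ) c := by
    rw [dbl, dbl, ← Matrix.mul_kronecker_mul, hHH, one_mul, Algebra.algebraMap_eq_smul_one,
      Matrix.kronecker_smul, Matrix.one_kronecker_one, ← Algebra.algebraMap_eq_smul_one]
  have hFP : F = G₀.pull * (G₀.retr * F) := by
    have e : c • (F - G₀.pull * (G₀.retr * F)) = 0 := by
      have e1 : c • F = G₀.pull * (dbl (X.mat χ₀ t) * G₀.adj * dbl (X.matE χ₀ h')) := by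
        rw [← Matrix.mul_assoc, ← hFH, Matrix.mul_assoc, hdd, Algebra.algebraMap_eq_smul_one,
          Matrix.mul_smul, Matrix.mul_one]
      rw [smul_sub, show c • (G₀.pull * (G₀.retr * F)) = G₀.pull * (G₀.retr * (c • F)) by
          rw [Matrix.mul_smul G₀.retr c F, Matrix.mul_smul G₀.pull], e1,
        ← Matrix.mul_assoc G₀.retr, G₀.retr_pull, Matrix.one_mul, sub_self]
    rw [← sub_eq_zero]
    refine Matrix.ext fun i a => MonoidAlgebra.ext (Finsupp.ext fun u => ?_)
    have := congrArg (fun m : Λ => m.coeff u) (congrFun (congrFun e i) a)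
    simp only [Matrix.smul_apply, Matrix.zero_apply, MonoidAlgebra.coeff_zero,
      Finsupp.zero_apply] at this ⊢
    exact (mul_eq_zero.1 this).resolve_left hc
  let φ : Λ →ₐ[O] R := MonoidAlgebra.lift O R Δ χ
  have hP : G.pull = G₀.pull.map φ := by
    ext i a
    have e := congrFun (hpull (Pi.single a.1 (X.basis a.2))) i
    have e₀ := congrArg φ (congrFun (hG4 (Pi.single a.1 (X.basis a.2))) i)
    rw [X.pr2_single χ, Matrix.mulVec_single_one] at e
    rw [X.pr2_single χ₀, Matrix.mulVec_single_one] at e₀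
    exact e.symm.trans ((Y.lift_pr χ _ _).symm.trans e₀)
  have hQ : G.push = G₀.push.map φ := by
    ext a j
    have e := congrFun (hpush (Y.basis j)) a
    have e₀ := congrArg φ (congrFun (hG5 (Y.basis j)) a)
    rw [Y.pr_basis χ, Matrix.mulVec_single_one] at e
    rw [Y.pr_basis χ₀, Matrix.mulVec_single_one] at e₀
    exact e.symm.trans ((X.lift_pr χ _ _).symm.trans e₀)
  refine ⟨(G₀.retr * F).map φ, ?_⟩
  rw [hP, hQ, ← Matrix.map_mul, ← Matrix.map_mul, Matrix.mul_assoc, ← hFP, hF]
  ext a b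
  simp only [dbl, Matrix.map_apply, kroneckerMap_apply, map_mul]
  rw [X.mat_apply χ₀, X.mat_apply χ, X.lift_pr, Matrix.one_apply, Matrix.one_apply]
  split_ifs <;> simp

omit hres hχ in
/-- a basis of the kernel of a split surjection over a local ring -/
theorem Degen.exists_ker (G : Degen R dX dY) :
    ∃ dS ≤ dY, ∃ (incl : Matrix (Fin dY) (Fin dS) R) (proj : Matrix (Fin dS) (Fin dY) R),
      proj * incl = 1 ∧ incl * proj = 1 - G.sect * G.push ∧ G.push * incl = 0 := by
  classical
  let N : Matrix (Fin dY) (Fin dY) R := 1 - G.sect * G.push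
  have hN : N * N = N := by
    have e : G.push * N = 0 := by
      rw [Matrix.mul_sub, Matrix.mul_one, ← Matrix.mul_assoc, G.push_sect, Matrix.one_mul, sub_self]
    show (1 - G.sect * G.push) * N = N
    rw [Matrix.sub_mul, Matrix.one_mul, Matrix.mul_assoc, e, Matrix.mul_zero, sub_zero]
  let f₀ := N.mulVecLin
  let K := LinearMap.range f₀
  have hfix : ∀ z : K, f₀.rangeRestrict (z : Fin dY → R) = z := by
    rintro ⟨_, v, rfl⟩
    refine Subtype.ext ?_
    show N *ᵥ (N *ᵥ v) = N *ᵥ v
    rw [Matrix.mulVec_mulVec, hN]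
  haveI : Module.Projective R K :=
    Module.Projective.of_split K.subtype f₀.rangeRestrict (LinearMap.ext hfix)
  haveI : Module.Finite R K := Module.Finite.range f₀
  haveI : Module.Free R K := Module.free_of_flat_of_isLocalRing
  let b : Module.Basis (Fin (Module.finrank R K)) R K := Module.finBasis R K
  let incl : Matrix (Fin dY) (Fin (Module.finrank R K)) R :=
    LinearMap.toMatrix' (K.subtype ∘ₗ b.equivFun.symm.toLinearMap)
  let proj : Matrix (Fin (Module.finrank R K)) (Fin dY) R :=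
    LinearMap.toMatrix' (b.equivFun.toLinearMap ∘ₗ f₀.rangeRestrict)
  have h1 : proj * incl = 1 := by
    rw [← LinearMap.toMatrix'_comp, ← LinearMap.toMatrix'_id]
    congr 1
    refine LinearMap.ext fun v => ?_
    show b.equivFun (f₀.rangeRestrict (b.equivFun.symm v : Fin dY → R)) = v
    rw [hfix, LinearEquiv.apply_symm_apply]
  have h2 : incl * proj = N := by
    rw [← LinearMap.toMatrix'_comp, ← LinearMap.toMatrix'_toLin' N]
    congr 1
    refine LinearMap.ext fun v => ?_
    show ((b.equivFun.symm (b.equivFun (f₀.rangeRestrict v)) : K) : Fin dY → R) = _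
    rw [LinearEquiv.symm_apply_apply]
    rfl
  refine ⟨_, ?_, incl, proj, h1, h2, ?_⟩
  · simpa using LinearMap.finrank_le_finrank_of_injective (f := K.subtype)
      Subtype.val_injective
  · have e : G.push * N = 0 := by
      rw [Matrix.mul_sub, Matrix.mul_one, ← Matrix.mul_assoc, G.push_sect, Matrix.one_mul, sub_self]
    rw [← Matrix.mul_one incl, ← h1, ← Matrix.mul_assoc incl, h2, ← Matrix.mul_assoc, e,
      Matrix.zero_mul]

end FLTAgent.MLT

end
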