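import Fermat.Agent.MLT.Mk.Frames
import Fermat.Agent.MLT.Mk.Matrices

/-!
Area MLT, parcel LEVELMK: tools for the level of the step at `p`: the quotient of a framed algebra
along a map of the ambient algebra, conditions at `p` on an algebra over the lift, the parameter ring,
the action on the kernel of the pushes.
-/

set_option autoImplicit false
set_option linter.style.haveILetI false
set_option linter.unusedSectionVars false

noncomputable section

open IsLocalRing Matrix FLTAgent.LL FLTAgent.PT FLTAgent.PT.TW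
open scoped IsMulCommutative

namespace FLTAgent.MLT

theorem scalar_mul_eq {a b R : Type} [Fintype a] [Fintype b] [DecidableEq a] [DecidableEq b]
    [CommRing R] (c : R) (G : Matrix a b R) :
    Matrix.scalar a c * G = G * Matrix.scalar b c := by
  ext i j
  rw [Matrix.scalar_apply, Matrix.scalar_apply, Matrix.diagonal_mul, Matrix.mul_diagonal, mul_comm]

/-- the image of a local ring is local -/
theorem isLocalRing_range {O A B : Type} [CommRing O] [CommRing A] [IsLocalRing A] [CommRing B]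
    [Nontrivial B] [Algebra O A] [Algebra O B] (ι : A →ₐ[O] B) : IsLocalRing ι.range :=
  IsLocalRing.of_surjective' (ι.rangeRestrict : A →+* ι.range) ι.rangeRestrict_surjective

/-- the parameter ring of a level -/
theorem wring_facts (O : Type) [CommRing O] [IsDomain O] [IsDiscreteValuationRing O]
    [IsAdicComplete (maximalIdeal O) O] [Finite (ResidueField O)] (m n : ℕ) :
    Finite (SQ O m n) ∧ IsLocalRing (SQ O m n) ∧
    ∀ [IsLocalRing (SQ O m n)], Function.Surjective (residue (SQ O m n) ∘ algebraMap O (SQ O m n)) ∧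
      ∀ x ∈ maximalIdeal (SQ O m n),
        x ∈ (maximalIdeal (SR O m)).map (Ideal.Quotient.mk (maximalIdeal (SR O m) ^ (n + 1))) := by
  haveI : Nontrivial (SQ O m n) := Ideal.Quotient.nontrivial_iff.mpr fun e =>
    (maximalIdeal.isMaximal (SR O m)).ne_top
      (top_le_iff.mp (e ▸ Ideal.pow_le_self (Nat.succ_ne_zero n)))
  haveI : IsLocalRing (SQ O m n) :=
    IsLocalRing.of_surjective' (Ideal.Quotient.mk (maximalIdeal (SR O m) ^ (n + 1)))
      Ideal.Quotient.mk_surjective
  refine ⟨?_, inferInstance, fun {_} => ⟨?_, ?_⟩⟩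
  · haveI : Finite (SR O m ⧸ maximalIdeal (SR O m)) :=
      inferInstanceAs (Finite (ResidueField (SR O m)))
    exact Ideal.finite_quotient_pow (IsNoetherian.noetherian _) _
  · intro y
    obtain ⟨x, rfl⟩ := residue_surjective y
    obtain ⟨x, rfl⟩ := Ideal.Quotient.mk_surjective x
    refine ⟨MvPowerSeries.constantCoeff x, ?_⟩
    rw [Function.comp_apply, ← sub_eq_zero, ← map_sub, residue_eq_zero_iff, mem_maximalIdeal,
      mem_nonunits_iff]
    intro hu
    rw [show algebraMap O (SQ O m n) (MvPowerSeries.constantCoeff x) =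
      Ideal.Quotient.mk _ (MvPowerSeries.C (MvPowerSeries.constantCoeff x)) from rfl,
      ← map_sub] at hu
    haveI : IsLocalHom (Ideal.Quotient.mk (maximalIdeal (SR O m) ^ (n + 1))) :=
      IsLocalHom.of_surjective _ Ideal.Quotient.mk_surjective
    have h1 := isUnit_of_map_unit _ _ hu
    rw [MvPowerSeries.isUnit_iff_constantCoeff, map_sub, MvPowerSeries.constantCoeff_C,
      sub_self] at h1
    exact not_isUnit_zero h1
  · intro x hx
    obtain ⟨x, rfl⟩ := Ideal.Quotient.mk_surjective x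
    refine Ideal.mem_map_of_mem _ ((mem_maximalIdeal _).2 fun hu => ?_)
    exact (mem_maximalIdeal _).1 hx (hu.map _)

variable {p : ℕ} [Fact p.Prime] {O : Type} [CommRing O] [IsDomain O] [IsDiscreteValuationRing O]
  [IsAdicComplete (maximalIdeal O) O] [Finite (ResidueField O)]
  [Algebra (ZMod p) (ResidueField O)] {ρbar : ResidualGaloisRep (ResidueField O)}
  {r : GQ →* GL (Fin 2) (ResidueField O)} {k : ℕ} {W : Fin k → Nat.Primes}
  {frob tame : Fin k → GQ}

/-- the quotient along a map of the ambient algebra -/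
theorem FramedAlg.exists_push {D : RepData ρbar} {cd : TW.Coord D r} {F : Fin k → FPlace O}
    {𝔄 : Type} [Ring 𝔄] [Algebra O 𝔄] {Ψ : D.R →ₐ[O] 𝔄} {V : Type} {z : V → 𝔄}
    (𝔉 : FramedAlg cd frob tame F Ψ z) {𝔄' : Type} [Ring 𝔄'] [Algebra O 𝔄'] [Nontrivial 𝔄']
    (π : 𝔄 →ₐ[O] 𝔄') (Ψ' : D.R →ₐ[O] 𝔄') (z' : V → 𝔄') (hΨ : ∀ t, π (Ψ t) = Ψ' t)
    (hz : ∀ c, π (z c) = z' c) :
    ∃ (𝔊 : FramedAlg cd frob tame F Ψ' z') (q : 𝔉.B →ₐ[O] 𝔊.B), Function.Surjective q ∧
      (∀ y, 𝔊.val (q y) = π (𝔉.val y)) ∧ ∀ c, q (𝔉.x c) = 𝔊.x c := by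
  set f := π.comp 𝔉.val
  let I : Ideal 𝔉.B := RingHom.ker (f : 𝔉.B →+* 𝔄')
  haveI : Nontrivial (𝔉.B ⧸ I) := Ideal.Quotient.nontrivial_iff.mpr (RingHom.ker_ne_top _)
  haveI : IsLocalRing (𝔉.B ⧸ I) :=
    IsLocalRing.of_surjective' (Ideal.Quotient.mk I) Ideal.Quotient.mk_surjective
  haveI : IsLocalHom (Ideal.Quotient.mk I) :=
    IsLocalHom.of_surjective _ Ideal.Quotient.mk_surjective
  haveI : IsLocalHom (algebraMap O (𝔉.B ⧸ I)) :=
    inferInstanceAs (IsLocalHom ((Ideal.Quotient.mk I).comp (algebraMap O 𝔉.B)))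
  haveI : Finite (𝔉.B ⧸ I) := Finite.of_surjective _ Ideal.Quotient.mk_surjective
  let q : 𝔉.B →ₐ[O] 𝔉.B ⧸ I := Ideal.Quotient.mkₐ O I
  let val : (𝔉.B ⧸ I) →ₐ[O] 𝔄' :=
    Ideal.Quotient.liftₐ I f fun y hy => RingHom.mem_ker.mp hy
  have hval : ∀ y, val (q y) = π (𝔉.val y) := fun y => rfl
  have hres : Function.Surjective (residue (𝔉.B ⧸ I) ∘ algebraMap O (𝔉.B ⧸ I)) := by
    intro y
    obtain ⟨y, rfl⟩ := IsLocalRing.residue_surjective y
    obtain ⟨y, rfl⟩ := Ideal.Quotient.mk_surjective y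
    obtain ⟨a, ha⟩ := 𝔉.residue_surjective (residue 𝔉.B y)
    refine ⟨a, ?_⟩
    have e := congrArg (ResidueField.map (Ideal.Quotient.mk I)) ha
    simp only [Function.comp_apply, ResidueField.map_residue] at e
    exact e
  refine ⟨{
    B := 𝔉.B ⧸ I
    val := val
    val_injective := ?_
    ι := q.comp 𝔉.ι
    val_ι := fun t => by rw [AlgHom.comp_apply, hval, 𝔉.val_ι, hΨ]
    range_eq := ?_
    residue_surjective := hres
    P := fun i => (𝔉.P i).map q
    P' := fun i => (𝔉.P' i).map q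
    inv := fun i => by rw [← Matrix.map_mul, 𝔉.inv, Matrix.map_one _ (map_zero _) (map_one _)]
    norm := fun i hi => by
      obtain ⟨a, b, c, hc, e⟩ := 𝔉.norm i hi
      exact ⟨a, b, c, hc, by rw [Matrix.map_apply, e, q.commutes]⟩
    ext_dual := fun φ φ' hφ hP => by
      have h : φ.comp q = φ'.comp q := 𝔉.ext_dual _ _
        (by rw [AlgHom.comp_assoc, AlgHom.comp_assoc, hφ]) fun i => by
        have := hP i
        simp only [Matrix.map_map] at this
        exact this
      refine AlgHom.ext fun y => ?_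
      obtain ⟨y, rfl⟩ := Ideal.Quotient.mk_surjective y
      exact AlgHom.congr_fun h y
    x := fun c => q (𝔉.x c)
    x_mem := fun c => map_nonunit (Ideal.Quotient.mk I) _ (𝔉.x_mem c)
    coord := fun i t a b => by
      have e := congrArg q (𝔉.coord i t a b)
      rw [map_add, q.commutes] at e
      rw [← e, cframed, cframed, ← Matrix.map_apply (f := q), Matrix.map_mul, Matrix.map_mul,
        Matrix.map_map]
      rfl }, q, Ideal.Quotient.mk_surjective, hval, fun _ => rfl⟩
  · exact (Ideal.injective_lift_iff fun y hy => RingHom.mem_ker.mp hy).2 rfl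
  · refine le_antisymm ?_ (Algebra.adjoin_le ?_)
    · rintro _ ⟨y, rfl⟩
      obtain ⟨y, rfl⟩ := Ideal.Quotient.mk_surjective y
      have h : π (𝔉.val y) ∈ (Algebra.adjoin O (Set.range Ψ ∪ Set.range z)).map π :=
        Subalgebra.mem_map.2 ⟨_, 𝔉.range_eq ▸ ⟨y, rfl⟩, rfl⟩
      rw [AlgHom.map_adjoin, Set.image_union, ← Set.range_comp, ← Set.range_comp,
        show (⇑π ∘ ⇑Ψ) = ⇑Ψ' from funext hΨ, show (⇑π ∘ z) = z' from funext hz] at h
      exact h
    · rintro _ (⟨t, rfl⟩ | ⟨c, rfl⟩)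
      · exact ⟨q (𝔉.ι t), (hval _).trans (by rw [𝔉.val_ι, hΨ])⟩
      · obtain ⟨b, hb⟩ := 𝔉.exists_val_eq_z c
        exact ⟨q b, (hval b).trans (by rw [hb, hz])⟩

/-! ### conditions at `p` -/

variable {Smin : Finset ℕ} {w : Fin k → O} {s n : ℕ} {d : Fin (k + 1) → ℕ}
  (C : PatchCore p ρbar r Smin W frob tame w s d n)

/-- the lift with a condition at `p` on the tangent vectors of an algebra -/
theorem PatchCore.condLift {B : Type} [CommRing B] [Algebra O B] {ι : C.D.R →ₐ[O] B}
    {Lp : Submodule (ZMod p) (lH1 (ExtCitation.pPrime p) (ad0 p r))}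
    (h : TanAt p C.cd ι Lp) : CondLift (p := p) Smin C.cd W C.Q Lp ι :=
  ⟨C.det, C.unip, C.unr, fun _ _ hφ => AlgHom.ext_of_adjoin_eq_top C.gen
    (by rintro _ ⟨σ, rfl⟩; exact hφ σ), h⟩

variable {B : Type} [CommRing B] [Nontrivial B] [Finite B] [Algebra O B] {ι : C.D.R →ₐ[O] B}
  {I : Ideal C.D.R} (hI : ∀ t ∈ I, ι t = 0)

include hI

/-- flat -/
theorem PatchCore.tanAt_flat_of_atP (h : C.AtP I (fun _ _ _ ρ' => ρ'.IsFlatAt p)) :
    TanAt p C.cd ι (Submodule.span (ZMod p) (flatClasses (p := p) r)) := by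
  haveI := isLocalRing_range ι
  have hloc : IsLocalHom (ι.rangeRestrict : C.D.R →+* ι.range) :=
    IsLocalHom.of_surjective _ ι.rangeRestrict_surjective
  have hρ := Deform.repMat_baseChangeAlong (ι.rangeRestrict : C.D.R →+* ι.range) hloc C.cd.rep
  refine tanAt_flat ι.rangeRestrict ι.rangeRestrict_surjective ι.range.val
    (AlgHom.ext fun _ => rfl) _ hρ
    (h ι.range ι.rangeRestrict ι.rangeRestrict_surjective ?_ _ hρ)
  exact fun t ht => RingHom.mem_ker.mpr (Subtype.ext (hI t ht))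

/-- strictly ordinary -/
theorem PatchCore.exists_tanAt_strict_of_atP (hS : Setting p ρbar r)
    (h : C.AtP I (fun _ _ _ ρ' => ρ'.IsStrictOrdinaryAt p)) :
    ∃ Ls : Submodule (ZMod p) (lH1 (ExtCitation.pPrime p) (ad0 p r)),
      Module.finrank (ZMod p) Ls ≤
          Module.finrank (ZMod p) (lH0 (ExtCitation.pPrime p) (ad0 p r)) +
            1 * Module.finrank (ZMod p) (ResidueField O) ∧
        Module.finrank (ZMod p) (Submodule.span (ZMod p) (flatClasses (p := p) r) ⊓ Ls :
            Submodule (ZMod p) (lH1 (ExtCitation.pPrime p) (ad0 p r))) ≤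
          Module.finrank (ZMod p) (lH0 (ExtCitation.pPrime p) (ad0 p r)) ∧
        TanAt p C.cd ι Ls := by
  haveI := isLocalRing_range ι
  have hloc : IsLocalHom (ι.rangeRestrict : C.D.R →+* ι.range) :=
    IsLocalHom.of_surjective _ ι.rangeRestrict_surjective
  have hρ := Deform.repMat_baseChangeAlong (ι.rangeRestrict : C.D.R →+* ι.range) hloc C.cd.rep
  refine exists_tanAt_strict ι.rangeRestrict ι.rangeRestrict_surjective ι.range.val
    (AlgHom.ext fun _ => rfl) _ hρ hS (fun _ => rfl) C.det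
    (h ι.range ι.rangeRestrict ι.rangeRestrict_surjective ?_ _ hρ)
  exact fun t ht => RingHom.mem_ker.mpr (Subtype.ext (hI t ht))

omit hI

/-- the action on a direct summand -/
theorem exists_restrict_hom {A R : Type} [CommRing A] [CommRing R] [Algebra O A] [Algebra O R]
    {dY dS : ℕ} (M : A →ₐ[O] Matrix (Fin dY) (Fin dY) R) {incl : Matrix (Fin dY) (Fin dS) R}
    {proj : Matrix (Fin dS) (Fin dY) R} (h : proj * incl = 1)
    (hst : ∀ t, incl * proj * (M t * incl) = M t * incl) :
    ∃ N : A →ₐ[O] Matrix (Fin dS) (Fin dS) R, (∀ t, M t * incl = incl * N t) ∧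
      ∀ t, N t = proj * (M t * incl) :=
  ⟨AlgHom.ofLinearMap
    { toFun := fun t => proj * (M t * incl)
      map_add' := fun a b => by rw [map_add, Matrix.add_mul, Matrix.mul_add]
      map_smul' := fun a b => by rw [map_smul, Matrix.smul_mul, Matrix.mul_smul]; rfl }
    (by simp [h])
    (fun a b => by
      show proj * (M (a * b) * incl) = proj * (M a * incl) * (proj * (M b * incl))
      rw [map_mul, Matrix.mul_assoc proj (M a * incl), Matrix.mul_assoc (M a) incl,
        ← Matrix.mul_assoc incl proj, hst, ← Matrix.mul_assoc (M a)]),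
    fun t => ((Matrix.mul_assoc incl proj _).symm.trans (hst t)).symm, fun _ => rfl⟩

/-- the ideal of what is divisible by `push ∘ pull` is proper -/
theorem dbl_ne_push_mul_pull {R : Type} [CommRing R] [IsLocalRing R] {dX dY : ℕ} (hX : 0 < dX)
    (G : Degen R dX dY) {H : Matrix (Fin dX) (Fin dX) R} {e : R} (he : IsUnit e)
    (hG : G.IsAdj H e) (hH : ∀ a b, (H ^ dX) a b ∈ maximalIdeal R)
    (E : Matrix (Fin 2 × Fin dX) (Fin 2 × Fin dX) R) :
    G.push * G.pull * E ≠ 1 := by
  haveI : Nonempty (Fin dX) := ⟨⟨0, hX⟩⟩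
  intro h1
  have hA : G.adj = dbl H * E := by
    rw [← hG.1, Matrix.mul_assoc, h1, Matrix.mul_one]
  have hH2 : H * E.submatrix (Prod.mk 0) (Prod.mk 0) = e • (1 : Matrix (Fin dX) (Fin dX) R) := by
    ext a b
    have := hG.2.2 a b
    rw [hA, Matrix.mul_apply, Fintype.sum_prod_type, Fin.sum_univ_two] at this
    rw [Matrix.smul_apply, Matrix.one_apply, smul_eq_mul, mul_ite, mul_one, mul_zero, ← this,
      Matrix.mul_apply]
    simp [dbl]
  let f := (residue R).mapMatrix (m := Fin dX)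
  have hu : IsUnit (f H) := by
    refine IsUnit.map f ((Matrix.isUnit_iff_isUnit_det H).2 ?_)
    have := congrArg Matrix.det hH2
    rw [Matrix.det_mul, Matrix.det_smul, Matrix.det_one, mul_one] at this
    exact isUnit_of_mul_isUnit_left (this ▸ he.pow _)
  have h0 : f H ^ dX = 0 := by
    rw [← map_pow]
    ext a b
    exact (residue_eq_zero_iff _).2 (hH a b)
  exact not_isUnit_zero (h0 ▸ hu.pow dX)

end FLTAgent.MLT

end
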