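import Fermat.Agent.PT.TW.Conditions
import Fermat.Agent.FlatDatum.Quotient
import Fermat.Agent.Flat.Descent
import Fermat.Agent.Alg.Frobenius
import Fermat.Agent.Reduction.Basic

/-!
Area MLT, parcel LEVELMK: a representation embedded in finitely many flat ones is flat.
-/

set_option autoImplicit false
set_option linter.style.haveILetI false
set_option linter.unusedSectionVars false

noncomputable section

open IsLocalRing Matrix FLTAgent.Flat

namespace FLTAgent.MLT

section MatMod

variable {A B : Type} [CommRing A] [CommRing B]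

/-- the column vectors with the action through `R` -/
def MatMod (_R : Deform.GQ →* Matrix (Fin 2) (Fin 2) A) : Type := Fin 2 → A

variable (R : Deform.GQ →* Matrix (Fin 2) (Fin 2) A)

instance : AddCommGroup (MatMod R) := inferInstanceAs (AddCommGroup (Fin 2 → A))

instance [Finite A] : Finite (MatMod R) := inferInstanceAs (Finite (Fin 2 → A))

/-- the vector underlying an element -/
def MatMod.vec : MatMod R ≃+ (Fin 2 → A) := AddEquiv.refl _

instance : DistribMulAction GalQ (MatMod R) where
  smul σ v := (MatMod.vec R).symm (R σ *ᵥ MatMod.vec R v)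
  one_smul v := by
    show (MatMod.vec R).symm (R 1 *ᵥ MatMod.vec R v) = v
    rw [map_one, Matrix.one_mulVec, AddEquiv.symm_apply_apply]
  mul_smul σ τ v := by
    show (MatMod.vec R).symm (R (σ * τ) *ᵥ MatMod.vec R v) = (MatMod.vec R).symm
      (R σ *ᵥ MatMod.vec R ((MatMod.vec R).symm (R τ *ᵥ MatMod.vec R v)))
    rw [map_mul, AddEquiv.apply_symm_apply, Matrix.mulVec_mulVec]
  smul_zero σ := by
    show (MatMod.vec R).symm (R σ *ᵥ MatMod.vec R 0) = 0
    rw [map_zero, Matrix.mulVec_zero, map_zero]
  smul_add σ v w := by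
    show (MatMod.vec R).symm (R σ *ᵥ MatMod.vec R (v + w)) = _
    rw [map_add, Matrix.mulVec_add, map_add]
    rfl

theorem MatMod.vec_smul (σ : GalQ) (v : MatMod R) :
    MatMod.vec R (σ • v) = R σ *ᵥ MatMod.vec R v :=
  rfl

/-- the pushed matrices -/
def mapRep (g : A →+* B) : Deform.GQ →* Matrix (Fin 2) (Fin 2) B :=
  (g.mapMatrix : Matrix (Fin 2) (Fin 2) A →+* Matrix (Fin 2) (Fin 2) B).toMonoidHom.comp R

theorem mapRep_apply (g : A →+* B) (σ : Deform.GQ) : mapRep R g σ = (R σ).map g := rfl

/-- the map of modules -/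
def MatMod.push (g : A →+* B) : MatMod R →+ MatMod (mapRep R g) where
  toFun v := (MatMod.vec (mapRep R g)).symm fun i => g (MatMod.vec R v i)
  map_zero' := by
    refine (MatMod.vec (mapRep R g)).injective ?_
    funext i
    simp
  map_add' v w := by
    refine (MatMod.vec (mapRep R g)).injective ?_
    funext i
    simp

theorem MatMod.vec_push (g : A →+* B) (v : MatMod R) (i : Fin 2) :
    MatMod.vec (mapRep R g) (MatMod.push R g v) i = g (MatMod.vec R v i) :=
  rfl

theorem MatMod.push_smul (g : A →+* B) (σ : GalQ) (v : MatMod R) :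
    MatMod.push R g (σ • v) = σ • MatMod.push R g v := by
  refine (MatMod.vec (mapRep R g)).injective ?_
  funext i
  rw [MatMod.vec_push, MatMod.vec_smul, MatMod.vec_smul, mapRep_apply]
  simp [Matrix.mulVec, dotProduct, MatMod.vec_push]

theorem MatMod.continuous (h : Deform.FinLevel (R : Deform.GQ → Matrix (Fin 2) (Fin 2) A)) :
    IsContinuousModule (MatMod R) := by
  intro v
  obtain ⟨L, hL, h⟩ := h
  refine ⟨L, hL, fun σ hσ => (MatMod.vec R).injective ?_⟩
  rw [MatMod.vec_smul, h σ hσ, Matrix.one_mulVec]

/-- a flat representation over a finite ring gives a model of its column vectors -/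
theorem hasFlatModel_matMod [IsLocalRing A] [Finite A] {ρ : GaloisRepAdic A}
    (h : Deform.RepMat ρ.ρ R) {p : ℕ} (hf : ρ.IsFlatAt p) : HasFlatModel (MatMod R) p := by
  obtain ⟨b, hb⟩ := h
  refine PT.TW.hasFlatModel_of_isFlatAt hf (b.equivFun.toAddEquiv.trans (MatMod.vec R).symm)
    fun σ v => (MatMod.vec R).injective ?_
  rw [MatMod.vec_smul, ← hb]
  funext i
  exact (congrFun (LinearMap.toMatrix_mulVec_repr b b (ρ.ρ σ) v) i).symm

end MatMod

/-- local models from a finite flat Hopf algebra -/
theorem rawModel_of_hasFlatModel {p : ℕ} [Fact p.Prime] {A : ValuationSubring Qb}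
    (hA : A.LiesOverPrime p) {G : Type} [AddCommGroup G] [DistribMulAction GalQ G]
    (hG : HasFlatModel G p) : Nonempty (RawModel G A) := by
  classical
  obtain ⟨H, _, _, hfin, -, -, ev, hadd, hgal⟩ := hG
  let F : H →ₐ[GaloisRep.ratLocalizedAt p] (G → Qb) := AlgHom.pi fun x => (ev.symm x).ofConv
  have hF : ∀ h x, F h x = (ev.symm x).ofConv h := fun _ _ => rfl
  have hvalR : ∀ r : GaloisRep.ratLocalizedAt p, algebraMap _ Qb r ∈ A :=
    ratLocalized_mem (Fact.out : p.Prime) hA
  obtain ⟨s, hs⟩ := hfin.fg_top
  have hspan : ∀ h, F h ∈ Submodule.span A (F '' (s : Set H)) := by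
    intro h
    have : h ∈ Submodule.span (GaloisRep.ratLocalizedAt p) (s : Set H) := by
      rw [hs]; exact Submodule.mem_top
    induction this using Submodule.span_induction with
    | mem x hx => exact Submodule.subset_span ⟨x, hx, rfl⟩
    | zero => rw [map_zero]; exact zero_mem _
    | add x y _ _ hx hy => rw [map_add]; exact add_mem hx hy
    | smul r x _ hx =>
      rw [map_smul, show r • F x = (⟨_, hvalR r⟩ : A) • F x from
        funext fun y => (Algebra.smul_def r _)]
      exact Submodule.smul_mem _ _ hx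
  have halg : ∀ h, F h ∈ Algebra.adjoin A (F '' (s : Set H)) := fun h =>
    (Submodule.span_le (p := Subalgebra.toSubmodule (Algebra.adjoin A (F '' (s : Set H))))).2
      Algebra.subset_adjoin (hspan h)
  refine ⟨{ gens := F '' (s : Set H)
            finite := s.finite_toSet.image _
            val_mem := ?_
            inertia := ?_
            separates := ?_
            comul := ?_ }⟩
  · rintro _ ⟨h, -, rfl⟩ x
    have hint : IsIntegral (GaloisRep.ratLocalizedAt p) h := Algebra.IsIntegral.isIntegral h
    obtain ⟨P, hP, hPx⟩ := hint.map (ev.symm x).ofConv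
    let j : GaloisRep.ratLocalizedAt p →+* A := (algebraMap _ Qb).codRestrict A hvalR
    refine Reduction.mem_A_of_isIntegral A ⟨P.map j, hP.map j, ?_⟩
    rw [Polynomial.eval₂_map]
    exact hPx
  · rintro σ - _ ⟨h, -, rfl⟩
    funext x
    rw [conjF_apply, hF, hF]
    let g : WithConv (H →ₐ[GaloisRep.ratLocalizedAt p] Qb) :=
      WithConv.toConv ((σ.toAlgHom.restrictScalars (GaloisRep.ratLocalizedAt p)).comp
        (ev.symm (σ⁻¹ • x)).ofConv)
    have hg : ev g = σ • ev (ev.symm (σ⁻¹ • x)) := hgal σ _ g fun _ => rfl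
    rw [Equiv.apply_symm_apply, smul_inv_smul] at hg
    conv_rhs => rw [← hg, Equiv.symm_apply_apply]
    rfl
  · intro c d hcd
    refine ev.symm.injective ?_
    have key : ∀ f ∈ Submodule.span A (F '' (s : Set H)), f c = f d := fun f hf => by
      induction hf using Submodule.span_induction with
      | mem f hf => exact hcd f hf
      | zero => rfl
      | add f f' _ _ hf hf' => simp [hf, hf']
      | smul a f _ hf => simp [hf]
    have h0 : ∀ h, F h c = F h d := fun h => key _ (hspan h)
    exact WithConv.ext (AlgHom.ext h0)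
  · rintro _ ⟨h, -, rfl⟩
    have key : ∀ t : TensorProduct (GaloisRep.ratLocalizedAt p) H H,
        (fun x : G × G => Algebra.TensorProduct.lift (ev.symm x.1).ofConv (ev.symm x.2).ofConv
          (fun _ _ => Commute.all _ _) t) ∈ Submodule.span A
            (tensorSet ((Algebra.adjoin A (F '' (s : Set H)) : Subalgebra A (G → Qb)) :
              Set (G → Qb))) := by
      intro t
      induction t using TensorProduct.induction_on with
      | zero =>
        simp only [map_zero]
        exact zero_mem _
      | tmul u v =>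
        refine Submodule.subset_span ⟨F u, halg u, F v, halg v, ?_⟩
        funext x
        rw [Algebra.TensorProduct.lift_tmul, hF, hF]
      | add t t' ht ht' =>
        convert add_mem ht ht' using 1
        funext x
        simp
    convert key (Coalgebra.comul (R := GaloisRep.ratLocalizedAt p) h) using 1
    funext x
    have hconv : ev.symm (x.1 + x.2) = ev.symm x.1 * ev.symm x.2 := ev.injective (by
      rw [hadd, Equiv.apply_symm_apply, Equiv.apply_symm_apply, Equiv.apply_symm_apply])
    rw [hF, hconv, AlgHom.convMul_apply]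

/-- models pull back along jointly injective maps to several modules -/
theorem rawModel_pullback_family {G' : Type} [AddCommGroup G'] [DistribMulAction GalQ G'] {ι : Type}
    [Finite ι] {G : ι → Type} [∀ i, AddCommGroup (G i)] [∀ i, DistribMulAction GalQ (G i)]
    (φ : ∀ i, G' →+ G i) (hφ : ∀ i (σ : GalQ) c, φ i (σ • c) = σ • φ i c)
    (hinj : ∀ c d : G', (∀ i, φ i c = φ i d) → c = d) {A : ValuationSubring Qb}
    (R : ∀ i, RawModel (G i) A) : Nonempty (RawModel G' A) := by
  refine ⟨{ gens := ⋃ i, (fun f : G i → Qb => fun c => f (φ i c)) '' (R i).gens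
            finite := Set.finite_iUnion fun i => (R i).finite.image _
            val_mem := ?_
            inertia := ?_
            separates := ?_
            comul := ?_ }⟩
  · intro f hf c
    obtain ⟨i, u, hu, rfl⟩ := Set.mem_iUnion.1 hf
    exact (R i).val_mem u hu _
  · intro σ hσ f hf
    obtain ⟨i, u, hu, rfl⟩ := Set.mem_iUnion.1 hf
    funext c
    have h := congrFun ((R i).inertia σ hσ u hu) (φ i c)
    rw [conjF_apply, ← hφ] at h
    exact h
  · intro c d h
    exact hinj c d fun i => (R i).separates _ _ fun f hf =>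
      h _ (Set.mem_iUnion.2 ⟨i, f, hf, rfl⟩)
  · intro f hf
    obtain ⟨i, u, hu, rfl⟩ := Set.mem_iUnion.1 hf
    set S : Set (G' → Qb) := ⋃ i, (fun f : G i → Qb => fun c => f (φ i c)) '' (R i).gens
    have hsub : ∀ v ∈ funAlg A (R i).gens, (fun c => v (φ i c)) ∈ funAlg A S := by
      intro v hv
      induction hv using Algebra.adjoin_induction with
      | mem x hx => exact Algebra.subset_adjoin (Set.mem_iUnion.2 ⟨i, x, hx, rfl⟩)
      | algebraMap r => exact Subalgebra.algebraMap_mem _ r
      | add x y _ _ hx hy => exact add_mem hx hy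
      | mul x y _ _ hx hy => exact mul_mem hx hy
    have key : ∀ F ∈ Submodule.span A (tensorSet (funAlg A (R i).gens : Set (G i → Qb))),
        (fun x : G' × G' => F (φ i x.1, φ i x.2)) ∈
          Submodule.span A (tensorSet (funAlg A S : Set (G' → Qb))) := by
      intro F hF
      induction hF using Submodule.span_induction with
      | mem x hx =>
        obtain ⟨a, ha, b, hb, rfl⟩ := hx
        exact Submodule.subset_span ⟨_, hsub a ha, _, hsub b hb, rfl⟩
      | zero => exact zero_mem _
      | add x y _ _ hx hy => exact add_mem hx hy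
      | smul r x _ hx => exact Submodule.smul_mem _ r hx
    convert! key _ ((R i).comul u hu) using 1
    funext x
    simp

/-- a representation over a finite ring embedded in finitely many flat ones is flat -/
theorem isFlatAt_of_embedding {B : Type} [CommRing B] [IsLocalRing B] [Finite B] {p : ℕ}
    [Fact p.Prime] {ρ : GaloisRepAdic B} (R : Deform.GQ →* Matrix (Fin 2) (Fin 2) B)
    (h : Deform.RepMat ρ.ρ R) {ι : Type} [Finite ι] {C : ι → Type} [∀ i, CommRing (C i)]
    (g : ∀ i, B →+* C i) (hinj : ∀ x y, (∀ i, g i x = g i y) → x = y)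
    (hflat : ∀ i, HasFlatModel (MatMod (mapRep R (g i))) p) : ρ.IsFlatAt p := by
  classical
  obtain ⟨A, -, hA, -⟩ := Alg.exists_place_frobenius p (Fact.out : p.Prime)
  have hlev : Deform.FinLevel (R : Deform.GQ → Matrix (Fin 2) (Fin 2) B) :=
    (Deform.repMat_matCont h).finLevel
  obtain ⟨R₂⟩ := rawModel_pullback_family (fun i => MatMod.push R (g i))
    (fun i σ v => MatMod.push_smul R (g i) σ v) (fun c d hcd => (MatMod.vec R).injective
      (funext fun a => hinj _ _ fun i => by
        rw [← MatMod.vec_push, ← MatMod.vec_push, hcd i]))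
    fun i => (rawModel_of_hasFlatModel hA (hflat i)).some
  obtain ⟨Fr⟩ := exists_frame (MatMod.continuous R hlev) hA R₂
  refine ⟨Finite.of_surjective _ residue_surjective, fun I _ => ?_⟩
  set mk := Ideal.Quotient.mk I
  obtain ⟨R₃⟩ := FlatDatum.rawModel_quotient hA Fr (MatMod.push R mk)
    (fun w => by
      choose a ha using fun i => Ideal.Quotient.mk_surjective (I := I) (MatMod.vec _ w i)
      exact ⟨(MatMod.vec R).symm a, (MatMod.vec _).injective (funext fun i => ha i)⟩)
    (MatMod.push_smul R mk)
  have hlev' : Deform.FinLevel (mapRep R mk : Deform.GQ → Matrix (Fin 2) (Fin 2) (B ⧸ I)) := by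
    obtain ⟨L, hL, hfix⟩ := hlev
    exact ⟨L, hL, fun σ hσ => by
      rw [mapRep_apply, hfix σ hσ, Matrix.map_one _ (map_zero _) (map_one _)]⟩
  obtain ⟨H, i1, i2, h1, h2, h3, e, hadd, hgal⟩ :=
    hasFlatModel_of_rawModel (MatMod.continuous _ hlev') hA R₃
  obtain ⟨b, hb⟩ := h
  let f : ρ.V →+ MatMod (mapRep R mk) :=
    (MatMod.push R mk).comp (b.equivFun.toAddEquiv.trans (MatMod.vec R).symm).toAddMonoidHom
  have hf : ∀ v a, MatMod.vec _ (f v) a = mk (b.repr v a) := fun v a => rfl
  have hker : ∀ v, f v = 0 ↔ v ∈ I • (⊤ : Submodule B ρ.V) := fun v => by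
    rw [PT.TW.mem_smul_top_iff b I, ← (MatMod.vec _).map_eq_zero_iff, funext_iff]
    exact forall_congr' fun a => by rw [hf, Pi.zero_apply]; exact Ideal.Quotient.eq_zero_iff_mem
  let q : (ρ.V ⧸ (I • (⊤ : Submodule B ρ.V))) →+ MatMod (mapRep R mk) :=
    QuotientAddGroup.lift (I • (⊤ : Submodule B ρ.V)).toAddSubgroup f fun v hv =>
      f.mem_ker.2 ((hker v).2 hv)
  have hq : ∀ v, q (Submodule.Quotient.mk v) = f v := fun v => rfl
  have hbij : Function.Bijective q := by
    refine ⟨(injective_iff_map_eq_zero q).2 fun x hx => ?_, fun w => ?_⟩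
    · obtain ⟨v, rfl⟩ := Submodule.Quotient.mk_surjective _ x
      exact (Submodule.Quotient.mk_eq_zero _).2 ((hker v).1 hx)
    · choose a ha using fun i => Ideal.Quotient.mk_surjective (I := I) (MatMod.vec _ w i)
      refine ⟨Submodule.Quotient.mk (b.equivFun.symm a), (MatMod.vec _).injective (funext fun i => ?_)⟩
      rw [hq, hf, ← ha i]
      exact congrArg mk (congrFun (b.equivFun.apply_symm_apply a) i)
  have hqq : ∀ y, q ((Equiv.ofBijective q hbij).symm y) = y := fun y =>
    (Equiv.ofBijective q hbij).apply_symm_apply y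
  refine ⟨H, i1, i2, h1, h2, h3, e.trans (Equiv.ofBijective q hbij).symm, ?_, ?_⟩
  · intro x y
    refine hbij.1 ?_
    simp only [Equiv.trans_apply]
    rw [map_add, hqq, hqq, hqq, hadd]
  · intro σ x y hxy
    refine hbij.1 ?_
    simp only [Equiv.trans_apply]
    rw [hqq, hgal σ x y hxy]
    obtain ⟨v, hv⟩ := Submodule.Quotient.mk_surjective _
      ((Equiv.ofBijective q hbij).symm (e x))
    rw [← hv, show ρ.levelAction I σ (Submodule.Quotient.mk v) =
      Submodule.Quotient.mk (ρ.ρ σ v) from rfl, hq]
    have hx : f v = e x := by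
      rw [← hq, hv, hqq]
    rw [← hx]
    have hstep : f (ρ.ρ σ v) = σ • f v := by
      rw [show f v = MatMod.push R mk ((MatMod.vec R).symm (b.equivFun v)) from rfl,
        ← MatMod.push_smul]
      refine congrArg (MatMod.push R mk) ((MatMod.vec R).injective ?_)
      rw [MatMod.vec_smul, ← hb]
      funext i
      exact (congrFun (LinearMap.toMatrix_mulVec_repr b b (ρ.ρ σ) v) i).symm
    rw [hstep]

end FLTAgent.MLT

end
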