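import Fermat.Agent.MLT.Mk.JointRing
import Fermat.Agent.MLT.Mk.JointFlat
import Fermat.Agent.LL.Residue
import Fermat.Agent.LL.LevelRepAux
import Fermat.Agent.PT.TW.Tangent
import Fermat.Agent.TOR.InertiaVal
import Fermat.Agent.Deform.Norm

/-!
Area MLT, parcel LEVELMK (producer P5): finitely many lifts with the same residual traces are the
projections of one lift, over the algebra generated by the families of traces, with its properties
and the conditions at `p` on its finite quotients.
-/

set_option autoImplicit false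
set_option linter.style.haveILetI false
set_option linter.unusedSectionVars false

noncomputable section

open IsLocalRing Matrix FLTAgent.PT FLTAgent.PT.TW
open FLTAgent.Deform (RepMat Mt)

namespace FLTAgent.MLT

variable {p : ℕ} [Fact p.Prime] {O : Type} [CommRing O] [IsDomain O] [IsDiscreteValuationRing O]
  [IsAdicComplete (maximalIdeal O) O] [Finite (ResidueField O)]
  [Algebra (ZMod p) (ResidueField O)] {ρbar : ResidualGaloisRep (ResidueField O)}
  {r : GQ →* GL (Fin 2) (ResidueField O)}
  {ι : Type} {T : ι → Type} [∀ i, CommRing (T i)] [∀ i, IsLocalRing (T i)]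
  [∀ i, Algebra O (T i)] [∀ i, IsLocalHom (algebraMap O (T i))] [∀ i, Module.Finite O (T i)]

theorem natCast_mem_of_residueAlg : (p : O) ∈ maximalIdeal O := by
  rw [← residue_eq_zero_iff, map_natCast, ← map_natCast (algebraMap (ZMod p) (ResidueField O)),
    ZMod.natCast_self, map_zero]

/-- one lift projecting onto given ones -/
structure JointLift (ρbar : ResidualGaloisRep (ResidueField O))
    (r : GQ →* GL (Fin 2) (ResidueField O)) (ρ : ∀ i, GaloisRepAdic (T i)) : Type 1 where
  D : RepData ρbar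
  [instFinite : Module.Finite O D.R]
  cd : TW.Coord D r
  π : ∀ i, D.R →ₐ[O] T i
  inj : ∀ x y, (∀ i, π i x = π i y) → x = y
  rep : ∀ i, RepMat (ρ i).ρ (fun σ => (cd.R₀ σ).map (π i))
  gen : Algebra.adjoin O (Set.range fun σ => (cd.R₀ σ).trace) = ⊤

attribute [instance] JointLift.instFinite

theorem trace_eq_of_repMat {A : Type} [CommRing A] {V : Type} [AddCommGroup V] [Module A V]
    {ρ : GQ →* Module.End A V} {R R' : GQ → Mt A} (h : RepMat ρ R) (h' : RepMat ρ R') (σ : GQ) :
    (R σ).trace = (R' σ).trace := by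
  obtain ⟨P, Q, hQP, -, hc⟩ := h.conjugate h'
  rw [hc, Matrix.trace_mul_cycle, hQP, Matrix.one_mul]

/-- coordinates of a lift reducing to a chosen frame -/
theorem exists_resid_of_trace (h : Setting p ρbar r) (fr : Deform.Frame ρbar) {A : Type} [CommRing A]
    [IsLocalRing A] [Algebra O A] [IsLocalHom (algebraMap O A)]
    (hres : Function.Surjective (residue A ∘ algebraMap O A)) {ρ : GaloisRepAdic A}
    (habs : ρ.residual.IsAbsolutelyIrreducible) {R : GQ → Mt A} (hR : RepMat ρ.ρ R)
    (htr : ∀ σ, residue A (R σ).trace =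
      ResidueField.map (algebraMap O A) (matHom r σ).trace) :
    ∃ R', RepMat ρ.ρ R' ∧ Deform.Resid fr R' := by
  classical
  set f := ResidueField.map (algebraMap O A)
  have hf : Function.Surjective f := fun y => by
    obtain ⟨a, rfl⟩ := hres y
    exact ⟨residue O a, ResidueField.map_residue _ a⟩
  let c : GQ → Mt (ResidueField O) := fun σ => (fr.c σ).map (residue O)
  have hrep : RepMat ρbar.ρ (fun g => matHom r g) := h.rep
  have hc : RepMat ρbar.ρ c := fr.rep
  let R₁ : GQ →* Mt (ResidueField A) :=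
    { toFun := fun σ => (c σ).map f
      map_one' := by rw [hc.map_one, Matrix.map_one _ (map_zero f) (map_one f)]
      map_mul' := fun σ τ => by rw [hc.map_mul, Matrix.map_mul] }
  have hR' := Deform.repMat_residual hR
  let R₂ : GQ →* Mt (ResidueField A) :=
    { toFun := fun σ => (R σ).map (residue A), map_one' := hR'.map_one, map_mul' := hR'.map_mul }
  have h2 : Submodule.span (ResidueField A) (Set.range R₂) = ⊤ :=
    Deform.span_range_eq_top ρ.residual habs hR'
  have h1 : Submodule.span (ResidueField A) (Set.range R₁) = ⊤ := by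
    refine eq_top_iff.2 fun M _ => ?_
    choose M' hM' using fun a b => hf (M a b)
    have hM : Matrix.of M' ∈ Submodule.span (ResidueField O) (Set.range c) :=
      (Deform.span_range_eq_top ρbar h.habs hc).symm ▸ Submodule.mem_top
    have hmap : (Matrix.of M').map f = M := by
      ext a b
      exact hM' a b
    rw [← hmap]
    generalize Matrix.of M' = N at hM
    induction hM using Submodule.span_induction with
    | mem x hx =>
      obtain ⟨σ, rfl⟩ := hx
      exact Submodule.subset_span ⟨σ, rfl⟩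
    | zero => rw [Matrix.map_zero _ (map_zero f)]; exact zero_mem _
    | add x y _ _ hx hy => rw [Matrix.map_add _ (map_add f)]; exact add_mem hx hy
    | smul a x _ hx =>
      have : (a • x).map f = f a • x.map f := by ext i j; simp
      rw [this]
      exact Submodule.smul_mem _ _ hx
  obtain ⟨P, Q, hQP, hPQ, hPc⟩ := LL.exists_conj_of_trace_eq R₁ R₂ h1 h2 fun σ => by
    have e1 : ((c σ).map f).trace = f (c σ).trace := by simp [Matrix.trace_fin_two]
    have e2 : ((R σ).map (residue A)).trace = residue A (R σ).trace := by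
      simp [Matrix.trace_fin_two]
    show ((c σ).map f).trace = ((R σ).map (residue A)).trace
    rw [e1, e2, htr, trace_eq_of_repMat hc hrep σ]
  obtain ⟨P', Q', e1, e2, e3⟩ := Deform.conj_of_residual f (c := c) (r := R) hQP hPQ hPc
  refine ⟨_, hR.conj e1 e2, fun σ => ?_⟩
  rw [e3]
  ext a b
  simp [c, f, ResidueField.map_residue]

/-- the joint lift -/
theorem exists_jointLift [Finite ι] [Nonempty ι] (h : Setting p ρbar r) (ρ : ∀ i, GaloisRepAdic (T i))
    (hres : ∀ i, Function.Surjective (residue (T i) ∘ algebraMap O (T i)))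
    (habs : ∀ i, (ρ i).residual.IsAbsolutelyIrreducible)
    (R : ∀ i, GQ → Mt (T i)) (hR : ∀ i, RepMat (ρ i).ρ (R i))
    (htr : ∀ i σ, residue (T i) (R i σ).trace =
      ResidueField.map (algebraMap O (T i)) (matHom r σ).trace) :
    Nonempty (JointLift ρbar r ρ) := by
  classical
  obtain ⟨fr⟩ := Deform.exists_frame h.habs
  haveI : ∀ i, IsNoetherianRing (T i) := fun i => IsNoetherianRing.of_finite O (T i)
  haveI : ∀ i, IsAdicComplete (maximalIdeal (T i)) (T i) := fun i =>
    IsLocalRing.isAdicComplete_of_module_finite (𝒪 := O)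
  -- normal forms of the components
  have hcomp : ∀ i, ∃ R', RepMat (ρ i).ρ R' ∧ Deform.Resid fr R' ∧ Deform.Normalised fr R' := by
    intro i
    obtain ⟨R₁, hR₁, hres₁⟩ := exists_resid_of_trace h fr (hres i) (habs i) (hR i) (htr i)
    obtain ⟨P, Q, hQP, hPQ, hr', hn'⟩ := Deform.exists_normalised hres₁
    exact ⟨_, hR₁.conj hQP hPQ, hr', hn'⟩
  choose R' hR' hresid hnorm using hcomp
  -- the algebra generated by the families of traces
  let t : GQ → ∀ i, T i := fun σ i => (R' i σ).trace
  let S : Subalgebra O (∀ i, T i) := Algebra.adjoin O (Set.range t)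
  have ht : ∀ σ, t σ ∈ S := fun σ => Algebra.subset_adjoin ⟨σ, rfl⟩
  have hres' : ∀ i σ a b, residue (T i) (R' i σ a b) =
      residue (T i) (algebraMap O (T i) (fr.c σ a b)) :=
    fun i σ a b => congrFun (congrFun (hresid i σ) a) b
  have hS : ∀ x ∈ S, IsCongr (O := O) x := fun x hx => isCongr_of_mem_adjoin (by
    rintro _ ⟨σ, rfl⟩
    refine ⟨(fr.c σ).trace, fun i => ?_⟩
    simp only [t, Matrix.trace_fin_two, map_add, hres']) hx
  haveI := finite_subalgebra S
  haveI := isLocalRing_congr hS
  haveI := isLocalHom_congr hS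
  have hrsurj := residue_surjective_congr hS
  haveI : IsAdicComplete (maximalIdeal S) S :=
    IsLocalRing.isAdicComplete_of_module_finite (𝒪 := O)
  have hinv : ∀ x : S, ∀ i, IsUnit ((x : ∀ j, T j) i) → ∃ y : S, ∀ j,
      (y : ∀ j, T j) j * (x : ∀ j, T j) j = 1 := fun x i hi => by
    obtain ⟨y, hy⟩ := ((isUnit_congr_iff hS x i).2 hi).exists_left_inv
    exact ⟨y, fun j => congrArg (fun z : S => (z : ∀ j, T j) j) hy⟩
  -- the idempotent combination
  have hexp : ∀ (a : GQ →₀ O) i (M : Mt (T i)),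
      (Deform.comb a (R' i) * M) = a.sum fun ν c => c • (R' i ν * M) := fun a i M => by
    rw [Deform.comb, Finsupp.sum, Finset.sum_mul]
    exact Finset.sum_congr rfl fun ν _ => smul_mul_assoc _ _ _
  have hcombS : ∀ (a : GQ →₀ O) (G : ∀ i, Mt (T i) →ₗ[O] T i) (M : ∀ i, Mt (T i)),
      (∀ ν, (fun i => G i (R' i ν * M i)) ∈ S) →
        (fun i => G i (Deform.comb a (R' i) * M i)) ∈ S := by
    intro a G M hM
    have e : (fun i => G i (Deform.comb a (R' i) * M i)) =
        ∑ ν ∈ a.support, a ν • fun i => G i (R' i ν * M i) := by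
      funext i
      rw [hexp, Finsupp.sum, map_sum, Finset.sum_apply]
      exact Finset.sum_congr rfl fun ν _ => map_smul _ _ _
    rw [e]
    exact sum_mem fun ν _ => Subalgebra.smul_mem _ (hM ν) _
  let trL : ∀ i, Mt (T i) →ₗ[O] T i := fun i => Matrix.traceLinearMap (Fin 2) O (T i)
  have htrL : ∀ i M, trL i M = Matrix.trace M := fun i M => rfl
  let X : ∀ i, Mt (T i) := fun i => Deform.comb fr.a (R' i)
  have hXR : ∀ σ, (fun i => (X i * R' i σ).trace) ∈ S := fun σ =>
    hcombS fr.a trL (fun i => R' i σ) fun ν => by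
      simpa only [htrL, ← (hR' _).map_mul] using ht (ν * σ)
  have hτ : (fun i => (X i).trace) ∈ S := by
    simpa [X, t, (hR' _).map_one] using hXR 1
  have hXX : (fun i => (X i * X i).trace) ∈ S :=
    hcombS fr.a trL X fun ν => by
      have := hXR ν
      simp only [htrL]
      convert this using 1
      funext i
      exact Matrix.trace_mul_comm _ _
  have hX01 : ∀ i, X i 0 1 = 0 := fun i => (hnorm i).1
  have hX10 : ∀ i, X i 1 0 = 0 := fun i => (hnorm i).2.1
  have e00 : ∀ i, residue (T i) (X i 0 0) = 1 := fun i => by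
    simpa using congrFun (congrFun (Deform.comb_a_residue (hresid i)) 0) 0
  have e11 : ∀ i, residue (T i) (X i 1 1) = 0 := fun i => by
    simpa using congrFun (congrFun (Deform.comb_a_residue (hresid i)) 1) 1
  obtain ⟨half, hhalf⟩ : ∃ half : O, half * 2 = 1 :=
    ((residue_ne_zero_iff_isUnit (2 : O)).1 (by
      rw [map_ofNat]; exact h.two_ne_zero)).exists_left_inv
  let x0 : ∀ i, T i := fun i => X i 0 0
  let x1 : ∀ i, T i := fun i => X i 1 1
  have hδ : (x0 * x1) ∈ S := by
    have e : x0 * x1 = half • ((fun i => (X i).trace) * (fun i => (X i).trace) -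
        fun i => (X i * X i).trace) := by
      funext i
      have hh : algebraMap O (T i) half * 2 = 1 := by
        rw [← map_ofNat (algebraMap O (T i)) 2, ← map_mul, hhalf, map_one]
      simp only [x0, x1, Pi.smul_apply, Pi.mul_apply, Pi.sub_apply, Matrix.trace_fin_two,
        Matrix.mul_apply, Fin.sum_univ_two, hX01, hX10, mul_zero, add_zero, zero_add,
        Algebra.smul_def]
      linear_combination (-(X i 0 0 * X i 1 1)) * hh
    rw [e]
    exact Subalgebra.smul_mem _ (sub_mem (mul_mem hτ hτ) hXX) _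
  have hτ' : x0 + x1 ∈ S := by
    convert hτ using 1
    funext i
    simp [x0, x1, Matrix.trace_fin_two]
  obtain ⟨i₀⟩ := ‹Nonempty ι›
  -- the two diagonal entries are in the algebra
  have hx0 : x0 ∈ S := by
    set τ : S := ⟨x0 + x1, hτ'⟩
    set δ : S := ⟨x0 * x1, hδ⟩
    let f : Polynomial S := Polynomial.X ^ 2 - Polynomial.C τ * Polynomial.X + Polynomial.C δ
    have hf : f.Monic := by simp only [f]; monicity!
    obtain ⟨z, hz, hz1⟩ := HenselianRing.is_henselian (I := maximalIdeal S) f hf 1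
      (by
        rw [mem_maximalIdeal_congr hS _ i₀, ← residue_eq_zero_iff]
        simp [f, τ, δ, x0, x1, e00, e11])
      (by
        refine IsUnit.map _ ?_
        rw [isUnit_congr_iff hS _ i₀, ← residue_ne_zero_iff_isUnit]
        simp [f, τ, x0, x1, e00, e11])
    rw [mem_maximalIdeal_congr hS _ i₀] at hz1
    have hz' : ∀ i, ((z : ∀ j, T j) i - x0 i) * ((z : ∀ j, T j) i - x1 i) = 0 := fun i => by
      have := congrArg (fun w : S => (w : ∀ j, T j) i) hz
      simp [f, τ, δ] at this
      linear_combination this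
    have hz0 : residue (T i₀) ((z : ∀ j, T j) i₀) = 1 := by
      have := (residue_eq_zero_iff _).2 hz1
      simpa [sub_eq_zero] using this
    obtain ⟨a, ha⟩ := hS z z.2
    have hu : ∀ i, IsUnit ((z : ∀ j, T j) i - x1 i) := fun i => by
      rw [← residue_ne_zero_iff_isUnit, map_sub, show residue (T i) (x1 i) = 0 from e11 i, sub_zero,
        ha, residue_ne_zero_iff_isUnit]
      refine IsUnit.map _ (IsUnit.of_map (algebraMap O (T i₀)) a ?_)
      rw [← residue_ne_zero_iff_isUnit, ← ha, hz0]
      exact one_ne_zero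
    have : (z : ∀ j, T j) = x0 := funext fun i =>
      sub_eq_zero.1 ((hu i).mul_left_eq_zero.1 (hz' i))
    exact this ▸ z.2
  have hx1 : x1 ∈ S := by simpa using sub_mem hτ' hx0
  -- all entries
  let en : Fin 2 → Fin 2 → GQ → ∀ i, T i := fun a b σ i => R' i σ a b
  obtain ⟨ui, hui⟩ := hinv ⟨x0 - x1, sub_mem hx0 hx1⟩ i₀
    ((residue_ne_zero_iff_isUnit _).1 (by simp [x0, x1, e00, e11]))
  have h00 : ∀ σ, en 0 0 σ ∈ S := fun σ => by
    have e : en 0 0 σ =
        (ui : ∀ j, T j) * ((fun i => (X i * R' i σ).trace) - x1 * t σ) := by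
      funext i
      have hh := hui i
      simp only [Pi.sub_apply] at hh
      simp only [en, t, x1, x0, Pi.mul_apply, Pi.sub_apply, Matrix.trace_fin_two, Matrix.mul_apply,
        Fin.sum_univ_two, hX01, hX10, zero_mul, add_zero, zero_add] at hh ⊢
      linear_combination (-(R' i σ 0 0)) * hh
    rw [e]
    exact mul_mem ui.2 (sub_mem (hXR σ) (mul_mem hx1 (ht σ)))
  have h11 : ∀ σ, en 1 1 σ ∈ S := fun σ => by
    have e : en 1 1 σ = t σ - en 0 0 σ := by
      funext i; simp [en, t, Matrix.trace_fin_two]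
    exact e ▸ sub_mem (ht σ) (h00 σ)
  let eL : ∀ i, Mt (T i) →ₗ[O] T i := fun i =>
    (LinearMap.proj 0).comp (LinearMap.proj (R := O) (φ := fun _ : Fin 2 => Fin 2 → T i) 0)
  have heL : ∀ i M, eL i M = M 0 0 := fun i M => rfl
  let Y : ∀ i, Mt (T i) := fun i => Deform.comb fr.b (R' i)
  have hY01 : ∀ i, Y i 0 1 = 1 := fun i => (hnorm i).2.2
  have hY00 : (fun i => Y i 0 0) ∈ S := by
    have := hcombS fr.b eL (fun i => 1) fun ν => by
      simpa only [heL, Matrix.mul_one] using h00 ν
    simpa only [heL, Matrix.mul_one] using this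
  have h10 : ∀ σ, en 1 0 σ ∈ S := fun σ => by
    have hYR : (fun i => (Y i * R' i σ) 0 0) ∈ S := hcombS fr.b eL (fun i => R' i σ) fun ν => by
      simpa only [heL, ← (hR' _).map_mul] using h00 (ν * σ)
    have e : en 1 0 σ = (fun i => (Y i * R' i σ) 0 0) - (fun i => Y i 0 0) * en 0 0 σ := by
      funext i
      simp [en, Matrix.mul_apply, Fin.sum_univ_two, hY01]
    rw [e]
    exact sub_mem hYR (mul_mem hY00 (h00 σ))
  obtain ⟨σ₀, hσ₀⟩ : ∃ σ, residue O (fr.c σ 1 0) ≠ 0 := by
    by_contra hno
    push Not at hno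
    have key : ∀ M ∈ Submodule.span (ResidueField O)
        (Set.range fun σ => (fr.c σ).map (residue O)), M 1 0 = 0 := fun M hM => by
      induction hM using Submodule.span_induction with
      | mem x hx => obtain ⟨σ, rfl⟩ := hx; exact hno σ
      | zero => rfl
      | add x y _ _ hx hy => simp [hx, hy]
      | smul a x _ hx => simp [hx]
    have := key (Matrix.single 1 0 1)
      ((Deform.span_range_eq_top ρbar h.habs fr.rep).symm ▸ Submodule.mem_top)
    simp at this
  obtain ⟨wi, hwi⟩ := hinv ⟨en 1 0 σ₀, h10 σ₀⟩ i₀ ((residue_ne_zero_iff_isUnit _).1 (by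
    simp only [en, hres']
    rw [residue_ne_zero_iff_isUnit]
    exact ((residue_ne_zero_iff_isUnit _).1 hσ₀).map _))
  have h01 : ∀ σ, en 0 1 σ ∈ S := fun σ => by
    have e : en 0 1 σ = (wi : ∀ j, T j) * (en 0 0 (σ * σ₀) - en 0 0 σ * en 0 0 σ₀) := by
      funext i
      have hh := hwi i
      simp only [en, Pi.mul_apply, Pi.sub_apply, (hR' i).map_mul, Matrix.mul_apply,
        Fin.sum_univ_two] at hh ⊢
      linear_combination (-(R' i σ 0 1)) * hh
    rw [e]
    exact mul_mem wi.2 (sub_mem (h00 _) (mul_mem (h00 _) (h00 _)))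
  have hen : ∀ a b σ, en a b σ ∈ S := by
    intro a b σ
    fin_cases a <;> fin_cases b <;> first | exact h00 σ | exact h01 σ | exact h10 σ | exact h11 σ
  -- the lift
  let RS : GQ → Mt S := fun σ => Matrix.of fun a b => ⟨en a b σ, hen a b σ⟩
  let pr : ∀ i, S →ₐ[O] T i := fun i => (Pi.evalAlgHom O T i).comp S.val
  have hpr : ∀ i σ, (RS σ).map (pr i) = R' i σ := fun i σ => rfl
  have hinj : ∀ x y : S, (∀ i, pr i x = pr i y) → x = y := fun x y hxy => Subtype.ext (funext hxy)
  have hinjM : ∀ M N : Mt S, (∀ i, M.map (pr i) = N.map (pr i)) → M = N := fun M N hMN => by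
    ext a b : 1
    exact hinj _ _ fun i => congrFun (congrFun (hMN i) a) b
  have h1 : RS 1 = 1 := hinjM _ _ fun i => by
    rw [hpr, (hR' i).map_one, Matrix.map_one _ (map_zero _) (map_one _)]
  have hmul : ∀ σ τ, RS (σ * τ) = RS σ * RS τ := fun σ τ => hinjM _ _ fun i => by
    rw [Matrix.map_mul, hpr, hpr, hpr, (hR' i).map_mul]
  have hcont : Deform.MatCont RS := by
    intro n
    haveI : IsNoetherianRing S := IsNoetherianRing.of_finite O S
    haveI : Finite (ResidueField S) := Finite.of_surjective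
      (ResidueField.map (algebraMap O S)) fun y => by
        obtain ⟨a, rfl⟩ := hrsurj y
        exact ⟨residue O a, ResidueField.map_residue _ a⟩
    haveI : Finite (S ⧸ maximalIdeal S) := inferInstanceAs (Finite (ResidueField S))
    haveI : Finite (S ⧸ maximalIdeal S ^ n) :=
      Ideal.finite_quotient_pow (IsNoetherian.noetherian (maximalIdeal S)) n
    obtain ⟨N, hN⟩ := exists_deep_le pr (maximalIdeal S ^ n) fun x hx =>
      (hinj x 0 fun i => by rw [hx, map_zero]) ▸ zero_mem _
    choose L hL hfix using fun i => Deform.repMat_matCont (hR' i) N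
    haveI : ∀ i, FiniteDimensional ℚ (L i) := hL
    refine ⟨⨆ i, L i, inferInstance, fun σ hσ a b => hN _ fun i => ?_⟩
    have := hfix i σ (fun y hy => hσ y (le_iSup L i hy)) a b
    rw [← hpr, Matrix.map_apply] at this
    rwa [map_sub, show pr i ((1 : Mt S) a b) = (1 : Mt (T i)) a b by
      rw [← Matrix.map_apply (f := pr i), Matrix.map_one _ (map_zero _) (map_one _)]]
  have hresS : Deform.Resid fr RS := fun σ => by
    ext a b
    show residue S (RS σ a b) = residue S (algebraMap O S (fr.c σ a b))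
    rw [← sub_eq_zero, ← map_sub, residue_eq_zero_iff, mem_maximalIdeal_congr hS _ i₀,
      ← residue_eq_zero_iff, Subalgebra.coe_sub, Pi.sub_apply, map_sub, sub_eq_zero]
    exact hres' i₀ σ a b
  let ρS := Deform.ofMat RS h1 hmul hcont
  have hρS : RepMat ρS.ρ RS := Deform.repMat_ofMat RS h1 hmul hcont
  let D : RepData ρbar :=
    { R := S
      residue_surjective := hrsurj
      ρ := ρS
      residual_isEquiv := Deform.residual_isEquiv_of_repMat (Deform.repMat_residual hρS) (by
        have e : (fun σ => (RS σ).map (residue S)) = fun σ =>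
            ((fr.c σ).map (residue O)).map (ResidueField.map (algebraMap O S)) := funext fun σ => by
          rw [hresS σ, Matrix.map_map]
          exact congrArg (fr.c σ).map (funext fun a => (ResidueField.map_residue _ a).symm)
        rw [e]
        exact Deform.repMat_baseChangeAlong_residual _ fr.rep) }
  obtain ⟨cd⟩ := TW.nonempty_coord D (r := r) h.rep
  obtain ⟨P, Q, hQP, hPQ, hconj⟩ := hρS.conjugate cd.rep
  refine ⟨{ D := D, instFinite := finite_subalgebra S, cd := cd, π := pr, inj := hinj,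
            rep := fun i => ?_, gen := ?_ }⟩
  · have e : (fun σ => (cd.R₀ σ).map (pr i)) = fun σ =>
        P.map (pr i) * R' i σ * Q.map (pr i) := funext fun σ => by
      rw [hconj σ, Matrix.map_mul, Matrix.map_mul, hpr]
    rw [e]
    refine (hR' i).conj ?_ ?_
    · rw [← Matrix.map_mul, hQP, Matrix.map_one _ (map_zero _) (map_one _)]
    · rw [← Matrix.map_mul, hPQ, Matrix.map_one _ (map_zero _) (map_one _)]
  · have e : ∀ σ, (cd.R₀ σ).trace = (RS σ).trace := fun σ => trace_eq_of_repMat cd.rep hρS σ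
    have e2 : (Set.range fun σ => (cd.R₀ σ).trace) = ((↑) : S → ∀ i, T i) ⁻¹' Set.range t := by
      have e3 : ∀ σ, (((RS σ).trace : S) : ∀ i, T i) = t σ := fun σ => funext fun i => by
        simp [RS, t, en, Matrix.trace_fin_two]
      ext x
      simp only [Set.mem_range, e, Set.mem_preimage]
      exact ⟨fun ⟨σ, hσ⟩ => ⟨σ, by rw [← hσ, e3]⟩, fun ⟨σ, hσ⟩ => ⟨σ, Subtype.ext (by rw [e3, hσ])⟩⟩
    rw [e2]
    exact Algebra.adjoin_adjoin_coe_preimage

namespace JointLift

variable {ρ : ∀ i, GaloisRepAdic (T i)} (J : JointLift ρbar r ρ)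

theorem isNoetherianRing : IsNoetherianRing J.D.R := IsNoetherianRing.of_finite O J.D.R

theorem isAdicComplete : IsAdicComplete (maximalIdeal J.D.R) J.D.R :=
  IsLocalRing.isAdicComplete_of_module_finite (𝒪 := O)

theorem isHausdorff : IsHausdorff (maximalIdeal J.D.R) J.D.R := by
  haveI := J.isAdicComplete
  infer_instance

/-- a projection is onto when the traces generate -/
theorem π_surjective (i : ι) {R : GQ → Mt (T i)} (hR : RepMat (ρ i).ρ R)
    (hgen : Algebra.adjoin O (Set.range fun σ => (R σ).trace) = ⊤) : Function.Surjective (J.π i) := by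
  rw [← AlgHom.range_eq_top, eq_top_iff, ← hgen, Algebra.adjoin_le_iff]
  rintro _ ⟨σ, rfl⟩
  refine ⟨(J.cd.R₀ σ).trace, ?_⟩
  show J.π i _ = (R σ).trace
  rw [← trace_eq_of_repMat (J.rep i) hR σ]
  simp [Matrix.trace_fin_two]

/-- coordinates of a projection from coordinates of the lift -/
theorem trace_apply (i : ι) {R : GQ → Mt (T i)} (hR : RepMat (ρ i).ρ R) (σ : GQ) :
    J.π i (J.cd.R₀ σ).trace = (R σ).trace := by
  rw [← trace_eq_of_repMat (J.rep i) hR σ]
  simp [Matrix.trace_fin_two]

/-- a scalar trace is checked on the projections -/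
theorem trace_eq_algebraMap (σ : GQ) (a : O) {R : ∀ i, GQ → Mt (T i)}
    (hR : ∀ i, RepMat (ρ i).ρ (R i)) (h : ∀ i, (R i σ).trace = algebraMap O (T i) a) :
    (J.cd.R₀ σ).trace = algebraMap O J.D.R a :=
  J.inj _ _ fun i => by rw [J.trace_apply i (hR i), h i, AlgHom.commutes]

/-- inertia acting unipotently on every member has trace two -/
theorem trace_eq_two {q : ℕ} (hq : ∀ i, (ρ i).IsUnipotentOnInertiaAt q)
    {P : ValuationSubring (AlgebraicClosure ℚ)} (hP : P.LiesOverPrime q) {σ : GQ}
    (hσ : σ ∈ P.inertiaSubgroupIn ℚ) : (J.cd.R₀ σ).trace = 2 := by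
  refine J.inj _ _ fun i => ?_
  have h := (charpoly_eq_of_repMat (J.rep i) σ).symm.trans (hq i P hP σ hσ)
  rw [Matrix.charpoly_fin_two] at h
  have c1 := congrArg (fun f => Polynomial.coeff f 1) h
  simp [sub_sq, Polynomial.coeff_one, Polynomial.coeff_C, Polynomial.coeff_X] at c1
  rw [map_ofNat, J.trace_apply i (J.rep i)]
  linear_combination c1

section Det

variable [CharZero O]

/-- in a finite algebra a cyclotomic determinant is the character itself -/
theorem det_eq_cycR {A : Type} [CommRing A] [IsLocalRing A] [Algebra O A]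
    [IsLocalHom (algebraMap O A)] [Module.Finite O A] {R : GQ → Mt A} (h : DetMat p R) (σ : GQ) :
    (R σ).det = algebraMap O A (Attach.cycR (Fact.out : p.Prime) natCast_mem_of_residueAlg σ) := by
  have hp : p.Prime := Fact.out
  haveI : IsNoetherianRing A := IsNoetherianRing.of_finite O A
  haveI : IsHausdorff (maximalIdeal A) A := IsHausdorff.of_isLocalRing (maximalIdeal A) A (Ideal.IsPrime.ne_top inferInstance)
  rw [← sub_eq_zero]
  refine IsHausdorff.haus inferInstance (I := maximalIdeal A) _ fun n => ?_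
  rw [SModEq.zero, smul_eq_mul, Ideal.mul_top]
  haveI : NeZero (p ^ n) := ⟨pow_ne_zero n hp.ne_zero⟩
  have h1 := h.2 n σ _ fun μ hμ => Attach.cyc_spec σ hμ
  have h2 : Ideal.span {((p ^ n : ℕ) : A)} ≤ maximalIdeal A ^ n := by
    rw [Ideal.span_le, Set.singleton_subset_iff, Nat.cast_pow]
    exact Ideal.pow_mem_pow h.1 n
  have h3 : algebraMap O A (Attach.cycR hp natCast_mem_of_residueAlg σ) -
      ((Attach.cyc (p ^ n) σ).val : A) ∈ maximalIdeal A ^ n := by
    have := Ideal.mem_map_of_mem (algebraMap O A)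
      (Attach.cycR_spec hp (natCast_mem_of_residueAlg (O := O)) σ n)
    rw [map_sub, map_natCast, Ideal.map_pow] at this
    exact Ideal.pow_right_mono
      (((IsLocalRing.local_hom_TFAE (algebraMap O A)).out 0 2).1
        ‹IsLocalHom (algebraMap O A)›) n this
  simpa using sub_mem (h2 h1) h3

theorem det_eq (hdet : ∀ i, (ρ i).DetIsCyclotomic p) (σ : GQ) :
    (J.cd.R₀ σ).det =
      algebraMap O J.D.R (Attach.cycR (Fact.out : p.Prime) natCast_mem_of_residueAlg σ) :=
  J.inj _ _ fun i => by
    rw [AlgHom.commutes, AlgHom.map_det, AlgHom.mapMatrix_apply]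
    exact det_eq_cycR ((detIsCyclotomic_iff (J.rep i)).1 (hdet i)) σ

theorem detIsCyclotomic (hdet : ∀ i, (ρ i).DetIsCyclotomic p) : J.D.ρ.DetIsCyclotomic p :=
  LL.detIsCyclotomic_of_cycR Fact.out natCast_mem_of_residueAlg J.D.ρ fun σ => by
    rw [det_eq_of_repMat J.cd.rep]
    exact J.det_eq hdet σ

end Det

theorem isUnramifiedAt {q : ℕ} (hq : ∀ i, (ρ i).IsUnramifiedAt q) : J.D.ρ.IsUnramifiedAt q := by
  intro P hP σ hσ
  rw [eq_one_iff_of_repMat J.cd.rep]
  ext a b : 1
  refine J.inj _ _ fun i => ?_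
  have h := congrFun (congrFun ((eq_one_iff_of_repMat (J.rep i) σ).1 (hq i P hP σ hσ)) a) b
  rw [Matrix.map_apply] at h
  rw [h, Matrix.one_apply, Matrix.one_apply]
  split <;> simp

theorem isUnipotentOnInertiaAt {q : ℕ} (hq : ∀ i, (ρ i).IsUnipotentOnInertiaAt q) :
    J.D.ρ.IsUnipotentOnInertiaAt q := by
  intro P hP σ hσ
  have h : ∀ i, ((J.cd.R₀ σ).map (J.π i)).trace = 2 ∧ ((J.cd.R₀ σ).map (J.π i)).det = 1 := fun i => by
    have h := (charpoly_eq_of_repMat (J.rep i) σ).symm.trans (hq i P hP σ hσ)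
    have hc := h
    rw [Matrix.charpoly_fin_two] at hc
    have c1 := congrArg (fun f => Polynomial.coeff f 1) hc
    have c0 := congrArg (fun f => Polynomial.coeff f 0) hc
    simp [sub_sq, Polynomial.coeff_one, Polynomial.coeff_C, Polynomial.coeff_X] at c1 c0
    exact ⟨by linear_combination c1, by linear_combination c0⟩
  have ht : (J.cd.R₀ σ).trace = 2 := J.inj _ _ fun i => by
    rw [map_ofNat, ← (h i).1]
    simp [Matrix.trace_fin_two]
  have hd : (J.cd.R₀ σ).det = 1 := J.inj _ _ fun i => by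
    rw [map_one, AlgHom.map_det, AlgHom.mapMatrix_apply, (h i).2]
  rw [charpoly_eq_of_repMat J.cd.rep, Matrix.charpoly_fin_two, ht, hd, map_one,
    Polynomial.C_ofNat]
  ring

/-- flat members give flat finite quotients killed on their common kernel -/
theorem isFlatAt_quotient {κ : Type} [Finite κ] (e : κ → ι)
    (hflat : ∀ j, (ρ (e j)).IsFlatAt p) (I : Ideal J.D.R)
    (hI : ∀ t, (∀ j, J.π (e j) t = 0) → t ∈ I) {R' : Type} [CommRing R'] [IsLocalRing R']
    [Algebra O R'] [Finite R'] (π : J.D.R →ₐ[O] R') (hπ : Function.Surjective π)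
    (hker : I ≤ RingHom.ker π) (ρ' : GaloisRepAdic R')
    (hρ' : RepMat ρ'.ρ (fun σ => (J.cd.R₀ σ).map π)) : ρ'.IsFlatAt p := by
  classical
  set Jk := RingHom.ker π.toRingHom
  haveI : Finite (J.D.R ⧸ Jk) := Finite.of_injective _ (RingHom.kerLift_injective π.toRingHom)
  obtain ⟨N, hN⟩ := exists_deep_le (fun j => J.π (e j)) Jk fun x hx => hker (hI x hx)
  let mkT : ∀ j, T (e j) →+* T (e j) ⧸ maximalIdeal (T (e j)) ^ N := fun j => Ideal.Quotient.mk _
  let G : J.D.R →+* ∀ j, T (e j) ⧸ maximalIdeal (T (e j)) ^ N :=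
    RingHom.pi fun j => (mkT j).comp (J.π (e j)).toRingHom
  set K := RingHom.ker G
  have hKJ : K ≤ Jk := fun x hx => hN x fun j =>
    Ideal.Quotient.eq_zero_iff_mem.1 (congrFun (RingHom.mem_ker.1 hx) j)
  have hKne : K ≠ ⊤ := fun h => RingHom.ker_ne_top π.toRingHom (top_le_iff.1 (h ▸ hKJ))
  haveI : Nontrivial (J.D.R ⧸ K) := Ideal.Quotient.nontrivial_iff.2 hKne
  haveI : IsLocalRing (J.D.R ⧸ K) :=
    IsLocalRing.of_surjective' (Ideal.Quotient.mk K) Ideal.Quotient.mk_surjective
  haveI : IsLocalHom (Ideal.Quotient.mk K) :=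
    IsLocalHom.of_surjective _ Ideal.Quotient.mk_surjective
  haveI : ∀ j, IsNoetherianRing (T (e j)) := fun j => IsNoetherianRing.of_finite O _
  haveI : ∀ j, Finite (T (e j) ⧸ maximalIdeal (T (e j))) := fun j => (hflat j).1
  haveI : ∀ j, Finite (T (e j) ⧸ maximalIdeal (T (e j)) ^ N) := fun j =>
    Ideal.finite_quotient_pow (IsNoetherian.noetherian (maximalIdeal (T (e j)))) N
  haveI : Finite (J.D.R ⧸ K) := Finite.of_injective _ (RingHom.kerLift_injective G)
  have hrepB := Deform.repMat_baseChangeAlong (Ideal.Quotient.mk K) inferInstance J.cd.rep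
  let RB : GQ →* Mt (J.D.R ⧸ K) :=
    { toFun := fun σ => (J.cd.R₀ σ).map (Ideal.Quotient.mk K)
      map_one' := hrepB.map_one
      map_mul' := hrepB.map_mul }
  have hB : (J.D.ρ.baseChangeAlong (Ideal.Quotient.mk K) inferInstance).IsFlatAt p := by
    refine isFlatAt_of_embedding RB hrepB (fun j => (Pi.evalRingHom _ j).comp (RingHom.kerLift G))
      (fun x y hxy => RingHom.kerLift_injective G (funext hxy)) fun j => ?_
    rcases subsingleton_or_nontrivial (T (e j) ⧸ maximalIdeal (T (e j)) ^ N) with hsub | hnt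
    · -- no condition
      haveI : Subsingleton (MatMod (mapRep RB ((Pi.evalRingHom _ j).comp (RingHom.kerLift G)))) :=
        (MatMod.vec _).injective.subsingleton
      obtain ⟨H, i1, i2, h1, h2, h3, ev, ha, hg⟩ := (hflat j).2 ⊤ inferInstance
      haveI : Subsingleton ((ρ (e j)).V ⧸ ((⊤ : Ideal (T (e j))) • (⊤ : Submodule (T (e j)) (ρ (e j)).V))) := by
        rw [Submodule.top_smul]
        exact Submodule.Quotient.subsingleton_iff.2 rfl
      exact ⟨H, i1, i2, h1, h2, h3, ev.trans (equivOfSubsingletonOfSubsingleton (fun _ => 0) (fun _ => 0)),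
        fun x y => Subsingleton.elim _ _, fun σ x y _ => Subsingleton.elim _ _⟩
    · haveI := hnt
      haveI : IsLocalRing (T (e j) ⧸ maximalIdeal (T (e j)) ^ N) :=
        IsLocalRing.of_surjective' (mkT j) Ideal.Quotient.mk_surjective
      haveI : IsLocalHom (mkT j) := IsLocalHom.of_surjective _ Ideal.Quotient.mk_surjective
      have h' := Deform.repMat_baseChangeAlong (mkT j) inferInstance (J.rep (e j))
      exact hasFlatModel_matMod _ h'
        (isFlatAt_map (mkT j) Ideal.Quotient.mk_surjective (J.rep (e j)) h' (hflat j))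
  let φ : J.D.R ⧸ K →+* R' := Ideal.Quotient.lift K π.toRingHom fun x hx => hKJ hx
  have hφ : Function.Surjective φ := fun y => by
    obtain ⟨x, rfl⟩ := hπ y
    exact ⟨Ideal.Quotient.mk K x, rfl⟩
  haveI : IsLocalHom φ := IsLocalHom.of_surjective φ hφ
  exact isFlatAt_map φ hφ hrepB hρ' hB

/-- members strictly ordinary on given quotients give strictly ordinary finite quotients -/
theorem isStrictOrdinaryAt_quotient [CharZero O] (hdet : ∀ i, (ρ i).DetIsCyclotomic p) (hp2 : p ≠ 2)
    {κ : Type} {B : κ → Type} [∀ j, CommRing (B j)] [∀ j, IsLocalRing (B j)]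
    [∀ j, IsNoetherianRing (B j)] (g : ∀ j, J.D.R →+* B j)
    (hs : ∀ j, StrictMat p fun σ => (J.cd.R₀ σ).map (g j)) (I : Ideal J.D.R)
    (hI : ∀ t, (∀ j, g j t = 0) → t ∈ I) {R' : Type} [CommRing R'] [IsLocalRing R']
    [Algebra O R'] [Finite R'] (π : J.D.R →ₐ[O] R') (hπ : Function.Surjective π)
    (hker : I ≤ RingHom.ker π) (ρ' : GaloisRepAdic R')
    (hρ' : RepMat ρ'.ρ (fun σ => (J.cd.R₀ σ).map π)) : ρ'.IsStrictOrdinaryAt p := by
  classical
  have hp : p.Prime := Fact.out
  have hpO : (p : O) ∈ maximalIdeal O := natCast_mem_of_residueAlg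
  haveI : IsLocalHom π.toRingHom := IsLocalHom.of_surjective _ hπ
  have hD : DetMat p J.cd.R₀ := (detIsCyclotomic_iff J.cd.rep).1 (J.detIsCyclotomic hdet)
  refine isStrictOrdinaryAt_of_strictMat hρ' ⟨(hD.map π.toRingHom).1, fun P hP => ?_⟩
  -- an element of inertia with character not congruent to one
  obtain ⟨ζ, hζ⟩ := HasEnoughRootsOfUnity.exists_primitiveRoot (AlgebraicClosure ℚ) p
  obtain ⟨τ, hτ, hmove⟩ := TOR.exists_inertia_moves (A := P) (p := p) hp hP hp2 hζ
  set c := Attach.cycR hp hpO τ with hc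
  haveI : NeZero (p ^ 1) := ⟨pow_ne_zero _ hp.ne_zero⟩
  obtain ⟨u, hu⟩ : ∃ u : O, u * (c - 1) = 1 := by
    refine ((residue_ne_zero_iff_isUnit (c - 1)).1 fun h0 => ?_).exists_left_inv
    have h1 := Attach.cycR_spec hp hpO τ 1
    rw [pow_one (maximalIdeal O), ← residue_eq_zero_iff, map_sub, map_natCast, sub_eq_zero] at h1
    rw [map_sub, map_one, sub_eq_zero, h1] at h0
    haveI : CharP (ResidueField O) p :=
      charP_of_injective_algebraMap (algebraMap (ZMod p) (ResidueField O)).injective p
    have h2 : (((Attach.cyc (p ^ 1) τ).val : ℕ) : ResidueField O) = ((1 : ℕ) : ResidueField O) := by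
      rw [h0, Nat.cast_one]
    rw [CharP.natCast_eq_natCast (ResidueField O) p] at h2
    refine hmove ?_
    rw [Attach.cyc_spec τ (show ζ ^ p ^ 1 = 1 by rw [pow_one, hζ.pow_eq_one]),
      pow_eq_pow_mod _ hζ.pow_eq_one]
    rw [show (Attach.cyc (p ^ 1) τ).val % p = 1 % p from h2, Nat.mod_eq_of_lt hp.one_lt, pow_one]
  let E : Mt J.D.R := algebraMap O J.D.R u • (J.cd.R₀ τ - 1)
  let z : GQ → J.D.R := fun s => (J.cd.R₀ s).trace - (J.cd.R₀ s * E).trace
  let cc : GQ → J.D.R := fun s => algebraMap O J.D.R (Attach.cycR hp hpO s)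
  have hτD : τ ∈ P.decompositionSubgroup ℚ := (Attach.inertia_smul_residue hτ).1
  -- the identities on each given quotient
  have hB : ∀ j, g j E.trace = 1 ∧
      (∀ s ∈ P.decompositionSubgroup ℚ, (J.cd.R₀ s * E).map (g j) = (g j (cc s * z s)) • E.map (g j)) ∧
      ∀ s ∈ P.inertiaSubgroupIn ℚ, g j (z s) = 1 := by
    intro j
    haveI : IsHausdorff (maximalIdeal (B j)) (B j) :=
      IsHausdorff.of_isLocalRing (maximalIdeal (B j)) (B j) (Ideal.IsPrime.ne_top inferInstance)
    obtain ⟨hpB, hfr⟩ := hs j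
    obtain ⟨U, U', hU'U, hUU', hDd, hIi, hx⟩ := hfr P hP
    obtain ⟨X, hX⟩ : ∃ X : GQ → Mt (B j), ∀ s, X s = U' * (J.cd.R₀ s).map (g j) * U :=
      ⟨_, fun _ => rfl⟩
    simp only [← hX] at hDd hIi hx
    have hx' : ∀ s ∈ P.decompositionSubgroup ℚ, X s 0 0 = g j (cc s) * X s 1 1 := fun s hs => by
      rw [← sub_eq_zero]
      refine IsHausdorff.haus inferInstance (I := maximalIdeal (B j)) _ fun n => ?_
      rw [SModEq.zero, smul_eq_mul, Ideal.mul_top]
      haveI : NeZero (p ^ n) := ⟨pow_ne_zero n hp.ne_zero⟩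
      have h1 := hx s hs n _ fun μ hμ => Attach.cyc_spec s hμ
      have h2 : g j (cc s) - ((Attach.cyc (p ^ n) s).val : B j) ∈ Ideal.span {((p ^ n : ℕ) : B j)} := by
        have := Ideal.mem_map_of_mem (g j) (hD.2 n s _ fun μ hμ => Attach.cyc_spec s hμ)
        rwa [Ideal.map_span, Set.image_singleton, map_natCast, map_sub, map_natCast, J.det_eq hdet]
          at this
      have hle : Ideal.span {((p ^ n : ℕ) : B j)} ≤ maximalIdeal (B j) ^ n := by
        rw [Ideal.span_le, Set.singleton_subset_iff, Nat.cast_pow]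
        exact Ideal.pow_mem_pow hpB n
      refine hle ?_
      convert sub_mem h1 (Ideal.mul_mem_right (X s 1 1) _ h2) using 1
      ring
    have h00 : X τ 0 0 = g j (cc τ) := by
      rw [hx' τ hτD, (hIi τ hτ).2, mul_one]
    set v : B j := g j (algebraMap O J.D.R u)
    have hv : v * (g j (cc τ) - 1) = 1 := by
      rw [← map_one (g j), ← map_sub, ← map_one (algebraMap O J.D.R), ← map_sub, ← map_mul,
        ← map_mul, ← hc, hu]
    set E' : Mt (B j) := U' * E.map (g j) * U
    have hmap : E.map (g j) = v • ((J.cd.R₀ τ).map (g j) - 1) := by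
      ext a b
      show g j (algebraMap O J.D.R u * (J.cd.R₀ τ a b - (1 : Mt J.D.R) a b)) =
        v * (g j (J.cd.R₀ τ a b) - (1 : Mt (B j)) a b)
      rw [map_mul, map_sub, Matrix.one_apply, Matrix.one_apply, apply_ite (g j), map_one, map_zero]
    have hE' : E' = v • (X τ - 1) := by
      simp only [E', hX]
      rw [hmap, Matrix.mul_smul, Matrix.smul_mul, Matrix.mul_sub, Matrix.sub_mul, Matrix.mul_one,
        hU'U]
    have e10 : E' 1 0 = 0 := by simp [hE', hDd τ hτD]
    have e11 : E' 1 1 = 0 := by simp [hE', (hIi τ hτ).2]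
    have e00 : E' 0 0 = 1 := by simp [hE', h00, hv]
    have htE : ∀ M : Mt (B j), (U' * M * U).trace = M.trace := fun M => by
      rw [Matrix.trace_mul_cycle, hUU', Matrix.one_mul]
    have hz : ∀ s ∈ P.decompositionSubgroup ℚ, g j (z s) = X s 1 1 := fun s hs => by
      have et : ∀ M : Mt J.D.R, g j M.trace = (U' * M.map (g j) * U).trace := fun M => by
        rw [htE]; simp [Matrix.trace_fin_two]
      have eX : U' * (J.cd.R₀ s * E).map (g j) * U = X s * E' := by
        simp only [hX, E']
        rw [Matrix.map_mul, show U' * (J.cd.R₀ s).map (g j) * U * (U' * E.map (g j) * U) =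
          U' * (J.cd.R₀ s).map (g j) * (U * U') * E.map (g j) * U by simp only [mul_assoc],
          hUU', mul_one]
        simp only [mul_assoc]
      simp only [z, map_sub, et, eX, ← hX]
      simp [Matrix.trace_fin_two, Matrix.mul_apply, Fin.sum_univ_two, e10, e11, e00, hDd s hs]
    refine ⟨?_, fun s hs => ?_, fun s hs => ?_⟩
    · rw [show g j E.trace = (E.map (g j)).trace by simp [Matrix.trace_fin_two], ← htE,
        Matrix.trace_fin_two]
      show E' 0 0 + E' 1 1 = 1
      rw [e00, e11, add_zero]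
    · have key : X s * E' = (g j (cc s * z s)) • E' := by
        rw [map_mul, hz s hs, ← hx' s hs]
        ext a b
        fin_cases a <;> fin_cases b <;>
          simp [Matrix.mul_apply, Fin.sum_univ_two, e10, e11, e00,
            hDd s hs]
      have := congrArg (fun M => U * M * U') key
      simp only [hX, E', Matrix.mul_smul, Matrix.smul_mul, ← mul_assoc, hUU', one_mul] at this
      simp only [mul_assoc, hUU', mul_one] at this
      rw [Matrix.map_mul]
      exact this
    · rw [hz s (Attach.inertia_smul_residue hs).1]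
      exact (hIi s hs).2
  -- the identities in the quotient
  have hπ0 : ∀ t, (∀ j, g j t = 0) → π t = 0 := fun t ht => hker (hI t ht)
  have htr : π E.trace = 1 := by
    rw [← sub_eq_zero, ← map_one π, ← map_sub]
    exact hπ0 _ fun j => by rw [map_sub, (hB j).1, map_one, sub_self]
  have hline : ∀ s ∈ P.decompositionSubgroup ℚ, ∀ a b,
      ((J.cd.R₀ s).map π * E.map π) a b = π (cc s * z s) * E.map π a b := by
    intro s hs a b
    rw [← Matrix.map_mul, Matrix.map_apply, Matrix.map_apply, ← map_mul, ← sub_eq_zero, ← map_sub]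
    refine hπ0 _ fun j => ?_
    rw [map_sub, sub_eq_zero, map_mul]
    exact congrFun (congrFun ((hB j).2.1 s hs) a) b
  have hz1 : ∀ s ∈ P.inertiaSubgroupIn ℚ, π (z s) = 1 := fun s hs => by
    rw [← sub_eq_zero, ← map_one π, ← map_sub]
    exact hπ0 _ fun j => by rw [map_sub, (hB j).2.2 s hs, map_one, sub_self]
  -- a frame on the line
  set F : Mt R' := E.map π
  have hF : F.trace = 1 := by
    rw [← htr]; simp [F, Matrix.trace_fin_two]
  obtain ⟨a, ha⟩ : ∃ a, IsUnit (F a a) := by
    rw [Matrix.trace_fin_two] at hF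
    rcases IsLocalRing.isUnit_or_isUnit_of_add_one hF with h | h
    · exact ⟨0, h⟩
    · exact ⟨1, h⟩
  let U : Mt R' := Matrix.of fun i k => if k = 0 then F i a else if i = a then 0 else 1
  have hU : IsUnit U.det := by
    fin_cases a <;> simp [U, Matrix.det_fin_two] <;> simpa using ha
  refine ⟨U, U⁻¹, Matrix.nonsing_inv_mul U hU, Matrix.mul_nonsing_inv U hU, ?_⟩
  have hcol : ∀ s ∈ P.decompositionSubgroup ℚ, ∀ i,
      (U⁻¹ * (J.cd.R₀ s).map π * U) i 0 = π (cc s * z s) * (1 : Mt R') i 0 := by
    intro s hs i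
    have e : ∀ l, ((J.cd.R₀ s).map π * U) l 0 = π (cc s * z s) * U l 0 := fun l => by
      have := hline s hs l a
      simp only [Matrix.mul_apply] at this ⊢
      simpa [U, F] using this
    rw [Matrix.mul_assoc, Matrix.mul_apply]
    simp only [e]
    rw [show (1 : Mt R') i 0 = (U⁻¹ * U) i 0 by rw [Matrix.nonsing_inv_mul U hU],
      Matrix.mul_apply, Finset.mul_sum]
    exact Finset.sum_congr rfl fun l _ => by ring
  have h11 : ∀ s ∈ P.decompositionSubgroup ℚ, (U⁻¹ * (J.cd.R₀ s).map π * U) 1 1 = π (z s) := by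
    intro s hs
    have e1 : (U⁻¹ * (J.cd.R₀ s).map π * U).trace = π (J.cd.R₀ s).trace := by
      rw [Matrix.trace_mul_cycle, Matrix.mul_nonsing_inv U hU, Matrix.one_mul]
      simp [Matrix.trace_fin_two]
    have e2 : π (J.cd.R₀ s * E).trace = π (cc s * z s) * π E.trace := by
      have hl : ∀ b, π ((J.cd.R₀ s * E) b b) = π (cc s * z s) * π (E b b) := fun b => by
        have h := hline s hs b b
        rw [show (J.cd.R₀ s).map π * F = (J.cd.R₀ s * E).map π from (Matrix.map_mul).symm] at h
        exact h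
      rw [Matrix.trace_fin_two, Matrix.trace_fin_two, map_add, map_add, mul_add, hl, hl]
    rw [Matrix.trace_fin_two, hcol s hs 0, Matrix.one_apply_eq, mul_one] at e1
    rw [htr, mul_one] at e2
    simp only [z, map_sub, e2]
    linear_combination e1
  have h10 : ∀ s ∈ P.decompositionSubgroup ℚ, (U⁻¹ * (J.cd.R₀ s).map π * U) 1 0 = 0 :=
    fun s hs => by rw [hcol s hs 1, Matrix.one_apply_ne one_ne_zero, mul_zero]
  refine ⟨h10, fun s hs => ?_, fun s hs n m hm => ?_⟩
  · have hsD := (Attach.inertia_smul_residue hs).1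
    exact ⟨h10 s hsD, (h11 s hsD).trans (hz1 s hs)⟩
  · rw [hcol s hs 0, Matrix.one_apply_eq, mul_one, h11 s hs, map_mul, ← sub_mul]
    refine Ideal.mul_mem_right _ _ ?_
    have := (hD.map π.toRingHom).2 n s m hm
    dsimp only at this
    rw [← RingHom.mapMatrix_apply, ← RingHom.map_det, J.det_eq hdet] at this
    exact this

end JointLift

/-- strictness passes between coordinates of one representation -/
theorem strictMat_congr {A B : Type} [CommRing A] [IsLocalRing A] [CommRing B] [IsLocalRing B]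
    {ρ : GaloisRepAdic A} {R R' : GQ → Mt A} (h : RepMat ρ.ρ R) (h' : RepMat ρ.ρ R') (ψ : A →+* B)
    [IsLocalHom ψ] (hs : StrictMat p fun σ => (R σ).map ψ) : StrictMat p fun σ => (R' σ).map ψ :=
  strictMat_of_isStrictOrdinaryAt (Deform.repMat_baseChangeAlong ψ inferInstance h')
    (isStrictOrdinaryAt_of_strictMat (Deform.repMat_baseChangeAlong ψ inferInstance h) hs)

end FLTAgent.MLT

end
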