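import Fermat.Agent.MLT.Mk.CoreDeg
import Fermat.Agent.MLT.Mk.Supply
import Fermat.Agent.MLT.Mk.Joint

/-!
Area MLT, parcel LEVELMK (Core): the joint lift of one depth with the modules of the chain.

From a `LevelSupply` (the chain and the level `base`) and the curve as a lift (`CorePoint`):
a `PatchCore`, the identification of every module (`CoreLink`), and the conditions at `p` on its finite
quotients as far as they hold for the members.
-/

set_option autoImplicit false
set_option linter.style.haveILetI false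
set_option linter.unusedSectionVars false

noncomputable section

open IsLocalRing Matrix FLTAgent.LL FLTAgent.PT FLTAgent.PT.TW

namespace FLTAgent.MLT

variable (W : WeierstrassCurve ℤ) (p : ℕ) [Fact p.Prime] {O : Type} [CommRing O] [IsDomain O]
  [IsDiscreteValuationRing O] [IsAdicComplete (maximalIdeal O) O] [Finite (ResidueField O)]
  [CharZero O] [Algebra (ZMod p) (ResidueField O)]

/-- the curve as a lift -/
structure CorePoint (r : GQ →* GL (Fin 2) (ResidueField O)) : Type 1 where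
  ρ : GaloisRepAdic O
  R₀ : GQ → Matrix (Fin 2) (Fin 2) O
  rep : Deform.RepMat ρ.ρ R₀
  absIrr : ρ.residual.IsAbsolutelyIrreducible
  residual_trace : ∀ σ, residue O (R₀ σ).trace = (matHom r σ).trace
  det : ρ.DetIsCyclotomic p
  unip : ∀ q : ℕ, q.Prime → q ≠ p → ¬ W.IsGoodPrimeFor q → ρ.IsUnipotentOnInertiaAt q
  unr : ∀ q : ℕ, q.Prime → q ≠ p → W.IsGoodPrimeFor q → ρ.IsUnramifiedAt q

variable {W p} {ρbar : ResidualGaloisRep (ResidueField O)}
  {r : GQ →* GL (Fin 2) (ResidueField O)} {Smin : Finset ℕ} {k : ℕ} {Wq : Fin k → Nat.Primes}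
  {frob tame : Fin k → GQ} {w : Fin k → O} {s n : ℕ} {d : Fin (k + 1) → ℕ} {M : ℕ} [NeZero M]

/-- a module of the lift is the module of a level, the coefficients acting through traces -/
structure CoreLink (C : PatchCore p ρbar r Smin Wq frob tame w s d n) (D : TWData M p s)
    (sys : Sys M O) (S : Finset ℕ) {dX : ℕ} (X : DiaMod (O := O) C.f dX) : Type 1 where
  L : WorldRep D sys S r
  π : C.D.R →ₐ[O] L.T
  surj : Function.Surjective π
  rep : Deform.RepMat L.ρ.ρ (fun σ => (C.cd.R₀ σ).map π)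
  trace : ∀ σ, π (C.cd.R₀ σ).trace = (L.R₀ σ).trace
  e : X.V ≃ₗ[O] D.Mod sys
  act : ∀ t x, e (X.act t x) = L.φ (π t) (e x)
  aug : ∀ x, x ∈ X.augPart ↔ D.toY sys (e x) = 0

variable {N0 e : ℕ} {avoid : Finset ℕ} {bound : ℕ}

/-- the joint lift of one depth with its modules and their identifications -/
structure CoreSupply (P : LevelSupply W p ρbar r Wq N0 e avoid s bound n) (pt : CorePoint W p r)
    (frob tame : Fin k → GQ) (w : Fin k → O) : Type 1 where
  core : PatchCore p ρbar r (insert p (sMin W p)) Wq frob tame w s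
    (fun j => (P.level j).rkY P.sys) n
  link : ∀ j, CoreLink core (P.level j) P.sys P.S (core.lev j)
  Y : DiaMod (O := O) core.f (P.base.rkY P.sys)
  linkY : CoreLink core P.base P.sys P.S Y
  pt_rep : Deform.RepMat pt.ρ.ρ (fun σ => (core.cd.R₀ σ).map core.pt)
  pt_trace : ∀ σ, core.pt (core.cd.R₀ σ).trace = (pt.R₀ σ).trace
  inj : ∀ t, (∀ j, (link j).π t = 0) → linkY.π t = 0 → core.pt t = 0 → t = 0
  flat_chain : (∀ j, (link j).L.ρ.IsFlatAt p) →
    core.AtP (⨅ j, RingHom.ker (core.lev j).act) (fun _ _ _ ρ' => ρ'.IsFlatAt p)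
  flat_all : (∀ j, (link j).L.ρ.IsFlatAt p) → linkY.L.ρ.IsFlatAt p → pt.ρ.IsFlatAt p →
    core.AtP ⊥ (fun _ _ _ ρ' => ρ'.IsFlatAt p)
  strict_family : ∀ {κ : Type} (B : κ → Type) [∀ j, CommRing (B j)] [∀ j, IsLocalRing (B j)]
    [∀ j, IsNoetherianRing (B j)] (g : ∀ j, core.D.R →+* B j),
    (∀ j, StrictMat p fun σ => (core.cd.R₀ σ).map (g j)) → ∀ I : Ideal core.D.R,
      (∀ t, (∀ j, g j t = 0) → t ∈ I) →
        core.AtP I (fun _ _ _ ρ' => ρ'.IsStrictOrdinaryAt p)

end FLTAgent.MLT

end
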