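import Fermat.Agent.MLT.Mk.Defs
import Fermat.Agent.MLT.RepWorld
import Fermat.Agent.MLT.DegenTq
import Fermat.Agent.LL.LevelTW

/-!
Area MLT, parcel LEVELMK (Core): from the degeneracy maps of two levels to a `DiaDegen`.

The coefficient algebra `R` of a joint lift acts on each level through its map to the algebra of that
level; it is generated by traces, so a map commuting with the Hecke operators commutes with it.
-/

set_option autoImplicit false
set_option linter.style.haveILetI false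
set_option linter.unusedSectionVars false
set_option maxHeartbeats 2000000

noncomputable section

open IsLocalRing FLTAgent.LL

namespace FLTAgent.MLT

open FLTAgent.Attach (GalQ)

variable {A : Type} [CommRing A] [IsDomain A] [IsDiscreteValuationRing A]
  [IsAdicComplete (maximalIdeal A) A] [Finite (ResidueField A)] [CharZero A]
  {M p r : ℕ} [NeZero M] {s : Sys M A} {S : Finset ℕ}
  {rres : GalQ →* GL (Fin 2) (ResidueField A)}

namespace WorldRep

theorem trace_ρ {D : TWData M p r} (L : WorldRep D s S rres) (σ : GalQ) :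
    LinearMap.trace L.T L.ρ.V (L.ρ.ρ σ) = (L.R₀ σ).trace := by
  obtain ⟨b, hb⟩ := L.rep
  rw [← hb, LinearMap.trace_eq_matrix_trace L.T b]

variable {D D' : TWData M p r} (L : WorldRep D s S rres) (L' : WorldRep D' s S rres)
  {R : Type} [CommRing R] [Algebra A R] (π : R →ₐ[A] L.T) (π' : R →ₐ[A] L'.T) (tr : GalQ → R)
  (htr : ∀ σ, π (tr σ) = (L.R₀ σ).trace) (htr' : ∀ σ, π' (tr σ) = (L'.R₀ σ).trace)
  (hgen : Algebra.adjoin A (Set.range tr) = ⊤)

include htr htr' hgen in
/-- a map commuting with the Hecke operators commutes with the coefficient algebra -/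
theorem intertwine_of_tOp (g : D'.Mod s →ₗ[A] D.Mod s)
    (hg : ∀ (l : ℕ) (hl : l.Prime) (hlM : ¬ l ∣ M) x,
      g (D'.tOp s hl hlM x) = D.tOp s hl hlM (g x)) (t : R) (x : D'.Mod s) :
    g (L'.φ (π' t) x) = L.φ (π t) (g x) := by
  haveI : Module.Finite A (D.Mod s) := s.E_finite
  have ht : t ∈ Algebra.adjoin A (Set.range tr) := hgen ▸ Algebra.mem_top
  induction ht using Algebra.adjoin_induction generalizing x with
  | mem y hy =>
    obtain ⟨σ, rfl⟩ := hy
    rw [htr, htr', ← L.trace_ρ, ← L'.trace_ρ]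
    refine trace_intertwine L.ρ L'.ρ L.φ L'.φ g S (fun ℓ hℓ hℓS P hP τ hτ => ?_) σ x
    obtain ⟨a, ⟨hlM, ha⟩, hc⟩ := L.frob ℓ hℓ hℓS P hP τ hτ
    obtain ⟨a', ⟨_, ha'⟩, hc'⟩ := L'.frob ℓ hℓ hℓS P hP τ hτ
    exact ⟨a, a', hc, hc', fun m => by rw [ha, ha']; exact hg ℓ hℓ hlM m⟩
  | algebraMap c =>
    rw [AlgHom.commutes, AlgHom.commutes, AlgHom.commutes, AlgHom.commutes,
      Module.algebraMap_end_apply, Module.algebraMap_end_apply, _root_.map_smul]
  | add y z _ _ hy hz =>
    rw [_root_.map_add, _root_.map_add, _root_.map_add, _root_.map_add, LinearMap.add_apply, LinearMap.add_apply, _root_.map_add,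
      hy, hz]
  | mul y z _ _ hy hz =>
    rw [_root_.map_mul, _root_.map_mul, _root_.map_mul, _root_.map_mul, Module.End.mul_apply, Module.End.mul_apply, hy, hz]

end WorldRep

variable {D : TWData M p r} {q : ℕ} [NeZero q] (O : OldPrime D q)

variable (L : WorldRep D s S rres) (L' : WorldRep (D.lower q O.dvd) s S rres)
  {R : Type} [CommRing R] [Algebra A R] (π : R →ₐ[A] L.T) (π' : R →ₐ[A] L'.T) (tr : GalQ → R)
  (htr : ∀ σ, π (tr σ) = (L.R₀ σ).trace) (htr' : ∀ σ, π' (tr σ) = (L'.R₀ σ).trace)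
  (hgen : Algebra.adjoin A (Set.range tr) = ⊤)

section Frob

variable (hpS : p ∈ S) (hpA : (p : A) ∈ maximalIdeal A) (h2 : IsUnit (2 : A)) (hqp : q ≠ p)
  {P : ValuationSubring (AlgebraicClosure ℚ)} (hP : P.LiesOverPrime q) {τ : GalQ}
  (hτ : P.IsFrobeniusAt τ q)

include hpS hpA h2 hqp hP hτ

include htr' in
/-- below, the quartic of Frobenius at `q` is that of `T q` -/
theorem quartic_eq_tqQuart :
    L'.φ (π' (tr τ ^ 2 - (1 + (q : R)) ^ 2)) = O.tqQuart s := by
  haveI : Module.Finite A ((D.lower q O.dvd).Mod s) := s.E_finite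
  have h := O.trace_eq_tqOp s L'.ρ hpS hpA h2 hqp hP hτ L'.φ L'.frob
  rw [L'.trace_ρ, ← htr'] at h
  rw [_root_.map_sub, _root_.map_sub, _root_.map_pow, _root_.map_pow, h, OldPrime.tqQuart, pow_two (O.tqOp s),
    show (1 + (q : R)) ^ 2 = algebraMap A R ((1 + (q : A)) ^ 2) by
      rw [_root_.map_pow, _root_.map_add, _root_.map_one, _root_.map_natCast],
    AlgHom.commutes, AlgHom.commutes, Algebra.algebraMap_eq_smul_one]

include htr in
/-- above, it kills what both pushes kill -/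
theorem quartic_apply_eq_zero {x : D.Mod s} (hx : O.oldPush s x = 0) :
    L.φ (π (tr τ ^ 2 - (1 + (q : R)) ^ 2)) x = 0 := by
  have h := O.quartic_of_oldPush_eq_zero s L.ρ hpS hpA h2 hqp hP hτ L.φ L.frob x hx
  rw [L.trace_ρ, ← htr] at h
  rw [_root_.map_sub π, _root_.map_pow π, _root_.map_pow π, _root_.map_add π, _root_.map_one, _root_.map_natCast]
  exact h

end Frob

include htr htr' hgen

/-- the degeneracy pair in the form of the patching -/
theorem exists_diaDegen (h2 : IsUnit (2 : A)) {Δ : Type} [CommGroup Δ] [Fintype Δ] {f : Δ →* R}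
    {dX dY : ℕ} (X : DiaMod (O := A) f dX) (Y : DiaMod (O := A) f dY)
    (eX : X.V ≃ₗ[A] (D.lower q O.dvd).Mod s) (eY : Y.V ≃ₗ[A] D.Mod s)
    (hX : ∀ t x, eX (X.act t x) = L'.φ (π' t) (eX x))
    (hY : ∀ t y, eY (Y.act t y) = L.φ (π t) (eY y))
    (hsurj : Function.Surjective (O.oldPush s))
    (hsmall : ∀ z, eY.symm (O.oldPull s z) ∈ Y.small →
      eX.symm z.1 ∈ X.small ∧ eX.symm z.2 ∈ X.small)
    (h : Module.End A X.V) (hh : ∀ x, eX (h x) = O.tqQuart s (eX x)) :
    ∃ G : DiaDegen X Y h (-(1 + (q : A))),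
      ∀ y, G.push y = 0 → O.oldPush s (eY y) = 0 := by
  classical
  -- pairs
  let E2 : (Fin 2 → X.V) ≃ₗ[A] (D.lower q O.dvd).Mod s × (D.lower q O.dvd).Mod s :=
    (LinearEquiv.piCongrRight fun _ => eX).trans (LinearEquiv.finTwoArrow A _)
  have hE2 : ∀ v, E2 v = (eX (v 0), eX (v 1)) := fun v => rfl
  have hsymm : ∀ z (a : Fin 2), eX (E2.symm z a) = if a = 0 then z.1 else z.2 := by
    intro z a
    have e := E2.apply_symm_apply z
    rw [hE2] at e
    fin_cases a
    · exact congrArg Prod.fst e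
    · exact congrArg Prod.snd e
  have hact2 : ∀ t v, E2 (twoEnd (X.act t) v) =
      (L'.φ (π' t) (eX (v 0)), L'.φ (π' t) (eX (v 1))) := fun t v => by
    rw [hE2]
    exact Prod.ext (hX t (v 0)) (hX t (v 1))
  -- the four maps commute with the coefficient algebra
  have hu1 : ∀ t x, O.pull1 s (L'.φ (π' t) x) = L.φ (π t) (O.pull1 s x) :=
    L.intertwine_of_tOp L' π π' tr htr htr' hgen _ fun l hl hlM x => O.pull1_tOp s hl hlM x
  have hu2 : ∀ t x, O.pull2 s (L'.φ (π' t) x) = L.φ (π t) (O.pull2 s x) :=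
    L.intertwine_of_tOp L' π π' tr htr htr' hgen _ fun l hl hlM x => O.pull2_tOp s hl hlM x
  have hd1 : ∀ t y, O.push1 s (L.φ (π t) y) = L'.φ (π' t) (O.push1 s y) :=
    L'.intertwine_of_tOp L π' π tr htr' htr hgen _ fun l hl hlM x => O.push1_tOp s hl hlM x
  have hd2 : ∀ t y, O.push2 s (L.φ (π t) y) = L'.φ (π' t) (O.push2 s y) :=
    L'.intertwine_of_tOp L π' π tr htr' htr hgen _ fun l hl hlM x => O.push2_tOp s hl hlM x
  have hdia : ∀ u t x, (D.lower q O.dvd).dia s u (L'.φ (π' t) x) =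
      L'.φ (π' t) ((D.lower q O.dvd).dia s u x) := fun u =>
    L'.intertwine_of_tOp L' π' π' tr htr' htr' hgen _ fun l hl hlM x => LinearMap.congr_fun
      (((D.lower q O.dvd).dia_comm s u _).mul_right
        ((D.lower q O.dvd).dia_comm_opT s u hl hlM)).eq x
  have htq : ∀ t x, O.tqOp s (L'.φ (π' t) x) = L'.φ (π' t) (O.tqOp s x) :=
    L'.intertwine_of_tOp L' π' π' tr htr' htr' hgen _ fun l hl hlM x => O.tqOp_tOp s hl hlM x
  let push : Y.V →ₗ[A] (Fin 2 → X.V) := E2.symm.toLinearMap ∘ₗ O.oldPush s ∘ₗ eY.toLinearMap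
  have hpush : ∀ y, E2 (push y) = O.oldPush s (eY y) := fun y => E2.apply_symm_apply _
  refine ⟨{
    pull := eY.symm.toLinearMap ∘ₗ O.oldPull s ∘ₗ E2.toLinearMap
    push := push
    adj := E2.symm.toLinearMap ∘ₗ O.oldAdj s ∘ₗ E2.toLinearMap
    pull_act := fun t v => eY.injective ?_
    push_act := fun t y => E2.injective ?_
    adj_act := fun t => LinearMap.ext fun v => E2.injective ?_
    push_surj := E2.symm.surjective.comp (hsurj.comp eY.surjective)
    pull_small := fun v hv a => ?_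
    adj_mul := fun v => E2.injective ?_
    mul_adj := fun v => E2.injective ?_
    adj_corner := fun x => eX.injective ?_ }, fun y hy => ?_⟩
  · simp only [LinearMap.comp_apply, LinearEquiv.coe_coe, LinearEquiv.apply_symm_apply, hY, hact2]
    rw [hE2]
    show O.pull1 s (L'.φ (π' t) (eX (v 0))) + O.pull2 s (L'.φ (π' t) (eX (v 1))) =
      L.φ (π t) (O.pull1 s (eX (v 0)) + O.pull2 s (eX (v 1)))
    rw [hu1, hu2, _root_.map_add]
  · rw [hpush, hY, hact2]
    have e := hpush y
    rw [hE2] at e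
    rw [show eX (push y 0) = O.push1 s (eY y) from congrArg Prod.fst e,
      show eX (push y 1) = O.push2 s (eY y) from congrArg Prod.snd e]
    exact Prod.ext (hd1 t _) (hd2 t _)
  · simp only [Module.End.mul_apply, LinearMap.comp_apply, LinearEquiv.coe_coe,
      hact2, hsymm, OldPrime.oldAdj_apply, _root_.map_add, _root_.map_smul, hE2,
      if_pos, Fin.one_eq_zero_iff, Nat.succ_ne_self, if_false, htq, hdia]
  · have e : E2 v = (eX (v 0), eX (v 1)) := hE2 v
    obtain ⟨h0, h1⟩ := hsmall (E2 v) hv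
    rw [e, LinearEquiv.symm_apply_apply] at h0 h1
    fin_cases a
    exacts [h0, h1]
  · simp only [LinearMap.comp_apply, LinearEquiv.coe_coe, LinearEquiv.apply_symm_apply, push,
      (O.oldAdj_mul s h2 _).1]
    rw [hE2 (twoEnd h v)]
    exact Prod.ext (hh (v 0)).symm (hh (v 1)).symm
  · simp only [LinearMap.comp_apply, LinearEquiv.coe_coe, LinearEquiv.apply_symm_apply, push,
      (O.oldAdj_mul s h2 _).2]
    rw [hE2 (twoEnd h v)]
    exact Prod.ext (hh (v 0)).symm (hh (v 1)).symm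
  · show eX (E2.symm (O.oldAdj s (E2 (Pi.single 0 x))) 0) = _
    rw [hsymm, if_pos rfl, hE2, Pi.single_eq_same,
      Pi.single_eq_of_ne (show (1 : Fin 2) ≠ 0 by decide), _root_.map_zero, O.oldAdj_fst, _root_.map_smul]
  · rw [← hpush, hy, _root_.map_zero]

end FLTAgent.MLT

end
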