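import Fermat.Agent.MLT.Mk.Core

/-!
Area MLT, parcel LEVELMK (Core): the members of one depth as one lift.

The members are the levels of the chain, the level `base` and the curve; each is unipotent at every
prime other than `p` and the auxiliary ones, and unramified outside the level.
-/

set_option autoImplicit false
set_option linter.style.haveILetI false
set_option linter.unusedSectionVars false
set_option maxHeartbeats 1000000

noncomputable section

open IsLocalRing Matrix FLTAgent.LL FLTAgent.PT FLTAgent.PT.TW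

namespace FLTAgent.MLT

variable {W : WeierstrassCurve ℤ} {p : ℕ} [Fact p.Prime] {O : Type} [CommRing O] [IsDomain O]
  [IsDiscreteValuationRing O] [IsAdicComplete (maximalIdeal O) O] [Finite (ResidueField O)]
  [CharZero O] [Algebra (ZMod p) (ResidueField O)] {ρbar : ResidualGaloisRep (ResidueField O)}
  {r : GQ →* GL (Fin 2) (ResidueField O)} {k : ℕ} {Wq : Fin k → Nat.Primes}
  {N0 e : ℕ} {avoid : Finset ℕ} {s bound n : ℕ}

/-- an unramified representation is unipotent on inertia -/
theorem isUnipotentOnInertiaAt_of_isUnramifiedAt {A : Type} [CommRing A] [IsLocalRing A]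
    {ρ : GaloisRepAdic A} {R : GQ → Deform.Mt A} (h : Deform.RepMat ρ.ρ R) {q : ℕ}
    (hq : ρ.IsUnramifiedAt q) : ρ.IsUnipotentOnInertiaAt q := fun P hP σ hσ => by
  rw [charpoly_eq_of_repMat h, (eq_one_iff_of_repMat h σ).1 (hq P hP σ hσ), Matrix.charpoly_one,
    Fintype.card_fin]

/-- the members of one depth as one lift -/
structure CoreJoint (P : LevelSupply W p ρbar r Wq N0 e avoid s bound n) (pt : CorePoint W p r)
    (frob tame : Fin k → GQ) (w : Fin k → O) : Type 1 where
  D : RepData ρbar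
  [noeth : IsNoetherianRing D.R]
  [complete : IsAdicComplete (maximalIdeal D.R) D.R]
  hausdorff : IsHausdorff (maximalIdeal D.R) D.R
  cd : TW.Coord D r
  det : D.ρ.DetIsCyclotomic p
  unip : ∀ q ∈ insert p (sMin W p), q.Prime → q ≠ p → D.ρ.IsUnipotentOnInertiaAt q
  unr : ∀ q : Nat.Primes, (q : ℕ) ∉ insert p (sMin W p) → (∀ i, Wq i ≠ q) → (∀ i, P.Q i ≠ q) →
    D.ρ.IsUnramifiedAt (q : ℕ)
  tame_trace : ∀ i, (cd.R₀ (tame i)).trace = 2
  gen : Algebra.adjoin O (Set.range fun σ => (cd.R₀ σ).trace) = ⊤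
  L : ∀ j, WorldRep (P.level j) P.sys P.S r
  LY : WorldRep P.base P.sys P.S r
  π : ∀ j, D.R →ₐ[O] (L j).T
  surj : ∀ j, Function.Surjective (π j)
  rep : ∀ j, Deform.RepMat (L j).ρ.ρ (fun σ => (cd.R₀ σ).map (π j))
  trace : ∀ j σ, π j (cd.R₀ σ).trace = ((L j).R₀ σ).trace
  πY : D.R →ₐ[O] LY.T
  surjY : Function.Surjective πY
  repY : Deform.RepMat LY.ρ.ρ (fun σ => (cd.R₀ σ).map πY)
  traceY : ∀ σ, πY (cd.R₀ σ).trace = (LY.R₀ σ).trace
  ptH : D.R →ₐ[O] O
  pt_rep : Deform.RepMat pt.ρ.ρ (fun σ => (cd.R₀ σ).map ptH)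
  pt_trace : ∀ σ, ptH (cd.R₀ σ).trace = (pt.R₀ σ).trace
  pt_sign : ∀ i, ptH (cd.R₀ (frob i)).trace = w i * (1 + ((Wq i : ℕ) : O))
  unr_lev : ∀ (j : Fin (k + 1)) (i : Fin k), (j : ℕ) ≤ i → ∀ a b,
    π j ((cd.R₀ (tame i) - 1) a b) = 0
  inj : ∀ t, (∀ j, π j t = 0) → πY t = 0 → ptH t = 0 → t = 0
  flat_chain : (∀ j, (L j).ρ.IsFlatAt p) → ∀ (I : Ideal D.R), (∀ t, (∀ j, π j t = 0) → t ∈ I) →
    ∀ {R' : Type} [CommRing R'] [IsLocalRing R'] [Algebra O R'] [Finite R'] (φ : D.R →ₐ[O] R'),
      Function.Surjective φ → I ≤ RingHom.ker φ → ∀ ρ' : GaloisRepAdic R',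
        Deform.RepMat ρ'.ρ (fun σ => (cd.R₀ σ).map φ) → ρ'.IsFlatAt p
  flat_all : (∀ j, (L j).ρ.IsFlatAt p) → LY.ρ.IsFlatAt p → pt.ρ.IsFlatAt p → ∀ (I : Ideal D.R),
    ∀ {R' : Type} [CommRing R'] [IsLocalRing R'] [Algebra O R'] [Finite R'] (φ : D.R →ₐ[O] R'),
      Function.Surjective φ → I ≤ RingHom.ker φ → ∀ ρ' : GaloisRepAdic R',
        Deform.RepMat ρ'.ρ (fun σ => (cd.R₀ σ).map φ) → ρ'.IsFlatAt p
  strict : ∀ {κ : Type} {B : κ → Type} [∀ j, CommRing (B j)] [∀ j, IsLocalRing (B j)]
    [∀ j, IsNoetherianRing (B j)] (g : ∀ j, D.R →+* B j),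
    (∀ j, StrictMat p fun σ => (cd.R₀ σ).map (g j)) → ∀ (I : Ideal D.R),
    (∀ t, (∀ j, g j t = 0) → t ∈ I) →
    ∀ {R' : Type} [CommRing R'] [IsLocalRing R'] [Algebra O R'] [Finite R'] (φ : D.R →ₐ[O] R'),
      Function.Surjective φ → I ≤ RingHom.ker φ → ∀ ρ' : GaloisRepAdic R',
        Deform.RepMat ρ'.ρ (fun σ => (cd.R₀ σ).map φ) → ρ'.IsStrictOrdinaryAt p

attribute [instance] CoreJoint.noeth CoreJoint.complete

/-- the members have one lift -/
theorem exists_coreJoint (hS : SemiResidual W p ρbar r)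
    (hWp : ∀ i, (Wq i : ℕ) ≠ p)
    {frob tame : Fin k → GQ} (hpl : CondPlaces p r Wq frob tame)
    (hN0 : ∀ l : ℕ, l.Prime → l ∣ N0 → l ∈ insert p (sMin W p))
    (he : ∀ l : ℕ, l.Prime → l ∣ e → l = p)
    (hcover : ∀ l : ℕ, l.Prime → l ≠ p → ¬ W.IsGoodPrimeFor l →
      l ∈ sMin W p ∨ ∃ i, (Wq i : ℕ) = l)
    (P : LevelSupply W p ρbar r Wq N0 e avoid s bound n) (pt : CorePoint W p r) {w : Fin k → O}
    (hsign : ∀ i, (pt.R₀ (frob i)).trace = w i * (1 + ((Wq i : ℕ) : O))) :
    Nonempty (CoreJoint P pt frob tame w) := by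
  classical
  have hp : p.Prime := Fact.out
  let L : ∀ j, WorldRep (P.level j) P.sys P.S r := fun j => (P.rep j).some
  let LY : WorldRep P.base P.sys P.S r := P.rep_base.some
  let T : Option (Option (Fin (k + 1))) → Type
    | none => O
    | some none => LY.T
    | some (some j) => (L j).T
  letI i1 : ∀ i, CommRing (T i)
    | none => inferInstanceAs (CommRing O)
    | some none => inferInstanceAs (CommRing LY.T)
    | some (some j) => inferInstanceAs (CommRing (L j).T)
  haveI : ∀ i, IsLocalRing (T i)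
    | none => inferInstanceAs (IsLocalRing O)
    | some none => inferInstanceAs (IsLocalRing LY.T)
    | some (some j) => inferInstanceAs (IsLocalRing (L j).T)
  letI : ∀ i, Algebra O (T i)
    | none => inferInstanceAs (Algebra O O)
    | some none => inferInstanceAs (Algebra O LY.T)
    | some (some j) => inferInstanceAs (Algebra O (L j).T)
  haveI : ∀ i, IsLocalHom (algebraMap O (T i))
    | none => inferInstanceAs (IsLocalHom (algebraMap O O))
    | some none => inferInstanceAs (IsLocalHom (algebraMap O LY.T))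
    | some (some j) => inferInstanceAs (IsLocalHom (algebraMap O (L j).T))
  haveI : ∀ i, Module.Finite O (T i)
    | none => inferInstanceAs (Module.Finite O O)
    | some none => inferInstanceAs (Module.Finite O LY.T)
    | some (some j) => inferInstanceAs (Module.Finite O (L j).T)
  let ρ : ∀ i, GaloisRepAdic (T i)
    | none => pt.ρ
    | some none => LY.ρ
    | some (some j) => (L j).ρ
  let R : ∀ i, GQ → Deform.Mt (T i)
    | none => pt.R₀
    | some none => LY.R₀
    | some (some j) => (L j).R₀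
  have hR : ∀ i, Deform.RepMat (ρ i).ρ (R i)
    | none => pt.rep
    | some none => LY.rep
    | some (some j) => (L j).rep
  have habs : ∀ i, (ρ i).residual.IsAbsolutelyIrreducible
    | none => pt.absIrr
    | some none => LY.absIrr
    | some (some j) => (L j).absIrr
  have hres : ∀ i, Function.Surjective (residue (T i) ∘ algebraMap O (T i))
    | none => fun y => by
      obtain ⟨a, rfl⟩ := residue_surjective y
      exact ⟨a, rfl⟩
    | some none => LY.residue_surjective
    | some (some j) => (L j).residue_surjective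
  have htr : ∀ i σ, residue (T i) (R i σ).trace =
      ResidueField.map (algebraMap O (T i)) (matHom r σ).trace
    | none => fun σ => by
      show residue O (pt.R₀ σ).trace = ResidueField.map (algebraMap O O) _
      rw [← pt.residual_trace, ResidueField.map_residue]
      rfl
    | some none => LY.residual_trace
    | some (some j) => (L j).residual_trace
  have hdet : ∀ i, (ρ i).DetIsCyclotomic p
    | none => pt.det
    | some none => LY.det
    | some (some j) => (L j).det
  obtain ⟨J⟩ := exists_jointLift hS.setting ρ hres habs R hR htr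
  -- primes of the levels
  have hQ : ∀ i, P.base.Q i = (P.Q i : ℕ) := fun i => congrFun P.base_Q i
  have hbase : ∀ q : ℕ, q.Prime → q ≠ p → q ∣ P.base.N0 → q ∉ sMin W p → ∃ i, (Wq i : ℕ) = q := by
    intro q hq hqp hd hm
    rw [P.base_N0] at hd
    rcases hq.dvd_mul.1 hd with hd | hd
    · rw [chainLevel_last] at hd
      rcases hq.dvd_mul.1 hd with hd | hd
      · exact absurd (Finset.mem_insert.1 (hN0 q hq hd)) (fun h => h.elim hqp hm)
      · obtain ⟨i, -, hi⟩ := hq.prime.exists_mem_finset_dvd hd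
        exact ⟨i, ((Nat.prime_dvd_prime_iff_eq hq (Wq i).2).1 hi).symm⟩
    · exact absurd (he q hq hd) hqp
  have hWdvd : ∀ i, (Wq i : ℕ) ∣ P.base.N0 := fun i => by
    rw [P.base_N0, chainLevel_last]
    exact ((Finset.dvd_prod_of_mem (fun i => (Wq i : ℕ)) (Finset.mem_univ i)).trans
      (dvd_mul_left _ _)).trans (dvd_mul_right _ _)
  have hWbad : ∀ i, ¬ W.IsGoodPrimeFor (Wq i) := fun i => by
    rcases P.prime_dvd _ (Wq i).2 ((hWdvd i).trans P.base.dvd0) with (h | h) | ⟨l, hl⟩
    · exact h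
    · exact absurd h (hWp i)
    · exact absurd (Subtype.ext hl.symm : Wq i = P.Q l) (P.Q_place l i)
  -- unipotent and unramified members
  have hsub : ∀ q : ℕ, q.Prime → q ≠ p → (∀ i, (P.Q i : ℕ) ≠ q) →
      ∀ i, (ρ i).IsUnipotentOnInertiaAt q := by
    intro q hq hqp hqQ i
    have key : ∀ (D' : TWData P.M p s) (L' : WorldRep D' P.sys P.S r), D'.Q = P.base.Q →
        L'.ρ.IsUnipotentOnInertiaAt q := fun D' L' hD' => by
      by_cases hd : q ∣ D'.N0
      · exact L'.unip q hq hqp hd
      · exact isUnipotentOnInertiaAt_of_isUnramifiedAt L'.rep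
          (L'.unr q hq hqp hd fun l => by rw [hD', hQ]; exact hqQ l)
    rcases i with _ | _ | j
    · by_cases hg : W.IsGoodPrimeFor q
      · exact isUnipotentOnInertiaAt_of_isUnramifiedAt pt.rep (pt.unr q hq hqp hg)
      · exact pt.unip q hq hqp hg
    · exact key _ LY rfl
    · exact key _ (L j) rfl
  have hunr : ∀ q : Nat.Primes, (q : ℕ) ∉ insert p (sMin W p) → (∀ i, Wq i ≠ q) →
      (∀ i, P.Q i ≠ q) → ∀ i, (ρ i).IsUnramifiedAt (q : ℕ) := by
    intro q hm hW hQ' i
    rw [Finset.mem_insert, not_or] at hm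
    have hnd : ¬ (q : ℕ) ∣ P.base.N0 := fun hd => by
      obtain ⟨i, hi⟩ := hbase _ q.2 hm.1 hd hm.2
      exact hW i (Subtype.ext hi)
    have hQl : ∀ l, P.base.Q l ≠ (q : ℕ) := fun l h => hQ' l (Subtype.ext ((hQ l).symm.trans h))
    rcases i with _ | _ | j
    · refine pt.unr _ q.2 hm.1 (by_contra fun hb => ?_)
      rcases hcover _ q.2 hm.1 hb with h | ⟨l, hl⟩
      · exact hm.2 h
      · exact hW l (Subtype.ext hl)
    · exact LY.unr _ q.2 hm.1 hnd hQl
    · exact (L j).unr _ q.2 hm.1 (fun hd => hnd (hd.trans (P.dvd_chain j))) hQl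
  have hWQ : ∀ i l, (P.Q l : ℕ) ≠ (Wq i : ℕ) := fun i l h => P.Q_place l i (Subtype.ext h.symm)
  have hchain : ∀ (j : Fin (k + 1)) (i : Fin k), (j : ℕ) ≤ i →
      ¬ (Wq i : ℕ) ∣ chainLevel N0 Wq j := by
    intro j i hji hd
    have hsq : Squarefree (chainLevel N0 Wq k) :=
      P.sq.squarefree_of_dvd (by rw [P.M_eq, mul_assoc]; exact dvd_mul_right _ _)
    have h1 : chainLevel N0 Wq j * (Wq i : ℕ) ∣ chainLevel N0 Wq k := by
      rw [chainLevel, mul_assoc, chainLevel_last, mul_comm (∏ _ ∈ _, _) (Wq i : ℕ),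
        ← Finset.prod_insert (f := fun i => (Wq i : ℕ))
          (by simp only [Finset.mem_filter, Finset.mem_univ, true_and, not_lt]; exact hji)]
      exact mul_dvd_mul_left _ (Finset.prod_dvd_prod_of_subset _ _ _ (Finset.subset_univ _))
    exact (Wq i).2.not_isUnit (hsq _ ((mul_dvd_mul hd dvd_rfl).trans h1))
  haveI := J.isNoetherianRing
  haveI := J.isAdicComplete
  refine ⟨{
    D := J.D
    hausdorff := J.isHausdorff
    cd := J.cd
    det := J.detIsCyclotomic hdet
    unip := fun q hq hqP hqp => J.isUnipotentOnInertiaAt (hsub q hqP hqp fun l h =>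
      P.Q_min l (h ▸ hq))
    unr := fun q hm hW hQ' => J.isUnramifiedAt (hunr q hm hW hQ')
    tame_trace := fun i => J.trace_eq_two (hsub _ (Wq i).2 (hWp i) (hWQ i))
      (liesOver_primeLocalPlace (Wq i)) (hpl.isTame i).1
    gen := J.gen
    L := L
    LY := LY
    π := fun j => J.π (some (some j))
    surj := fun j => J.π_surjective (some (some j)) (hR (some (some j))) (L j).gen
    rep := fun j => J.rep (some (some j))
    trace := fun j σ => J.trace_apply (some (some j)) (hR (some (some j))) σ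
    πY := J.π (some none)
    surjY := J.π_surjective (some none) (hR (some none)) LY.gen
    repY := J.rep (some none)
    traceY := fun σ => J.trace_apply (some none) (hR (some none)) σ
    ptH := J.π none
    pt_rep := J.rep none
    pt_trace := fun σ => J.trace_apply none (hR none) σ
    pt_sign := fun i => (J.trace_apply none (hR none) (frob i)).trans (hsign i)
    unr_lev := fun j i hji a b => ?_
    inj := fun t h1 h2 h3 => J.inj t 0 fun i => by
      rw [map_zero]
      rcases i with _ | _ | j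
      exacts [h3, h2, h1 j]
    flat_chain := fun hf I hI => J.isFlatAt_quotient (fun j : Fin (k + 1) => some (some j)) hf I hI
    flat_all := fun hf hfY hfp I => fun φ hφ hker => J.isFlatAt_quotient (fun i => i) (fun i => by
      rcases i with _ | _ | j
      exacts [hfp, hfY, hf j]) I (fun t ht => by
        rw [J.inj t 0 fun i => by rw [map_zero]; exact ht i]
        exact zero_mem I) φ hφ hker
    strict := fun g hg I hI => J.isStrictOrdinaryAt_quotient hdet hS.setting.hp2 g hg I hI }⟩
  have hu : (L j).ρ.IsUnramifiedAt (Wq i : ℕ) :=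
    (L j).unr _ (Wq i).2 (hWp i) (hchain j i hji) fun l => by
      show P.base.Q l ≠ _
      rw [hQ]
      exact hWQ i l
  have h1 := congrFun (congrFun ((eq_one_iff_of_repMat (J.rep (some (some j))) (tame i)).1
    (hu _ (liesOver_primeLocalPlace (Wq i)) _ (hpl.isTame i).1)) a) b
  rw [Matrix.map_apply] at h1
  rw [Matrix.sub_apply, map_sub, h1, sub_eq_zero, Matrix.one_apply, Matrix.one_apply]
  split <;> simp

end FLTAgent.MLT

end
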