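import Fermat.Agent.MLT.Mk.CoreJoint
import Fermat.Agent.MLT.DegenSplit

/-!
Area MLT, parcel LEVELMK (Core): two neighbouring levels of a chain, their degeneracy pair on modules
free over the diamonds, and representations of further levels of the same depth.
-/

set_option autoImplicit false
set_option linter.style.haveILetI false
set_option linter.unusedSectionVars false
set_option maxHeartbeats 1000000

noncomputable section

open IsLocalRing FLTAgent.LL

namespace FLTAgent.MLT

open FLTAgent.Attach (GalQ)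

/-- the level depends on its number only -/
theorem withN0_congr {M p r : ℕ} (D : TWData M p r) {a b : ℕ} (h : a = b) (ha : a ∣ D.N0)
    (hb : b ∣ D.N0) : D.withN0 a ha = D.withN0 b hb := by
  subst h
  rfl

theorem cast_mem_maximalIdeal_of_zmod {p : ℕ} [Fact p.Prime] {O : Type} [CommRing O] [IsLocalRing O]
    [Algebra (ZMod p) (ResidueField O)] : (p : O) ∈ maximalIdeal O := by
  rw [← residue_eq_zero_iff, map_natCast, ← map_natCast (algebraMap (ZMod p) (ResidueField O)),
    ZMod.natCast_self, map_zero]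

section Pair

variable {A : Type} [CommRing A] [IsDomain A] [IsDiscreteValuationRing A]
  [IsAdicComplete (maximalIdeal A) A] [Finite (ResidueField A)] [CharZero A]
  {M p r : ℕ} [NeZero M] {s : Sys M A} {R : Type} [CommRing R] [Algebra A R]
  {Δ : Type} [CommGroup Δ] [Fintype Δ] {f : Δ →* R}

/-- what vanishes in the coinvariants modulo the maximal ideal, on the module of the level -/
theorem mem_small_link {D : TWData M p r} {d : ℕ} (X : DiaMod (O := A) f d)
    (e : X.V ≃ₗ[A] D.Mod s) (haug : ∀ x, x ∈ X.augPart ↔ D.toY s (e x) = 0) (x : X.V) :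
    x ∈ X.small ↔ e x ∈ LinearMap.ker (D.toY s) ⊔ maximalIdeal A • (⊤ : Submodule A (D.Mod s)) := by
  have h1 : X.augPart.map e.toLinearMap = LinearMap.ker (D.toY s) := by
    ext y
    constructor
    · rintro ⟨x, hx, rfl⟩
      exact LinearMap.mem_ker.2 ((haug x).1 hx)
    · exact fun hy => ⟨e.symm y, (haug _).2 (by
        rw [e.apply_symm_apply]; exact LinearMap.mem_ker.1 hy), e.apply_symm_apply y⟩
  have h2 : X.small.map e.toLinearMap =
      LinearMap.ker (D.toY s) ⊔ maximalIdeal A • (⊤ : Submodule A (D.Mod s)) := by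
    rw [DiaMod.small, Submodule.map_sup, h1, Submodule.map_smul'', Submodule.map_top,
      LinearEquiv.range]
  rw [← h2]
  constructor
  · exact fun hx => ⟨x, hx, rfl⟩
  · rintro ⟨x', hx', hxx⟩
    rwa [← e.injective hxx]

variable {S : Finset ℕ} {rres : GalQ →* GL (Fin 2) (ResidueField A)}

/-- two neighbouring levels give a degeneracy pair for the quartic of Frobenius -/
theorem exists_deg {D : TWData M p r} {q : ℕ} [NeZero q] (Old : OldPrime D q) {D' : TWData M p r}
    (hD' : D.lower q Old.dvd = D') (L : WorldRep D s S rres) (L' : WorldRep D' s S rres)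
    (π : R →ₐ[A] L.T) (π' : R →ₐ[A] L'.T) (tr : GalQ → R)
    (htr : ∀ σ, π (tr σ) = (L.R₀ σ).trace) (htr' : ∀ σ, π' (tr σ) = (L'.R₀ σ).trace)
    (hgen : Algebra.adjoin A (Set.range tr) = ⊤) (h6 : s.Elliptic) (hI : s.IharaAt q)
    (hpA : (p : A) ∈ maximalIdeal A) (hpS : p ∈ S) (hqp : q ≠ p)
    {P : ValuationSubring (AlgebraicClosure ℚ)} (hP : P.LiesOverPrime q) {τ : GalQ}
    (hτ : P.IsFrobeniusAt τ q) {dX dY : ℕ} (X : DiaMod (O := A) f dX) (Y : DiaMod (O := A) f dY)
    (eX : X.V ≃ₗ[A] D'.Mod s) (eY : Y.V ≃ₗ[A] D.Mod s)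
    (hX : ∀ t x, eX (X.act t x) = L'.φ (π' t) (eX x))
    (hY : ∀ t y, eY (Y.act t y) = L.φ (π t) (eY y))
    (haX : ∀ x, x ∈ X.augPart ↔ D'.toY s (eX x) = 0)
    (haY : ∀ y, y ∈ Y.augPart ↔ D.toY s (eY y) = 0) :
    ∃ G : DiaDegen X Y (X.act (tr τ ^ 2 - (1 + (q : R)) ^ 2)) (-(1 + (q : A))),
      ∀ y, G.push y = 0 → Y.act (tr τ ^ 2 - (1 + (q : R)) ^ 2) y = 0 := by
  subst hD'
  obtain ⟨G, hG⟩ := exists_diaDegen Old L L' π π' tr htr htr' hgen h6.1 X Y eX eY hX hY
    (Old.oldPush_surjective s h6 hI hpA)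
    (fun z hz => by
      rw [mem_small_link Y eY haY, eY.apply_symm_apply] at hz
      rw [mem_small_link X eX haX, mem_small_link X eX haX, eX.apply_symm_apply,
        eX.apply_symm_apply]
      exact Old.oldPull_small s h6 hI z hz)
    (X.act (tr τ ^ 2 - (1 + (q : R)) ^ 2)) (fun x => by
      rw [hX, quartic_eq_tqQuart Old L' π' tr htr' hpS hpA h6.1 hqp hP hτ])
  refine ⟨G, fun y hy => eY.injective ?_⟩
  rw [hY, quartic_apply_eq_zero Old L π tr htr hpS hpA h6.1 hqp hP hτ (hG y hy), _root_.map_zero]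

end Pair

section Supply

open Polynomial FLTAgent.PT FLTAgent.PT.TW

variable {W : WeierstrassCurve ℤ} {p : ℕ} [Fact p.Prime] {O : Type} [CommRing O] [IsDomain O]
  [IsDiscreteValuationRing O] [IsAdicComplete (maximalIdeal O) O] [Finite (ResidueField O)]
  [CharZero O] [Algebra (ZMod p) (ResidueField O)] {ρbar : ResidualGaloisRep (ResidueField O)}
  {r : GQ →* GL (Fin 2) (ResidueField O)} {k : ℕ} {Wq : Fin k → Nat.Primes}
  {N0 e : ℕ} {avoid : Finset ℕ} {s bound n : ℕ}

/-- every further datum of the depth which carries something has a representation -/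
theorem LevelSupply.exists_rep (P : LevelSupply W p ρbar r Wq N0 e avoid s bound n)
    (hS : SemiResidual W p ρbar r) {t : ℕ} (D : TWData P.M p t) (hQ : ∀ i, D.Q i ≠ p)
    (hne : D.Mod P.sys ≠ ⊥) : Nonempty (WorldRep D P.sys P.S r) := by
  obtain ⟨F₀, hF₀, hr⟩ := hS.setting.level
  have hlev : Deform.FinLevel fun σ => (r σ : Matrix (Fin 2) (Fin 2) (ResidueField O)) :=
    ⟨F₀, hF₀, fun σ hσ => congrArg Units.val (hr σ fun x => hσ x x.2)⟩
  obtain ⟨σ₀, α, β, hαβ, hσ₀⟩ := hS.exists_split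
  exact exists_worldRep D P.sys P.S cast_mem_maximalIdeal_of_zmod P.elliptic P.sq hQ P.pS P.MS
    P.S_iff P.l0_S r hlev P.frobS σ₀ hαβ hσ₀ (fun v hv => hS.no_line hv) hne

/-- the auxiliary primes are unramified residually -/
theorem LevelSupply.unramified_Q (P : LevelSupply W p ρbar r Wq N0 e avoid s bound n)
    (hS : SemiResidual W p ρbar r) (i : Fin s) : ρbar.IsUnramifiedAt (P.base.Q i) := by
  have h := hS.ramified_iff (P.Q i) (P.Q i).2 (P.Q_bad i).2
  rw [show P.base.Q i = (P.Q i : ℕ) from congrFun P.base_Q i]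
  by_contra hu
  exact P.Q_min i (h.2 hu)

/-- a place of the chain does not divide the level below it -/
theorem LevelSupply.not_dvd_chain (P : LevelSupply W p ρbar r Wq N0 e avoid s bound n) (i : Fin k) :
    ¬ (Wq i : ℕ) ∣ chainLevel N0 Wq i := fun hd => by
  have hsq : Squarefree (chainLevel N0 Wq k) :=
    P.sq.squarefree_of_dvd (by rw [P.M_eq, mul_assoc]; exact dvd_mul_right _ _)
  have h1 : chainLevel N0 Wq i * (Wq i : ℕ) ∣ chainLevel N0 Wq k := by
    rw [← chainLevel_succ]
    exact chainLevel_dvd N0 Wq _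
  exact (Wq i).2.not_isUnit (hsq _ ((mul_dvd_mul hd dvd_rfl).trans h1))

theorem LevelSupply.oldPrime (P : LevelSupply W p ρbar r Wq N0 e avoid s bound n) (i : Fin k) :
    OldPrime (P.level i.succ) (Wq i : ℕ) where
  prime := (Wq i).2
  dvd := by
    show (Wq i : ℕ) ∣ chainLevel N0 Wq (i + 1)
    rw [chainLevel_succ]
    exact dvd_mul_left _ _
  exact_dvd := by
    show ¬ (Wq i : ℕ) ∣ chainLevel N0 Wq (i + 1) / (Wq i : ℕ)
    rw [chainLevel_succ_div]
    exact P.not_dvd_chain i

theorem LevelSupply.lower_succ (P : LevelSupply W p ρbar r Wq N0 e avoid s bound n) (i : Fin k)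
    (h : (Wq i : ℕ) ∣ (P.level i.succ).N0) :
    (P.level i.succ).lower (Wq i : ℕ) h = P.level i.castSucc :=
  withN0_congr P.base (chainLevel_succ_div N0 Wq i)
    ((Nat.div_dvd_of_dvd h).trans (P.dvd_chain i.succ)) _

end Supply

end FLTAgent.MLT

end
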