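import Fermat.Agent.MLT.RepWorld
import Fermat.Agent.LL.LevelTW

/-!
Area MLT, parcel LEVELMK (P6): consequences of the representation of a level of a world for the
module of that level (the versions for `WorldRep` of the lemmas of `LL/LevelTW`).
-/

set_option autoImplicit false
set_option linter.style.haveILetI false
set_option linter.unusedSectionVars false
set_option maxHeartbeats 2000000

noncomputable section

open scoped TensorProduct
open IsLocalRing Polynomial FLTAgent.PT FLTAgent.PT.TW FLTAgent.LL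

namespace FLTAgent.MLT

open FLTAgent.Attach (GalQ)

variable {A : Type} [CommRing A] [IsDomain A] [IsDiscreteValuationRing A]
  [IsAdicComplete (maximalIdeal A) A] [Finite (ResidueField A)] [CharZero A]
  {M p : ℕ} [NeZero M]

namespace WorldRep

section Basic

variable {r : ℕ} {D : TWData M p r} {s : Sys M A} {S : Finset ℕ}
  {rres : GalQ →* GL (Fin 2) (ResidueField A)} (L : WorldRep D s S rres)

theorem trace_eq (σ : GalQ) : LinearMap.trace L.T L.ρ.V (L.ρ.ρ σ) = (L.R₀ σ).trace := by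
  obtain ⟨b, hb⟩ := L.rep
  rw [← hb, LinearMap.trace_eq_matrix_trace L.T b]

theorem isAdicComplete : IsAdicComplete (maximalIdeal L.T) L.T :=
  IsLocalRing.isAdicComplete_of_module_finite (𝒪 := A)

/-- the coefficient ring commutes with the diamonds -/
theorem commute_dia (hpA : (p : A) ∈ maximalIdeal A) (h6 : s.Elliptic) (u : D.Del) (x : L.T) :
    Commute (D.diaHom s u) (L.φ x) := by
  haveI := D.finite_Mod s h6 hpA
  have htr : ∀ σ, Commute (D.diaHom s u) (L.φ (L.R₀ σ).trace) := by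
    intro σ
    refine LinearMap.ext fun m => ?_
    rw [Module.End.mul_apply, Module.End.mul_apply, ← L.trace_eq]
    refine trace_intertwine L.ρ L.ρ L.φ L.φ (D.diaHom s u) S (fun ℓ hℓ hℓS P hP τ hτ => ?_) σ m
    obtain ⟨a, ⟨hlM, ha⟩, hc⟩ := L.frob ℓ hℓ hℓS P hP τ hτ
    refine ⟨a, a, hc, hc, fun m' => ?_⟩
    rw [ha]
    exact LinearMap.congr_fun
      ((D.dia_comm s u _).mul_right (D.dia_comm_opT s u hℓ hlM)).eq m'
  have hx : x ∈ Algebra.adjoin A (Set.range fun σ => (L.R₀ σ).trace) := L.gen ▸ Algebra.mem_top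
  induction hx using Algebra.adjoin_induction with
  | mem y hy => obtain ⟨σ, rfl⟩ := hy; exact htr σ
  | algebraMap a => rw [AlgHom.commutes]; exact Algebra.commute_algebraMap_right a _
  | add y z _ _ hy hz => rw [_root_.map_add]; exact hy.add_right hz
  | mul y z _ _ hy hz => rw [map_mul]; exact hy.mul_right hz

theorem commute_normAt (hpA : (p : A) ∈ maximalIdeal A) (h6 : s.Elliptic) (i : Fin r)
    (x : L.T) : Commute (D.normAt s i) (L.φ x) :=
  Commute.sum_left _ _ _ fun v _ => L.commute_dia hpA h6 _ x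

theorem trace_coord {R : GalQ → Matrix (Fin 2) (Fin 2) L.T} (hR : Deform.RepMat L.ρ.ρ R)
    (σ : GalQ) : (R σ).trace = (L.R₀ σ).trace := by
  obtain ⟨b, hb⟩ := hR
  rw [← L.trace_eq, ← hb, LinearMap.trace_eq_matrix_trace L.T b]

/-- the kill property in any coordinates -/
theorem kill' {R : GalQ → Matrix (Fin 2) (Fin 2) L.T} (hR : Deform.RepMat L.ρ.ρ R) (i : Fin r)
    {x : D.Mod s} (hx : D.normAt s i x = 0)
    (hk : ∀ σ ∈ (D.place i).inertiaSubgroupIn ℚ, ∀ τ ∈ (D.place i).inertiaSubgroupIn ℚ,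
      ∀ a b : Fin 2, L.φ (((R σ - 1) * (R τ - 1)) a b) x = 0) : x = 0 := by
  obtain ⟨P, Q, hQP, hPQ, hc⟩ := hR.conjugate L.rep
  refine L.kill i x (by rw [← D.normAt_apply]; exact hx) fun σ hσ τ hτ a b => ?_
  have e : (L.R₀ σ - 1) * (L.R₀ τ - 1) = P * ((R σ - 1) * (R τ - 1)) * Q := by
    have e1 : ∀ g, L.R₀ g - 1 = P * (R g - 1) * Q := fun g => by
      rw [hc g, mul_sub, sub_mul, mul_one, hPQ]
    rw [e1, e1]
    calc P * (R σ - 1) * Q * (P * (R τ - 1) * Q)
        = P * (R σ - 1) * (Q * P) * (R τ - 1) * Q := by simp only [mul_assoc]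
      _ = _ := by rw [hQP, mul_one]; simp only [mul_assoc]
  rw [e]
  simp only [Matrix.mul_apply (M := P * _), Matrix.mul_apply (M := P), map_sum, map_mul,
    Finset.sum_mul, LinearMap.sum_apply, Module.End.mul_apply]
  refine Finset.sum_eq_zero fun c _ => Finset.sum_eq_zero fun d _ => ?_
  have hcomm : ∀ u v : L.T, ∀ z, L.φ u (L.φ v z) = L.φ v (L.φ u z) := fun u v z => by
    rw [← Module.End.mul_apply, ← map_mul, mul_comm, map_mul, Module.End.mul_apply]
  rw [hcomm _ (Q c b) x, hcomm (P a d), hk σ hσ τ hτ d c, map_zero, map_zero]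

end Basic

section Drop

variable {t : ℕ} {D : TWData M p (t + 1)} {s : Sys M A} {S : Finset ℕ}
  {rres : GalQ →* GL (Fin 2) (ResidueField A)} (L : WorldRep D s S rres) {i : Fin (t + 1)}
  (L' : WorldRep (D.drop i) s S rres)

/-- traces along the pull-back -/
theorem pull_trace (hpA : (p : A) ∈ maximalIdeal A) (h6 : s.Elliptic) (σ : GalQ)
    (m : (D.drop i).Mod s) :
    D.pullMod i s (L'.φ (L'.R₀ σ).trace m) = L.φ (L.R₀ σ).trace (D.pullMod i s m) := by
  haveI := D.finite_Mod s h6 hpA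
  haveI := (D.drop i).finite_Mod s h6 hpA
  rw [← L.trace_eq, ← L'.trace_eq]
  refine trace_intertwine L.ρ L'.ρ L.φ L'.φ (D.pullMod i s) S (fun ℓ hℓ hℓS P hP τ hτ => ?_) σ m
  obtain ⟨a, ⟨hlM, ha⟩, hc⟩ := L.frob ℓ hℓ hℓS P hP τ hτ
  obtain ⟨a', ⟨_, ha'⟩, hc'⟩ := L'.frob ℓ hℓ hℓS P hP τ hτ
  exact ⟨a, a', hc, hc', fun m' => by rw [ha, ha']; exact D.pullMod_tOp i s hℓ hlM m'⟩

/-- a relation on the pull-back passes to the norm -/
theorem normAt_eq_zero_of_pull {x : L.T} {x' : L'.T}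
    (h : ∀ m, D.pullMod i s (L'.φ x' m) = L.φ x (D.pullMod i s m)) (hx' : L'.φ x' = 0)
    (m : D.Mod s) : L.φ x (D.normAt s i m) = 0 := by
  rw [D.normAt_apply, ← D.pullMod_pushMod, ← h, hx', LinearMap.zero_apply, map_zero]

end Drop

end WorldRep

section Norm

variable {t : ℕ} {D : TWData M p (t + 1)} {s : Sys M A} {S : Finset ℕ}
  {rres : GalQ →* GL (Fin 2) (ResidueField A)} (L : WorldRep D s S rres) {i : Fin (t + 1)}

/-- the norm kills `ι - 1` -/
theorem WorldRep.normAt_iota (hpA : (p : A) ∈ maximalIdeal A) (h6 : s.Elliptic) {q : ℕ} (hq : q.Prime)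
    (hqi : D.Q i = q) (hqp : q ≠ p)
    (hL' : (D.drop i).Mod s ≠ ⊥ → Nonempty (WorldRep (D.drop i) s S rres)) {σ : GalQ}
    (hσ : σ ∈ (D.place i).inertiaSubgroupIn ℚ) {ι ι' : L.T} {n : ℕ} (hn : n ≠ 0)
    (hprod : ι * ι' = 1) (htr : (L.R₀ σ).trace = ι + ι') (hpow : ι ^ n = 1) (m : D.Mod s) :
    D.normAt s i (L.φ (ι - 1) m) = 0 := by
  rw [← Module.End.mul_apply, (L.commute_normAt hpA h6 i _).eq, Module.End.mul_apply]
  by_cases hbot : (D.drop i).Mod s = ⊥
  · rw [D.normAt_apply, ← D.pullMod_pushMod,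
      show D.pushMod i s m = 0 from
        Subtype.ext ((Submodule.mem_bot A).mp (le_of_eq hbot (D.pushMod i s m).2)),
      map_zero, map_zero]
  obtain ⟨L'⟩ := hL' hbot
  have hdvd : q ∣ (D.drop i).N0 := by rw [D.drop_N0, hqi]; exact dvd_mul_left _ _
  have h2 : (L'.R₀ σ).trace = 2 := by
    haveI : Nontrivial L'.T := inferInstance
    refine TameAlg.trace_eq_two_of_charpoly ?_
    have hplace : (D.place i).LiesOverPrime q := by
      rw [← hqi]
      exact PT.TW.liesOver_primeLocalPlace ⟨D.Q i, D.prime i⟩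
    rw [← charpoly_eq_of_repMat L'.rep]
    exact L'.unip q hq hqp hdvd _ hplace σ hσ
  have hK : L.φ (ι + ι' - 2) (D.normAt s i m) = 0 := by
    refine L.normAt_eq_zero_of_pull L' (x' := (L'.R₀ σ).trace - 2) (fun z => ?_) (by
      rw [h2, sub_self, map_zero]) m
    rw [map_sub, LinearMap.sub_apply, map_sub, map_sub, LinearMap.sub_apply, L.pull_trace L' hpA h6,
      htr, map_ofNat, map_ofNat, Module.End.ofNat_apply, Module.End.ofNat_apply, map_nsmul]
  have hsq : L.φ ((ι - 1) * (ι - 1)) (D.normAt s i m) = 0 := by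
    rw [show (ι - 1) * (ι - 1) = ι * (ι + ι' - 2) by linear_combination -hprod, map_mul,
      Module.End.mul_apply, hK, map_zero]
  obtain ⟨w, hw⟩ := pow_sub_one_eq_of_sq ι n
  rw [hpow, sub_self] at hw
  refine D.eq_zero_of_smul s h6 hpA (Nat.cast_ne_zero (R := A).mpr hn) ?_
  have h3 : L.φ ((n : L.T) * (ι - 1)) (D.normAt s i m) = 0 := by
    rw [show (n : L.T) * (ι - 1) = -(w * ((ι - 1) * (ι - 1))) by linear_combination -hw, map_neg,
      map_mul, LinearMap.neg_apply, Module.End.mul_apply, hsq, map_zero, neg_zero]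
  rwa [map_mul, map_natCast, Module.End.mul_apply, Module.End.natCast_apply,
    ← Nat.cast_smul_eq_nsmul A] at h3

end Norm

end FLTAgent.MLT

end
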