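import Fermat.Agent.MLT.Mk.Defs
import Fermat.Agent.MLT.Mk.WorldTW
import Fermat.Agent.LL.EvalTW
import Fermat.Agent.LL.InertiaTW
import Fermat.Agent.LL.FrameRelations

/-!
Area MLT, parcel LEVELMK (P6): the diamonds in a lift and the modules of the levels.

`Diamonds cd Dt`: the group of diamonds of the auxiliary primes acts in the coefficient ring of a
lift through the eigenvalues of tame inertia.  `exists_diaMod`: on each level the module is free
through this action, with the same coinvariants as for the diamonds.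
-/

set_option autoImplicit false
set_option linter.style.haveILetI false
set_option linter.unusedSectionVars false
set_option maxHeartbeats 2000000

noncomputable section

open IsLocalRing Matrix Polynomial FLTAgent.LL FLTAgent.PT FLTAgent.PT.TW

namespace FLTAgent.MLT

section Aug

variable {O V : Type} [CommRing O] [AddCommGroup V] [Module O V] {Δ : Type} [CommGroup Δ]

theorem iSup_range_sub_one_le {κ : Type} (θ θ' : Δ →* Module.End O V) {gen : κ → Δ}
    (hgen : Subgroup.closure (Set.range gen) = ⊤)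
    (h : ∀ i m, ∃ m', θ (gen i) m - m = θ' (gen i) m' - m') :
    (⨆ u, LinearMap.range (θ u - 1)) ≤ ⨆ u, LinearMap.range (θ' u - 1) := by
  set K := ⨆ u, LinearMap.range (θ' u - 1)
  refine iSup_le fun u => ?_
  rintro _ ⟨m, rfl⟩
  show θ u m - m ∈ K
  have hu : u ∈ Subgroup.closure (Set.range gen) := hgen ▸ Subgroup.mem_top u
  induction hu using Subgroup.closure_induction generalizing m with
  | mem v hv =>
    obtain ⟨i, rfl⟩ := hv
    obtain ⟨m', hm'⟩ := h i m
    rw [hm']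
    exact Submodule.mem_iSup_of_mem (gen i) ⟨m', rfl⟩
  | one => rw [map_one, Module.End.one_apply, sub_self]; exact K.zero_mem
  | mul v w _ _ hv hw =>
    rw [map_mul, Module.End.mul_apply, ← sub_add_sub_cancel _ (θ w m) m]
    exact add_mem (hv _) (hw _)
  | inv v _ hv =>
    have e : θ v (θ v⁻¹ m) = m := by
      rw [← Module.End.mul_apply, ← map_mul, mul_inv_cancel, map_one, Module.End.one_apply]
    have h1 := hv (θ v⁻¹ m)
    rw [e] at h1
    rw [← neg_sub]
    exact neg_mem h1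

end Aug

variable {p : ℕ} [Fact p.Prime] {O : Type} [CommRing O] [IsDomain O] [IsDiscreteValuationRing O]
  [IsAdicComplete (maximalIdeal O) O] [Finite (ResidueField O)]
  [Algebra (ZMod p) (ResidueField O)] {ρbar : ResidualGaloisRep (ResidueField O)}
  {r : GQ →* GL (Fin 2) (ResidueField O)} {M t : ℕ} [NeZero M] {RD : RepData ρbar}

/-- the diamonds in a lift: the eigenvalues of tame inertia at the auxiliary primes -/
structure Diamonds (cd : TW.Coord RD r) (Dt : TWData M p (t + 1)) : Type 1 where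
  g : ∀ i, (ZMod (Dt.Q i))ˣ ⧸ Dt.H i
  hg : ∀ i v, ∃ k : ℕ, v = g i ^ k
  gal : Fin (t + 1) → GQ
  gal_mem : ∀ i, gal i ∈ (Dt.place i).inertiaSubgroupIn ℚ
  f : Dt.Del →* RD.R
  ι' : Fin (t + 1) → RD.R
  inv : ∀ i, f (Dt.single i (g i)) * ι' i = 1
  trace : ∀ i, (cd.R₀ (gal i)).trace = f (Dt.single i (g i)) + ι' i
  sq : ∀ i, ∀ σ ∈ (Dt.place i).inertiaSubgroupIn ℚ, ∀ τ ∈ (Dt.place i).inertiaSubgroupIn ℚ,
    ∀ a b : Fin 2, (f (Dt.single i (g i)) - 1) * (f (Dt.single i (g i)) - 1) ∣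
      ((cd.R₀ σ - 1) * (cd.R₀ τ - 1)) a b

namespace Diamonds

variable {cd : TW.Coord RD r} {Dt : TWData M p (t + 1)} (Dm : Diamonds cd Dt)

/-- the generators -/
def gens (i : Fin (t + 1)) : Dt.Del := Dt.single i (Dm.g i)

theorem closure : Subgroup.closure (Set.range Dm.gens) = ⊤ := Dt.closure_single Dm.g Dm.hg

theorem gen_pow (i : Fin (t + 1)) : Dm.f (Dm.gens i) ^ (Dt.H i).index = 1 := by
  rw [gens, ← map_pow, ← map_pow, Subgroup.index_eq_card, pow_card_eq_one', map_one, map_one]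

include Dm in
/-- characters are given by their values at the generators -/
theorem lift {n : ℕ} (hn : ∀ i, ∃ a, n < a ∧ (Dt.H i).index = p ^ a) (B : Type) [CommRing B]
    (x : Fin (t + 1) → B) (hx : ∀ i, x i ^ p ^ (n + 1) = 1) :
    ∃ χ : Dt.Del →* B, ∀ i, χ (Dm.gens i) = x i := by
  classical
  haveI := fun i => NeZero.mk (Dt.prime i).ne_zero
  have hpow : ∀ i, x i ^ Nat.card ((ZMod (Dt.Q i))ˣ ⧸ Dt.H i) = 1 := fun i => by
    obtain ⟨a, ha, e⟩ := hn i
    rw [← Subgroup.index_eq_card, e, ← Nat.add_sub_cancel' (Nat.succ_le_of_lt ha), pow_add, pow_mul,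
      hx, one_pow]
  refine ⟨∏ i, (CharTW.genHom (Dm.g i) (Dm.hg i) (x i) (hpow i)).comp (Dt.coordHom i), fun i => ?_⟩
  rw [MonoidHom.finsetProd_apply, Finset.prod_eq_single i]
  · rw [MonoidHom.comp_apply, gens, TWData.coordHom_single]
    exact CharTW.genHom_gen _ _ _ _
  · intro j _ hj
    rw [MonoidHom.comp_apply, gens,
      show Dt.coordHom j (Dt.single i (Dm.g i)) = 1 from
        Pi.mulSingle_eq_of_ne (M := fun j => (ZMod (Dt.Q j))ˣ ⧸ Dt.H j) hj _, map_one]
  · exact fun h => absurd (Finset.mem_univ _) h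

/-- a point at which inertia at the auxiliary primes has trace `2` kills the diamonds -/
theorem pt_f {B : Type} [CommRing B] [IsDomain B] [Algebra O B] (pt : RD.R →ₐ[O] B)
    (h : ∀ i, pt (cd.R₀ (Dm.gal i)).trace = 2) (u : Dt.Del) : pt (Dm.f u) = 1 := by
  have hu : u ∈ Subgroup.closure (Set.range Dm.gens) := Dm.closure ▸ Subgroup.mem_top u
  induction hu using Subgroup.closure_induction with
  | mem v hv =>
    obtain ⟨i, rfl⟩ := hv
    have h1 := congrArg pt (Dm.inv i)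
    have h2 := h i
    rw [map_mul, map_one] at h1
    rw [Dm.trace i, _root_.map_add] at h2
    rw [← sub_eq_zero]
    refine mul_self_eq_zero.mp ?_
    rw [gens]
    linear_combination (pt (Dm.f (Dt.single i (Dm.g i)))) * h2 - h1
  | one => rw [map_one, map_one]
  | mul v w _ _ hv hw => rw [map_mul, map_mul, hv, hw, one_mul]
  | inv v _ hv =>
    have h1 : pt (Dm.f v⁻¹) * pt (Dm.f v) = 1 := by
      rw [← map_mul, ← map_mul, inv_mul_cancel, map_one, map_one]
    rwa [hv, mul_one] at h1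

/-- an unramified point kills the diamonds -/
theorem pt_f_of_unr {ρ : GaloisRepAdic O} (pt : RD.R →ₐ[O] O)
    (hrep : Deform.RepMat ρ.ρ (fun σ => (cd.R₀ σ).map pt))
    (hunr : ∀ i, ρ.IsUnramifiedAt (Dt.Q i)) (u : Dt.Del) : pt (Dm.f u) = 1 := by
  refine Dm.pt_f pt (fun i => ?_) u
  obtain ⟨b, hb⟩ := hrep
  have hplace : (Dt.place i).LiesOverPrime (Dt.Q i) :=
    PT.TW.liesOver_primeLocalPlace ⟨Dt.Q i, Dt.prime i⟩
  have e : LinearMap.toMatrix b b (ρ.ρ (Dm.gal i)) = (cd.R₀ (Dm.gal i)).map pt := hb (Dm.gal i)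
  rw [hunr i _ hplace _ (Dm.gal_mem i), LinearMap.toMatrix_one] at e
  rw [AddMonoidHom.map_trace pt, ← e]
  simp [Matrix.trace_fin_two, one_add_one_eq_two]

end Diamonds

/-- every lift has the diamonds of primes with two residual roots -/
theorem exists_diamonds (h : Setting p ρbar r) [IsNoetherianRing RD.R]
    [IsAdicComplete (maximalIdeal RD.R) RD.R] (cd : TW.Coord RD r)
    (hdet : RD.ρ.DetIsCyclotomic p) (Dt : TWData M p (t + 1)) (hp : ∀ i, Dt.Q i ≠ p)
    (hH : ∀ i, ∃ a c, Dt.Q i - 1 = p ^ a * c ∧ ¬ p ∣ c ∧ a ≠ 0 ∧ (Dt.H i).index = p ^ a)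
    (hunr : ∀ i, ρbar.IsUnramifiedAt (Dt.Q i))
    (hsplit : ∀ i, ∀ P : ValuationSubring (AlgebraicClosure ℚ), P.LiesOverPrime (Dt.Q i) →
      ∀ φ : GQ, P.IsFrobeniusAt φ (Dt.Q i) → ∃ α β : ResidueField O, α ≠ β ∧
        LinearMap.charpoly (ρbar.ρ φ) = (X - C α) * (X - C β)) :
    Nonempty (Diamonds cd Dt) := by
  classical
  haveI := fun i => NeZero.mk (Dt.prime i).ne_zero
  choose a c hq hc ha hidx using hH
  let Wp : Fin (t + 1) → Nat.Primes := fun i => ⟨Dt.Q i, Dt.prime i⟩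
  obtain ⟨frob, tame, hpl⟩ := exists_framePlaces (p := p) (W := Wp) (r := r)
    (fun i => ⟨hp i, by
      show p ∣ Dt.Q i - 1
      rw [hq i]
      exact (dvd_pow_self p (ha i)).mul_right _⟩)
    hunr h.rep
  have key : ∀ i, ∃ ι ι' : RD.R, ι ^ (p ^ a i) = 1 ∧ ι * ι' = 1 ∧
      (cd.R₀ (tame i)).trace = ι + ι' ∧
      ∀ σ ∈ (ExtCitation.primeLocalPlace (Wp i)).inertiaSubgroupIn ℚ,
        ∀ τ ∈ (ExtCitation.primeLocalPlace (Wp i)).inertiaSubgroupIn ℚ,
          ∀ x y : Fin 2, (ι - 1) * (ι - 1) ∣ ((cd.R₀ σ - 1) * (cd.R₀ τ - 1)) x y := by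
    intro i
    obtain ⟨α, β, hαβ, hchar⟩ := hsplit i _ (liesOver_primeLocalPlace (Wp i)) (frob i) (hpl.isFrob i)
    obtain ⟨b, hb⟩ := h.rep
    have hm : (matHom r (frob i)).charpoly = (X - C α) * (X - C β) := by
      have e : LinearMap.toMatrix b b (ρbar.ρ (frob i)) =
          (r (frob i) : Matrix (Fin 2) (Fin 2) (ResidueField O)) := hb (frob i)
      rw [← hchar, matHom_apply, ← e, LinearMap.charpoly_toMatrix]
    obtain ⟨ht, hd⟩ := split_of_charpoly hm
    obtain ⟨ι, ι', -, h1, h2, h3, h4⟩ :=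
      exists_iota cd hdet hpl i hαβ ht.symm hd.symm (hq i) (hc i)
    exact ⟨ι, ι', h1, h2, h3, h4⟩
  choose ι ι' hpow hinv htr hsq using key
  choose g hg using fun i =>
    haveI := CharTW.isCyclic_quot (Dt.prime i) (Dt.H i)
    CharTW.exists_gen ((ZMod (Dt.Q i))ˣ ⧸ Dt.H i)
  let f : Dt.Del →* RD.R := ∏ i, (CharTW.genHom (g i) (hg i) (ι i)
    (by rw [← Subgroup.index_eq_card, hidx]; exact hpow i)).comp (Dt.coordHom i)
  have hf : ∀ i, f (Dt.single i (g i)) = ι i := by
    intro i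
    rw [MonoidHom.finsetProd_apply, Finset.prod_eq_single i]
    · rw [MonoidHom.comp_apply, TWData.coordHom_single]
      exact CharTW.genHom_gen _ _ _ _
    · intro j _ hj
      rw [MonoidHom.comp_apply, show Dt.coordHom j (Dt.single i (g i)) = 1 from
          Pi.mulSingle_eq_of_ne (M := fun j => (ZMod (Dt.Q j))ˣ ⧸ Dt.H j) hj _, map_one]
    · exact fun h => absurd (Finset.mem_univ _) h
  exact ⟨{
    g := g
    hg := hg
    gal := tame
    gal_mem := fun i => (hpl.isTame i).1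
    f := f
    ι' := ι'
    inv := fun i => by rw [hf]; exact hinv i
    trace := fun i => by rw [hf]; exact htr i
    sq := fun i σ hσ τ hτ x y => by rw [hf]; exact hsq i σ hσ τ hτ x y }⟩

variable [CharZero O] {cd : TW.Coord RD r} {Dt : TWData M p (t + 1)}

/-- the module of a level is free through the diamonds of the lift, with the same coinvariants -/
theorem exists_diaMod (Dm : Diamonds cd Dt) {N : ℕ} (hN : N ∣ Dt.N0) {s : Sys M O} {S : Finset ℕ}
    (L : WorldRep (Dt.withN0 N hN) s S r) (π : RD.R →ₐ[O] L.T)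
    (hR : Deform.RepMat L.ρ.ρ (fun σ => (cd.R₀ σ).map π)) (hpA : (p : O) ∈ maximalIdeal O)
    (h6 : s.Elliptic) {ζ : O} (hζ : IsPrimitiveRoot ζ p) (hidx : ∀ i, p ∣ (Dt.H i).index)
    (hp : ∀ i, Dt.Q i ≠ p)
    (hdrop : ∀ i, ((Dt.withN0 N hN).drop i).Mod s ≠ ⊥ →
      Nonempty (WorldRep ((Dt.withN0 N hN).drop i) s S r)) :
    ∃ (X : DiaMod (O := O) Dm.f ((Dt.withN0 N hN).rkY s))
      (e : X.V ≃ₗ[O] (Dt.withN0 N hN).Mod s),
      (∀ x m, e (X.act x m) = L.φ (π x) (e m)) ∧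
      ∀ m, m ∈ X.augPart ↔ (Dt.withN0 N hN).toY s (e m) = 0 := by
  classical
  obtain ⟨e, he⟩ := (Dt.withN0 N hN).exists_diaBasisHom s h6 hpA
  haveI : ∀ i, Finite ((ZMod (Dt.Q i))ˣ ⧸ Dt.H i) := fun i =>
    haveI := NeZero.mk (Dt.prime i).ne_zero
    inferInstance
  have hζ1 : ζ ≠ 1 := hζ.ne_one Dt.prime_p.one_lt
  let act : RD.R →ₐ[O] Module.End O ((Dt.withN0 N hN).Mod s) := L.φ.comp π
  let θ : Dt.Del →* Module.End O ((Dt.withN0 N hN).Mod s) :=
    (act : RD.R →* Module.End O ((Dt.withN0 N hN).Mod s)).comp Dm.f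
  have hθ : ∀ u, θ u = L.φ (π (Dm.f u)) := fun u => rfl
  let ψ : ∀ i : Fin (t + 1), Dt.Del →* O := fun i =>
    (CharTW.genHom (Dm.g i) (Dm.hg i) ζ (by
      obtain ⟨c, hc⟩ := hidx i
      rw [← Subgroup.index_eq_card, hc, pow_mul, hζ.pow_eq_one, one_pow])).comp (Dt.coordHom i)
  have hψ : ∀ i, ψ i (Dm.gens i) = ζ := fun i => by
    rw [MonoidHom.comp_apply, Diamonds.gens, TWData.coordHom_single]
    exact CharTW.genHom_gen _ _ _ _
  have hnorm : ∀ i m, (Dt.withN0 N hN).normAt s i (L.φ (π (Dm.f (Dm.gens i)) - 1) m) = 0 := by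
    intro i m
    refine L.normAt_iota hpA h6 (Dt.prime i) rfl (hp i) (hdrop i) (Dm.gal_mem i)
      (ι' := π (Dm.ι' i)) (Subgroup.index_ne_zero_of_finite (H := Dt.H i)) ?_ ?_ ?_ m
    · rw [← map_mul, Diamonds.gens, Dm.inv, map_one]
    · rw [← L.trace_coord hR, Diamonds.gens, ← _root_.map_add, ← Dm.trace]
      exact (AddMonoidHom.map_trace π _).symm
    · rw [← map_pow, Dm.gen_pow, map_one]
  have h1 : ∀ i m, ∃ m', θ (Dm.gens i) m - m =
      (Dt.withN0 N hN).diaHom s (Dm.gens i) m' - m' := by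
    intro i m
    obtain ⟨y, hy⟩ := (Dt.withN0 N hN).exists_sub_of_normAt s h6 hpA i (Dm.hg i) (hnorm i m)
    refine ⟨y, ?_⟩
    rw [map_sub, map_one] at hy
    exact hy
  obtain ⟨h1', b, hb⟩ := IotaFree.free_via_hom hpA hζ (Dt.withN0 N hN).card_del
    ((Dt.withN0 N hN).diaHom s) θ (fun u v => L.commute_dia hpA h6 u _) e he Dm.gens Dm.closure
    ψ hψ h1
    (fun i m hm hfix => by
      have hev : (Dt.withN0 N hN).dia s ((Dt.withN0 N hN).single i (Dm.g i)) m = ζ • m :=
        (hm (Dm.gens i)).trans (congrArg (· • m) (hψ i))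
      refine L.kill' hR i ((Dt.withN0 N hN).normAt_eq_zero_of_eigen s h6 hpA i hζ1 hev)
        fun σ hσ τ hτ a b => ?_
      obtain ⟨z, hz⟩ := Dm.sq i σ hσ τ hτ a b
      have e1 : ((cd.R₀ σ).map π - 1) * ((cd.R₀ τ).map π - 1) =
          ((cd.R₀ σ - 1) * (cd.R₀ τ - 1)).map π := by
        have e2 := map_mul π.toRingHom.mapMatrix (cd.R₀ σ - 1) (cd.R₀ τ - 1)
        rw [map_sub, map_sub, map_one] at e2
        exact e2.symm
      replace hfix : L.φ (π (Dm.f (Dt.single i (Dm.g i)))) m = m := hfix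
      rw [e1, Matrix.map_apply, hz, map_mul, map_mul, map_mul, map_mul, Module.End.mul_apply,
        Module.End.mul_apply, map_sub, map_sub, map_one, map_one]
      have hcomm : ∀ x y : L.T, L.φ x (L.φ y m) = L.φ y (L.φ x m) := fun x y => by
        rw [← Module.End.mul_apply, ← map_mul, mul_comm, map_mul, Module.End.mul_apply]
      have h0 : (L.φ (π (Dm.f (Dt.single i (Dm.g i)))) - 1) (L.φ (π z) m) = 0 := by
        rw [LinearMap.sub_apply, Module.End.one_apply, hcomm, hfix, sub_self]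
      rw [h0, map_zero])
  refine ⟨{ V := (Dt.withN0 N hN).Mod s, act := act, basis := b, bij := hb },
    LinearEquiv.refl O _, fun x m => rfl, fun m => ?_⟩
  have haug : DiaMod.augPart
      ({ V := (Dt.withN0 N hN).Mod s, act := act, basis := b, bij := hb } :
        DiaMod (O := O) Dm.f ((Dt.withN0 N hN).rkY s)) =
      LinearMap.ker ((Dt.withN0 N hN).toY s) := by
    rw [TWData.ker_toY _ s h6]
    exact le_antisymm (iSup_range_sub_one_le θ ((Dt.withN0 N hN).diaHom s) Dm.closure h1)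
      (iSup_range_sub_one_le ((Dt.withN0 N hN).diaHom s) θ Dm.closure h1')
  rw [haug]
  exact LinearMap.mem_ker

end FLTAgent.MLT

end
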