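import Fermat.Agent.MLT.Mk.CoreMods
import Fermat.Agent.MLT.DegenIhara
import Fermat.Agent.MLT.Mk.Theta

/-!
Area MLT, parcel LEVELMK (Core): the joint lift of one depth with the modules of the chain.
-/

set_option autoImplicit false
set_option linter.style.haveILetI false
set_option linter.unusedSectionVars false

noncomputable section

open IsLocalRing Matrix FLTAgent.LL FLTAgent.PT FLTAgent.PT.TW

namespace FLTAgent.MLT

variable {W : WeierstrassCurve ℤ} {p : ℕ} [Fact p.Prime] {O : Type} [CommRing O] [IsDomain O]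
  [IsDiscreteValuationRing O] [IsAdicComplete (maximalIdeal O) O] [Finite (ResidueField O)]
  [CharZero O] [Algebra (ZMod p) (ResidueField O)] {ρbar : ResidualGaloisRep (ResidueField O)}
  {r : GQ →* GL (Fin 2) (ResidueField O)} {k : ℕ} {Wq : Fin k → Nat.Primes}
  {frob tame : Fin k → GQ} {w : Fin k → O} {N0 e : ℕ} {avoid : Finset ℕ} {s bound n : ℕ}

/-- every depth has a joint lift with the modules of its chain -/
theorem exists_coreSupply (hΔ : W.Δ ≠ 0) (hirr : W.ModRepIsIrreducible p)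
    (hS : SemiResidual W p ρbar r) (hs : 0 < s)
    (hζ : ∃ ζ : O, IsPrimitiveRoot ζ p)
    (hWp : ∀ i, (Wq i : ℕ) ≠ p) (hWmin : ∀ i, (Wq i : ℕ) ∉ insert p (sMin W p))
    (hpl : CondPlaces p r Wq frob tame)
    (hN0 : ∀ l : ℕ, l.Prime → l ∣ N0 → l ∈ insert p (sMin W p))
    (he : ∀ l : ℕ, l.Prime → l ∣ e → l = p)
    (hcover : ∀ l : ℕ, l.Prime → l ≠ p → ¬ W.IsGoodPrimeFor l →
      l ∈ sMin W p ∨ ∃ i, (Wq i : ℕ) = l)
    (P : LevelSupply W p ρbar r Wq N0 e avoid s bound n) (pt : CorePoint W p r)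
    (hsign : ∀ i, (pt.R₀ (frob i)).trace = w i * (1 + ((Wq i : ℕ) : O))) :
    Nonempty (CoreSupply P pt frob tame w) := by
  obtain ⟨J⟩ := exists_coreJoint hS hWp hpl hN0 he hcover P pt hsign
  haveI := J.noeth
  haveI := J.complete
  have hpO : (p : O) ∈ maximalIdeal O := cast_mem_maximalIdeal_of_zmod
  obtain ⟨ζ, hζ⟩ := hζ
  obtain ⟨t, rfl⟩ := Nat.exists_eq_add_one.2 hs
  have hQ : ∀ i, P.base.Q i = (P.Q i : ℕ) := fun i => congrFun P.base_Q i
  have hQp : ∀ i, P.base.Q i ≠ p := fun i => by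
    rw [hQ]
    exact (P.Q_bad i).2
  obtain ⟨Dm⟩ := exists_diamonds hS.setting J.cd J.det P.base hQp
    (fun i => by
      obtain ⟨a, c, h1, h2, h3, h4⟩ := P.base_H i
      exact ⟨a, c, by rw [hQ]; exact h1, h2, by omega, h4⟩)
    (P.unramified_Q hS) (fun i => by rw [hQ]; exact P.Q_split i)
  have hidx : ∀ i, p ∣ (P.base.H i).index := fun i => by
    obtain ⟨a, c, -, -, h3, h4⟩ := P.base_H i
    rw [h4]
    exact dvd_pow_self p (by omega)
  have hdrop : ∀ (N : ℕ) (hN : N ∣ P.base.N0) i, ((P.base.withN0 N hN).drop i).Mod P.sys ≠ ⊥ →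
      Nonempty (WorldRep ((P.base.withN0 N hN).drop i) P.sys P.S r) := fun N hN i h =>
    P.exists_rep hS _ (fun l => hQp (i.succAbove l)) h
  choose X eX hX aX using fun j => exists_diaMod Dm (P.dvd_chain j) (J.L j) (J.π j) (J.rep j) hpO
    P.elliptic hζ hidx hQp (hdrop _ (P.dvd_chain j))
  obtain ⟨Y, eY, hY, aY⟩ := exists_diaMod Dm (dvd_refl P.base.N0) J.LY J.πY J.repY hpO
    P.elliptic hζ hidx hQp (hdrop _ (dvd_refl P.base.N0))
  exact exists_coreSupply_of_mods hs P pt J hpl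
    (fun i => sysOf_iharaAt hΔ Fact.out hS.setting.hp2 hirr hpO P.prime_l0 P.l0_one (Wq i).2.two_le)
    Dm.gens Dm.closure
    (Dm.lift fun i => by
      obtain ⟨a, c, -, -, h3, h4⟩ := P.base_H i
      exact ⟨a, h3, h4⟩)
    Dm.f
    (Dm.pt_f_of_unr J.ptH J.pt_rep fun i => by
      rw [hQ]
      exact pt.unr _ (P.Q i).2 (P.Q_bad i).2 (P.Q_bad i).1)
    X eX hX aX Y eY hY aY

end FLTAgent.MLT

end
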