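import Fermat.Agent.MLT.Mk.CoreLevels
import Fermat.Agent.LL.EvalTW

/-!
Area MLT, parcel LEVELMK (Core): the joint lift with the modules of every level gives a `CoreSupply`.
-/

set_option autoImplicit false
set_option linter.style.haveILetI false
set_option linter.unusedSectionVars false
set_option maxHeartbeats 1000000

noncomputable section

open IsLocalRing Matrix FLTAgent.LL FLTAgent.PT FLTAgent.PT.TW

namespace FLTAgent.MLT

variable {W : WeierstrassCurve ℤ} {p : ℕ} [Fact p.Prime] {O : Type} [CommRing O] [IsDomain O]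
  [IsDiscreteValuationRing O] [IsAdicComplete (maximalIdeal O) O] [Finite (ResidueField O)]
  [CharZero O] [Algebra (ZMod p) (ResidueField O)] {ρbar : ResidualGaloisRep (ResidueField O)}
  {r : GQ →* GL (Fin 2) (ResidueField O)} {k : ℕ} {Wq : Fin k → Nat.Primes}
  {frob tame : Fin k → GQ} {w : Fin k → O} {N0 e : ℕ} {avoid : Finset ℕ} {s bound n : ℕ}

theorem card_del_eq_pow {M : ℕ} [NeZero M] {t : ℕ} (ht : 0 < t) (D : TWData M p t) :
    ∃ a, Fintype.card D.Del = p ^ a := by
  obtain ⟨u, rfl⟩ := Nat.exists_eq_add_one.2 ht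
  exact TWData.card_del (D := D)

theorem exists_coreSupply_of_mods (hs : 0 < s) (P : LevelSupply W p ρbar r Wq N0 e avoid s bound n)
    (pt : CorePoint W p r) (J : CoreJoint P pt frob tame w) (hpl : CondPlaces p r Wq frob tame)
    (hI : ∀ i, P.sys.IharaAt (Wq i : ℕ))
    (gens : Fin s → P.base.Del) (closure : Subgroup.closure (Set.range gens) = ⊤)
    (lift : ∀ (B : Type) [CommRing B] (x : Fin s → B), (∀ i, x i ^ p ^ (n + 1) = 1) →
      ∃ χ : P.base.Del →* B, ∀ i, χ (gens i) = x i)
    (f : P.base.Del →* J.D.R) (pt_f : ∀ u, J.ptH (f u) = 1)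
    (X : ∀ j, DiaMod (O := O) f ((P.level j).rkY P.sys))
    (eX : ∀ j, (X j).V ≃ₗ[O] (P.level j).Mod P.sys)
    (hX : ∀ j t x, eX j ((X j).act t x) = (J.L j).φ (J.π j t) (eX j x))
    (aX : ∀ j x, x ∈ (X j).augPart ↔ (P.level j).toY P.sys (eX j x) = 0)
    (Y : DiaMod (O := O) f (P.base.rkY P.sys)) (eY : Y.V ≃ₗ[O] P.base.Mod P.sys)
    (hY : ∀ t y, eY (Y.act t y) = J.LY.φ (J.πY t) (eY y))
    (aY : ∀ y, y ∈ Y.augPart ↔ P.base.toY P.sys (eY y) = 0) :
    Nonempty (CoreSupply P pt frob tame w) := by
  haveI : ∀ i, NeZero (Wq i : ℕ) := fun i => ⟨(Wq i).2.ne_zero⟩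
  have hdeg : ∀ i : Fin k, ∃ G : DiaDegen (X i.castSucc) (X i.succ)
      ((X i.castSucc).act ((J.cd.R₀ (frob i)).trace ^ 2 - (1 + ((Wq i : ℕ) : J.D.R)) ^ 2))
      (-(1 + ((Wq i : ℕ) : O))),
      ∀ y, G.push y = 0 → (X i.succ).act
        ((J.cd.R₀ (frob i)).trace ^ 2 - (1 + ((Wq i : ℕ) : J.D.R)) ^ 2) y = 0 := fun i =>
    exists_deg (P.oldPrime i) (P.lower_succ i (P.oldPrime i).dvd) (J.L i.succ) (J.L i.castSucc)
      (J.π i.succ) (J.π i.castSucc) (fun σ => (J.cd.R₀ σ).trace) (J.trace i.succ)
      (J.trace i.castSucc) J.gen P.elliptic (hI i) cast_mem_maximalIdeal_of_zmod P.pS (hpl.ne i)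
      (liesOver_primeLocalPlace (Wq i)) (hpl.isFrob i) (X i.castSucc) (X i.succ) (eX i.castSucc)
      (eX i.succ) (hX i.castSucc) (hX i.succ) (aX i.castSucc) (aX i.succ)
  choose deg hdegQ using hdeg
  haveI := J.noeth
  haveI := J.complete
  refine ⟨{
    core := {
      Q := P.Q
      bound := P.Q_bound
      D := J.D
      hausdorff := J.hausdorff
      cd := J.cd
      det := J.det
      unip := J.unip
      unr := J.unr
      tame_trace := J.tame_trace
      gen := J.gen
      pt := J.ptH
      pt_sign := J.pt_sign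
      Δ := P.base.Del
      card := card_del_eq_pow hs P.base
      gens := gens
      closure := closure
      lift := lift
      f := f
      pt_f := pt_f
      lev := X
      deg := deg
      unr_lev := fun j i hji a b => LinearMap.ext fun x => (eX j).injective (by
        rw [hX, J.unr_lev j i hji a b, LinearMap.zero_apply, map_zero (eX j), map_zero (J.L j).φ,
          LinearMap.zero_apply])
      quartic := hdegQ }
    link := fun j =>
      { L := J.L j
        π := J.π j
        surj := J.surj j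
        rep := J.rep j
        trace := J.trace j
        e := eX j
        act := hX j
        aug := aX j }
    Y := Y
    linkY :=
      { L := J.LY
        π := J.πY
        surj := J.surjY
        rep := J.repY
        trace := J.traceY
        e := eY
        act := hY
        aug := aY }
    pt_rep := J.pt_rep
    pt_trace := J.pt_trace
    inj := J.inj
    flat_chain := ?_
    flat_all := ?_
    strict_family := ?_ }⟩
  · intro hf R' _ _ _ _ φ hφ hker
    refine J.flat_chain hf _ (fun t ht => Ideal.mem_iInf.2 fun j => ?_) φ hφ hker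
    refine LinearMap.ext fun x => (eX j).injective ?_
    show eX j ((X j).act t x) = eX j 0
    rw [hX, ht j, map_zero (eX j), map_zero (J.L j).φ, LinearMap.zero_apply]
  · intro hf hfY hfp R' _ _ _ _ φ hφ hker
    exact J.flat_all hf hfY hfp _ φ hφ hker
  · intro κ B _ _ _ g hg I hI R' _ _ _ _ φ hφ hker
    exact J.strict g hg I hI φ hφ hker

end FLTAgent.MLT

end
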