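import Fermat.Agent.MLT.Patch.Defs
import Fermat.Agent.MLT.CondAtP
import Fermat.Agent.LL.EvalBasis

/-!
Area MLT, parcel LEVELMK: the interface between the arithmetic of one choice of auxiliary primes and
the assembly of a patching level.

`DiaMod f d`: a module free of rank `d` over the group of diamonds, which acts through `f : Δ →* T`.
`DiaDegen X Y h e`: a pair of degeneracy maps commuting with `T`, the pushes jointly surjective, the
pulls jointly injective on coinvariants modulo `ϖ`, with an adjugate of `push ∘ pull` for `h`.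
`PatchCore`: the joint lift of a chain of levels and of the curve, the auxiliary primes and the
modules. `PatchTower`: one condition at `p` on the whole lift. `PatchBridge`: flat on the chain, one
more level containing `p`, strict on what both pushes to the top of the chain kill.

Everything here is independent of how the lift and the modules are obtained.
-/

set_option autoImplicit false
set_option linter.style.haveILetI false
set_option linter.unusedSectionVars false

noncomputable section

open IsLocalRing Matrix FLTAgent.LL FLTAgent.PT FLTAgent.PT.TW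

namespace FLTAgent.MLT

section Mods

variable {O : Type} [CommRing O] {T : Type} [CommRing T] [Algebra O T] {Δ : Type} [CommGroup Δ]
  [Fintype Δ]

/-- a module free over the group acting through `f` -/
structure DiaMod (f : Δ →* T) (d : ℕ) : Type 1 where
  V : Type
  [instAdd : AddCommGroup V]
  [instModule : Module O V]
  act : T →ₐ[O] Module.End O V
  basis : Fin d → V
  bij : Function.Bijective (EvalBasis.combo ((act : T →* Module.End O V).comp f) basis)

attribute [instance] DiaMod.instAdd DiaMod.instModule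

variable {f : Δ →* T} {dX dY : ℕ}

/-- what vanishes in the coinvariants -/
def DiaMod.augPart (X : DiaMod (O := O) f dX) : Submodule O X.V :=
  ⨆ u : Δ, LinearMap.range (X.act (f u) - 1)

/-- what vanishes in the coinvariants modulo the maximal ideal -/
def DiaMod.small [IsLocalRing O] (X : DiaMod (O := O) f dX) : Submodule O X.V :=
  X.augPart ⊔ maximalIdeal O • ⊤

/-- two copies of an endomorphism -/
def twoEnd {V : Type} [AddCommGroup V] [Module O V] (g : Module.End O V) :
    Module.End O (Fin 2 → V) :=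
  LinearMap.pi fun a => g ∘ₗ LinearMap.proj a

/-- a pair of degeneracy maps with an adjugate for `h` of corner `e` -/
structure DiaDegen [IsLocalRing O] (X : DiaMod (O := O) f dX) (Y : DiaMod (O := O) f dY)
    (h : Module.End O X.V) (e : O) : Type where
  pull : (Fin 2 → X.V) →ₗ[O] Y.V
  push : Y.V →ₗ[O] (Fin 2 → X.V)
  adj : Module.End O (Fin 2 → X.V)
  pull_act : ∀ t v, pull (twoEnd (X.act t) v) = Y.act t (pull v)
  push_act : ∀ t y, push (Y.act t y) = twoEnd (X.act t) (push y)
  adj_act : ∀ t, Commute adj (twoEnd (X.act t))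
  push_surj : Function.Surjective push
  pull_small : ∀ v, pull v ∈ Y.small → ∀ a, v a ∈ X.small
  adj_mul : ∀ v, adj (push (pull v)) = twoEnd h v
  mul_adj : ∀ v, push (pull (adj v)) = twoEnd h v
  adj_corner : ∀ x, adj (Pi.single 0 x) 0 = e • x

end Mods

variable (p : ℕ) [Fact p.Prime] {O : Type} [CommRing O] [IsDomain O] [IsDiscreteValuationRing O]
  [IsAdicComplete (maximalIdeal O) O] [Finite (ResidueField O)]
  [Algebra (ZMod p) (ResidueField O)] (ρbar : ResidualGaloisRep (ResidueField O))
  (r : GQ →* GL (Fin 2) (ResidueField O)) (Smin : Finset ℕ) {k : ℕ} (W : Fin k → Nat.Primes)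
  (frob tame : Fin k → GQ) (w : Fin k → O)

/-- the joint lift of a chain of levels and of the curve, with the modules of the chain -/
structure PatchCore (s : ℕ) (d : Fin (k + 1) → ℕ) (n : ℕ) : Type 1 where
  Q : Fin s → Nat.Primes
  bound : ∀ (Lp : Submodule (ZMod p) (lH1 (ExtCitation.pPrime p) (ad0 p r))) (a t : ℕ),
    Module.finrank (ZMod p) Lp ≤ Module.finrank (ZMod p) (lH0 (ExtCitation.pPrime p) (ad0 p r)) +
        a * Module.finrank (ZMod p) (ResidueField O) →
      s + a = t + 1 → CondBound p r Smin W Q Lp t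
  D : RepData ρbar
  hausdorff : IsHausdorff (maximalIdeal D.R) D.R
  cd : TW.Coord D r
  det : D.ρ.DetIsCyclotomic p
  unip : ∀ q ∈ Smin, q.Prime → q ≠ p → D.ρ.IsUnipotentOnInertiaAt q
  unr : ∀ q : Nat.Primes, (q : ℕ) ∉ Smin → (∀ i, W i ≠ q) → (∀ i, Q i ≠ q) →
    D.ρ.IsUnramifiedAt (q : ℕ)
  /-- inertia at the framed places is unipotent -/
  tame_trace : ∀ i, (cd.R₀ (tame i)).trace = 2
  gen : Algebra.adjoin O (Set.range fun σ => (cd.R₀ σ).trace) = ⊤
  /-- the curve -/
  pt : D.R →ₐ[O] O
  pt_sign : ∀ i, pt (cd.R₀ (frob i)).trace = w i * (1 + ((W i : ℕ) : O))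
  Δ : Type
  [instGroup : CommGroup Δ]
  [instFintype : Fintype Δ]
  card : ∃ a, Fintype.card Δ = p ^ a
  gens : Fin s → Δ
  closure : Subgroup.closure (Set.range gens) = ⊤
  /-- characters are given by their values at the generators -/
  lift : ∀ (B : Type) [CommRing B] (x : Fin s → B), (∀ i, x i ^ p ^ (n + 1) = 1) →
    ∃ χ : Δ →* B, ∀ i, χ (gens i) = x i
  f : Δ →* D.R
  pt_f : ∀ u, pt (f u) = 1
  lev : ∀ j, DiaMod (O := O) f (d j)
  deg : ∀ i : Fin k, DiaDegen (lev i.castSucc) (lev i.succ)
    ((lev i.castSucc).act ((cd.R₀ (frob i)).trace ^ 2 - (1 + ((W i : ℕ) : D.R)) ^ 2))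
    (-(1 + ((W i : ℕ) : O)))
  unr_lev : ∀ (j : Fin (k + 1)) (i : Fin k), (j : ℕ) ≤ i → ∀ a b,
    (lev j).act ((cd.R₀ (tame i) - 1) a b) = 0
  quartic : ∀ (i : Fin k) y, (deg i).push y = 0 →
    (lev i.succ).act ((cd.R₀ (frob i)).trace ^ 2 - (1 + ((W i : ℕ) : D.R)) ^ 2) y = 0

attribute [instance] PatchCore.instGroup PatchCore.instFintype

variable {p ρbar r Smin W frob tame w} in
/-- every finite quotient of the lift killed on `I` satisfies `C` -/
def PatchCore.AtP {s : ℕ} {d : Fin (k + 1) → ℕ} {n : ℕ}
    (P : PatchCore p ρbar r Smin W frob tame w s d n) (I : Ideal P.D.R)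
    (C : ∀ ⦃R' : Type⦄ [CommRing R'] [IsLocalRing R'], GaloisRepAdic R' → Prop) : Prop :=
  ∀ (R' : Type) [CommRing R'] [IsLocalRing R'] [Algebra O R'] [Finite R'] (π : P.D.R →ₐ[O] R'),
    Function.Surjective π → I ≤ RingHom.ker π → ∀ ρ' : GaloisRepAdic R',
      Deform.RepMat ρ'.ρ (fun σ => (P.cd.R₀ σ).map π) → C ρ'

/-- what acts as zero on every level of the chain and at the curve -/
def PatchCore.effIdeal {s : ℕ} {d : Fin (k + 1) → ℕ} {n : ℕ}
    (P : PatchCore p ρbar r Smin W frob tame w s d n) : Ideal P.D.R :=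
  (⨅ j, RingHom.ker (P.lev j).act) ⊓ RingHom.ker P.pt

/-- one condition at `p` on what acts; a killer of the top level with value `v` at the curve -/
structure PatchTower (s : ℕ) (d : Fin (k + 1) → ℕ) (v : O) (n : ℕ) : Type 1 where
  core : PatchCore p ρbar r Smin W frob tame w s d n
  atp : core.AtP core.effIdeal (fun R' _ _ ρ' => ρ'.IsFlatAt p) ∨
    core.AtP core.effIdeal (fun R' _ _ ρ' => ρ'.IsStrictOrdinaryAt p)
  κ : core.D.R
  pt_κ : core.pt κ = v
  κ_top : ∀ x, (core.lev (Fin.last k)).act κ x ∈ (core.lev (Fin.last k)).augPart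

/-- the chain in the flat world and one more level at `p` -/
structure PatchBridge (s : ℕ) (d : Fin (k + 1) → ℕ) (dY : ℕ) (v : O) (n : ℕ) : Type 1 where
  core : PatchCore p ρbar r Smin W frob tame w s d n
  Y : DiaMod (O := O) core.f dY
  /-- `± ((1 + p)² - a_p²)` on the top of the chain -/
  hOp : Module.End O (core.lev (Fin.last k)).V
  hOp_act : ∀ t, Commute hOp ((core.lev (Fin.last k)).act t)
  hOp_inj : Function.Injective hOp
  hOp_small : ∃ N : ℕ, ∀ x, (hOp ^ N) x ∈ (core.lev (Fin.last k)).small
  degP : DiaDegen (core.lev (Fin.last k)) Y hOp (-(1 + (p : O)))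
  flat : core.AtP (⨅ j, RingHom.ker (core.lev j).act) (fun R' _ _ ρ' => ρ'.IsFlatAt p)
  /-- strict on the kernel of the pushes and at the curve -/
  strict : ∀ I : Ideal core.D.R,
    (∀ t, (∀ y, degP.push y = 0 → Y.act t y = 0) → core.pt t = 0 → t ∈ I) →
      core.AtP I (fun R' _ _ ρ' => ρ'.IsStrictOrdinaryAt p)
  κ : core.D.R
  pt_κ : core.pt κ = v
  κ_Y : ∀ y, Y.act κ y ∈ Y.augPart

variable {p ρbar r Smin W frob tame w} in
/-- frames in which residual Frobenius has its normal form -/
structure IsFraming (r : GQ →* GL (Fin 2) (ResidueField O)) (W : Fin k → Nat.Primes)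
    (frob : Fin k → GQ) (w : Fin k → O) (F : Fin k → FPlace O)
    (U : Fin k → Matrix (Fin 2) (Fin 2) O) : Prop where
  q_eq : ∀ i, (F i).q = (W i : ℕ)
  w_eq : ∀ i, (F i).w = w i
  unit : ∀ i, ((U i).map (residue O)).det ≠ 0
  conj : ∀ i, matHom r (frob i) * (U i).map (residue O) =
    (U i).map (residue O) * ((F i).bF).map (residue O)

end FLTAgent.MLT

end
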