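import Fermat.Agent.MLT.Mk.Defs
import Fermat.Agent.MLT.Patch.EvalMat
import Fermat.Agent.LL.LevelMk

/-!
Area MLT, parcel LEVELMK: frames adjoined as variables.

`Ψ : D.R → 𝔄` is an action in any finite algebra and `z` are commuting nilpotent elements, one for
each entry of the frames but a unit entry of the first. `FramedAlg` is the subalgebra generated by
both, with the frames and the local coordinates. A surjection of series onto it gives truncated
levels by `evT_eq` and points by `mk_evU`.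
-/

set_option autoImplicit false
set_option linter.style.haveILetI false
set_option linter.unusedSectionVars false

noncomputable section

open IsLocalRing Matrix FLTAgent.LL FLTAgent.PT FLTAgent.PT.TW
open scoped IsMulCommutative

namespace FLTAgent.MLT

/-! ### frame variables -/

/-- entries of all frames but one of the first -/
abbrev FrVar (k : ℕ) (e : Fin 2 × Fin 2) : Type :=
  {c : Fin k × Fin 2 × Fin 2 // ¬ ((c.1 : ℕ) = 0 ∧ c.2 = e)}

theorem card_frVar (k : ℕ) (e : Fin 2 × Fin 2) :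
    Fintype.card (FrVar k e) = 3 * k + (k - 1) := by
  classical
  cases k with
  | zero => simp
  | succ m =>
    have h : Fintype.card {c : Fin (m + 1) × Fin 2 × Fin 2 // (c.1 : ℕ) = 0 ∧ c.2 = e} = 1 := by
      rw [Fintype.card_eq_one_iff]
      refine ⟨⟨(0, e), rfl, rfl⟩, fun c => Subtype.ext (Prod.ext ?_ c.2.2)⟩
      exact Fin.ext c.2.1
    rw [Fintype.card_subtype_compl, h, Fintype.card_prod, Fintype.card_prod, Fintype.card_fin,
      Fintype.card_fin]
    omega

section Alg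

variable {O : Type} [CommRing O] {B : Type} [CommRing B]

/-- in a finite local ring the maximal ideal consists of nilpotents -/
theorem isNilpotent_of_mem_maximalIdeal [IsLocalRing B] [Finite B] {b : B}
    (hb : b ∈ maximalIdeal B) : IsNilpotent b := by
  obtain ⟨i, j, hne, heq⟩ := Finite.exists_ne_map_eq_of_infinite (fun i : ℕ => b ^ i)
  wlog hij : i < j generalizing i j
  · exact this j i hne.symm heq.symm (lt_of_le_of_ne (not_lt.mp hij) hne.symm)
  refine ⟨i, ?_⟩
  have hu : IsUnit (1 - b ^ (j - i)) :=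
    IsLocalRing.isUnit_one_sub_self_of_mem_nonunits _ (Ideal.pow_mem_of_mem _ hb _ (by omega))
  refine hu.mul_left_eq_zero.mp ?_
  rw [mul_sub, mul_one, ← pow_add, Nat.add_sub_cancel' hij.le]
  exact sub_eq_zero.mpr heq

/-- two copies, as an algebra homomorphism -/
def dblAlg (O R : Type) [CommRing O] [CommRing R] [Algebra O R] (d : ℕ) :
    Matrix (Fin d) (Fin d) R →ₐ[O] Matrix (Fin 2 × Fin d) (Fin 2 × Fin d) R :=
  { dblHom R d with
    commutes' := fun c => by
      show dbl (algebraMap O (Matrix (Fin d) (Fin d) R) c) = algebraMap O _ c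
      rw [dbl, Matrix.algebraMap_eq_diagonal, Matrix.algebraMap_eq_diagonal,
        ← Matrix.diagonal_one, Matrix.diagonal_kronecker_diagonal]
      simp }

theorem dblAlg_apply {R : Type} [CommRing R] [Algebra O R] {d : ℕ}
    (A : Matrix (Fin d) (Fin d) R) : dblAlg O R d A = dbl A := rfl

theorem dbl_scalar {R : Type} [CommRing R] {d : ℕ} (c : R) :
    dbl (Matrix.scalar (Fin d) c) = Matrix.scalar (Fin 2 × Fin d) c := by
  rw [dbl, Matrix.scalar_apply, Matrix.scalar_apply, ← Matrix.diagonal_one,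
    Matrix.diagonal_kronecker_diagonal]
  simp

variable [Algebra O B]

/-- an algebra homomorphism on polynomials from one on series -/
def polyHom {σ A : Type} [Semiring A] [Algebra O A] (π : B →ₐ[O] A)
    (γ : MvPowerSeries σ O →ₐ[O] B) : MvPolynomial σ O →ₐ[O] A :=
  (π.comp γ).comp
    { MvPolynomial.coeToMvPowerSeries.ringHom with commutes' := fun c => MvPolynomial.coe_C c }

theorem polyHom_apply {σ A : Type} [Semiring A] [Algebra O A] (π : B →ₐ[O] A)
    (γ : MvPowerSeries σ O →ₐ[O] B) (f : MvPolynomial σ O) :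
    polyHom π γ f = π (γ (f : MvPowerSeries σ O)) := rfl

theorem polyHom_X {σ A : Type} [Semiring A] [Algebra O A] (π : B →ₐ[O] A)
    (γ : MvPowerSeries σ O →ₐ[O] B) (a : σ) :
    polyHom π γ (MvPolynomial.X a) = π (γ (MvPowerSeries.X a)) := by
  rw [polyHom_apply, MvPolynomial.coe_X]

end Alg

variable {O : Type} [CommRing O] [IsDomain O] [IsDiscreteValuationRing O]
  [IsAdicComplete (maximalIdeal O) O] [Finite (ResidueField O)]

section Values

variable {B : Type} [CommRing B] [IsLocalRing B] [Finite B] [Algebra O B] {σ : Type} [Finite σ]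
  {γ : MvPowerSeries σ O →ₐ[O] B}

theorem isNilpotent_map_X (hγ : Function.Surjective γ) (a : σ) :
    IsNilpotent (γ (MvPowerSeries.X a)) := by
  haveI : IsLocalHom (γ : MvPowerSeries σ O →+* B) := IsLocalHom.of_surjective _ hγ
  exact isNilpotent_of_mem_maximalIdeal
    (map_nonunit (γ : MvPowerSeries σ O →+* B) _ (LL.X_mem_maximalIdeal a))

variable {m d n : ℕ} (π : B →ₐ[O] Matrix (Fin d) (Fin d) (SQ O m n))

/-- the variables act nilpotently modulo the maximal ideal -/
theorem polyHom_nilp (hγ : Function.Surjective γ) (a : σ) (u v : Fin d) :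
    (polyHom π γ (MvPolynomial.X a) ^ d) u v ∈
      (maximalIdeal (SR O m)).map (Ideal.Quotient.mk (maximalIdeal (SR O m) ^ (n + 1))) := by
  have h := (mem_redIdeal_iff (π : B →+* Matrix (Fin d) (Fin d) (SQ O m n))).1
    (pow_mem_redIdeal_of_isNilpotent _ (isNilpotent_map_X hγ a)) u v
  rw [map_pow] at h
  rw [polyHom_X]
  exact Ideal.pow_le_self one_ne_zero h

/-- the value of a series at a level -/
theorem evT_eq (hγ : Function.Surjective γ) (f : MvPowerSeries σ O) :
    evT (polyHom π γ) f = π (γ f) :=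
  map_truncTotal (π : B →+* Matrix (Fin d) (Fin d) (SQ O m n)) (γ : MvPowerSeries σ O →+* B)
    (fun a => pow_mem_redIdeal_of_isNilpotent _ (isNilpotent_map_X hγ a)) f

/-- the value of a series at a point -/
theorem mk_evU (hγ : Function.Surjective γ) (π : B →ₐ[O] O ⧸ maximalIdeal O ^ (n + 1)) (u : σ → O)
    (hu : ∀ a, Ideal.Quotient.mk _ (u a) = π (γ (MvPowerSeries.X a))) (f : MvPowerSeries σ O) :
    Ideal.Quotient.mk (maximalIdeal O ^ (n + 1)) (evU n u f) = π (γ f) := by
  classical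
  set mk := Ideal.Quotient.mkₐ O (maximalIdeal O ^ (n + 1))
  have hpoly : mk.comp (MvPolynomial.aeval u) = polyHom π γ :=
    MvPolynomial.algHom_ext fun a => by
      rw [AlgHom.comp_apply, MvPolynomial.aeval_X, polyHom_X]
      exact hu a
  set D := cutDeg σ 1 (n + 1)
  have e : Ideal.Quotient.mk (maximalIdeal O ^ (n + 1)) (evU n u f) =
      π (γ (MvPowerSeries.truncTotal D f : MvPowerSeries σ O)) := by
    rw [← polyHom_apply, ← hpoly]
    rfl
  rw [e, ← sub_eq_zero, ← map_sub, ← map_sub]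
  have hmem : (MvPowerSeries.truncTotal D f : MvPowerSeries σ O) - f ∈
      Ideal.span (Set.range (MvPowerSeries.X : σ → MvPowerSeries σ O)) ^ D :=
    mem_span_X_pow fun v hv => by
      rw [map_sub, MvPolynomial.coeff_coe, MvPowerSeries.coeff_truncTotal _ hv, sub_self]
  let φ : MvPowerSeries σ O →+* O ⧸ maximalIdeal O ^ (n + 1) :=
    (π : B →+* O ⧸ maximalIdeal O ^ (n + 1)).comp (γ : MvPowerSeries σ O →+* B)
  have h2 := Ideal.mem_map_of_mem φ hmem
  rw [Ideal.map_pow, Ideal.map_span, ← Set.range_comp] at h2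
  rcases isEmpty_or_nonempty σ with hσ | hσ
  · rw [Set.range_eq_empty, Ideal.span_empty, ← Ideal.zero_eq_bot,
      zero_pow (show D ≠ 0 from Nat.succ_ne_zero _)] at h2
    exact h2
  have hle : Ideal.span (Set.range (φ ∘ (MvPowerSeries.X : σ → MvPowerSeries σ O))) ≤
      (maximalIdeal O).map (Ideal.Quotient.mk (maximalIdeal O ^ (n + 1))) := by
    rw [Ideal.span_le]
    rintro _ ⟨a, rfl⟩
    show π (γ (MvPowerSeries.X a)) ∈ _
    rw [← hu a]
    refine Ideal.mem_map_of_mem _ ((mem_maximalIdeal _).mpr fun hua => ?_)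
    obtain ⟨j, hj⟩ := (isNilpotent_map_X hγ a).map π
    rw [← hu a] at hj
    have h1 := ((hua.map (Ideal.Quotient.mk (maximalIdeal O ^ (n + 1)))).pow j)
    rw [hj, isUnit_zero_iff, eq_comm] at h1
    exact (Ideal.ne_top_iff_one _).mp (ne_top_of_le_ne_top (maximalIdeal.isMaximal O).ne_top
      (Ideal.pow_le_self (Nat.succ_ne_zero n)))
      (Ideal.Quotient.eq_zero_iff_mem.mp (by rw [map_one]; exact h1))
  have hD : n + 1 ≤ D := by
    have h1 : 1 ≤ Nat.card σ := Nat.card_pos
    show n + 1 ≤ Nat.card σ * (1 * (n + 1)) + 1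
    rw [one_mul]
    exact (Nat.le_mul_of_pos_left _ h1).trans (Nat.le_succ _)
  have h3 := Ideal.pow_le_pow_right hD (Ideal.pow_right_mono hle D h2)
  rw [← Ideal.map_pow, Ideal.map_quotient_self, Ideal.mem_bot] at h3
  exact h3

end Values

variable {p : ℕ} [Fact p.Prime] [Algebra (ZMod p) (ResidueField O)]
  {ρbar : ResidualGaloisRep (ResidueField O)} {r : GQ →* GL (Fin 2) (ResidueField O)}
  {k : ℕ} {W : Fin k → Nat.Primes} {frob tame : Fin k → GQ} {w : Fin k → O}
  {D : RepData ρbar}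

/-- the base values of the local coordinates -/
def frameBase (F : Fin k → FPlace O) (i : Fin k) (t : Fin 2) : Matrix (Fin 2) (Fin 2) O :=
  if t = 0 then (F i).bF else 1

/-- the algebra generated by `Ψ` and the frame variables `z`, with frames and coordinates -/
structure FramedAlg (cd : TW.Coord D r) (frob tame : Fin k → GQ) (F : Fin k → FPlace O)
    {𝔄 : Type} [Ring 𝔄] [Algebra O 𝔄] (Ψ : D.R →ₐ[O] 𝔄) {V : Type} (z : V → 𝔄) : Type 1 where
  B : Type
  [instCommRing : CommRing B]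
  [instLocal : IsLocalRing B]
  [instAlgebra : Algebra O B]
  [instFinite : Finite B]
  [instLocalHom : IsLocalHom (algebraMap O B)]
  val : B →ₐ[O] 𝔄
  val_injective : Function.Injective val
  ι : D.R →ₐ[O] B
  val_ι : ∀ x, val (ι x) = Ψ x
  range_eq : val.range = Algebra.adjoin O (Set.range Ψ ∪ Set.range z)
  residue_surjective : Function.Surjective (residue B ∘ algebraMap O B)
  P : Fin k → Matrix (Fin 2) (Fin 2) B
  P' : Fin k → Matrix (Fin 2) (Fin 2) B
  inv : ∀ i, P' i * P i = 1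
  norm : ∀ i : Fin k, (i : ℕ) = 0 → ∃ a b, ∃ c : O, IsUnit c ∧ P i a b = algebraMap O B c
  ext_dual : ∀ φ φ' : B →ₐ[O] DualNumber (ResidueField O), φ.comp ι = φ'.comp ι →
    (∀ i, (P i).map φ = (P i).map φ') → φ = φ'
  x : Fin k × Fin 2 × Fin 2 × Fin 2 → B
  x_mem : ∀ c, x c ∈ maximalIdeal B
  coord : ∀ i t a b, cframed ι P P' cd i (if t = 0 then frob i else tame i) a b =
    algebraMap O B (frameBase F i t a b) + x (i, t, a, b)

attribute [instance] FramedAlg.instCommRing FramedAlg.instLocal FramedAlg.instAlgebra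
  FramedAlg.instFinite FramedAlg.instLocalHom

/-- frames exist -/
theorem nonempty_framedAlg (hpl : CondPlaces p r W frob tame) {F : Fin k → FPlace O}
    {U : Fin k → Matrix (Fin 2) (Fin 2) O} (hF : IsFraming r W frob w F U) {e : Fin 2 × Fin 2}
    (he : ∀ i : Fin k, (i : ℕ) = 0 → IsUnit (U i e.1 e.2)) (cd : TW.Coord D r) {𝔄 : Type}
    [Ring 𝔄] [Algebra O 𝔄] [Finite 𝔄] [Nontrivial 𝔄] (Ψ : D.R →ₐ[O] 𝔄) (z : FrVar k e → 𝔄)
    (hz : ∀ c c', Commute (z c) (z c')) (hzΨ : ∀ c x, Commute (z c) (Ψ x))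
    (hzn : ∀ c, IsNilpotent (z c)) : Nonempty (FramedAlg cd frob tame F Ψ z) := by
  classical
  let Bs := Algebra.adjoin O (Set.range Ψ ∪ Set.range z)
  haveI hBc : IsMulCommutative Bs := Algebra.isMulCommutative_adjoin O (by
    rintro _ (⟨x, rfl⟩ | ⟨c, rfl⟩) _ (⟨y, rfl⟩ | ⟨c', rfl⟩)
    · rw [← map_mul, ← map_mul, mul_comm]
    · exact ((hzΨ c' x).eq).symm
    · exact (hzΨ c y).eq
    · exact (hz c c').eq)
  letI : CommRing Bs := open scoped IsMulCommutative in inferInstance
  haveI : Finite Bs := inferInstance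
  haveI : Nontrivial Bs := ⟨0, 1, fun h => zero_ne_one (congrArg Subtype.val h : (0 : 𝔄) = 1)⟩
  let ι : D.R →ₐ[O] Bs := Ψ.codRestrict Bs fun x => Algebra.subset_adjoin (Or.inl ⟨x, rfl⟩)
  let zB : FrVar k e → Bs := fun c => ⟨z c, Algebra.subset_adjoin (Or.inr ⟨c, rfl⟩)⟩
  have hzBn : ∀ c, IsNilpotent (zB c) := fun c => by
    obtain ⟨j, hj⟩ := hzn c
    exact ⟨j, Subtype.ext (by simpa [zB] using hj)⟩
  have hιn : ∀ x ∈ maximalIdeal D.R, IsNilpotent (ι x) := by
    intro x hx
    obtain ⟨a, b, hne, heq⟩ := Finite.exists_ne_map_eq_of_infinite (fun i : ℕ => ι x ^ i)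
    wlog hab : a < b generalizing a b
    · exact this b a hne.symm heq.symm (lt_of_le_of_ne (not_lt.mp hab) hne.symm)
    refine ⟨a, ?_⟩
    have hu : IsUnit (ι (1 - x ^ (b - a))) := by
      refine IsUnit.map ι (IsLocalRing.isUnit_one_sub_self_of_mem_nonunits _ ?_)
      exact Ideal.pow_mem_of_mem _ hx _ (by omega)
    refine hu.mul_left_eq_zero.mp ?_
    rw [map_sub, map_one, map_pow, mul_sub, mul_one, ← pow_add, Nat.add_sub_cancel' hab.le]
    exact sub_eq_zero.mpr heq
  have happ : ∀ b : Bs, ∃ x, IsNilpotent (b - ι x) := by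
    rintro ⟨a, ha⟩
    induction ha using Algebra.adjoin_induction with
    | mem a ha =>
      rcases ha with ⟨x, rfl⟩ | ⟨c, rfl⟩
      · exact ⟨x, ⟨1, by rw [pow_one, sub_eq_zero]; rfl⟩⟩
      · exact ⟨0, by rw [map_zero, sub_zero]; exact hzBn c⟩
    | algebraMap c =>
      exact ⟨algebraMap O D.R c, ⟨1, by rw [pow_one, sub_eq_zero, ι.commutes]; rfl⟩⟩
    | add a b ha hb iha ihb =>
      obtain ⟨x, hx⟩ := iha
      obtain ⟨y, hy⟩ := ihb
      refine ⟨x + y, ?_⟩
      rw [map_add, show (⟨a + b, _⟩ : Bs) = ⟨a, ha⟩ + ⟨b, hb⟩ from rfl, add_sub_add_comm]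
      exact (Commute.all _ _).isNilpotent_add hx hy
    | mul a b ha hb iha ihb =>
      obtain ⟨x, hx⟩ := iha
      obtain ⟨y, hy⟩ := ihb
      refine ⟨x * y, ?_⟩
      rw [map_mul, show (⟨a * b, _⟩ : Bs) - ι x * ι y =
        (⟨a, ha⟩ - ι x) * ⟨b, hb⟩ + ι x * (⟨b, hb⟩ - ι y) by
          rw [sub_mul, mul_sub, sub_add_sub_cancel]; rfl]
      exact (Commute.all _ _).isNilpotent_add ((Commute.all _ _).isNilpotent_mul_right hx)
        ((Commute.all _ _).isNilpotent_mul_left hy)
  haveI : IsLocalRing Bs := IsLocalRing.of_isUnit_or_isUnit_one_sub_self fun b => by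
    obtain ⟨x, hx⟩ := happ b
    by_cases hu : IsUnit x
    · left
      rw [← sub_add_cancel b (ι x)]
      exact hx.isUnit_add_right_of_commute (hu.map ι) (Commute.all _ _)
    · right
      refine IsNilpotent.isUnit_one_sub ?_
      rw [← sub_add_cancel b (ι x)]
      exact (Commute.all _ _).isNilpotent_add hx (hιn x ((mem_maximalIdeal _).mpr hu))
  have hnm : ∀ b : Bs, IsNilpotent b → b ∈ maximalIdeal Bs := fun b hb => by
    obtain ⟨j, hj⟩ := hb
    exact (maximalIdeal.isMaximal Bs).isPrime.mem_of_pow_mem j (hj ▸ zero_mem _)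
  haveI hιl : IsLocalHom (ι : D.R →+* Bs) := ⟨fun x hx => by
    by_contra hc
    exact ((mem_maximalIdeal _).mp (hnm _ (hιn x ((mem_maximalIdeal _).mpr hc)))) hx⟩
  haveI : IsLocalHom (algebraMap O Bs) := by
    rw [← ι.comp_algebraMap]
    exact RingHom.isLocalHom_comp _ _
  have hres : Function.Surjective (residue Bs ∘ algebraMap O Bs) := by
    intro y
    obtain ⟨b, rfl⟩ := residue_surjective y
    obtain ⟨x, hx⟩ := happ b
    obtain ⟨a, ha⟩ := D.residue_surjective (residue D.R x)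
    refine ⟨a, ?_⟩
    show residue Bs (algebraMap O Bs a) = residue Bs b
    rw [← sub_eq_zero, ← map_sub, residue_eq_zero_iff, ← ι.commutes,
      show ι (algebraMap O D.R a) - b = ι (algebraMap O D.R a - x) - (b - ι x) by
        rw [map_sub]; abel]
    refine sub_mem (hnm _ (hιn _ ?_)) (hnm _ hx)
    rw [← residue_eq_zero_iff, map_sub, sub_eq_zero]
    exact ha
  -- the frames
  let Z : Fin k → Matrix (Fin 2) (Fin 2) Bs := fun i a b =>
    if hc : ¬ ((i : ℕ) = 0 ∧ (a, b) = e) then zB ⟨(i, a, b), hc⟩ else 0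
  have hZn : ∀ i a b, residue Bs (Z i a b) = 0 := by
    intro i a b
    simp only [Z]
    by_cases hc : ¬ ((i : ℕ) = 0 ∧ (a, b) = e)
    · rw [dif_pos hc]
      exact (residue_eq_zero_iff _).mpr (hnm _ (hzBn _))
    · rw [dif_neg hc]
      exact map_zero _
  let P : Fin k → Matrix (Fin 2) (Fin 2) Bs := fun i => (U i).map (algebraMap O Bs) + Z i
  let κ : ResidueField O →+* ResidueField Bs := ResidueField.map (algebraMap O Bs)
  have hPres : ∀ i, (P i).map (residue Bs) = ((U i).map (residue O)).map κ := by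
    intro i
    ext a b
    show residue Bs (algebraMap O Bs (U i a b) + Z i a b) = κ (residue O (U i a b))
    rw [map_add, hZn, add_zero]
    rfl
  have hPu : ∀ i, IsUnit (P i).det := by
    intro i
    by_contra hu
    have h0 : residue Bs (P i).det = 0 :=
      (residue_eq_zero_iff _).mpr ((mem_maximalIdeal _).mpr hu)
    rw [RingHom.map_det, RingHom.mapMatrix_apply, hPres, ← RingHom.mapMatrix_apply,
      ← RingHom.map_det, map_eq_zero] at h0
    exact hF.unit i h0
  let P' : Fin k → Matrix (Fin 2) (Fin 2) Bs := fun i => (P i)⁻¹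
  have hPP : ∀ i, P' i * P i = 1 := fun i => Matrix.nonsing_inv_mul _ (hPu i)
  have hnorm : ∀ i : Fin k, (i : ℕ) = 0 → ∃ a b, ∃ c : O, IsUnit c ∧
      P i a b = algebraMap O Bs c := fun i hi => by
    refine ⟨e.1, e.2, U i e.1 e.2, he i hi, ?_⟩
    show algebraMap O Bs (U i e.1 e.2) + Z i e.1 e.2 = _
    simp [Z, hi]
  have hgen : ∀ φ φ' : Bs →ₐ[O] DualNumber (ResidueField O), φ.comp ι = φ'.comp ι →
      (∀ i, (P i).map φ = (P i).map φ') → φ = φ' := by
    intro φ φ' hι hP
    refine AlgHom.ext fun b => ?_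
    obtain ⟨a, ha⟩ := b
    induction ha using Algebra.adjoin_induction with
    | mem a ha =>
      rcases ha with ⟨x, rfl⟩ | ⟨c, rfl⟩
      · exact AlgHom.congr_fun hι x
      · have e' := congrFun (congrFun (hP c.1.1) c.1.2.1) c.1.2.2
        simp only [P, Matrix.map_apply, Matrix.add_apply, map_add, AlgHom.commutes,
          add_right_inj] at e'
        simp only [Z, dif_pos c.2] at e'
        exact e'
    | algebraMap c => exact (φ.commutes c).trans (φ'.commutes c).symm
    | add a b ha hb iha ihb =>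
      exact ((map_add φ ⟨a, ha⟩ ⟨b, hb⟩).trans (by rw [iha, ihb])).trans (map_add φ' _ _).symm
    | mul a b ha hb iha ihb =>
      exact ((map_mul φ ⟨a, ha⟩ ⟨b, hb⟩).trans (by rw [iha, ihb])).trans (map_mul φ' _ _).symm
  -- coordinates
  let x : Fin k × Fin 2 × Fin 2 × Fin 2 → Bs := fun c =>
    cframed ι P P' cd c.1 (if c.2.1 = 0 then frob c.1 else tame c.1) c.2.2.1 c.2.2.2 -
      algebraMap O Bs (frameBase F c.1 c.2.1 c.2.2.1 c.2.2.2)
  have hP'res : ∀ i, (P' i).map (residue Bs) * ((U i).map (residue O)).map κ = 1 := fun i => by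
    rw [← hPres, ← Matrix.map_mul, hPP, Matrix.map_one _ (map_zero _) (map_one _)]
  have hιres : ∀ g, ((cd.R₀ g).map ι).map (residue Bs) = (matHom r g).map κ := by
    intro g
    have e' := congrArg (fun M : Matrix (Fin 2) (Fin 2) (ResidueField D.R) =>
      M.map (ResidueField.map (ι : D.R →+* Bs))) (cd.aligned g)
    simp only [Matrix.map_map] at e'
    rw [Matrix.map_map]
    have hκ : ∀ y, ResidueField.map (ι : D.R →+* Bs)
        (ResidueField.map (algebraMap O D.R) y) = κ y := by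
      intro y
      obtain ⟨a, rfl⟩ := residue_surjective y
      show residue Bs (ι (algebraMap O D.R a)) = _
      rw [ι.commutes]
      rfl
    ext a b
    have := congrFun (congrFun e' a) b
    simp only [Matrix.map_apply, Function.comp_apply, ResidueField.map_residue, hκ] at this ⊢
    exact this
  have hx : ∀ c, x c ∈ maximalIdeal Bs := by
    rintro ⟨i, t, a, b⟩
    rw [← residue_eq_zero_iff]
    have key : (cframed ι P P' cd i (if t = 0 then frob i else tame i)).map (residue Bs) =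
        ((frameBase F i t).map (residue O)).map κ := by
      rw [cframed, Matrix.map_mul, Matrix.map_mul, hιres, hPres, mul_assoc, ← Matrix.map_mul]
      have e' : matHom r (if t = 0 then frob i else tame i) * (U i).map (residue O) =
          (U i).map (residue O) * (frameBase F i t).map (residue O) := by
        simp only [frameBase]
        split_ifs
        · exact hF.conj i
        · rw [matHom_apply, hpl.unr i _ (hpl.isTame i).1, Units.val_one,
            Matrix.map_one _ (map_zero _) (map_one _), one_mul, mul_one]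
      rw [e', Matrix.map_mul, ← mul_assoc, hP'res, one_mul]
    have hab := congrFun (congrFun key a) b
    simp only [Matrix.map_apply] at hab
    show residue Bs (cframed ι P P' cd i _ a b - algebraMap O Bs _) = 0
    rw [map_sub, sub_eq_zero]
    exact hab
  exact ⟨{
    B := Bs
    val := Bs.val
    val_injective := Subtype.val_injective
    ι := ι
    val_ι := fun _ => rfl
    range_eq := Subalgebra.range_val Bs
    residue_surjective := hres
    P := P
    P' := P'
    inv := hPP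
    norm := hnorm
    ext_dual := hgen
    x := x
    x_mem := hx
    coord := fun i t a b => (add_sub_cancel _ _).symm }⟩

namespace FramedAlg

variable {cd : TW.Coord D r} {F : Fin k → FPlace O} {𝔄 : Type} [Ring 𝔄] [Algebra O 𝔄]
  {Ψ : D.R →ₐ[O] 𝔄} {V : Type} {z : V → 𝔄} (𝔉 : FramedAlg cd frob tame F Ψ z)

theorem exists_val_eq_z (c : V) : ∃ b, 𝔉.val b = z c := by
  have h : z c ∈ 𝔉.val.range := 𝔉.range_eq ▸ Algebra.subset_adjoin (Or.inr ⟨c, rfl⟩)
  exact h

/-- maps intertwining on generators intertwine -/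
theorem intertwine {a b : Type} [Fintype a] [Fintype b] [DecidableEq a] [DecidableEq b] {R : Type}
    [CommRing R] [Algebra O R] (π₁ : 𝔄 →ₐ[O] Matrix a a R) (π₂ : 𝔄 →ₐ[O] Matrix b b R)
    (G : Matrix b a R) (hΨ : ∀ x, π₂ (Ψ x) * G = G * π₁ (Ψ x))
    (hz : ∀ c, π₂ (z c) * G = G * π₁ (z c)) (y : 𝔉.B) :
    π₂ (𝔉.val y) * G = G * π₁ (𝔉.val y) := by
  have hy : 𝔉.val y ∈ Algebra.adjoin O (Set.range Ψ ∪ Set.range z) := 𝔉.range_eq ▸ ⟨y, rfl⟩
  revert hy
  generalize 𝔉.val y = u
  intro hy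
  induction hy using Algebra.adjoin_induction with
  | mem u hu =>
    rcases hu with ⟨x, rfl⟩ | ⟨c, rfl⟩
    · exact hΨ x
    · exact hz c
  | algebraMap o =>
    rw [AlgHom.commutes, AlgHom.commutes, Algebra.algebraMap_eq_smul_one,
      Algebra.algebraMap_eq_smul_one, Matrix.smul_mul, Matrix.mul_smul, Matrix.one_mul,
      Matrix.mul_one]
  | add u v _ _ hu hv => rw [map_add, map_add, Matrix.add_mul, Matrix.mul_add, hu, hv]
  | mul u v _ _ hu hv =>
    rw [map_mul, map_mul, Matrix.mul_assoc, hv, ← Matrix.mul_assoc, hu, Matrix.mul_assoc]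

variable {Smin : Finset ℕ} {s t : ℕ} {Q : Fin s → Nat.Primes}
  {Lp : Submodule (ZMod p) (lH1 (ExtCitation.pPrime p) (ad0 p r))}

/-- generators -/
theorem exists_series (h : Setting p ρbar r) (hpSmin : p ∈ Smin)
    (hmin : ∀ q : ℕ, q.Prime → q ≠ p → (q ∈ Smin ↔ ¬ ρbar.IsUnramifiedAt q))
    (hWmin : ∀ i, (W i : ℕ) ∉ Smin) (hpl : CondPlaces p r W frob tame)
    (hG : CondLift (p := p) Smin cd W Q Lp 𝔉.ι) (hB : CondBound p r Smin W Q Lp t) :
    ∃ γ : MvPowerSeries (PlaceVar (Fin k) (Fin (t + (k - 1)))) O →ₐ[O] 𝔉.B,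
      Function.Surjective γ ∧ ∀ c, γ (MvPowerSeries.X (Sum.inl c)) = 𝔉.x c :=
  exists_cond_generators 𝔉.ι 𝔉.P 𝔉.P' (fun _ => rfl) h hpSmin hmin hWmin hG hpl hB
    𝔉.residue_surjective 𝔉.inv 𝔉.norm 𝔉.ext_dual 𝔉.x 𝔉.x_mem fun i t a b =>
      ⟨frameBase F i t a b, 1, by rw [map_one, one_mul]; exact 𝔉.coord i t a b⟩

section Rel

variable {S : Type} {γ : MvPowerSeries (PlaceVar (Fin k) S) O →ₐ[O] 𝔉.B}
  (hγ : ∀ c, γ (MvPowerSeries.X (Sum.inl c)) = 𝔉.x c)

theorem map_C_series (o : O) : γ (MvPowerSeries.C o) = algebraMap O 𝔉.B o := γ.commutes o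

include hγ

theorem map_fpFrob (i : Fin k) :
    (fpFrob F i).map γ = cframed 𝔉.ι 𝔉.P 𝔉.P' cd i (frob i) := by
  ext a b
  rw [fpFrob, Matrix.map_apply, Matrix.add_apply, Matrix.map_apply, map_add, map_C_series,
    show γ (devP i 0 a b) = 𝔉.x (i, 0, a, b) from hγ _]
  exact (𝔉.coord i 0 a b).symm

theorem map_fpTame (i : Fin k) :
    (fpTame (O := O) (S := S) i).map γ = cframed 𝔉.ι 𝔉.P 𝔉.P' cd i (tame i) := by
  ext a b
  have e := 𝔉.coord i 1 a b
  rw [if_neg (show ¬ ((1 : Fin 2) = 0) by decide), frameBase,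
    if_neg (show ¬ ((1 : Fin 2) = 0) by decide)] at e
  rw [fpTame, Matrix.map_apply, Matrix.add_apply, map_add,
    show γ (devP i 1 a b) = 𝔉.x (i, 1, a, b) from hγ _, e, Matrix.one_apply, Matrix.one_apply]
  split <;> simp

theorem map_trace_fpFrob (i : Fin k) :
    γ (fpFrob F i).trace = 𝔉.ι (cd.R₀ (frob i)).trace := by
  rw [← trace_cframed 𝔉.ι 𝔉.P 𝔉.P' 𝔉.inv, ← map_fpFrob 𝔉 hγ, trace_fin_two, trace_fin_two,
    map_add]
  rfl

/-- the relations of every level -/
theorem map_fpRel [IsHausdorff (maximalIdeal D.R) D.R] (hdet : D.ρ.DetIsCyclotomic p)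
    (hpl : CondPlaces p r W frob tame) (hq : ∀ i, (F i).q = (W i : ℕ))
    (htame : ∀ i, (cd.R₀ (tame i)).trace = 2) :
    ∀ f ∈ fpRel (S := S) F, γ f = 0 := by
  rintro f ⟨i, hf⟩
  obtain ⟨hd, hdt, hrel⟩ := cframed_relations 𝔉.ι 𝔉.P 𝔉.P' hdet hpl 𝔉.inv i
  rcases hf with rfl | rfl | rfl | ⟨a, b, rfl⟩
  · rw [map_sub, map_C_series, AlgHom.map_det, AlgHom.mapMatrix_apply, map_fpFrob 𝔉 hγ, hd,
      map_natCast, hq, sub_self]
  · rw [map_sub, map_one, AlgHom.map_det, AlgHom.mapMatrix_apply, map_fpTame 𝔉 hγ, hdt, sub_self]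
  · rw [map_sub, map_ofNat, trace_fin_two, map_add, ← Matrix.map_apply (f := γ),
      ← Matrix.map_apply (f := γ), map_fpTame 𝔉 hγ, ← trace_fin_two,
      trace_cframed 𝔉.ι 𝔉.P 𝔉.P' 𝔉.inv, htame, map_ofNat, sub_self]
  · have e : (fpFrob F i * fpTame (O := O) (S := S) i -
        fpTame (O := O) (S := S) i ^ (F i).q * fpFrob F i).map γ = 0 := by
      rw [Matrix.map_sub _ (map_sub γ), Matrix.map_mul, Matrix.map_mul, map_fpFrob 𝔉 hγ,
        map_fpTame 𝔉 hγ,
        show (fpTame (O := O) (S := S) i ^ (F i).q).map γ =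
          cframed 𝔉.ι 𝔉.P 𝔉.P' cd i (tame i) ^ (F i).q by
          rw [← map_fpTame 𝔉 hγ]; exact map_pow γ.mapMatrix _ _, hq, hrel]
      exact sub_self _
    exact congrFun (congrFun e a) b

theorem map_fpSt (i : Fin k) : γ (fpSt F i) =
    𝔉.ι ((cd.R₀ (frob i)).trace - algebraMap O D.R ((F i).w * (1 + ((F i).q : O)))) := by
  rw [fpSt, map_sub, map_sub, map_C_series, map_trace_fpFrob 𝔉 hγ, 𝔉.ι.commutes]

theorem map_fpQuart (i : Fin k) : γ (fpQuart F i) =
    𝔉.ι ((cd.R₀ (frob i)).trace ^ 2 - (1 + ((F i).q : D.R)) ^ 2) := by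
  rw [fpQuart, map_sub γ, map_C_series, map_pow γ, map_trace_fpFrob 𝔉 hγ, map_sub 𝔉.ι,
    map_pow 𝔉.ι, map_pow 𝔉.ι, map_pow (algebraMap O 𝔉.B), map_add 𝔉.ι,
    map_add (algebraMap O 𝔉.B), map_one, map_one, map_natCast, map_natCast]

/-- where the tame generator is trivial the coordinates of `fpUnr` vanish -/
theorem map_fpUnr {d : ℕ} {R : Type} [CommRing R] [Algebra O R] (π : 𝔄 →ₐ[O] Matrix (Fin d) (Fin d) R)
    (i : Fin k) (h : ∀ a b, π (Ψ ((cd.R₀ (tame i) - 1) a b)) = 0) :
    ∀ f ∈ fpUnr (O := O) (S := S) i, π (𝔉.val (γ f)) = 0 := by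
  rintro f ⟨⟨a, b⟩, rfl⟩
  show π (𝔉.val (γ (devP i 1 a b))) = 0
  have e : cframed 𝔉.ι 𝔉.P 𝔉.P' cd i (tame i) =
      1 + 𝔉.P' i * (cd.R₀ (tame i) - 1).map 𝔉.ι * 𝔉.P i := by
    rw [cframed, Matrix.map_sub _ (map_sub 𝔉.ι), Matrix.map_one _ (map_zero _) (map_one _),
      Matrix.mul_sub, Matrix.sub_mul, Matrix.mul_one, 𝔉.inv, add_sub_cancel]
  have h1 : γ (devP i 1 a b) = (𝔉.P' i * (cd.R₀ (tame i) - 1).map 𝔉.ι * 𝔉.P i) a b := by
    have e1 : (fpTame (O := O) (S := S) i).map γ = 1 + (devP i 1).map γ := by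
      rw [fpTame, Matrix.map_add _ (map_add γ), Matrix.map_one _ (map_zero _) (map_one _)]
    rw [map_fpTame 𝔉 hγ, e] at e1
    have e2 := congrFun (congrFun e1 a) b
    rw [Matrix.add_apply, Matrix.add_apply, Matrix.map_apply] at e2
    exact (add_left_cancel e2).symm
  rw [h1]
  simp only [Matrix.mul_apply, map_sum, map_mul, Matrix.map_apply, 𝔉.val_ι, h, mul_zero, zero_mul,
    Finset.sum_const_zero]

end Rel

end FramedAlg

end FLTAgent.MLT

end
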