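import Fermat.Agent.MLT.Mk.Defs
import Fermat.Agent.MLT.Image
import Fermat.Agent.LL.LocalDefs

/-!
Area MLT, parcel LEVELMK: frames of the places in which residual Frobenius has trace `w (1 + q)` and
determinant `q`: `diag (w q, w)` for `q ≢ 1`, `w • frobBase` for `q ≡ 1 (mod p)`.
-/

set_option autoImplicit false
set_option linter.style.haveILetI false
set_option linter.unusedSectionVars false

noncomputable section

open IsLocalRing Matrix FLTAgent.LL FLTAgent.PT FLTAgent.PT.TW

namespace FLTAgent.MLT

section Field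

variable {κ : Type} [Field κ] {M : Matrix (Fin 2) (Fin 2) κ}

/-- two different eigenvalues give a diagonal form -/
theorem exists_diagonal_of_eigen {a b : κ} (hab : a ≠ b) (ht : M.trace = a + b)
    (hd : M.det = a * b) :
    ∃ U : Matrix (Fin 2) (Fin 2) κ, U.det ≠ 0 ∧ M * U = U * !![a, 0; 0, b] := by
  have hdet : ∀ c, (c = a ∨ c = b) → (M - c • 1).det = 0 := by
    intro c hc
    rw [Matrix.trace_fin_two] at ht
    rw [Matrix.det_fin_two] at hd
    simp [Matrix.det_fin_two]
    rcases hc with rfl | rfl
    · linear_combination hd - c * ht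
    · linear_combination hd - c * ht
  obtain ⟨v, hv, hMv⟩ := Matrix.exists_mulVec_eq_zero_iff.2 (hdet a (Or.inl rfl))
  obtain ⟨u, hu, hMu⟩ := Matrix.exists_mulVec_eq_zero_iff.2 (hdet b (Or.inr rfl))
  rw [Matrix.sub_mulVec, sub_eq_zero, Matrix.smul_mulVec, Matrix.one_mulVec] at hMv hMu
  refine ⟨!![v 0, u 0; v 1, u 1], fun h0 => ?_, ?_⟩
  · obtain ⟨x, hx, hUx⟩ := Matrix.exists_mulVec_eq_zero_iff.2 h0
    have h1 : x 0 • v + x 1 • u = 0 := by
      funext i
      have := congrFun hUx i
      fin_cases i <;> simp [Matrix.mulVec, dotProduct] at this ⊢ <;> linear_combination this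
    have h2 : x 0 • (a • v) + x 1 • (b • u) = 0 := by
      rw [← hMv, ← hMu, ← Matrix.mulVec_smul, ← Matrix.mulVec_smul, ← Matrix.mulVec_add, h1,
        Matrix.mulVec_zero]
    have h3 : ((a - b) * x 0) • v = 0 := by
      funext i
      have e1 := congrFun h1 i
      have e2 := congrFun h2 i
      simp only [Pi.add_apply, Pi.smul_apply, Pi.zero_apply, smul_eq_mul] at e1 e2 ⊢
      linear_combination e2 - b * e1
    have hx0 : x 0 = 0 :=
      (mul_eq_zero.1 ((smul_eq_zero.1 h3).resolve_right hv)).resolve_left (sub_ne_zero.2 hab)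
    have hx1 : x 1 = 0 := by
      rw [hx0, zero_smul, zero_add, smul_eq_zero] at h1
      exact h1.resolve_right hu
    exact hx (funext fun i => by fin_cases i <;> assumption)
  · ext i j
    have ev := congrFun hMv i
    have eu := congrFun hMu i
    fin_cases i <;> fin_cases j <;>
      simp [Matrix.mulVec, dotProduct, Matrix.mul_apply] at ev eu ⊢ <;>
      first | linear_combination ev | linear_combination eu

/-- a double eigenvalue `w = ±1` gives `w` times a standard unipotent -/
theorem exists_frobBase_form {w : κ} (hw : w * w = 1) (ht : M.trace = w + w) (hd : M.det = 1) :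
    ∃ (ns : Bool) (U : Matrix (Fin 2) (Fin 2) κ),
      U.det ≠ 0 ∧ M * U = U * (w • frobBase κ ns) := by
  by_cases h0 : M = w • 1
  · exact ⟨false, 1, by simp, by rw [h0, mul_one, one_mul]; simp [frobBase, Matrix.one_fin_two]⟩
  set N := M - w • 1 with hN
  have hNN : ∀ i j, (N * N) i j = 0 := by
    intro i j
    rw [Matrix.trace_fin_two] at ht
    rw [Matrix.det_fin_two] at hd
    fin_cases i <;> fin_cases j <;> simp [hN, Matrix.mul_apply]
    · linear_combination M 0 0 * ht + hw - hd
    · linear_combination M 0 1 * ht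
    · linear_combination M 1 0 * ht
    · linear_combination M 1 1 * ht + hw - hd
  obtain ⟨v, hv⟩ : ∃ v, N *ᵥ v ≠ 0 := by
    by_contra hc
    push Not at hc
    exact h0 (sub_eq_zero.1 (Matrix.ext_of_mulVec_single fun j => by
      rw [Matrix.zero_mulVec]; exact hc _))
  have hMv : M *ᵥ v = w • v + N *ᵥ v := by
    rw [hN, Matrix.sub_mulVec, Matrix.smul_mulVec, Matrix.one_mulVec, add_sub_cancel]
  set u := w • (N *ᵥ v) with hu
  have hNu : N *ᵥ u = 0 := by
    rw [hu, Matrix.mulVec_smul, Matrix.mulVec_mulVec,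
      show N * N = 0 from Matrix.ext hNN, Matrix.zero_mulVec, smul_zero]
  have hMu : M *ᵥ u = w • u := by
    rw [hN, Matrix.sub_mulVec, Matrix.smul_mulVec, Matrix.one_mulVec, sub_eq_zero] at hNu
    exact hNu
  have hMv' : M *ᵥ v = w • u + w • v := by rw [hMv, hu, smul_smul, hw, one_smul, add_comm]
  refine ⟨true, !![u 0, v 0; u 1, v 1], fun hz => ?_, ?_⟩
  · obtain ⟨x, hx, hUx⟩ := Matrix.exists_mulVec_eq_zero_iff.2 hz
    have h1 : x 0 • u + x 1 • v = 0 := by
      funext i
      have := congrFun hUx i
      fin_cases i <;> simp [Matrix.mulVec, dotProduct] at this ⊢ <;> linear_combination this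
    have h2 := congrArg (N *ᵥ ·) h1
    simp only [Matrix.mulVec_add, Matrix.mulVec_smul, hNu, smul_zero, zero_add,
      Matrix.mulVec_zero, smul_eq_zero] at h2
    have hx1 := h2.resolve_right hv
    rw [hx1, zero_smul, add_zero, hu, smul_smul, smul_eq_zero, mul_eq_zero] at h1
    have hx0 : x 0 = 0 := (h1.resolve_right hv).resolve_right fun e => by simp [e] at hw
    exact hx (funext fun i => by fin_cases i <;> assumption)
  · ext i j
    have eu := congrFun hMu i
    have ev := congrFun hMv' i
    fin_cases i <;> fin_cases j <;>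
      simp [Matrix.mulVec, dotProduct, Matrix.mul_apply, frobBase] at eu ev ⊢ <;>
      first | linear_combination eu | linear_combination ev

end Field

variable {p : ℕ} [Fact p.Prime] {O : Type} [CommRing O] [IsDomain O] [IsDiscreteValuationRing O]
  [IsAdicComplete (maximalIdeal O) O] [Finite (ResidueField O)]
  [Algebra (ZMod p) (ResidueField O)] {ρbar : ResidualGaloisRep (ResidueField O)}
  {r : GQ →* GL (Fin 2) (ResidueField O)} {k : ℕ} {W : Fin k → Nat.Primes}
  {frob tame : Fin k → GQ} {w : Fin k → O}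

/-- the residual determinant of Frobenius at a place -/
theorem det_frob_residual (h : Setting p ρbar r) (hpl : CondPlaces p r W frob tame) (i : Fin k) :
    (matHom r (frob i)).det = ((W i : ℕ) : ResidueField O) := by
  rw [matHom_apply, h.hdet, cycloChar_eq_cyc, Attach.cyc_frobenius (W i).2
    (fun e => hpl.ne i ((Nat.prime_dvd_prime_iff_eq (W i).2 Fact.out).1 e))
    (liesOver_primeLocalPlace (W i)) (hpl.isFrob i), map_natCast]

/-- frames exist -/
theorem exists_isFraming (h : Setting p ρbar r) (hpl : CondPlaces p r W frob tame)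
    (hw : ∀ i, w i * w i = 1)
    (htr : ∀ i, (matHom r (frob i)).trace = residue O (w i * (1 + ((W i : ℕ) : O)))) :
    ∃ (F : Fin k → FPlace O) (U : Fin k → Matrix (Fin 2) (Fin 2) O),
      IsFraming r W frob w F U := by
  classical
  haveI := h.charP
  have key : ∀ i, ∃ (bF U : Matrix (Fin 2) (Fin 2) O),
      ((IsUnit (((W i : ℕ) : O) - 1) ∧ bF = !![w i * (W i : ℕ), 0; 0, w i]) ∨
        (((W i : ℕ) : O) - 1 ∈ maximalIdeal O ∧ ∃ ns : Bool, bF = w i • frobBase O ns)) ∧
      (U.map (residue O)).det ≠ 0 ∧
      matHom r (frob i) * U.map (residue O) = U.map (residue O) * bF.map (residue O) := by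
    intro i
    set q : O := ((W i : ℕ) : O)
    set wb := residue O (w i)
    set qb := residue O q
    have hwb : wb * wb = 1 := by rw [← map_mul, hw, map_one]
    have hd : (matHom r (frob i)).det = qb := (det_frob_residual h hpl i).trans (map_natCast _ _).symm
    have ht : (matHom r (frob i)).trace = wb * qb + wb := by
      rw [htr, map_mul, map_add, map_one]; ring
    by_cases hq : qb = 1
    · obtain ⟨ns, U, hU, hUM⟩ := exists_frobBase_form hwb (by rw [ht, hq, mul_one]) (hd.trans hq)
      choose L hL using fun a b => residue_surjective (R := O) (U a b)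
      have hLU : (Matrix.of L).map (residue O) = U := Matrix.ext hL
      refine ⟨w i • frobBase O ns, Matrix.of L, Or.inr ⟨?_, ns, rfl⟩, by rwa [hLU], ?_⟩
      · rw [← residue_eq_zero_iff, map_sub, map_one, sub_eq_zero]
        exact hq
      · rw [hLU, hUM]
        congr 1
        ext a b
        cases ns <;> fin_cases a <;> fin_cases b <;> simp [frobBase, wb]
    · have hab : wb * qb ≠ wb := fun e => hq (by linear_combination wb * e + (1 - qb) * hwb)
      obtain ⟨U, hU, hUM⟩ := exists_diagonal_of_eigen hab ht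
        (by rw [hd]; linear_combination (-qb) * hwb)
      choose L hL using fun a b => residue_surjective (R := O) (U a b)
      have hLU : (Matrix.of L).map (residue O) = U := Matrix.ext hL
      refine ⟨_, Matrix.of L, Or.inl ⟨?_, rfl⟩, by rwa [hLU], ?_⟩
      · rw [← residue_ne_zero_iff_isUnit, map_sub, map_one, sub_ne_zero]
        exact hq
      · rw [hLU, hUM]
        congr 1
        ext a b
        fin_cases a <;> fin_cases b <;> simp [wb, qb, q]
  choose bF U hn hU hc using key
  have hqu : ∀ i, IsUnit (((W i : ℕ) : O)) := fun i => by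
    rw [← residue_ne_zero_iff_isUnit, map_natCast, Ne, CharP.cast_eq_zero_iff (ResidueField O) p]
    exact fun e => hpl.ne i ((Nat.prime_dvd_prime_iff_eq Fact.out (W i).2).1 e).symm
  have htwo : IsUnit (2 : O) := by
    rw [← residue_ne_zero_iff_isUnit, map_ofNat]
    exact h.two_ne_zero
  exact ⟨fun i => ⟨(W i : ℕ), w i, bF i, (W i).2.one_lt, hw i, hqu i, htwo, hn i⟩, U,
    ⟨fun _ => rfl, fun _ => rfl, hU, hc⟩⟩

/-- a semistable residual representation is unramified away from `p` and the ramified set -/
theorem SemiResidual.isUnramifiedAt {E : WeierstrassCurve ℤ}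
    (hS : SemiResidual E p ρbar r) {q : ℕ} (hq : q.Prime) (hqp : q ≠ p) (hmin : q ∉ sMin E p) :
    ρbar.IsUnramifiedAt q := by
  intro A hA σ hσ
  obtain ⟨b, hb⟩ := hS.setting.rep
  refine (LinearMap.toMatrix b b).injective ?_
  refine (hb σ).trans ?_
  simp only [hS.unramified q hq hqp hmin A hA σ hσ, Units.val_one, LinearMap.toMatrix_one]

/-- places with frames in which the given lift of Frobenius has trace `w (1 + q)` -/
theorem exists_framing {E : WeierstrassCurve ℤ} (hS : SemiResidual E p ρbar r)
    (hWp : ∀ i, (W i : ℕ) ≠ p) (hWmin : ∀ i, (W i : ℕ) ∉ sMin E p)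
    (R₀ : GQ → Matrix (Fin 2) (Fin 2) O)
    (hres : ∀ g, residue O (R₀ g).trace = (matHom r g).trace)
    (hsign : ∀ i τ, (ExtCitation.primeLocalPlace (W i)).IsFrobeniusAt τ (W i : ℕ) →
      ∃ w : O, w * w = 1 ∧ (R₀ τ).trace = w * (1 + ((W i : ℕ) : O))) :
    ∃ (frob tame : Fin k → GQ) (w : Fin k → O) (F : Fin k → FPlace O)
      (U : Fin k → Matrix (Fin 2) (Fin 2) O), CondPlaces p r W frob tame ∧
        IsFraming r W frob w F U ∧ (∀ i, w i * w i = 1) ∧
        ∀ i, (R₀ (frob i)).trace = w i * (1 + ((W i : ℕ) : O)) := by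
  obtain ⟨frob, tame, hpl⟩ := exists_condPlaces hWp
    (fun i => hS.isUnramifiedAt (W i).2 (hWp i) (hWmin i)) hS.setting.rep
  choose w hw hws using fun i => hsign i (frob i) (hpl.isFrob i)
  obtain ⟨F, U, hF⟩ := exists_isFraming hS.setting hpl hw fun i => by rw [← hws, hres]
  exact ⟨frob, tame, w, F, U, hpl, hF, hw, hws⟩

end FLTAgent.MLT

end
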