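import Fermat.Agent.LL.TraceExt
import Fermat.Prelude.Thm_IsLocalRing_isAdicComplete_of_module_finite

/-!
Area MLT, parcel LEVELMK: local algebras inside finite products of finite local algebras whose
elements are scalars modulo all the maximal ideals at once.
-/

set_option autoImplicit false
set_option linter.style.haveILetI false
set_option linter.unusedSectionVars false

noncomputable section

open IsLocalRing

namespace FLTAgent.MLT

variable {O : Type} [CommRing O] [IsDomain O] [IsDiscreteValuationRing O] [Finite (ResidueField O)]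
  {ι : Type} [Finite ι] {T : ι → Type} [∀ i, CommRing (T i)] [∀ i, IsLocalRing (T i)]
  [∀ i, Algebra O (T i)] [∀ i, IsLocalHom (algebraMap O (T i))] [∀ i, Module.Finite O (T i)]

/-- constant modulo the maximal ideals -/
def IsCongr (x : ∀ i, T i) : Prop :=
  ∃ a : O, ∀ i, residue (T i) (x i) = residue (T i) (algebraMap O (T i) a)

theorem isCongr_of_mem_adjoin {X : Set (∀ i, T i)} (hX : ∀ x ∈ X, IsCongr (O := O) x)
    {x : ∀ i, T i} (hx : x ∈ Algebra.adjoin O X) : IsCongr (O := O) x := by
  induction hx using Algebra.adjoin_induction with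
  | mem x hx => exact hX x hx
  | algebraMap a => exact ⟨a, fun i => rfl⟩
  | add x y _ _ hx hy =>
    obtain ⟨a, ha⟩ := hx
    obtain ⟨b, hb⟩ := hy
    exact ⟨a + b, fun i => by rw [Pi.add_apply, map_add, map_add, map_add, ha, hb]⟩
  | mul x y _ _ hx hy =>
    obtain ⟨a, ha⟩ := hx
    obtain ⟨b, hb⟩ := hy
    exact ⟨a * b, fun i => by rw [Pi.mul_apply, map_mul, map_mul, map_mul, ha, hb]⟩

variable {S : Subalgebra O (∀ i, T i)} (hS : ∀ x ∈ S, IsCongr (O := O) x)

include hS

theorem isUnit_apply_iff (x : S) (i j : ι) : IsUnit ((x : ∀ i, T i) i) → IsUnit ((x : ∀ i, T i) j) := by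
  obtain ⟨a, ha⟩ := hS x x.2
  intro h
  rw [← residue_ne_zero_iff_isUnit, ha, residue_ne_zero_iff_isUnit] at h
  rw [← residue_ne_zero_iff_isUnit, ha, residue_ne_zero_iff_isUnit]
  exact (IsUnit.of_map (algebraMap O (T i)) a h).map _

theorem isUnit_congr_iff (x : S) (i : ι) : IsUnit x ↔ IsUnit ((x : ∀ i, T i) i) := by
  refine ⟨fun h => (h.map S.val).map (Pi.evalRingHom T i), fun h => ?_⟩
  haveI : Algebra.IsIntegral O (∀ i, T i) := Algebra.IsIntegral.of_finite O _
  have hint : S.val.toRingHom.IsIntegral := fun y => by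
    obtain ⟨P, hP, hy⟩ := Algebra.IsIntegral.isIntegral (R := O) y
    refine ⟨P.map (algebraMap O S), hP.map _, ?_⟩
    rw [Polynomial.eval₂_map]
    exact hy
  haveI := hint.isLocalHom Subtype.val_injective
  exact IsUnit.of_map S.val.toRingHom x (Pi.isUnit_iff.2 fun j => isUnit_apply_iff hS x i j h)

theorem isLocalRing_congr [Nonempty ι] : IsLocalRing S := by
  obtain ⟨i⟩ := ‹Nonempty ι›
  haveI : Nontrivial S := by
    refine ⟨0, 1, fun h => zero_ne_one (α := T i) ?_⟩
    exact congrArg (fun x : S => (x : ∀ i, T i) i) h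
  refine IsLocalRing.of_nonunits_add fun a b ha hb => ?_
  rw [mem_nonunits_iff, isUnit_congr_iff hS _ i] at ha hb ⊢
  exact IsLocalRing.nonunits_add ha hb

theorem isLocalHom_congr [Nonempty ι] : IsLocalHom (algebraMap O S) := by
  obtain ⟨i⟩ := ‹Nonempty ι›
  exact ⟨fun a ha => IsUnit.of_map (algebraMap O (T i)) a ((isUnit_congr_iff hS _ i).1 ha)⟩

theorem mem_maximalIdeal_congr [IsLocalRing S] (x : S) (i : ι) :
    x ∈ maximalIdeal S ↔ (x : ∀ i, T i) i ∈ maximalIdeal (T i) := by
  rw [mem_maximalIdeal, mem_nonunits_iff, isUnit_congr_iff hS x i, mem_maximalIdeal, mem_nonunits_iff]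

theorem residue_surjective_congr [Nonempty ι] [IsLocalRing S] :
    Function.Surjective (residue S ∘ algebraMap O S) := by
  obtain ⟨i⟩ := ‹Nonempty ι›
  intro y
  obtain ⟨x, rfl⟩ := residue_surjective y
  obtain ⟨a, ha⟩ := hS x x.2
  refine ⟨a, ?_⟩
  rw [Function.comp_apply, ← sub_eq_zero, ← map_sub, residue_eq_zero_iff,
    mem_maximalIdeal_congr hS _ i, ← residue_eq_zero_iff, Subalgebra.coe_sub, Pi.sub_apply, map_sub,
    sub_eq_zero]
  exact (ha i).symm

omit hS

theorem finite_subalgebra (S : Subalgebra O (∀ i, T i)) : Module.Finite O S :=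
  Module.Finite.of_fg (IsNoetherian.noetherian (Subalgebra.toSubmodule S))

/-- Artin–Rees: deep components force membership in an ideal of finite index -/
theorem exists_deep_le {B : Type} [CommRing B] [Algebra O B] [Module.Finite O B]
    (g : ∀ i, B →ₐ[O] T i) (J : Ideal B) [Finite (B ⧸ J)]
    (hJ : ∀ x, (∀ i, g i x = 0) → x ∈ J) :
    ∃ N : ℕ, ∀ x, (∀ i, g i x ∈ maximalIdeal (T i) ^ N) → x ∈ J := by
  classical
  haveI := Fintype.ofFinite ι
  haveI : ∀ i, IsNoetherianRing (T i) := fun i => IsNoetherianRing.of_finite O (T i)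
  haveI : Finite (O ⧸ J.comap (algebraMap O B)) :=
    Finite.of_injective (Ideal.quotientMap J (algebraMap O B) le_rfl) Ideal.quotientMap_injective
  obtain ⟨n, hn⟩ := FlatDatum.exists_pow_le_of_finite (J.comap (algebraMap O B))
  let f : B →ₗ[O] (∀ i, T i) := LinearMap.pi fun i => (g i).toLinearMap
  obtain ⟨k, hk⟩ := Ideal.exists_pow_inf_eq_pow_smul (maximalIdeal O) (LinearMap.range f)
  choose e he using fun i => LL.exists_pow_le_map (O := O) (T i)
  refine ⟨(Finset.univ.sup e) * (n + k), fun x hx => ?_⟩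
  have h1 : ∀ i, g i x ∈ maximalIdeal O ^ (n + k) • (⊤ : Submodule O (T i)) := by
    intro i
    rw [Ideal.smul_top_eq_map]
    have h2 := Ideal.pow_le_pow_right
      (Nat.mul_le_mul_right (n + k) (Finset.le_sup (f := e) (Finset.mem_univ i))) (hx i)
    rw [pow_mul] at h2
    have h3 := Ideal.pow_right_mono (he i) (n + k) h2
    rw [← Ideal.map_pow] at h3
    exact h3
  have h4 : f x ∈ maximalIdeal O ^ (n + k) • (⊤ : Submodule O (∀ i, T i)) := by
    have hsum : f x = ∑ i, LinearMap.single O T i (g i x) := by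
      funext j
      simp [f]
    rw [hsum]
    refine Submodule.sum_mem _ fun i _ => ?_
    have := Submodule.mem_map_of_mem (f := LinearMap.single O T i) (h1 i)
    rw [Submodule.map_smul''] at this
    exact Submodule.smul_mono le_rfl le_top this
  have h5 : f x ∈ Submodule.map f (maximalIdeal O ^ n • ⊤) := by
    rw [Submodule.map_smul'', ← LinearMap.range_eq_map]
    have h6 : f x ∈ maximalIdeal O ^ (n + k) • (⊤ : Submodule O (∀ i, T i)) ⊓ LinearMap.range f :=
      ⟨h4, LinearMap.mem_range_self f x⟩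
    rw [hk (n + k) (Nat.le_add_left k n), Nat.add_sub_cancel] at h6
    exact Submodule.smul_mono le_rfl inf_le_right h6
  obtain ⟨y, hy, hxy⟩ := h5
  have hyJ : y ∈ J := by
    rw [SetLike.mem_coe, Ideal.smul_top_eq_map] at hy
    exact (Ideal.map_le_iff_le_comap.2 hn) hy
  have : x - y ∈ J := hJ _ fun i => by
    have h7 := congrFun hxy i
    simp only [f, LinearMap.pi_apply, AlgHom.toLinearMap_apply] at h7
    rw [map_sub, h7, sub_self]
  simpa using add_mem this hyJ

end FLTAgent.MLT

end
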