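import Fermat.Agent.MLT.DegenMaps
import Fermat.Agent.MLT.Killers
import Fermat.Agent.MLT.Mk.Supply
import Fermat.Agent.LL.LevelSetupAbsent
import Fermat.Agent.LL.LevelSetupChain

/-!
Area MLT, parcel LEVELMK: a polynomial killing level `N` kills the levels with auxiliary primes.

For `P` with `TOR.evalSub P = 0` at level `N` and `D.N0 = N`, any element `aeval t P` of an algebra in
which `t l` acts as `D.tOp l` sends `D.Mod` to the kernel of `D.toY`: at `P¹(N ∏ Q)` nothing of the
system is new at an auxiliary prime, so both forgetful maps are jointly injective there.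
-/

set_option autoImplicit false
set_option linter.style.haveILetI false
set_option linter.unusedSectionVars false
set_option synthInstance.maxHeartbeats 200000
set_option maxHeartbeats 1000000

noncomputable section

open scoped TensorProduct Matrix
open IsLocalRing FLTAgent.LL
open FLTAgent.Attach (GalQ TFull)

namespace FLTAgent.MLT

/-- a polynomial as an element of the free algebra, evaluated alike on commuting families -/
theorem exists_freeLift (A : Type) [CommRing A] {ι : Type} (P : MvPolynomial ι ℤ) :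
    ∃ F : FreeAlgebra A ι, ∀ (E : Type) [Ring E] [Algebra A E] (C : Type) [CommRing C]
      (ψ : C →+* E) (t : ι → C),
      FreeAlgebra.lift A (fun i => ψ (t i)) F = ψ (MvPolynomial.aeval t P) := by
  induction P using MvPolynomial.induction_on with
  | C a => exact ⟨(a : FreeAlgebra A ι), fun E _ _ C _ ψ t => by simp⟩
  | add P P' hP hP' =>
    obtain ⟨F, hF⟩ := hP
    obtain ⟨F', hF'⟩ := hP'
    exact ⟨F + F', fun E _ _ C _ ψ t => by simp [hF E C ψ t, hF' E C ψ t]⟩
  | mul_X P i hP =>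
    obtain ⟨F, hF⟩ := hP
    exact ⟨F * FreeAlgebra.ι A i, fun E _ _ C _ ψ t => by simp [hF E C ψ t]⟩

/-- intertwining extends to the free algebra -/
theorem lift_intertwine {A : Type} [CommRing A] {ι : Type} {V V' : Type*} [AddCommGroup V]
    [Module A V] [AddCommGroup V'] [Module A V'] {f : ι → Module.End A V}
    {g : ι → Module.End A V'} (Φ : V →ₗ[A] V') (h : ∀ i x, Φ (f i x) = g i (Φ x))
    (F : FreeAlgebra A ι) :
    ∀ x, Φ (FreeAlgebra.lift A f F x) = FreeAlgebra.lift A g F (Φ x) := by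
  induction F using FreeAlgebra.induction with
  | grade0 c => intro x; simp [Algebra.algebraMap_eq_smul_one]
  | grade1 j => intro x; rw [FreeAlgebra.lift_ι_apply, FreeAlgebra.lift_ι_apply]; exact h j x
  | mul F F' hF hF' => intro x; simp only [map_mul, Module.End.mul_apply, hF, hF']
  | add F F' hF hF' =>
    intro x
    simp only [_root_.map_add, LinearMap.add_apply, hF, hF']

/-- the value at the curve -/
theorem map_aeval_eq_valW {R O : Type} [CommRing R] [CommRing O] (π : R →+* O)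
    (W : WeierstrassCurve ℤ) {N p : ℕ} {good : ℕ → Prop}
    (P : MvPolynomial (TOR.SubPrime N p good) ℤ) (t : TOR.SubPrime N p good → R)
    (h : ∀ x ∈ P.vars, π (t x) = (W.apOfModel (x.1.1 : ℕ) : O)) :
    π (MvPolynomial.aeval t P) = ((valW W P : ℤ) : O) := by
  let f : MvPolynomial (TOR.SubPrime N p good) ℤ →+* O := π.comp (MvPolynomial.aeval t).toRingHom
  let g : MvPolynomial (TOR.SubPrime N p good) ℤ →+* O :=
    (Int.castRingHom O).comp
      (MvPolynomial.aeval fun x : TOR.SubPrime N p good => W.apOfModel (x.1.1 : ℕ)).toRingHom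
  show f P = g P
  rw [show f = MvPolynomial.eval₂Hom (Int.castRingHom O) (fun x => π (t x)) from
      MvPolynomial.ringHom_ext (fun n => by simp [f]) (fun x => by simp [f]),
    show g = MvPolynomial.eval₂Hom (Int.castRingHom O) (fun x => (W.apOfModel (x.1.1 : ℕ) : O)) from
      MvPolynomial.ringHom_ext (fun n => by simp [g]) (fun x => by simp [g])]
  exact MvPolynomial.eval₂Hom_congr' rfl (fun x hx _ => h x hx) rfl

variable {A : Type} [CommRing A] [IsDomain A] [IsDiscreteValuationRing A]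
  [IsAdicComplete (maximalIdeal A) A] [CharZero A] {M p : ℕ} [NeZero M]

/-- the operators of good primes outside `M` -/
def goodOp {r N : ℕ} {good : ℕ → Prop} {c : TOR.SubPrime N p good → Prop}
    (hc : ∀ x, c x → ¬ (x.1.1 : ℕ) ∣ M) (D : TWData M p r) (s : Sys M A)
    (j : {x : TOR.SubPrime N p good // c x}) : Module.End A (D.Mod s) :=
  D.tOp s j.1.1.1.2 (hc j.1 j.2)

variable [Finite (ResidueField A)]

/-- a killer of level `N` kills `N ∏ Q` -/
theorem goodLift_eq_zero (s : Sys M A) (S : Finset ℕ) (hpA : (p : A) ∈ maximalIdeal A)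
    (hp : p.Prime) [NeZero p] (h6 : s.Elliptic) (hsq : Squarefree M) (hpS : p ∈ S)
    (hMS : ∀ q : ℕ, q.Prime → q ∣ M → q ∈ S)
    (hS : ∀ l : ℕ, l.Prime → (l ∉ S ↔ ¬ l ∣ M ∧ l ∉ s.bad)) (hl0 : s.l0 ∉ S)
    (rres : GalQ →* GL (Fin 2) (ResidueField A))
    (hlev : Deform.FinLevel fun σ => (rres σ : Matrix (Fin 2) (Fin 2) (ResidueField A)))
    (hfrob : ∀ l : ℕ, l.Prime → l ∉ S → ∀ P : ValuationSubring (AlgebraicClosure ℚ),
      P.LiesOverPrime l → ∀ σ : GalQ, P.IsFrobeniusAt σ l →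
        (rres σ : Matrix (Fin 2) (Fin 2) (ResidueField A)).trace = residue A (s.eig l) ∧
        (rres σ : Matrix (Fin 2) (Fin 2) (ResidueField A)).det = (l : ResidueField A))
    (σ₀ : GalQ) {α β : ResidueField A} (hαβ : α ≠ β)
    (hσ₀ : (rres σ₀ : Matrix (Fin 2) (Fin 2) (ResidueField A)).charpoly =
      (Polynomial.X - Polynomial.C α) * (Polynomial.X - Polynomial.C β))
    (hirr : ∀ v : Fin 2 → ResidueField A, v ≠ 0 → ∃ σ, ∀ a : ResidueField A,
      (rres σ : Matrix (Fin 2) (Fin 2) (ResidueField A)).mulVec v ≠ a • v)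
    {N : ℕ} [NeZero N] (good : ℕ → Prop) {c : TOR.SubPrime N p good → Prop}
    (hc : ∀ x, c x → ¬ (x.1.1 : ℕ) ∣ M)
    (P' : MvPolynomial {x : TOR.SubPrime N p good // c x} ℤ)
    (hP : TOR.evalSub good N (dvd_mul_right N p) (MvPolynomial.rename Subtype.val P') = 0)
    (F : FreeAlgebra A {x : TOR.SubPrime N p good // c x})
    (hF : ∀ (E : Type) [Ring E] [Algebra A E] (C : Type) [CommRing C]
      (ψ : C →+* E) (t : {x : TOR.SubPrime N p good // c x} → C),
      FreeAlgebra.lift A (fun i => ψ (t i)) F = ψ (MvPolynomial.aeval t P')) :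
    ∀ {t : ℕ} (Q : Fin t → ℕ), (∀ i, (Q i).Prime) → (∀ i, (Q i : ZMod p) = 1) →
      (∀ i, ∀ P : ValuationSubring (AlgebraicClosure ℚ), P.LiesOverPrime (Q i) →
        ∀ σ : GalQ, P.IsFrobeniusAt σ (Q i) →
          (rres σ : Matrix (Fin 2) (Fin 2) (ResidueField A)).trace ^ 2 ≠ 4) →
      ∀ (D : TWData M p 0), D.N0 = N * ∏ i, Q i →
        ∀ x : D.Mod s, FreeAlgebra.lift A (goodOp hc D s) F x = 0 := by
  classical
  intro t
  induction t with
  | zero =>
    intro Q _ _ _ D hD x
    rw [Finset.univ_eq_empty, Finset.prod_empty, mul_one] at hD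
    have hL : N = D.N0 * D.R ^ 2 := by rw [hD]; simp [TWData.R]
    obtain ⟨LD⟩ := JTors.exists_latticeData N
    refine D.twist_injective s h6 hL _ fun d => ?_
    rw [lift_intertwine (f := goodOp hc D s) (g := fun j : {x : TOR.SubPrime N p good // c x} =>
        actA LD A (CuspForm.heckeAlgebra.T j.1.1.1.2
          (fun h => j.1.1.2.1 (h.trans (dvd_mul_right N p))) (Set.notMem_empty _)))
      (D.twist s h6 hL d) (fun j y => by
        rw [actA_T]
        exact D.twist_tOp s h6 hL LD j.1.1.1.2 (hc j.1 j.2) d y) F x, hF _ _ (actA LD A)]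
    have e : MvPolynomial.aeval
        (fun j : {x : TOR.SubPrime N p good // c x} =>
          (CuspForm.heckeAlgebra.T j.1.1.1.2 (fun h => j.1.1.2.1 (h.trans (dvd_mul_right N p)))
            (Set.notMem_empty _) : TFull N)) P' = 0 := by
      rw [← hP]
      show (MvPolynomial.aeval _).toRingHom P' = ((TOR.evalSub good N (dvd_mul_right N p)).comp
        (MvPolynomial.rename Subtype.val).toRingHom) P'
      refine RingHom.congr_fun (MvPolynomial.ringHom_ext (fun n => by simp) fun j => ?_) P'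
      simp [TOR.evalSub_X]
    rw [e, _root_.map_zero, LinearMap.zero_apply]
  | succ t ih =>
    intro Q hQ hQp hQd D hD x
    set N' := N * ∏ i : Fin t, Q i.castSucc with hN'
    set r := Q (Fin.last t) with hr
    have e : D.N0 = N' * r := by rw [hD, Fin.prod_univ_castSucc, hN', hr, mul_assoc]
    haveI : NeZero N' := ⟨mul_ne_zero (NeZero.ne N)
      (Finset.prod_ne_zero_iff.2 fun i _ => (hQ _).ne_zero)⟩
    haveI : NeZero r := ⟨(hQ _).ne_zero⟩
    haveI : NeZero (N' * r) := ⟨mul_ne_zero (NeZero.ne N') (NeZero.ne r)⟩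
    have hNM : N' * r ∣ M := e ▸ D.dvd0
    have hrN : ¬ r ∣ N' := fun h =>
      (hQ (Fin.last t)).ne_one (Nat.isUnit_iff.1 (hsq r ((mul_dvd_mul_right h r).trans hNM)))
    have hdiv : D.N0 / r = N' := by rw [e, Nat.mul_div_left _ (hQ _).pos]
    have O : OldPrime D r := ⟨hQ _, e ▸ dvd_mul_left r N', by rw [hdiv]; exact hrN⟩
    have hlow := ih (fun i => Q i.castSucc) (fun i => hQ _) (fun i => hQp _) (fun i => hQd _)
      (D.lower r O.dvd) hdiv
    haveI := fun i => Fact.mk (D.prime i)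
    haveI : ∀ i, Fact ((D.lower r O.dvd).Q i).Prime := fun i => ⟨D.prime i⟩
    set z := FreeAlgebra.lift A (goodOp hc D s) F x with hz
    have h1 : O.push1 s z = 0 := by
      rw [hz, lift_intertwine (f := goodOp hc D s) (g := goodOp hc (D.lower r O.dvd) s) (O.push1 s)
        (fun j y => O.push1_tOp s j.1.1.1.2 (hc j.1 j.2) y) F x, hlow]
    have h2 : O.push2 s z = 0 := by
      rw [hz, lift_intertwine (f := goodOp hc D s) (g := goodOp hc (D.lower r O.dvd) s) (O.push2 s)
        (fun j y => O.push2_tOp s j.1.1.1.2 (hc j.1 j.2) y) F x, hlow]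
    have h1' : O.pushH z.1 = 0 := congrArg Subtype.val h1
    have h2' : map ((D.lower r O.dvd).isTwist_twMap (A := A)) (O.pushH' z.1) = 0 := by
      have h3 : O.pushH (O.modShift s z).1 = 0 := congrArg Subtype.val h2
      show map ((D.lower r O.dvd).isTwist_twMap (A := A))
        (map (isTwist_funPush (A := A) O.pushX O.pushX_smul) (O.onX.shift z.1)) = 0
      rw [← O.map_pushP_tw, O.map_shift_tw, ← O.map_tw_modShift, O.map_pushP_tw]
      show map ((D.lower r O.dvd).isTwist_twMap (A := A)) (O.pushH (O.modShift s z).1) = 0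
      rw [h3, _root_.map_zero]
    have hL : N' * r = D.N0 * D.R ^ 2 := by rw [e]; simp [TWData.R]
    obtain ⟨LD⟩ := JTors.exists_latticeData (N' * r)
    refine D.twist_injective s h6 hL _ fun d => ?_
    refine Chain.eq_zero_of_sumsZero s S hpA hp hpS hMS hS hl0 rres hlev hfrob σ₀ hαβ hσ₀ hirr
      (hQ _) (hQp _) hrN hNM (hQd _) LD _ (D.twist_mem_lamPart s hpA h6 hL LD d z) ?_
    rw [D.lamCast_twist]
    have h4 := O.sumsZero_of_push_tw hL d h1' h2'
    rwa [Nat.mul_div_left _ (hQ (Fin.last t)).pos] at h4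

/-- the level without diamonds as data without auxiliary primes -/
def bareY {r : ℕ} (D : TWData M p r) : TWData M p 0 where
  N0 := D.N0 * D.R
  dvd0 := D.N0R_dvd
  Q := Fin.elim0
  prime i := i.elim0
  inj i := i.elim0
  dvd i := i.elim0
  ndvd i := i.elim0
  H i := i.elim0
  prime_p := D.prime_p
  p_ne_two := D.p_ne_two
  index i := i.elim0

/-- the coinvariants as a module of that data, compatibly with the operators -/
theorem exists_toBareY {r : ℕ} (D : TWData M p r) (s : Sys M A) :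
    ∃ Φ : D.Mod s →ₗ[A] (bareY D).Mod s, (∀ x, Φ x = 0 → D.toY s x = 0) ∧
      ∀ (l : ℕ) (hl : l.Prime) (hlM : ¬ l ∣ M) (x : D.Mod s),
        Φ (D.tOp s hl hlM x) = (bareY D).tOp s hl hlM (Φ x) := by
  obtain ⟨φ, hφ⟩ := D.exists_equiv_Y'
  let e : (bareY D).X → D.Y := fun x => φ x.1
  have he : ∀ (g : GL (Fin 2) (ZMod M)) x, e (g • x) = g • e x := fun g x => hφ g x.1
  have hes : Function.Surjective e := fun y =>
    ⟨(φ.symm y, fun i => i.elim0), φ.apply_symm_apply y⟩
  let Φ : D.Mod s →ₗ[A] (bareY D).Mod s :=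
    (map (isTwist_funPull (A := A) e he)).restrict
      (fun _ hx => s.map_mem_E _ (fun _ => by simp) hx) ∘ₗ D.toY s
  refine ⟨Φ, fun x hx => Subtype.ext (s.eq_zero_of_map_eq_zero (isTwist_funPull (A := A) e he)
    (LinearMap.funLeft_injective_of_surjective A A _ hes) (D.toY s x).2
    (congrArg Subtype.val hx)), fun l hl hlM x => ?_⟩
  have hd : (bareY D).w (ZMod.unitOfCoprime l ((hl.coprime_iff_not_dvd).mpr hlM)) = 1 :=
    funext fun i => i.elim0
  refine Subtype.ext ?_
  show map (isTwist_funPull (A := A) e he)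
      (D.toY s (D.dia s _ (D.opT s hl hlM x))).1 =
    ((bareY D).dia s _ ((bareY D).opT s hl hlM (Φ x))).1
  rw [D.toY_dia, hd, (bareY D).dia_one, Module.End.one_apply]
  show map (isTwist_funPull (A := A) e he) (map (D.isTwist_projXY (A := A))
      (T (funRep A D.X (M := M)) hl hlM x.1)) =
    T (funRep A (bareY D).X (M := M)) hl hlM (map (isTwist_funPull (A := A) e he)
      (map (D.isTwist_projXY (A := A)) x.1))
  rw [map_T_one, map_T_one]

/-- a killer of level `D.N0` sends the level with auxiliary primes to what vanishes in the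
coinvariants -/
theorem toY_killer {r : ℕ} (D : TWData M p r) (s : Sys M A) (S : Finset ℕ)
    (hpA : (p : A) ∈ maximalIdeal A) [NeZero p] (h6 : s.Elliptic) (hsq : Squarefree M) (hpS : p ∈ S)
    (hMS : ∀ q : ℕ, q.Prime → q ∣ M → q ∈ S)
    (hS : ∀ l : ℕ, l.Prime → (l ∉ S ↔ ¬ l ∣ M ∧ l ∉ s.bad)) (hl0 : s.l0 ∉ S)
    (rres : GalQ →* GL (Fin 2) (ResidueField A))
    (hlev : Deform.FinLevel fun σ => (rres σ : Matrix (Fin 2) (Fin 2) (ResidueField A)))
    (hfrob : ∀ l : ℕ, l.Prime → l ∉ S → ∀ P : ValuationSubring (AlgebraicClosure ℚ),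
      P.LiesOverPrime l → ∀ σ : GalQ, P.IsFrobeniusAt σ l →
        (rres σ : Matrix (Fin 2) (Fin 2) (ResidueField A)).trace = residue A (s.eig l) ∧
        (rres σ : Matrix (Fin 2) (Fin 2) (ResidueField A)).det = (l : ResidueField A))
    (σ₀ : GalQ) {α β : ResidueField A} (hαβ : α ≠ β)
    (hσ₀ : (rres σ₀ : Matrix (Fin 2) (Fin 2) (ResidueField A)).charpoly =
      (Polynomial.X - Polynomial.C α) * (Polynomial.X - Polynomial.C β))
    (hirr : ∀ v : Fin 2 → ResidueField A, v ≠ 0 → ∃ σ, ∀ a : ResidueField A,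
      (rres σ : Matrix (Fin 2) (Fin 2) (ResidueField A)).mulVec v ≠ a • v)
    (hQp : ∀ i, (D.Q i : ZMod p) = 1)
    (hQd : ∀ i, ∀ P : ValuationSubring (AlgebraicClosure ℚ), P.LiesOverPrime (D.Q i) →
      ∀ σ : GalQ, P.IsFrobeniusAt σ (D.Q i) →
        (rres σ : Matrix (Fin 2) (Fin 2) (ResidueField A)).trace ^ 2 ≠ 4)
    {N : ℕ} [NeZero N] (hN : D.N0 = N) {good : ℕ → Prop}
    (P : MvPolynomial (TOR.SubPrime N p good) ℤ)
    (hP : TOR.evalSub good N (dvd_mul_right N p) P = 0)
    (hvar : ∀ x ∈ P.vars, ¬ (x.1.1 : ℕ) ∣ M)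
    {R : Type} [CommRing R] [Algebra A R] (act : R →ₐ[A] Module.End A (D.Mod s))
    (t : TOR.SubPrime N p good → R)
    (ht : ∀ x ∈ P.vars, ∀ hlM : ¬ (x.1.1 : ℕ) ∣ M, act (t x) = D.tOp s x.1.1.2 hlM)
    (y : D.Mod s) : D.toY s (act (MvPolynomial.aeval t P) y) = 0 := by
  classical
  obtain ⟨P', hP'⟩ := MvPolynomial.exists_rename_eq_of_vars_subset_range P
    (Subtype.val : {x : TOR.SubPrime N p good // x ∈ P.vars} → TOR.SubPrime N p good)
    Subtype.val_injective fun x hx => ⟨⟨x, hx⟩, rfl⟩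
  obtain ⟨F, hF⟩ := exists_freeLift A P'
  obtain ⟨Φ, hker, hΦ⟩ := exists_toBareY D s
  have hD0 : (bareY D).N0 = N * ∏ i, D.Q i := by rw [← hN]; rfl
  have hzero := goodLift_eq_zero s S hpA D.prime_p h6 hsq hpS hMS hS hl0 rres hlev hfrob σ₀ hαβ hσ₀
    hirr good hvar P' (by rw [hP']; exact hP) F hF D.Q D.prime hQp hQd (bareY D) hD0
  have e : act (MvPolynomial.aeval t P) = FreeAlgebra.lift A
      (fun j : {x : TOR.SubPrime N p good // x ∈ P.vars} => act.toRingHom (t j.1)) F := by
    refine Eq.trans ?_ (hF (Module.End A (D.Mod s)) R act.toRingHom fun j => t j.1).symm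
    refine congrArg act ?_
    conv_lhs => rw [← hP', MvPolynomial.aeval_rename]
    rfl
  refine hker _ ?_
  rw [e, lift_intertwine (g := goodOp hvar (bareY D) s) Φ (fun j z => ?_) F y]
  · exact hzero _
  · change Φ (act (t j.1) z) = _
    rw [ht j.1 j.2 (hvar j.1 j.2)]
    exact hΦ _ j.1.1.1.2 (hvar j.1 j.2) z

/-- the same for the data of one depth: `Dl` any level of the supply with the auxiliary primes of
the supply whose `N0` is killed by `P` -/
theorem LevelSupply.toY_killer {W : WeierstrassCurve ℤ} [Fact p.Prime]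
    [Algebra (ZMod p) (ResidueField A)] {ρbar : ResidualGaloisRep (ResidueField A)}
    {rr : GalQ →* GL (Fin 2) (ResidueField A)} {k : ℕ} {Wq : Fin k → Nat.Primes} {N0 e : ℕ}
    {avoid : Finset ℕ} {s bound n : ℕ} [NeZero p] (hres : SemiResidual W p ρbar rr)
    (hpA : (p : A) ∈ maximalIdeal A) (L : LevelSupply W p ρbar rr Wq N0 e avoid s bound n)
    {Dl : TWData L.M p s} (hQ : Dl.Q = fun i => (L.Q i : ℕ)) {N : ℕ} [NeZero N] (hN : Dl.N0 = N)
    {good : ℕ → Prop} (P : MvPolynomial (TOR.SubPrime N p good) ℤ)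
    (hP : TOR.evalSub good N (dvd_mul_right N p) P = 0)
    (V : WorldRep Dl L.sys L.S rr) (v : TOR.SubPrime N p good → V.T)
    (hv : ∀ x ∈ P.vars, ∃ h : ¬ (x.1.1 : ℕ) ∣ L.M, V.φ (v x) = Dl.tOp L.sys x.1.1.2 h)
    (y : Dl.Mod L.sys) : Dl.toY L.sys (V.φ (MvPolynomial.aeval v P) y) = 0 := by
  classical
  obtain ⟨F₀, hF₀, hr⟩ := hres.setting.level
  have hlev : Deform.FinLevel fun σ => (rr σ : Matrix (Fin 2) (Fin 2) (ResidueField A)) :=
    ⟨F₀, hF₀, fun σ hσ => congrArg Units.val (hr σ fun x => hσ x x.2)⟩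
  obtain ⟨σ₀, α, β, hαβ, hσ₀⟩ := hres.exists_split
  exact FLTAgent.MLT.toY_killer Dl L.sys L.S hpA L.elliptic L.sq L.pS L.MS L.S_iff L.l0_S rr hlev
    L.frobS σ₀ hαβ hσ₀ (fun u hu => hres.no_line hu)
    (fun i => by
      rw [hQ, ← Nat.cast_one, ZMod.natCast_eq_natCast_iff]
      exact ((Nat.modEq_iff_dvd' (L.Q i).2.one_lt.le).2
        ((dvd_pow_self p n.succ_ne_zero).trans (L.Q_dvd i))).symm)
    (fun i => by rw [hQ]; exact L.Q_trace i)
    hN P hP (fun x hx => (hv x hx).1) V.φ v (fun x hx _ => (hv x hx).2) y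

end FLTAgent.MLT

end
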