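import Fermat.Agent.MLT.Mk.Matrices
import Fermat.Agent.MLT.Mk.Frames
import Fermat.Agent.LL.CharTW

/-!
Area MLT, parcel LEVELMK: a patching level of a chain from the data of one choice of auxiliary primes.
-/

set_option autoImplicit false
set_option linter.style.haveILetI false
set_option linter.unusedSectionVars false
set_option maxHeartbeats 1000000

noncomputable section

open IsLocalRing Matrix FLTAgent.LL FLTAgent.PT FLTAgent.PT.TW

namespace FLTAgent.MLT

variable {p : ℕ} [Fact p.Prime] {O : Type} [CommRing O] [IsDomain O] [IsDiscreteValuationRing O]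
  [IsAdicComplete (maximalIdeal O) O] [Finite (ResidueField O)]
  [Algebra (ZMod p) (ResidueField O)] {ρbar : ResidualGaloisRep (ResidueField O)}
  {r : GQ →* GL (Fin 2) (ResidueField O)} {Smin : Finset ℕ} {k : ℕ} {W : Fin k → Nat.Primes}
  {frob tame : Fin k → GQ} {w : Fin k → O}

/-- a level of the chain -/
theorem levelTower_of_patchTower (h : Setting p ρbar r) (hpSmin : p ∈ Smin)
    (hmin : ∀ q : ℕ, q.Prime → q ≠ p → (q ∈ Smin ↔ ¬ ρbar.IsUnramifiedAt q))
    (hWmin : ∀ i, (W i : ℕ) ∉ Smin) (hpl : CondPlaces p r W frob tame) {F : Fin k → FPlace O}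
    {U : Fin k → Matrix (Fin 2) (Fin 2) O} (hF : IsFraming r W frob w F U)
    {s : ℕ} {d : Fin (k + 1) → ℕ} (hd : ∀ j, 0 < d j) {v : O} {n : ℕ}
    (P : PatchTower p ρbar r Smin W frob tame w s d v n) :
    Nonempty (LevelTower F (s + (k - 1)) d v n) := by
  classical
  set C := P.core
  haveI := C.hausdorff
  have hp : (p : O) ∈ maximalIdeal O := by
    rw [← residue_eq_zero_iff, map_natCast,
      ← map_natCast (algebraMap (ZMod p) (ResidueField O)), ZMod.natCast_self, map_zero]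
  have htame : ∀ i, (C.cd.R₀ (tame i)).trace = 2 := C.tame_trace
  obtain ⟨e, he⟩ : ∃ e : Fin 2 × Fin 2, ∀ i : Fin k, (i : ℕ) = 0 → IsUnit (U i e.1 e.2) := by
    cases k with
    | zero => exact ⟨0, fun i => i.elim0⟩
    | succ m =>
      by_contra hc
      push Not at hc
      refine hF.unit 0 ?_
      have h0 : (U 0).map (residue O) = 0 := Matrix.ext fun a b => by
        obtain ⟨i, hi, hu⟩ := hc (a, b)
        obtain rfl : i = 0 := Fin.ext hi
        rw [Matrix.map_apply, Matrix.zero_apply, residue_eq_zero_iff, mem_maximalIdeal]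
        exact hu
      rw [h0, Matrix.det_zero]
  -- the parameter ring
  set g := s + (k - 1) with hg
  let R := WRing O k g n
  let mkR : SR O (3 * k + g) →+* R := Ideal.Quotient.mk _
  haveI : Finite R := by
    haveI : Finite (SR O (3 * k + g) ⧸ maximalIdeal (SR O (3 * k + g))) :=
      inferInstanceAs (Finite (ResidueField (SR O (3 * k + g))))
    exact Ideal.finite_quotient_pow (IsNoetherian.noetherian _) _
  haveI : Nontrivial R := Ideal.Quotient.nontrivial_iff.mpr fun e' =>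
    (maximalIdeal.isMaximal (SR O (3 * k + g))).ne_top
      (top_le_iff.mp (e' ▸ Ideal.pow_le_self (Nat.succ_ne_zero n)))
  haveI : IsLocalRing R := IsLocalRing.of_surjective' mkR Ideal.Quotient.mk_surjective
  haveI : IsLocalHom mkR := IsLocalHom.of_surjective _ Ideal.Quotient.mk_surjective
  have hXn : ∀ i, IsNilpotent (mkR (MvPowerSeries.X i)) := fun i =>
    ⟨n + 1, by
      rw [← map_pow]
      exact Ideal.Quotient.eq_zero_iff_mem.mpr
        (Ideal.pow_mem_pow (LL.X_mem_maximalIdeal i) _)⟩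
  have hres : Function.Surjective (residue R ∘ algebraMap O R) := by
    intro y
    obtain ⟨b, rfl⟩ := residue_surjective y
    obtain ⟨f, rfl⟩ := Ideal.Quotient.mk_surjective b
    refine ⟨MvPowerSeries.constantCoeff f, ?_⟩
    rw [Function.comp_apply, ← sub_eq_zero, ← map_sub, residue_eq_zero_iff]
    show mkR (MvPowerSeries.C (MvPowerSeries.constantCoeff f)) - mkR f ∈ maximalIdeal R
    rw [← map_sub]
    refine map_nonunit mkR _ ?_
    rw [mem_maximalIdeal, mem_nonunits_iff, MvPowerSeries.isUnit_iff_constantCoeff]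
    simp
  let eq : FrVar k e ⊕ Fin s ≃ Fin (3 * k + g) := Fintype.equivOfCardEq (by
    rw [Fintype.card_sum, card_frVar, Fintype.card_fin, Fintype.card_fin, hg]
    omega)
  let X0 : Fin (3 * k + g) → R := fun i => mkR (MvPowerSeries.X i)
  -- the character
  obtain ⟨χ, hχX⟩ := C.lift R (fun i => 1 + X0 (eq (Sum.inr i))) fun i =>
    CharTW.one_add_pow_eq_one O hp (Nat.le_succ n) _
  let J : Ideal R := (Ideal.span (Set.range fun i : Fin (3 * k + g) =>
    (MvPowerSeries.X i : SR O (3 * k + g)))).map mkR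
  have hJ : ∀ u, χ u - 1 ∈ J := by
    have h1 : (Ideal.Quotient.mk J).toMonoidHom.comp χ = 1 :=
      MonoidHom.eq_of_eqOn_dense C.closure (by
        rintro _ ⟨i, rfl⟩
        show Ideal.Quotient.mk J (χ (C.gens i)) = 1
        rw [hχX, map_add, map_one, add_eq_left, Ideal.Quotient.eq_zero_iff_mem]
        exact Ideal.mem_map_of_mem _ (Ideal.subset_span ⟨_, rfl⟩))
    intro u
    rw [← Ideal.Quotient.eq_zero_iff_mem, map_sub, map_one, sub_eq_zero]
    exact DFunLike.congr_fun h1 u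
  have hχ : ∀ u, χ u - 1 ∈ maximalIdeal R := fun u => by
    refine (?_ : J ≤ maximalIdeal R) (hJ u)
    rw [Ideal.map_le_iff_le_comap, Ideal.span_le]
    rintro _ ⟨i, rfl⟩
    exact map_nonunit mkR _ (LL.X_mem_maximalIdeal i)
  -- the algebra
  haveI : Finite (O ⧸ maximalIdeal O ^ (n + 1)) := by
    haveI : Finite (O ⧸ maximalIdeal O) := inferInstanceAs (Finite (ResidueField O))
    exact Ideal.finite_quotient_pow (IsNoetherian.noetherian _) _
  haveI : Nontrivial (O ⧸ maximalIdeal O ^ (n + 1)) := Ideal.Quotient.nontrivial_iff.mpr fun e' =>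
    (maximalIdeal.isMaximal O).ne_top
      (top_le_iff.mp (e' ▸ Ideal.pow_le_self (Nat.succ_ne_zero n)))
  let 𝔄 := (∀ j, Matrix (Fin (d j)) (Fin (d j)) R) × (O ⧸ maximalIdeal O ^ (n + 1))
  haveI : ∀ j, Finite (Matrix (Fin (d j)) (Fin (d j)) R) := fun j => Pi.finite
  haveI : Nontrivial 𝔄 := ⟨⟨(0, 0), (0, 1), fun e' => zero_ne_one (congrArg Prod.snd e')⟩⟩
  let Ψ : C.D.R →ₐ[O] 𝔄 := (AlgHom.pi fun j => (C.lev j).mat χ).prod
    ((Ideal.Quotient.mkₐ O _).comp C.pt)
  let z : FrVar k e → 𝔄 := fun c =>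
    ((fun j => Matrix.scalar (Fin (d j)) (X0 (eq (Sum.inl c)))), 0)
  obtain ⟨𝔉⟩ := nonempty_framedAlg hpl hF he C.cd Ψ z
    (fun c c' => Prod.ext (funext fun j => Matrix.scalar_commute _ (fun _ => Commute.all _ _) _)
      (Commute.all _ _))
    (fun c x => Prod.ext (funext fun j => Matrix.scalar_commute _ (fun _ => Commute.all _ _) _)
      (Commute.all _ _))
    (fun c => by
      obtain ⟨l, hl⟩ := hXn (eq (Sum.inl c))
      refine ⟨l + 1, Prod.ext (funext fun j => ?_) ?_⟩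
      · show Matrix.scalar (Fin (d j)) (X0 (eq (Sum.inl c))) ^ (l + 1) = 0
        exact (map_pow _ _ _).symm.trans
          ((congrArg _ (pow_eq_zero_of_le (Nat.le_succ l) hl)).trans (map_zero _))
      · exact zero_pow (Nat.succ_ne_zero l))
  -- the lift with one condition at `p`
  haveI : IsLocalRing 𝔉.ι.range := IsLocalRing.of_surjective'
    (𝔉.ι.rangeRestrict : C.D.R →+* 𝔉.ι.range) 𝔉.ι.rangeRestrict_surjective
  have hloc : IsLocalHom (𝔉.ι.rangeRestrict : C.D.R →+* 𝔉.ι.range) :=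
    IsLocalHom.of_surjective _ 𝔉.ι.rangeRestrict_surjective
  let ρ' := C.D.ρ.baseChangeAlong (𝔉.ι.rangeRestrict : C.D.R →+* 𝔉.ι.range) hloc
  have hρ' : Deform.RepMat ρ'.ρ fun σ => (C.cd.R₀ σ).map 𝔉.ι.rangeRestrict :=
    Deform.repMat_baseChangeAlong _ hloc C.cd.rep
  have hj : 𝔉.ι.range.val.comp 𝔉.ι.rangeRestrict = 𝔉.ι := AlgHom.ext fun _ => rfl
  have hker : C.effIdeal ≤ RingHom.ker 𝔉.ι.rangeRestrict := fun x hx => by
    obtain ⟨hl, hpt⟩ := Submodule.mem_inf.1 hx
    have hΨ : Ψ x = 0 := Prod.ext (funext fun j => (C.lev j).mat_eq_zero χ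
        (RingHom.mem_ker.1 ((Submodule.mem_iInf _).1 hl j))) (by
      show Ideal.Quotient.mk _ (C.pt x) = 0
      rw [RingHom.mem_ker.1 hpt, map_zero])
    have h0 : 𝔉.ι x = 0 := 𝔉.val_injective (by rw [𝔉.val_ι, hΨ, map_zero])
    rw [RingHom.mem_ker]
    exact Subtype.ext h0
  obtain ⟨Lp, hLp, htan⟩ : ∃ Lp : Submodule (ZMod p) (lH1 (ExtCitation.pPrime p) (ad0 p r)),
      Module.finrank (ZMod p) Lp ≤
          Module.finrank (ZMod p) (lH0 (ExtCitation.pPrime p) (ad0 p r)) +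
            1 * Module.finrank (ZMod p) (ResidueField O) ∧ TanAt p C.cd 𝔉.ι Lp := by
    rcases P.atp with hf | hs
    · exact ⟨_, finrank_flatClasses_le h, tanAt_flat _ 𝔉.ι.rangeRestrict_surjective _ hj ρ' hρ'
        (hf _ _ 𝔉.ι.rangeRestrict_surjective hker ρ' hρ')⟩
    · obtain ⟨Ls, h1, -, h3⟩ := exists_tanAt_strict _ 𝔉.ι.rangeRestrict_surjective _ hj ρ' hρ' h
        (fun _ => rfl) C.det (hs _ _ 𝔉.ι.rangeRestrict_surjective hker ρ' hρ')
      exact ⟨Ls, h1, h3⟩
  obtain ⟨γ, hγ, hγx⟩ := 𝔉.exists_series h hpSmin hmin hWmin hpl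
    ⟨C.det, C.unip, C.unr, traces_of_adjoin C.gen, htan⟩ (C.bound Lp 1 s hLp rfl)
  -- the matrices and the point
  let ev : ∀ j, 𝔄 →ₐ[O] Matrix (Fin (d j)) (Fin (d j)) R := fun j =>
    (Pi.evalAlgHom O (fun j => Matrix (Fin (d j)) (Fin (d j)) R) j).comp (AlgHom.fst O _ _)
  let π : ∀ j, 𝔉.B →ₐ[O] Matrix (Fin (d j)) (Fin (d j)) R := fun j => (ev j).comp 𝔉.val
  let πO : 𝔉.B →ₐ[O] O ⧸ maximalIdeal O ^ (n + 1) := (AlgHom.snd O _ _).comp 𝔉.val
  have hπι : ∀ j x, π j (𝔉.ι x) = (C.lev j).mat χ x := fun j x => by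
    show ev j (𝔉.val (𝔉.ι x)) = _
    rw [𝔉.val_ι]
    rfl
  have hπOι : ∀ x, πO (𝔉.ι x) = Ideal.Quotient.mk _ (C.pt x) := fun x => by
    show (AlgHom.snd O _ _) (𝔉.val (𝔉.ι x)) = _
    rw [𝔉.val_ι]
    rfl
  have hgen : ∀ i, ∃ b : 𝔉.B,
      (∀ j, π j b = Matrix.scalar (Fin (d j)) (X0 i)) ∧ πO b = 0 := by
    intro i
    obtain ⟨c | t, rfl⟩ := eq.surjective i
    · obtain ⟨b, hb⟩ := 𝔉.exists_val_eq_z c
      refine ⟨b, fun j => ?_, ?_⟩
      · show ev j (𝔉.val b) = _
        rw [hb]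
        rfl
      · show (AlgHom.snd O _ _) (𝔉.val b) = _
        rw [hb]
        rfl
    · refine ⟨𝔉.ι (C.f (C.gens t) - 1), fun j => ?_, ?_⟩
      · rw [hπι, map_sub, map_one, DiaMod.mat_f, hχX, ← map_one (Matrix.scalar (Fin (d j))),
          ← map_sub, add_sub_cancel_left]
      · rw [hπOι, map_sub C.pt, C.pt_f, map_one, sub_self, map_zero]
  choose bg hbg hbgO using hgen
  choose fg hfg using fun i => hγ (bg i)
  choose u hu using fun a => Ideal.Quotient.mk_surjective (I := maximalIdeal O ^ (n + 1))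
    (πO (γ (MvPowerSeries.X a)))
  have hevU : ∀ f, Ideal.Quotient.mk (maximalIdeal O ^ (n + 1)) (evU n u f) = πO (γ f) :=
    mk_evU hγ πO u hu
  have hdeg : ∀ i : Fin k, ∃ G : Degen R (d i.castSucc) (d i.succ),
      (∀ t, (C.lev i.succ).mat χ t * G.pull = G.pull * dbl ((C.lev i.castSucc).mat χ t)) ∧
      (∀ t, dbl ((C.lev i.castSucc).mat χ t) * G.push = G.push * (C.lev i.succ).mat χ t) ∧
      G.IsAdj ((C.lev i.castSucc).mat χ
          ((C.cd.R₀ (frob i)).trace ^ 2 - (1 + ((W i : ℕ) : C.D.R)) ^ 2))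
        (algebraMap O R (-(1 + ((W i : ℕ) : O)))) ∧
      ∀ t, (∀ y, (C.deg i).push y = 0 → (C.lev i.succ).act t y = 0) →
        (C.lev i.succ).mat χ t * (1 - G.sect * G.push) = 0 := fun i => by
    obtain ⟨G, h1, h2, h3, -, -, h6⟩ :=
      (C.deg i).exists_degen χ hres hχ ((C.lev i.castSucc).pr_act χ _)
    exact ⟨G, h1, h2, h3, h6⟩
  choose G hG1 hG2 hG3 hG4 using hdeg
  have hz2 : ∀ (a b : ℕ) (x : R) (M : Matrix (Fin a) (Fin 2 × Fin b) R),
      Matrix.scalar (Fin a) x * M = M * dbl (Matrix.scalar (Fin b) x) := fun a b x M => by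
    rw [dbl_scalar, Matrix.scalar_apply, Matrix.scalar_apply]
    ext i j
    rw [Matrix.diagonal_mul, Matrix.mul_diagonal, mul_comm]
  have hz3 : ∀ (a b : ℕ) (x : R) (M : Matrix (Fin 2 × Fin b) (Fin a) R),
      dbl (Matrix.scalar (Fin b) x) * M = M * Matrix.scalar (Fin a) x := fun a b x M => by
    rw [dbl_scalar, Matrix.scalar_apply, Matrix.scalar_apply]
    ext i j
    rw [Matrix.diagonal_mul, Matrix.mul_diagonal, mul_comm]
  exact ⟨{
    ψ := fun j => polyHom (π j) γ
    nilp := fun j a x y => polyHom_nilp (π j) hγ a x y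
    gen := fun j i => ⟨fg i, by rw [evT_eq (π j) hγ, hfg, hbg]⟩
    rel := fun j f hf => by
      rw [evT_eq (π j) hγ, 𝔉.map_fpRel hγx C.det hpl hF.q_eq htame f hf, map_zero]
    unr := fun j i hji f hf => by
      rw [evT_eq (π j) hγ]
      exact 𝔉.map_fpUnr hγx (ev j) i
        (fun a b => (C.lev j).mat_eq_zero χ (C.unr_lev j i hji a b)) f hf
    degen := G
    pull_comm := fun i f => 𝔉.intertwine ((dblAlg O R _).comp (ev i.castSucc)) (ev i.succ)
      (G i).pull (hG1 i) (fun c => hz2 _ _ _ _) (γ (f : MvPowerSeries (WVar k g) O))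
    push_comm := fun i f => 𝔉.intertwine (ev i.succ) ((dblAlg O R _).comp (ev i.castSucc))
      (G i).push (hG2 i) (fun c => hz3 _ _ _ _) (γ (f : MvPowerSeries (WVar k g) O))
    adj := fun i => by
      rw [evT_eq (π i.castSucc) hγ, 𝔉.map_fpQuart hγx, hπι, hF.q_eq]
      exact hG3 i
    new := fun i => by
      rw [evT_eq (π i.succ) hγ, 𝔉.map_fpQuart hγx, hπι, hF.q_eq]
      exact hG4 i _ (C.quartic i)
    pt :=
      { u := u
        u_mem := fun a => by
          obtain ⟨l, hl⟩ := (isNilpotent_map_X hγ a).map πO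
          rw [← hu a, ← map_pow, Ideal.Quotient.eq_zero_iff_mem] at hl
          exact (maximalIdeal.isMaximal O).isPrime.mem_of_pow_mem l
            (Ideal.pow_le_self (Nat.succ_ne_zero n) hl)
        u_rel := fun f hf => by
          rw [← Ideal.Quotient.eq_zero_iff_mem, hevU,
            𝔉.map_fpRel hγx C.det hpl hF.q_eq htame f hf, map_zero]
        u_st := fun i => by
          rw [← Ideal.Quotient.eq_zero_iff_mem, hevU, 𝔉.map_fpSt hγx, hπOι, map_sub C.pt,
            C.pt_sign, AlgHom.commutes, hF.w_eq, hF.q_eq, Algebra.algebraMap_self_apply, sub_self,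
            map_zero]
        u_gen := fun i => ⟨fg i, by rw [evT_eq (π _) hγ, hfg, hbg], by
          rw [← Ideal.Quotient.eq_zero_iff_mem, hevU, hfg, hbgO]⟩
        killer := by
          obtain ⟨f, hf⟩ := hγ (𝔉.ι P.κ)
          refine ⟨f, fun a b => ?_, ?_⟩
          · rw [evT_eq (π _) hγ, hf, hπι]
            exact (C.lev (Fin.last k)).mat_mem_of_act_mem_augPart χ J hJ P.κ_top a b
          · rw [← Ideal.Quotient.eq, hevU, hf, hπOι, P.pt_κ] } }⟩

end FLTAgent.MLT

end
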