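import Fermat.Agent.MLT.Mk.Supply
import Fermat.Agent.MLT.LevelSupport

/-!
Area MLT, parcel TOWERS (très ramifié): every level of the chain loses everything when `p` is removed,
once the auxiliary primes avoid a finite set: the level without `p` is not a level of residual
modularity.
-/

set_option autoImplicit false
set_option linter.style.haveILetI false
set_option linter.unusedSectionVars false

noncomputable section

open IsLocalRing Matrix Polynomial FLTAgent.LL FLTAgent.PT FLTAgent.PT.TW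

namespace FLTAgent.MLT

/-- a level that is not modular carries nothing, once the auxiliary primes avoid a finite set -/
theorem exists_absent_level {W : WeierstrassCurve ℤ} {p : ℕ} (hp : p.Prime) {N : ℕ} [NeZero N]
    (habs : ¬ W.IsResiduallyModularOfLevel p N) : ∃ F : Finset ℕ,
      (∀ l ∈ F, l.Prime ∧ W.IsGoodPrimeFor l ∧ l ≠ p) ∧
      ∀ (A : Type) [CommRing A] [IsDomain A] [IsDiscreteValuationRing A]
        [IsAdicComplete (maximalIdeal A) A] [Finite (ResidueField A)] [CharZero A]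
        (M : ℕ) [NeZero M] (l0 : ℕ) (hl0 : l0.Prime) (hM : (l0 : ZMod M) = 1),
        (p : A) ∈ maximalIdeal A → IsUnit (2 : A) → N ∣ M → (∀ l ∈ F, ¬ l ∣ M) →
          (LL.sysOf (A := A) W p l0 hl0 hM).E (funRep A (P1 M N) (M := M)) = ⊥ := by
  classical
  haveI : NeZero p := ⟨hp.ne_zero⟩
  rcases TOR.exists_killer_or_form (M := N) (p := p) W.apOfModel W.IsGoodPrimeFor hp with
    ⟨P, hP, hPa⟩ | hform
  swap
  · exact absurd hform habs
  refine ⟨P.vars.image fun x => (x.1.1 : ℕ), fun l hl => ?_, ?_⟩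
  · obtain ⟨x, -, rfl⟩ := Finset.mem_image.mp hl
    exact ⟨x.1.1.2, x.2, x.1.2.2⟩
  intro A _ _ _ _ _ _ M _ l0 hl0 hM hpA h2 hN hFM
  refine E_eq_bot_of_killer hp hpA h2 hN (LL.sysOf (A := A) W p l0 hl0 hM) W.apOfModel
    W.IsGoodPrimeFor P hP hPa fun x hx => ⟨hFM _ (Finset.mem_image_of_mem _ hx), ?_, rfl⟩
  simp only [LL.sysOf, Set.mem_setOf_eq, not_or, not_not]
  exact ⟨x.2, x.1.2.2⟩

/-- très ramifié: a finite set such that supplies avoiding it have nothing at `p`-free levels -/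
theorem exists_tresAvoid {W : WeierstrassCurve ℤ} (hΔ : W.Δ ≠ 0) (hW : W.IsSemistableModel) {p : ℕ}
    (hp35 : p = 3 ∨ p = 5) (hirr : W.ModRepIsIrreducible p) (ht : Tres W p) {k : ℕ}
    (Wq : Fin k → Nat.Primes) (hsq : Squarefree (chainLevel (minLevel W p) Wq k)) :
    ∃ F : Finset ℕ, ∀ [Fact p.Prime] {O : Type} [CommRing O] [IsDomain O] [IsDiscreteValuationRing O]
      [IsAdicComplete (maximalIdeal O) O] [Finite (ResidueField O)] [CharZero O]
      [Algebra (ZMod p) (ResidueField O)] {ρbar : ResidualGaloisRep (ResidueField O)}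
      {r : GQ →* GL (Fin 2) (ResidueField O)}, SemiResidual W p ρbar r →
      (p : O) ∈ maximalIdeal O → ∀ {e : ℕ} {avoid : Finset ℕ}, F ⊆ avoid →
      ∀ {s bound n : ℕ} (P : LevelSupply W p ρbar r Wq (minLevel W p) e avoid s bound n)
        (j : Fin (k + 1)), ∃ O' : OldPrime (P.level j) p,
          ((P.level j).lower p O'.dvd).Mod P.sys = ⊥ := by
  classical
  have hp : p.Prime := by rcases hp35 with rfl | rfl <;> norm_num
  set lev : Fin (k + 1) → ℕ := fun j => chainLevel (minLevel W p) Wq j / p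
  have hpd : ∀ j : Fin (k + 1), p ∣ chainLevel (minLevel W p) Wq j := fun j =>
    dvd_mul_of_dvd_left ((prime_dvd_minLevel hp hp).2 (Or.inl ⟨rfl, ht⟩)) _
  have hsqj : ∀ j : Fin (k + 1), Squarefree (chainLevel (minLevel W p) Wq j) := fun j =>
    hsq.squarefree_of_dvd (chainLevel_dvd _ Wq j)
  have hne : ∀ j, NeZero (lev j) := fun j => ⟨fun h => (hsqj j).ne_zero
    (by rw [← Nat.div_mul_cancel (hpd j), show chainLevel (minLevel W p) Wq j / p = 0 from h,
      zero_mul])⟩
  have hndvd : ∀ j : Fin (k + 1), ¬ p ∣ lev j := fun j h => hp.ne_one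
    (Nat.isUnit_iff.1 ((hsqj j) p (by
      rw [← Nat.div_mul_cancel (hpd j)]
      exact mul_dvd_mul_right h p)))
  choose F hFg hF using fun j => haveI := hne j; exists_absent_level (W := W) hp (N := lev j)
    fun hmod => hndvd j (tres_dvd_level hΔ hW hp35 hirr hmod ht)
  refine ⟨Finset.univ.biUnion F, fun {_} {O} _ _ _ _ _ _ _ {ρbar r} hres hpO {e avoid} hav {s bound n}
    P j => ?_⟩
  haveI := hne j
  let O' : OldPrime (P.level j) p := ⟨hp, hpd j, hndvd j⟩
  refine ⟨O', ((P.level j).lower p O'.dvd).Mod_eq_bot_of_rkY P.sys P.elliptic hpO ?_⟩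
  -- primes of `F j` do not divide the modulus
  have hM : ∀ l ∈ F j, ¬ l ∣ P.M := by
    intro l hl hd
    obtain ⟨hlP, hg, hlp⟩ := hFg j l hl
    rcases P.prime_dvd l hlP hd with (h | h) | ⟨i, hi⟩
    · exact h hg
    · exact hlp h
    · exact P.Q_avoid i (hav (Finset.mem_biUnion.2 ⟨j, Finset.mem_univ _, hi.symm ▸ hl⟩))
  have hNM : lev j * ∏ i, (P.Q i : ℕ) ∣ P.M := by
    rw [P.M_eq]
    exact mul_dvd_mul_right (((Nat.div_dvd_of_dvd (hpd j)).trans (chainLevel_dvd _ Wq j)).trans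
      (dvd_mul_right _ _)) _
  have h0 : Module.finrank O (P.sys.E (funRep O (P1 P.M (lev j)) (M := P.M))) = 0 := by
    rw [hF j O P.M P.l0 P.prime_l0 P.l0_one hpO P.elliptic.1
      ((dvd_mul_right _ _).trans hNM) hM, finrank_bot]
  haveI := hres.setting.charP
  obtain ⟨F₀, hF₀, hr⟩ := hres.setting.level
  have hlev' : Deform.FinLevel fun σ => (r σ : Matrix (Fin 2) (Fin 2) (ResidueField O)) :=
    ⟨F₀, hF₀, fun σ hσ => congrArg Units.val (hr σ fun x => hσ x x.2)⟩
  obtain ⟨σ₀, α, β, hαβ, hσ₀⟩ := hres.exists_split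
  have hQ1 : ∀ i, ((P.Q i : ℕ) : ZMod p) = 1 := fun i => by
    rw [← Nat.cast_one, ZMod.natCast_eq_natCast_iff]
    exact ((Nat.modEq_iff_dvd' (P.Q i).2.one_lt.le).2
      ((dvd_pow_self p n.succ_ne_zero).trans (P.Q_dvd i))).symm
  have hle := finrank_E_chain' P.sys P.S hpO hp P.elliptic P.sq P.pS P.MS P.S_iff P.l0_S r hlev'
    P.frobS σ₀ hαβ hσ₀ (fun v hv => hres.no_line hv) (fun i => (P.Q i : ℕ)) (fun i => (P.Q i).2)
    hQ1 P.Q_trace hNM
  rw [h0, Nat.mul_zero, Nat.le_zero] at hle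
  rw [TWData.rkY, TWData.finrank_E_Y]
  have e1 : ((P.level j).lower p O'.dvd).N0 * ((P.level j).lower p O'.dvd).R =
      lev j * ∏ i, (P.Q i : ℕ) := by
    show chainLevel (minLevel W p) Wq j / p * ∏ i, P.base.Q i = _
    rw [P.base_Q]
  rw [e1]
  exact hle

end FLTAgent.MLT

end
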